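import Mathlib
import Fermat.Prelude.Def_AlgebraicCurve_CanonicalDivisor

/-!
# S24, abstract Hurwitz, part 1: places of `F` and primes of a Dedekind domain `B ⊆ F`

`B` is a Dedekind domain with fraction field `F`, `K` a field with `K → B → F`.  Nonzero primes of
`B` are the same thing as the places of `F/K` whose valuation ring contains `B`, and `ord` is the
exponent of the `P`-adic valuation.
-/

set_option autoImplicit false

namespace Fermat.Agent.S24.PlacePrime

open AlgebraicCurve IsDedekindDomain WithZero

section General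

variable {K F : Type*} [Field K] [Field F] [Algebra K F]

/-- A normalised discrete valuation with the valuation ring of the place `v` computes `v.ord`. -/
theorem valuation_eq_exp_neg_ord (v : Place K F) (w : Valuation F ℤᵐ⁰)
    (hw : ∀ f : F, f ∈ v.toValuationSubring ↔ w f ≤ 1) (hϖ : ∃ ϖ : F, w ϖ = exp (-1 : ℤ))
    {f : F} (hf : f ≠ 0) : w f = exp (-(v.ord f)) := by
  -- units have valuation one
  have hunit : ∀ u : (v.toValuationSubring)ˣ, w ((u : v.toValuationSubring) : F) = 1 := by
    intro u
    have h1 : w ((u : v.toValuationSubring) : F) ≤ 1 :=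
      (hw _).mp (u : v.toValuationSubring).2
    have h2 : w (((u⁻¹ : (v.toValuationSubring)ˣ) : v.toValuationSubring) : F) ≤ 1 :=
      (hw _).mp ((u⁻¹ : (v.toValuationSubring)ˣ) : v.toValuationSubring).2
    have h3 : ((u : v.toValuationSubring) : F) *
        (((u⁻¹ : (v.toValuationSubring)ˣ) : v.toValuationSubring) : F) = 1 := by
      rw [← MulMemClass.coe_mul, Units.mul_inv]
      rfl
    have h4 := congrArg w h3
    rw [map_mul, map_one] at h4
    refine le_antisymm h1 ?_
    by_contra hlt
    rw [not_le] at hlt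
    exact absurd h4 (ne_of_lt (mul_lt_one_of_lt_of_le hlt h2))
  obtain ⟨π, hπ⟩ := IsDiscreteValuationRing.exists_irreducible v.toValuationSubring
  have hπ0 : (π : F) ≠ 0 := by
    simpa [ne_eq, ZeroMemClass.coe_eq_zero] using hπ.ne_zero
  -- the uniformiser has valuation `exp (-1)`
  have hπval : w (π : F) = exp (-1 : ℤ) := by
    obtain ⟨ϖ, hϖ⟩ := hϖ
    have hπle : w (π : F) ≤ 1 := (hw _).mp π.2
    have hπlt : w (π : F) < 1 := by
      refine lt_of_le_of_ne hπle fun h1 => ?_
      have hinv : (π : F)⁻¹ ∈ v.toValuationSubring := by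
        rw [hw, map_inv₀, h1, inv_one]
      apply hπ.not_isUnit
      refine IsUnit.of_mul_eq_one ⟨(π : F)⁻¹, hinv⟩ (Subtype.ext ?_)
      show (π : F) * (π : F)⁻¹ = 1
      exact mul_inv_cancel₀ hπ0
    have hlt1 : exp (-1 : ℤ) < (1 : ℤᵐ⁰) := by
      rw [← exp_zero, exp_lt_exp]; norm_num
    have hϖmem : ϖ ∈ v.toValuationSubring := by
      rw [hw, hϖ]
      exact hlt1.le
    -- `ϖ` is not a unit, so it is a multiple of `π`
    have hϖnu : ¬ IsUnit (⟨ϖ, hϖmem⟩ : v.toValuationSubring) := by
      intro hu
      have := hunit hu.unit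
      rw [IsUnit.unit_spec] at this
      change w ϖ = 1 at this
      rw [hϖ] at this
      exact absurd this (ne_of_lt hlt1)
    have hmem : (⟨ϖ, hϖmem⟩ : v.toValuationSubring) ∈
        IsLocalRing.maximalIdeal v.toValuationSubring := by
      rwa [IsLocalRing.mem_maximalIdeal, mem_nonunits_iff]
    rw [hπ.maximalIdeal_eq, Ideal.mem_span_singleton] at hmem
    obtain ⟨c, hc⟩ := hmem
    have hc' : ϖ = (π : F) * (c : F) := by
      have := congrArg Subtype.val hc
      simpa using this
    have hcle : w (c : F) ≤ 1 := (hw _).mp c.2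
    have hge : exp (-1 : ℤ) ≤ w (π : F) := by
      rw [← hϖ, hc', map_mul]
      exact mul_le_of_le_one_right' hcle
    have hne : w (π : F) ≠ 0 := (Valuation.ne_zero_iff _).mpr hπ0
    have e1 : w (π : F) = exp (log (w (π : F))) := (exp_log hne).symm
    rw [e1] at hge hπlt ⊢
    rw [← exp_zero, exp_lt_exp] at hπlt
    rw [exp_le_exp] at hge
    rw [exp_inj]
    omega
  obtain ⟨u, hu⟩ := v.exists_unit_mul_zpow hf hπ
  conv_lhs => rw [hu]
  rw [map_mul, hunit u, one_mul, map_zpow₀, hπval, ← exp_zsmul, smul_eq_mul, mul_neg, mul_one]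

/-- same as `valuation_eq_exp_neg_ord`, solved for `ord`. -/
theorem ord_eq_neg_log (v : Place K F) (w : Valuation F ℤᵐ⁰)
    (hw : ∀ f : F, f ∈ v.toValuationSubring ↔ w f ≤ 1) (hϖ : ∃ ϖ : F, w ϖ = exp (-1 : ℤ))
    (f : F) : v.ord f = -log (w f) := by
  rcases eq_or_ne f 0 with rfl | hf
  · simp
  · rw [valuation_eq_exp_neg_ord v w hw hϖ hf, log_exp, neg_neg]

end General

section Dedekind

variable {K F : Type*} [Field K] [Field F] [Algebra K F]
variable {B : Type*} [CommRing B] [IsDedekindDomain B] [Algebra B F] [IsFractionRing B F]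
  [Algebra K B] [IsScalarTower K B F]

/-- The place of `F` attached to a nonzero prime `P` of `B`. -/
noncomputable def placeOfPrime (P : HeightOneSpectrum B) : Place K F where
  toValuationSubring := (P.valuation F).valuationSubring
  algebraMap_mem' a := by
    rw [Valuation.mem_valuationSubring_iff, IsScalarTower.algebraMap_apply K B F]
    exact P.valuation_le_one _
  ne_top' := by
    rw [ne_eq, Valuation.valuationSubring_eq_top_iff, not_not]
    infer_instance
  isPrincipalIdealRing' := by
    rw [← P.valuationSubringAtPrime_eq_valuationSubring]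
    infer_instance

theorem mem_placeOfPrime (P : HeightOneSpectrum B) (f : F) :
    f ∈ (placeOfPrime (K := K) P).toValuationSubring ↔ P.valuation F f ≤ 1 := Iff.rfl

theorem placeOfPrime_ord (P : HeightOneSpectrum B) (f : F) :
    (placeOfPrime (K := K) P).ord f = -log (P.valuation F f) :=
  ord_eq_neg_log _ _ (mem_placeOfPrime P) (P.valuation_exists_uniformizer F) f

theorem valuation_eq_exp_neg_placeOfPrime_ord (P : HeightOneSpectrum B) {f : F} (hf : f ≠ 0) :
    P.valuation F f = exp (-(placeOfPrime (K := K) P).ord f) :=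
  valuation_eq_exp_neg_ord _ _ (mem_placeOfPrime P) (P.valuation_exists_uniformizer F) hf

theorem placeOfPrime_injective :
    Function.Injective (placeOfPrime (K := K) (F := F) (B := B)) := by
  intro P Q h
  have h1 : (P.valuation F).valuationSubring = (Q.valuation F).valuationSubring :=
    congrArg Place.toValuationSubring h
  exact HeightOneSpectrum.eq_of_valuation_isEquiv_valuation
    ((Valuation.isEquiv_iff_valuationSubring _ _).mpr h1)

/-- `ord` of an element of `B` at the place of `P` is its `P`-adic multiplicity. -/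
theorem placeOfPrime_ord_algebraMap (P : HeightOneSpectrum B) {b : B} (hb : b ≠ 0) :
    (placeOfPrime (K := K) P).ord (algebraMap B F b) =
      (multiplicity P.asIdeal (Ideal.span {b}) : ℤ) := by
  rw [placeOfPrime_ord, HeightOneSpectrum.valuation_of_algebraMap,
    P.intValuation_eq_exp_neg_multiplicity hb, log_exp, neg_neg]

theorem placeOfPrime_ord_pos_iff (P : HeightOneSpectrum B) (b : B) :
    0 < (placeOfPrime (K := K) P).ord (algebraMap B F b) ↔ b ≠ 0 ∧ b ∈ P.asIdeal := by
  rcases eq_or_ne b 0 with rfl | hb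
  · simp
  · have hne : P.valuation F (algebraMap B F b) ≠ 0 :=
      (Valuation.ne_zero_iff _).mpr ((map_ne_zero_iff _ (IsFractionRing.injective B F)).mpr hb)
    rw [placeOfPrime_ord, ← P.valuation_lt_one_iff_mem (K := F), neg_pos,
      ← log_one (M := ℤ), log_lt_log hne one_ne_zero]
    simp [hb]

/-- Every place whose valuation ring contains `B` comes from a nonzero prime of `B`. -/
theorem exists_prime_of_place (v : Place K F)
    (hB : ∀ b : B, algebraMap B F b ∈ v.toValuationSubring) :
    ∃ P : HeightOneSpectrum B, placeOfPrime P = v := by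
  let φ : B →+* v.toValuationSubring :=
    (algebraMap B F).codRestrict v.toValuationSubring.toSubring hB
  have hφ : ∀ b : B, ((φ b : v.toValuationSubring) : F) = algebraMap B F b := fun _ => rfl
  let P₀ : Ideal B := (IsLocalRing.maximalIdeal v.toValuationSubring).comap φ
  have hP₀prime : P₀.IsPrime := Ideal.comap_isPrime φ _
  have hP₀ne : P₀ ≠ ⊥ := by
    intro hbot
    apply v.ne_top'
    refine SetLike.ext fun f => ⟨fun _ => ValuationSubring.mem_top f, fun _ => ?_⟩
    obtain ⟨b, s, hs, rfl⟩ := IsFractionRing.div_surjective (A := B) f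
    have hs0 : (s : B) ≠ 0 := nonZeroDivisors.ne_zero hs
    have hsn : (s : B) ∉ P₀ := by
      rw [hbot, Ideal.mem_bot]
      exact hs0
    have hunit : IsUnit (φ (s : B)) := by
      by_contra hnu
      exact hsn (by
        show φ (s : B) ∈ IsLocalRing.maximalIdeal v.toValuationSubring
        rwa [IsLocalRing.mem_maximalIdeal, mem_nonunits_iff])
    obtain ⟨u, hu⟩ := hunit
    have hinv : (algebraMap B F (s : B))⁻¹ = ((u⁻¹ : (v.toValuationSubring)ˣ) :
        v.toValuationSubring) := by
      rw [← hφ, ← hu]
      have h3 : ((u : v.toValuationSubring) : F) *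
          (((u⁻¹ : (v.toValuationSubring)ˣ) : v.toValuationSubring) : F) = 1 := by
        rw [← MulMemClass.coe_mul, Units.mul_inv]
        rfl
      exact inv_eq_of_mul_eq_one_right h3
    rw [div_eq_mul_inv, hinv]
    exact v.toValuationSubring.mul_mem _ _ (hB b) (SetLike.coe_mem _)
  let P : HeightOneSpectrum B := ⟨P₀, hP₀prime, hP₀ne⟩
  refine ⟨P, Place.ext ?_⟩
  show (P.valuation F).valuationSubring = v.toValuationSubring
  have : Ring.KrullDimLE 1 ((P.valuation F).valuationSubring) := by
    rw [← P.valuationSubringAtPrime_eq_valuationSubring]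
    infer_instance
  refine ValuationSubring.eq_of_le_of_ne_top _ ?_ v.ne_top'
  intro f hf
  obtain ⟨n, d, hnd⟩ := P.exists_primeCompl_mul_eq_of_integer f hf
  have hdn : (d : B) ∉ P₀ := d.2
  have hunit : IsUnit (φ (d : B)) := by
    by_contra hnu
    exact hdn (by
      show φ (d : B) ∈ IsLocalRing.maximalIdeal v.toValuationSubring
      rwa [IsLocalRing.mem_maximalIdeal, mem_nonunits_iff])
  obtain ⟨u, hu⟩ := hunit
  have h3 : ((u : v.toValuationSubring) : F) *
      (((u⁻¹ : (v.toValuationSubring)ˣ) : v.toValuationSubring) : F) = 1 := by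
    rw [← MulMemClass.coe_mul, Units.mul_inv]
    rfl
  have hfeq : f = algebraMap B F n * (((u⁻¹ : (v.toValuationSubring)ˣ) :
      v.toValuationSubring) : F) := by
    rw [← hnd, ← hφ (d : B), ← hu, mul_assoc, h3, mul_one]
  rw [hfeq]
  exact v.toValuationSubring.mul_mem _ _ (hB n) (SetLike.coe_mem _)

end Dedekind

end Fermat.Agent.S24.PlacePrime
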