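import Mathlib
import Fermat.Agent.S24.PlacePrime

/-!
# S24, abstract Hurwitz, part 2: function fields in one variable over an algebraically closed field

`IsFF K x` says that `x : F` is transcendental over `K` and `F` is finite over `K(x)`.
-/

set_option autoImplicit false

namespace Fermat.Agent.S24.FF

open AlgebraicCurve IsDedekindDomain WithZero IntermediateField
open scoped IntermediateField.algebraAdjoinAdjoin

universe u w

variable {K : Type w} {F : Type u} [Field K] [Field F] [Algebra K F]

/-- `x` is transcendental over `K` and `F` is finite over `K(x)`. -/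
structure IsFF (K : Type w) {F : Type u} [Field K] [Field F] [Algebra K F] (x : F) : Prop where
  transcendental : Transcendental K x
  finite : FiniteDimensional K⟮x⟯ F

/-- `F` is essentially of finite type over `K`. -/
theorem IsFF.essFiniteType {x : F} (hx : IsFF K x) : Algebra.EssFiniteType K F := by
  have := hx.finite
  have : Algebra.EssFiniteType K K⟮x⟯ := by
    rw [IntermediateField.essFiniteType_iff]
    have := IntermediateField.fg_adjoin_finset (F := K) ({x} : Finset F)
    simpa using this
  exact Algebra.EssFiniteType.comp K K⟮x⟯ F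

/-- Any other transcendental element works as well. -/
theorem IsFF.of_transcendental {x : F} (hx : IsFF K x) {f : F} (hf : Transcendental K f) :
    IsFF K f := by
  have := hx.finite
  refine ⟨hf, ?_⟩
  have : Algebra.IsAlgebraic (Algebra.adjoin K {x}) F :=
    Algebra.IsAlgebraic.trans (Algebra.adjoin K {x}) K⟮x⟯ F
  have h1 : Algebra.trdeg K F ≤ 1 := by
    have := Algebra.IsAlgebraic.trdeg_le_cardinalMk K ({x} : Set F)
    simpa using this
  have h2 : AlgebraicIndependent K (fun _ : PUnit.{u + 1} => f) :=
    algebraicIndependent_unique_type_iff.mpr hf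
  have h3 : IsTranscendenceBasis K (fun _ : PUnit.{u + 1} => f) :=
    h2.isTranscendenceBasis_of_trdeg_le_of_finite (by simpa using h1)
  have h4 := h3.isAlgebraic_field
  have h5 : Set.range (fun _ : PUnit.{u + 1} => f) = {f} := by
    ext y; simp [eq_comm]
  rw [h5] at h4
  have := hx.essFiniteType
  have : Algebra.EssFiniteType K⟮f⟯ F := Algebra.EssFiniteType.of_comp K K⟮f⟯ F
  exact Algebra.finite_of_essFiniteType_of_isAlgebraic

theorem IsFF.inv {x : F} (hx : IsFF K x) : IsFF K x⁻¹ := by
  refine hx.of_transcendental ?_
  intro h
  have := h.inv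
  rw [inv_inv] at this
  exact hx.transcendental this

theorem IsFF.sub_algebraMap {x : F} (hx : IsFF K x) (a : K) : IsFF K (x - algebraMap K F a) := by
  refine hx.of_transcendental ?_
  intro h
  apply hx.transcendental
  have := h.add (isAlgebraic_algebraMap (R := K) (A := F) a)
  simpa using this

theorem IsFF.ne_algebraMap {x : F} (hx : IsFF K x) (a : K) : x ≠ algebraMap K F a := by
  rintro rfl
  exact hx.transcendental (isAlgebraic_algebraMap a)

theorem IsFF.ne_zero {x : F} (hx : IsFF K x) : x ≠ 0 := by
  have := hx.ne_algebraMap 0
  simpa using this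

variable [IsAlgClosed K]

/-- `K` is algebraically closed in `F`. -/
theorem mem_range_of_isAlgebraic {f : F} (hf : IsAlgebraic K f) :
    ∃ c : K, algebraMap K F c = f := by
  have : Algebra.IsAlgebraic K K⟮f⟯ := IntermediateField.isAlgebraic_adjoin_simple hf.isIntegral
  have h := IntermediateField.eq_bot_of_isAlgClosed_of_isAlgebraic K⟮f⟯
  have hmem : f ∈ K⟮f⟯ := IntermediateField.mem_adjoin_simple_self K f
  rw [h, IntermediateField.mem_bot] at hmem
  exact hmem

theorem transcendental_of_not_mem_range {f : F} (hf : ∀ c : K, algebraMap K F c ≠ f) :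
    Transcendental K f := fun h => by
  obtain ⟨c, hc⟩ := mem_range_of_isAlgebraic h
  exact hf c hc

theorem IsFF.of_not_mem_range {x : F} (hx : IsFF K x) {f : F}
    (hf : ∀ c : K, algebraMap K F c ≠ f) : IsFF K f :=
  hx.of_transcendental (transcendental_of_not_mem_range hf)

end Fermat.Agent.S24.FF
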