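import Mathlib
import Fermat.Agent.S24.FF

/-!
# S24, abstract Hurwitz, part 3: basic properties of `Place.ord`, residue field `= K`
-/

set_option autoImplicit false

namespace Fermat.Agent.S24.Ord

open AlgebraicCurve IsDedekindDomain WithZero IntermediateField Fermat.Agent.S24.PlacePrime
  Fermat.Agent.S24.FF

universe u w

variable {K : Type w} {F : Type u} [Field K] [Field F] [Algebra K F]

/-- The valuation ring of a place is the unit ball of its adic valuation. -/
theorem mem_iff (v : Place K F) (f : F) :
    f ∈ v.toValuationSubring ↔ v.adicValuation f ≤ 1 := by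
  obtain ⟨P, hP⟩ := exists_prime_of_place (B := v.toValuationSubring) v (fun b => b.2)
  have hPeq : P = v.heightOneSpectrum := by
    apply HeightOneSpectrum.ext
    have : P.asIdeal.IsMaximal := P.isPrime.isMaximal P.ne_bot
    exact IsLocalRing.eq_maximalIdeal this
  subst hPeq
  conv_lhs => rw [← hP]
  exact Iff.rfl

theorem adicValuation_algebraMap (v : Place K F) {c : K} (hc : c ≠ 0) :
    v.adicValuation (algebraMap K F c) = 1 := by
  have h1 : v.adicValuation (algebraMap K F c) ≤ 1 := (mem_iff v _).mp (v.algebraMap_mem' c)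
  have h2 : v.adicValuation (algebraMap K F c⁻¹) ≤ 1 := (mem_iff v _).mp (v.algebraMap_mem' c⁻¹)
  rw [map_inv₀, map_inv₀] at h2
  have h0 : v.adicValuation (algebraMap K F c) ≠ 0 :=
    (Valuation.ne_zero_iff _).mpr ((map_ne_zero_iff _ (algebraMap K F).injective).mpr hc)
  refine le_antisymm h1 ?_
  by_contra hlt
  rw [not_le] at hlt
  have : 1 < (v.adicValuation (algebraMap K F c))⁻¹ := by
    rw [one_lt_inv₀ (zero_lt_iff.mpr h0)]
    exact hlt
  exact absurd h2 (not_le.mpr this)

theorem ord_eq (v : Place K F) (f : F) : v.ord f = -log (v.adicValuation f) := rfl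

theorem adicValuation_eq (v : Place K F) {f : F} (hf : f ≠ 0) :
    v.adicValuation f = exp (-v.ord f) := by
  rw [ord_eq, neg_neg, exp_log (v.adicValuation_ne_zero hf)]

theorem ord_nonneg_iff (v : Place K F) {f : F} (hf : f ≠ 0) :
    0 ≤ v.ord f ↔ v.adicValuation f ≤ 1 := by
  rw [adicValuation_eq v hf, ← exp_zero, exp_le_exp]
  omega

theorem ord_pos_iff (v : Place K F) {f : F} (hf : f ≠ 0) :
    0 < v.ord f ↔ v.adicValuation f < 1 := by
  rw [adicValuation_eq v hf, ← exp_zero, exp_lt_exp]
  omega

theorem ord_neg_iff (v : Place K F) {f : F} (hf : f ≠ 0) :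
    v.ord f < 0 ↔ 1 < v.adicValuation f := by
  rw [adicValuation_eq v hf, ← exp_zero, exp_lt_exp]
  omega

theorem ord_algebraMap (v : Place K F) (c : K) : v.ord (algebraMap K F c) = 0 := by
  rcases eq_or_ne c 0 with rfl | hc
  · simp
  · rw [ord_eq, adicValuation_algebraMap v hc, log_one, neg_zero]

open Polynomial in
/-- Valuation rings are integrally closed, in valuation form. -/
theorem adicValuation_le_one_of_isIntegral {R : Type*} [CommRing R] [Algebra R F] (v : Place K F)
    (hR : ∀ r : R, v.adicValuation (algebraMap R F r) ≤ 1) {f : F} (hf : IsIntegral R f) :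
    v.adicValuation f ≤ 1 := by
  by_contra hlt
  rw [not_le] at hlt
  obtain ⟨p, hmonic, h0⟩ := hf
  set n := p.natDegree with hn
  rw [← aeval_def, hmonic.as_sum, map_add, map_pow, aeval_X, map_sum] at h0
  have h1 : f ^ n = -∑ i ∈ Finset.range n, aeval f (C (p.coeff i) * X ^ i) :=
    eq_neg_of_add_eq_zero_left h0
  have hfn : v.adicValuation (f ^ n) ≠ 0 := by
    rw [map_pow]
    exact pow_ne_zero _ (ne_of_gt (lt_trans zero_lt_one hlt))
  have h2 : v.adicValuation (∑ i ∈ Finset.range n, aeval f (C (p.coeff i) * X ^ i)) <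
      v.adicValuation (f ^ n) := by
    refine Valuation.map_sum_lt _ hfn fun i hi => ?_
    rw [Finset.mem_range] at hi
    rw [map_mul, aeval_C, map_pow, aeval_X, map_mul, map_pow, map_pow]
    calc v.adicValuation (algebraMap R F (p.coeff i)) * v.adicValuation f ^ i
        ≤ 1 * v.adicValuation f ^ i := by
          gcongr
          exact hR _
      _ = v.adicValuation f ^ i := one_mul _
      _ < v.adicValuation f ^ n := pow_lt_pow_right₀ hlt hi
  rw [h1, Valuation.map_neg] at h2
  exact lt_irrefl _ h2

/-- the polynomial ring `K[x]` lies in the valuation ring as soon as `x` does -/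
theorem adicValuation_adjoin_le_one (v : Place K F) {x : F} (hx : v.adicValuation x ≤ 1)
    (r : Algebra.adjoin K {x}) : v.adicValuation (r : F) ≤ 1 := by
  obtain ⟨r, hr⟩ := r
  induction hr using Algebra.adjoin_induction with
  | mem y hy =>
    rw [Set.mem_singleton_iff] at hy
    subst hy
    exact hx
  | algebraMap c => exact (mem_iff v _).mp (v.algebraMap_mem' c)
  | add y z _ _ hy hz => exact Valuation.map_add_le _ hy hz
  | mul y z _ _ hy hz =>
    rw [map_mul]
    exact mul_le_one' hy hz

theorem mem_maximalIdeal_iff (v : Place K F) (z : v.toValuationSubring) :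
    z ∈ IsLocalRing.maximalIdeal v.toValuationSubring ↔ v.adicValuation (z : F) < 1 := by
  rw [v.adicValuation_coe, HeightOneSpectrum.intValuation_lt_one_iff_mem]
  rfl

section Residue

variable [IsAlgClosed K]

open Polynomial in
/-- If `v (u - c) = 1` for all constants `c`, then `v` is trivial on `K[u]`. -/
theorem adicValuation_aeval_eq_one (v : Place K F) {u : F}
    (hcon : ∀ c : K, v.adicValuation (u - algebraMap K F c) = 1) {g : K[X]} (hg : g ≠ 0) :
    v.adicValuation (aeval u g) = 1 := by
  have hs := (IsAlgClosed.splits g).eq_prod_roots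
  have hlc : g.leadingCoeff ≠ 0 := leadingCoeff_ne_zero.mpr hg
  rw [hs, map_mul, aeval_C, map_mul, adicValuation_algebraMap v hlc, one_mul, map_multiset_prod,
    map_multiset_prod, Multiset.map_map, Multiset.map_map]
  apply Multiset.prod_eq_one
  intro y hy
  rw [Multiset.mem_map] at hy
  obtain ⟨r, -, rfl⟩ := hy
  simp only [Function.comp_apply, map_sub, aeval_X, aeval_C]
  exact hcon r

open Polynomial in
/-- The residue field of every place of a function field over an algebraically closed field `K`
is `K`: every element of the valuation ring is congruent to a constant. -/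
theorem exists_sub_lt_one {x : F} (hx : IsFF K x) (v : Place K F) {u : F}
    (hu : v.adicValuation u ≤ 1) : ∃ c : K, v.adicValuation (u - algebraMap K F c) < 1 := by
  by_cases halg : IsAlgebraic K u
  · obtain ⟨c, rfl⟩ := mem_range_of_isAlgebraic halg
    exact ⟨c, by simp⟩
  by_contra hcon
  push Not at hcon
  have hcon' : ∀ c : K, v.adicValuation (u - algebraMap K F c) = 1 := by
    intro c
    refine le_antisymm ?_ (hcon c)
    exact Valuation.map_sub_le _ hu ((mem_iff v _).mp (v.algebraMap_mem' c))
  have hu' : IsFF K u := hx.of_transcendental halg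
  have := hu'.finite
  -- `v` is trivial on `K(u)`
  have hKu : ∀ e : K⟮u⟯, v.adicValuation (e : F) ≤ 1 := by
    intro e
    obtain ⟨r, s, hrs⟩ := (IntermediateField.mem_adjoin_simple_iff K (e : F)).mp e.2
    rw [hrs]
    rcases eq_or_ne r 0 with rfl | hr
    · simp
    rcases eq_or_ne s 0 with rfl | hs
    · simp
    rw [map_div₀, adicValuation_aeval_eq_one v hcon' hr, adicValuation_aeval_eq_one v hcon' hs,
      div_one]
  -- hence on `F`
  have hall : ∀ f : F, v.adicValuation f ≤ 1 := by
    intro f
    by_contra hlt
    rw [not_le] at hlt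
    have hint : IsIntegral K⟮u⟯ f := Algebra.IsIntegral.isIntegral f
    have hmonic := minpoly.monic hint
    set p := minpoly K⟮u⟯ f with hp
    set n := p.natDegree with hn
    have h0 : aeval f p = 0 := minpoly.aeval K⟮u⟯ f
    rw [hmonic.as_sum, map_add, map_pow, aeval_X, map_sum] at h0
    have h1 : f ^ n = -∑ i ∈ Finset.range n, aeval f (C (p.coeff i) * X ^ i) :=
      eq_neg_of_add_eq_zero_left h0
    have hfn : v.adicValuation (f ^ n) ≠ 0 := by
      rw [map_pow]
      exact pow_ne_zero _ (ne_of_gt (lt_trans zero_lt_one hlt))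
    have h2 : v.adicValuation (∑ i ∈ Finset.range n, aeval f (C (p.coeff i) * X ^ i)) <
        v.adicValuation (f ^ n) := by
      refine Valuation.map_sum_lt _ hfn fun i hi => ?_
      rw [Finset.mem_range] at hi
      rw [map_mul, aeval_C, map_pow, aeval_X, map_mul, map_pow, map_pow]
      calc v.adicValuation (algebraMap K⟮u⟯ F (p.coeff i)) * v.adicValuation f ^ i
          ≤ 1 * v.adicValuation f ^ i := by
            gcongr
            exact hKu _
        _ = v.adicValuation f ^ i := one_mul _
        _ < v.adicValuation f ^ n := pow_lt_pow_right₀ hlt hi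
    rw [h1, Valuation.map_neg] at h2
    exact lt_irrefl _ h2
  apply v.ne_top'
  exact SetLike.ext fun f => ⟨fun _ => ValuationSubring.mem_top f, fun _ => (mem_iff v f).mpr (hall f)⟩

/-- every place of a function field over an algebraically closed field has degree one -/
theorem deg_eq_one {x : F} (hx : IsFF K x) (v : Place K F) : v.deg = 1 := by
  unfold Place.deg
  rw [finrank_eq_one_iff_of_nonzero' (1 : v.ResidueField) one_ne_zero]
  intro w
  obtain ⟨z, rfl⟩ := IsLocalRing.residue_surjective w
  obtain ⟨c, hc⟩ := exists_sub_lt_one hx v ((mem_iff v _).mp z.2)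
  refine ⟨c, ?_⟩
  rw [Algebra.smul_def, mul_one]
  have hmem : z - algebraMap K v.toValuationSubring c ∈
      IsLocalRing.maximalIdeal v.toValuationSubring := by
    rw [mem_maximalIdeal_iff]
    exact hc
  have := (IsLocalRing.residue_eq_zero_iff _).mpr hmem
  rw [map_sub, sub_eq_zero] at this
  rw [this]
  rfl

/-- the centre of a place at which `x` is regular -/
theorem exists_unique_center {x : F} (hx : IsFF K x) (v : Place K F)
    (h : v.adicValuation x ≤ 1) : ∃! a : K, v.adicValuation (x - algebraMap K F a) < 1 := by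
  obtain ⟨a, ha⟩ := exists_sub_lt_one hx v h
  refine ⟨a, ha, fun b hb => ?_⟩
  by_contra hne
  have h1 : v.adicValuation ((x - algebraMap K F a) - (x - algebraMap K F b)) < 1 :=
    Valuation.map_sub_lt _ ha hb
  have h2 : (x - algebraMap K F a) - (x - algebraMap K F b) = algebraMap K F (b - a) := by
    rw [map_sub]; ring
  rw [h2, adicValuation_algebraMap v (sub_ne_zero.mpr hne)] at h1
  exact lt_irrefl _ h1

end Residue

end Fermat.Agent.S24.Ord
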