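import Mathlib
import Fermat.Agent.S24.Ord

/-!
# S24, abstract Hurwitz, part 4: the fundamental identity `∑_{v | a} e_v = [F : K(x)]`

For a function field `F/K` (`K` algebraically closed of characteristic zero), `x : F` transcendental
with `F/K(x)` finite and `a : K`, the places `v` with `x - a ∈ 𝔪_v` form a finite set and
`∑ ord_v (x - a) = [F : K(x)]`.
-/

set_option autoImplicit false

namespace Fermat.Agent.S24.Fibre

open AlgebraicCurve IsDedekindDomain WithZero IntermediateField Polynomial
  Fermat.Agent.S24.PlacePrime Fermat.Agent.S24.FF Fermat.Agent.S24.Ord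
open scoped IntermediateField.algebraAdjoinAdjoin

universe u w

variable {K : Type w} {F : Type u} [Field K] [Field F] [Algebra K F]

/-- the polynomial ring `K[x] ⊆ F` -/
abbrev polyRing (K : Type w) {F : Type u} [Field K] [Field F] [Algebra K F] (x : F) :
    Subalgebra K F := Algebra.adjoin K {x}

/-- the integral closure of `K[x]` in `F` -/
abbrev intRing (K : Type w) {F : Type u} [Field K] [Field F] [Algebra K F] (x : F) :
    Subalgebra (polyRing K x) F := integralClosure (polyRing K x) F

theorem isPID {x : F} (hx : Transcendental K x) : IsPrincipalIdealRing (polyRing K x) :=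
  IsPrincipalIdealRing.of_surjective
    (Polynomial.algEquivOfTranscendental K x hx).toRingEquiv.toRingHom
    (Polynomial.algEquivOfTranscendental K x hx).surjective

section

variable [CharZero K] {x : F}

theorem isDedekind (hx : IsFF K x) : IsDedekindDomain (intRing K x) := by
  have := hx.finite
  have := isPID hx.transcendental
  exact integralClosure.isDedekindDomain (polyRing K x) K⟮x⟯ F

theorem isFractionRing (hx : IsFF K x) : IsFractionRing (intRing K x) F := by
  have := hx.finite
  exact integralClosure.isFractionRing_of_finite_extension K⟮x⟯ F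

theorem moduleFinite (hx : IsFF K x) : Module.Finite (polyRing K x) (intRing K x) := by
  have := hx.finite
  have := isPID hx.transcendental
  exact IsIntegralClosure.finite (polyRing K x) K⟮x⟯ F _

theorem finrank_eq (hx : IsFF K x) :
    Module.finrank (polyRing K x) (intRing K x) = Module.finrank K⟮x⟯ F := by
  have := hx.finite
  have := isFractionRing hx
  exact (IsFractionRing.finrank_eq (polyRing K x) K⟮x⟯ (intRing K x) F).symm

/-- Places at which `x` is regular come from primes of the integral closure of `K[x]`. -/
theorem exists_prime (hx : IsFF K x) (v : Place K F) (hv : v.adicValuation x ≤ 1) :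
    haveI := isDedekind hx
    haveI := isFractionRing hx
    ∃ P : HeightOneSpectrum (intRing K x), placeOfPrime P = v := by
  have := isDedekind hx
  have := isFractionRing hx
  exact exists_prime_of_place v fun b => (Ord.mem_iff v _).mpr
    (adicValuation_le_one_of_isIntegral v (adicValuation_adjoin_le_one v hv) b.2)

/-- `x - a` as an element of `K[x]` -/
def tA (K : Type w) {F : Type u} [Field K] [Field F] [Algebra K F] (x : F) (a : K) :
    polyRing K x :=
  ⟨x - algebraMap K F a, sub_mem (Algebra.self_mem_adjoin_singleton K x) (Subalgebra.algebraMap_mem _ a)⟩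

omit [CharZero K] in
theorem irreducible_tA (hx : Transcendental K x) (a : K) : Irreducible (tA K x a) := by
  have h1 : (Polynomial.algEquivOfTranscendental K x hx) (X - C a) = tA K x a := by
    apply Subtype.ext
    simp [Polynomial.algEquivOfTranscendental_apply, tA]
  rw [← h1, MulEquiv.irreducible_iff]
  exact irreducible_X_sub_C a

omit [CharZero K] in
theorem tA_ne_zero (hx : Transcendental K x) (a : K) : tA K x a ≠ 0 :=
  (irreducible_tA hx a).ne_zero

/-- the adic valuation of the place of `P` is the `P`-adic valuation -/
theorem adicValuation_placeOfPrime {B : Type*} [CommRing B] [IsDedekindDomain B] [Algebra B F]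
    [IsFractionRing B F] [Algebra K B] [IsScalarTower K B F] (P : HeightOneSpectrum B) (f : F) :
    (placeOfPrime (K := K) P).adicValuation f = P.valuation F f := by
  rcases eq_or_ne f 0 with rfl | hf
  · simp
  · rw [Ord.adicValuation_eq _ hf, valuation_eq_exp_neg_placeOfPrime_ord (K := K) P hf]

variable [IsAlgClosed K]

/-- **Fundamental identity** for the fibre of `x` over `a`. -/
theorem exists_fibre (hx : IsFF K x) (a : K) :
    ∃ s : Finset (Place K F), (∀ v, v ∈ s ↔ v.adicValuation (x - algebraMap K F a) < 1) ∧
      ∑ v ∈ s, v.ord (x - algebraMap K F a) = (Module.finrank K⟮x⟯ F : ℤ) := by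
  classical
  have hDed := isDedekind hx
  have hFr := isFractionRing hx
  have hfin := moduleFinite hx
  have hpid := isPID hx.transcendental
  have hxa : x - algebraMap K F a ≠ 0 := sub_ne_zero.mpr (hx.ne_algebraMap a)
  -- the prime `(x - a)` of `K[x]`
  let p : Ideal (polyRing K x) := Ideal.span {tA K x a}
  have hpmax : p.IsMaximal :=
    PrincipalIdealRing.isMaximal_of_irreducible (irreducible_tA hx.transcendental a)
  have hp0 : p ≠ ⊥ := by
    rw [Ne, Ideal.span_singleton_eq_bot]
    exact tA_ne_zero hx.transcendental a
  let tB : intRing K x := algebraMap (polyRing K x) (intRing K x) (tA K x a)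
  have htB : algebraMap (intRing K x) F tB = x - algebraMap K F a := rfl
  have htB0 : tB ≠ 0 := by
    intro h0
    apply hxa
    rw [← htB, h0, map_zero]
  have hmap : Ideal.map (algebraMap (polyRing K x) (intRing K x)) p = Ideal.span {tB} := by
    rw [Ideal.map_span, Set.image_singleton]
  have hmap0 : Ideal.map (algebraMap (polyRing K x) (intRing K x)) p ≠ ⊥ := by
    rw [hmap, Ne, Ideal.span_singleton_eq_bot]
    exact htB0
  have hfinset : (p.primesOver (intRing K x)).Finite := Algebra.QuasiFinite.finite_primesOver p
  letI : Fintype (p.primesOver (intRing K x)) := hfinset.fintype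
  have hsum := Ideal.sum_ramification_inertia_eq_finrank p (intRing K x)
  -- primes over `p` as height one primes
  have hne : ∀ q : p.primesOver (intRing K x), q.1 ≠ ⊥ := fun q => by
    haveI := q.2.2
    exact Ideal.ne_bot_of_liesOver_of_ne_bot hp0 q.1
  let toH : p.primesOver (intRing K x) → HeightOneSpectrum (intRing K x) :=
    fun q => ⟨q.1, q.2.1, hne q⟩
  let toPlace : p.primesOver (intRing K x) → Place K F := fun q => placeOfPrime (toH q)
  have hinj : Function.Injective toPlace := by
    intro q q' h
    have h1 := placeOfPrime_injective h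
    apply Subtype.ext
    exact congrArg HeightOneSpectrum.asIdeal h1
  -- `x - a` lies in every prime over `p`
  have htmem : ∀ q : p.primesOver (intRing K x), tB ∈ q.1 := fun q => by
    haveI := q.2.2
    have h1 : tA K x a ∈ p := Ideal.subset_span rfl
    rw [(Ideal.liesOver_iff q.1 p).mp q.2.2, Ideal.under_def] at h1
    exact h1
  -- the ramification index is `ord (x - a)`
  have he : ∀ q : p.primesOver (intRing K x),
      (toPlace q).ord (x - algebraMap K F a) = (q.1.ramificationIdx (polyRing K x) : ℤ) := by
    intro q
    haveI := q.2.1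
    haveI := q.2.2
    rw [Ideal.IsDedekindDomain.ramificationIdx_eq_multiplicity p q.1 hmap0, hmap, ← htB]
    exact placeOfPrime_ord_algebraMap (toH q) htB0
  -- the inertia degree is one
  have hf : ∀ q : p.primesOver (intRing K x), q.1.inertiaDeg (polyRing K x) = 1 := by
    intro q
    haveI := q.2.1
    haveI := q.2.2
    haveI : q.1.IsMaximal := q.2.1.isMaximal (hne q)
    rw [Ideal.inertiaDeg_eq_of_isMaximal p q.1]
    letI : Field (polyRing K x ⧸ p) := Ideal.Quotient.field p
    refine (finrank_eq_one_iff_of_nonzero' (1 : intRing K x ⧸ q.1) one_ne_zero).mpr ?_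
    intro w
    obtain ⟨b, rfl⟩ := Ideal.Quotient.mk_surjective w
    have hb : (toPlace q).adicValuation (algebraMap (intRing K x) F b) ≤ 1 := by
      rw [adicValuation_placeOfPrime]
      exact (toH q).valuation_le_one b
    obtain ⟨c, hc⟩ := exists_sub_lt_one hx (toPlace q) hb
    refine ⟨Ideal.Quotient.mk p (algebraMap K (polyRing K x) c), ?_⟩
    rw [Algebra.smul_def, mul_one, Ideal.Quotient.algebraMap_mk_of_liesOver]
    symm
    rw [Ideal.Quotient.eq]
    rw [adicValuation_placeOfPrime] at hc
    have h2 : algebraMap (intRing K x) F b - algebraMap K F c =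
        algebraMap (intRing K x) F
          (b - algebraMap (polyRing K x) (intRing K x) (algebraMap K (polyRing K x) c)) := by
      rw [map_sub]
      rfl
    rw [h2, HeightOneSpectrum.valuation_lt_one_iff_mem] at hc
    exact hc
  refine ⟨Finset.univ.image toPlace, fun v => ?_, ?_⟩
  · rw [Finset.mem_image]
    constructor
    · rintro ⟨q, -, rfl⟩
      rw [← Ord.ord_pos_iff _ hxa, ← htB, placeOfPrime_ord_pos_iff]
      exact ⟨htB0, htmem q⟩
    · intro hv
      have hvx : v.adicValuation x ≤ 1 := by
        have h1 : x = (x - algebraMap K F a) + algebraMap K F a := by ring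
        rw [h1]
        exact Valuation.map_add_le _ hv.le ((Ord.mem_iff v _).mp (v.algebraMap_mem' a))
      obtain ⟨P, hP⟩ := exists_prime hx v hvx
      have hmemP : tB ∈ P.asIdeal := by
        have h1 := (Ord.ord_pos_iff v hxa).mpr hv
        rw [← hP, ← htB, placeOfPrime_ord_pos_iff] at h1
        exact h1.2
      have hlies : P.asIdeal.LiesOver p := by
        rw [Ideal.liesOver_iff, Ideal.under_def]
        refine hpmax.eq_of_le (Ideal.comap_ne_top _ P.isPrime.ne_top) ?_
        rw [Ideal.span_le, Set.singleton_subset_iff]
        exact hmemP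
      refine ⟨⟨P.asIdeal, P.isPrime, hlies⟩, Finset.mem_univ _, ?_⟩
      rw [← hP]
  · rw [Finset.sum_image fun q _ q' _ h => hinj h]
    rw [← finrank_eq hx, ← hsum, Nat.cast_sum]
    refine Finset.sum_congr rfl fun q _ => ?_
    rw [he q, hf q, mul_one]

omit [CharZero K] [IsAlgClosed K] in
theorem adjoin_inv (x : F) : K⟮x⁻¹⟯ = K⟮x⟯ := by
  apply le_antisymm
  · rw [IntermediateField.adjoin_simple_le_iff]
    exact inv_mem (IntermediateField.mem_adjoin_simple_self K x)
  · rw [IntermediateField.adjoin_simple_le_iff]
    have := inv_mem (IntermediateField.mem_adjoin_simple_self K x⁻¹)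
    rwa [inv_inv] at this

omit [CharZero K] [IsAlgClosed K] in
theorem adjoin_sub (x : F) (a : K) : K⟮x - algebraMap K F a⟯ = K⟮x⟯ := by
  apply le_antisymm
  · rw [IntermediateField.adjoin_simple_le_iff]
    exact sub_mem (IntermediateField.mem_adjoin_simple_self K x) (IntermediateField.algebraMap_mem _ a)
  · rw [IntermediateField.adjoin_simple_le_iff]
    have := add_mem (IntermediateField.mem_adjoin_simple_self K (x - algebraMap K F a))
      (IntermediateField.algebraMap_mem K⟮x - algebraMap K F a⟯ a)
    rwa [sub_add_cancel] at this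

/-- **Fundamental identity** for the poles of `x`. -/
theorem exists_poles (hx : IsFF K x) :
    ∃ s : Finset (Place K F), (∀ v, v ∈ s ↔ 1 < v.adicValuation x) ∧
      ∑ v ∈ s, -v.ord x = (Module.finrank K⟮x⟯ F : ℤ) := by
  obtain ⟨s, hs, hsum⟩ := exists_fibre hx.inv 0
  refine ⟨s, fun v => ?_, ?_⟩
  · rw [hs, map_zero, sub_zero, map_inv₀, inv_lt_one₀ (zero_lt_iff.mpr (v.adicValuation_ne_zero hx.ne_zero))]
  · rw [adjoin_inv] at hsum
    rw [← hsum]
    refine Finset.sum_congr rfl fun v _ => ?_
    rw [map_zero, sub_zero, Place.ord_inv]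

end

end Fermat.Agent.S24.Fibre
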