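import Mathlib
import Fermat.Prelude.Def_ModularCurve_ArithmeticGalois
import Fermat.Prelude.Thm_ModularCurve_coeffMap_qExpand

set_option autoImplicit false
noncomputable section
namespace Fermat.Agent.S24.DegreeAlg

open Polynomial IntermediateField ModularCurve

theorem finrank_le_of_bounded_degree {k F : Type*} [Field k] [Field F] [Algebra k F] [CharZero k]
    [FiniteDimensional k F] (μ : ℕ)
    (h : ∀ a : F, ∃ p : Polynomial k, p ≠ 0 ∧ p.natDegree ≤ μ ∧ Polynomial.aeval a p = 0) :
    Module.finrank k F ≤ μ := by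
  obtain ⟨α, hα⟩ := Field.exists_primitive_element k F
  have h1 : Module.finrank k F = (minpoly k α).natDegree := by
    rw [← IntermediateField.adjoin.finrank (IsIntegral.of_finite k α), hα,
      IntermediateField.finrank_top']
  obtain ⟨p, hp0, hpd, hpa⟩ := h α
  calc Module.finrank k F = (minpoly k α).natDegree := h1
    _ ≤ p.natDegree := Polynomial.natDegree_le_of_dvd (minpoly.dvd k α hpa) hp0
    _ ≤ μ := hpd

section

variable {K F : Type*} [Field K] [Field F] [Algebra K F]

/-- `Y ↦ x` as a ring hom `K[Y] → K⟮x⟯`. -/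
def toSimple (x : F) : Polynomial K →+* K⟮x⟯ :=
  (Polynomial.aeval (AdjoinSimple.gen K x) : Polynomial K →ₐ[K] K⟮x⟯).toRingHom

theorem algebraMap_comp_toSimple (x : F) :
    (algebraMap K⟮x⟯ F).comp (toSimple (K := K) x)
      = (Polynomial.aeval x : Polynomial K →ₐ[K] F).toRingHom := by
  refine Polynomial.ringHom_ext (fun a => ?_) ?_
  · simp [toSimple]
  · simp [toSimple]

theorem algebraMap_toSimple (x : F) (s : Polynomial K) :
    algebraMap K⟮x⟯ F (toSimple x s) = Polynomial.aeval x s := by
  have := congrArg (fun f => f s) (algebraMap_comp_toSimple (K := K) x)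
  simpa using this

theorem toSimple_injective {x : F} (hx : Transcendental K x) :
    Function.Injective (toSimple (K := K) x) := by
  have h : Transcendental K (AdjoinSimple.gen K x) := by
    intro halg
    apply hx
    have := halg.algebraMap (A := F)
    simpa using this
  exact transcendental_iff_injective.mp h

/-- Two-variable relation to one-variable relation over `K⟮x⟯`. -/
theorem aeval_map_toSimple (x r : F) (P : Polynomial (Polynomial K)) :
    Polynomial.aeval r (P.map (toSimple (K := K) x))
      = Polynomial.eval₂ (Polynomial.aeval x : Polynomial K →ₐ[K] F).toRingHom r P := by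
  rw [Polynomial.aeval_def, Polynomial.eval₂_map, algebraMap_comp_toSimple]

variable [CharZero K]

/-- The subalgebra (over `K⟮x⟯`) of elements of `F` which become elements of the `K`-algebra `R`
after multiplication by a nonzero polynomial in `x`. -/
def denomSubalgebra (x : F) (R : Subalgebra K F) (hx : x ∈ R) : Subalgebra K⟮x⟯ F where
  carrier := {a | ∃ s : Polynomial K, Polynomial.aeval x s ≠ 0 ∧ Polynomial.aeval x s * a ∈ R}
  mul_mem' := by
    rintro a b ⟨s, hs, hsa⟩ ⟨t, ht, htb⟩
    refine ⟨s * t, by simpa using mul_ne_zero hs ht, ?_⟩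
    have : Polynomial.aeval x (s * t) * (a * b)
        = (Polynomial.aeval x s * a) * (Polynomial.aeval x t * b) := by
      rw [map_mul]; ring
    rw [this]
    exact R.mul_mem hsa htb
  one_mem' := ⟨1, by simp, by simp [R.one_mem]⟩
  add_mem' := by
    rintro a b ⟨s, hs, hsa⟩ ⟨t, ht, htb⟩
    refine ⟨s * t, by simpa using mul_ne_zero hs ht, ?_⟩
    have hs' : Polynomial.aeval x s ∈ R := by
      have := Polynomial.aeval_subalgebra_coe s R ⟨x, hx⟩
      rw [← this]; exact Subtype.property _
    have ht' : Polynomial.aeval x t ∈ R := by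
      have := Polynomial.aeval_subalgebra_coe t R ⟨x, hx⟩
      rw [← this]; exact Subtype.property _
    have : Polynomial.aeval x (s * t) * (a + b)
        = Polynomial.aeval x t * (Polynomial.aeval x s * a)
          + Polynomial.aeval x s * (Polynomial.aeval x t * b) := by
      rw [map_mul]; ring
    rw [this]
    exact R.add_mem (R.mul_mem ht' hsa) (R.mul_mem hs' htb)
  zero_mem' := ⟨1, by simp, by simp [R.zero_mem]⟩
  algebraMap_mem' := by
    intro c
    obtain ⟨u, v, huv⟩ := (IntermediateField.mem_adjoin_simple_iff K (c : F)).mp c.2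
    have hu' : Polynomial.aeval x u ∈ R := by
      have := Polynomial.aeval_subalgebra_coe u R ⟨x, hx⟩
      rw [← this]; exact Subtype.property _
    by_cases hv : Polynomial.aeval x v = 0
    · refine ⟨1, by simp, ?_⟩
      have : algebraMap K⟮x⟯ F c = 0 := by
        show (c : F) = 0
        rw [huv, hv, div_zero]
      rw [this]; simp [R.zero_mem]
    · refine ⟨v, hv, ?_⟩
      have : Polynomial.aeval x v * algebraMap K⟮x⟯ F c = Polynomial.aeval x u := by
        show Polynomial.aeval x v * (c : F) = _
        rw [huv]; field_simp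
      rw [this]; exact hu'

omit [CharZero K] in
theorem mem_denomSubalgebra {x : F} {R : Subalgebra K F} {hx : x ∈ R} {a : F} :
    a ∈ denomSubalgebra x R hx ↔
      ∃ s : Polynomial K, Polynomial.aeval x s ≠ 0 ∧ Polynomial.aeval x s * a ∈ R := Iff.rfl

/-- **Upper bound.**  If `F = K(g_i)`, `x ∈ K[g_i]`, and every element of `K[g_i]` satisfies a
nonzero two-variable polynomial relation `P(x, r) = 0` of `r`-degree `≤ μ`,
then `[F : K(x)] ≤ μ`. -/
theorem finrank_le_of_relations {ι : Type*} [Finite ι] (g : ι → F)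
    (hg : IntermediateField.adjoin K (Set.range g) = ⊤)
    (x : F) (hx : x ∈ Algebra.adjoin K (Set.range g)) (hxt : Transcendental K x) (μ : ℕ)
    (h : ∀ r ∈ Algebra.adjoin K (Set.range g), ∃ P : Polynomial (Polynomial K),
        P ≠ 0 ∧ P.natDegree ≤ μ ∧
        Polynomial.eval₂ (Polynomial.aeval x : Polynomial K →ₐ[K] F).toRingHom r P = 0) :
    FiniteDimensional K⟮x⟯ F ∧ Module.finrank K⟮x⟯ F ≤ μ := by
  classical
  have hinj := toSimple_injective hxt
  -- one-variable relations over `K⟮x⟯`
  have h1 : ∀ r ∈ Algebra.adjoin K (Set.range g), ∃ p : Polynomial K⟮x⟯,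
      p ≠ 0 ∧ p.natDegree ≤ μ ∧ Polynomial.aeval r p = 0 := by
    intro r hr
    obtain ⟨P, hP0, hPd, hPr⟩ := h r hr
    refine ⟨P.map (toSimple x), ?_, ?_, ?_⟩
    · rwa [Ne, Polynomial.map_eq_zero_iff hinj]
    · exact (Polynomial.natDegree_map_le).trans hPd
    · rw [aeval_map_toSimple, hPr]
  -- generators are integral over `K⟮x⟯`
  have hint : ∀ y ∈ Set.range g, IsIntegral K⟮x⟯ y := by
    rintro _ ⟨i, rfl⟩
    obtain ⟨p, hp0, -, hpa⟩ := h1 (g i) (Algebra.subset_adjoin ⟨i, rfl⟩)
    exact IsAlgebraic.isIntegral ⟨p, hp0, hpa⟩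
  -- `K⟮x⟯(g_i) = ⊤`
  have htop : IntermediateField.adjoin K⟮x⟯ (Set.range g) = ⊤ := by
    rw [← IntermediateField.restrictScalars_eq_top_iff (K := K),
      IntermediateField.adjoin_adjoin_left, eq_top_iff, ← hg]
    exact IntermediateField.adjoin.mono K _ _ Set.subset_union_right
  have : Finite (Set.range g) := (Set.finite_range g).to_subtype
  have hfd : FiniteDimensional K⟮x⟯ F := by
    have := IntermediateField.finiteDimensional_adjoin (K := K⟮x⟯) hint
    rw [htop] at this
    exact Module.Finite.equiv (IntermediateField.topEquiv (F := K⟮x⟯) (E := F)).toLinearEquiv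
  refine ⟨hfd, finrank_le_of_bounded_degree μ fun a => ?_⟩
  -- every element is `r / s(x)`
  have ha : a ∈ denomSubalgebra x (Algebra.adjoin K (Set.range g)) hx := by
    have h2 : (IntermediateField.adjoin K⟮x⟯ (Set.range g)).toSubalgebra
        = Algebra.adjoin K⟮x⟯ (Set.range g) :=
      IntermediateField.adjoin_toSubalgebra_of_isAlgebraic fun y hy => (hint y hy).isAlgebraic
    have h3 : Algebra.adjoin K⟮x⟯ (Set.range g)
        ≤ denomSubalgebra x (Algebra.adjoin K (Set.range g)) hx := by
      refine Algebra.adjoin_le ?_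
      rintro _ ⟨i, rfl⟩
      refine mem_denomSubalgebra.mpr ⟨1, by simp, ?_⟩
      simpa using Algebra.subset_adjoin (R := K) (Set.mem_range_self i)
    apply h3
    rw [← h2, htop]
    exact Algebra.mem_top
  obtain ⟨s, hs, hsa⟩ := ha
  obtain ⟨p, hp0, hpd, hpa⟩ := h1 _ hsa
  set c : K⟮x⟯ := toSimple x s with hc
  have hcF : algebraMap K⟮x⟯ F c = Polynomial.aeval x s := algebraMap_toSimple x s
  have hc0 : c ≠ 0 := by
    intro h0; apply hs; rw [← hcF, h0, map_zero]
  refine ⟨p.comp (Polynomial.C c * Polynomial.X), ?_, ?_, ?_⟩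
  · intro h0
    apply hp0
    ext n
    have := congrArg (fun q => Polynomial.coeff q n) h0
    simp only [Polynomial.comp_C_mul_X_coeff, Polynomial.coeff_zero] at this
    rcases mul_eq_zero.mp this with h | h
    · simpa using h
    · exact absurd h (pow_ne_zero _ hc0)
  · calc (p.comp (Polynomial.C c * Polynomial.X)).natDegree
        ≤ p.natDegree * (Polynomial.C c * Polynomial.X).natDegree := Polynomial.natDegree_comp_le
      _ ≤ p.natDegree * 1 := by
          gcongr
          exact (Polynomial.natDegree_C_mul_le _ _).trans (by simp)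
      _ ≤ μ := by simpa using hpd
  · rw [Polynomial.aeval_comp]
    have : Polynomial.aeval a (Polynomial.C c * Polynomial.X : Polynomial K⟮x⟯)
        = Polynomial.aeval x s * a := by
      simp [hcF]
    rw [this, hpa]

open scoped IntermediateField.algebraAdjoinAdjoin in
/-- **Lower bound.**  If every nonzero two-variable relation `P(x, g) = 0` has `g`-degree `≥ μ`
then `[F : K(x)] ≥ μ`. -/
theorem le_finrank_of_relations (x g : F) (hxt : Transcendental K x)
    [FiniteDimensional K⟮x⟯ F] (μ : ℕ)
    (h : ∀ P : Polynomial (Polynomial K), P ≠ 0 →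
        Polynomial.eval₂ (Polynomial.aeval x : Polynomial K →ₐ[K] F).toRingHom g P = 0 →
        μ ≤ P.natDegree) :
    μ ≤ Module.finrank K⟮x⟯ F := by
  classical
  set p := minpoly K⟮x⟯ g with hp
  have hint : IsIntegral K⟮x⟯ g := IsIntegral.of_finite K⟮x⟯ g
  have hp0 : p ≠ 0 := minpoly.ne_zero hint
  have hpa : Polynomial.aeval g p = 0 := minpoly.aeval K⟮x⟯ g
  -- clear denominators
  set A := Algebra.adjoin K ({x} : Set F) with hA
  set P' : Polynomial A := IsLocalization.integerNormalization (nonZeroDivisors A) p with hP'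
  have hP'0 : P' ≠ 0 := by
    rw [hP', Ne, IsFractionRing.integerNormalization_eq_zero_iff]; exact hp0
  have hP'd : P'.natDegree ≤ p.natDegree := by
    rw [Polynomial.natDegree_le_iff_coeff_eq_zero]
    intro n hn
    have h1 : n ∉ p.support := by
      rw [Polynomial.notMem_support_iff]; exact Polynomial.coeff_eq_zero_of_natDegree_lt hn
    have h2 : n ∉ P'.support := fun h3 =>
      h1 (IsLocalization.integerNormalization_support (nonZeroDivisors A) p h3)
    exact Polynomial.notMem_support_iff.mp h2
  have hP'a : Polynomial.aeval g P' = 0 :=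
    IsLocalization.integerNormalization_aeval_eq_zero (nonZeroDivisors A) p hpa
  -- lift the coefficients to polynomials in `Y`
  let ψ : Polynomial K →+* A :=
    (Polynomial.aeval (⟨x, Algebra.self_mem_adjoin_singleton K x⟩ : A) : Polynomial K →ₐ[K] A).toRingHom
  have hψ : ∀ s, ((ψ s : A) : F) = Polynomial.aeval x s := fun s =>
    Polynomial.aeval_subalgebra_coe s A ⟨x, Algebra.self_mem_adjoin_singleton K x⟩
  have hψsurj : Function.Surjective ψ := by
    intro a
    have ha : (a : F) ∈ (Polynomial.aeval x : Polynomial K →ₐ[K] F).range := by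
      rw [← Algebra.adjoin_singleton_eq_range_aeval]; exact a.2
    obtain ⟨s, hs⟩ := ha
    exact ⟨s, Subtype.ext ((hψ s).trans hs)⟩
  have hψinj : Function.Injective ψ := by
    rw [injective_iff_map_eq_zero]
    intro s hs
    have : Polynomial.aeval x s = 0 := by rw [← hψ s, hs]; rfl
    exact (transcendental_iff.mp hxt) s this
  obtain ⟨P, hP⟩ := Polynomial.map_surjective ψ hψsurj P'
  have hP0 : P ≠ 0 := by
    rintro rfl; apply hP'0; rw [← hP, Polynomial.map_zero]
  have hPd : P.natDegree = P'.natDegree := by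
    rw [← hP, Polynomial.natDegree_map_eq_of_injective hψinj]
  have hcomp : (Polynomial.aeval x : Polynomial K →ₐ[K] F).toRingHom
      = (algebraMap A F).comp ψ := by
    refine RingHom.ext fun s => ?_
    exact (hψ s).symm
  have hPa : Polynomial.eval₂ (Polynomial.aeval x : Polynomial K →ₐ[K] F).toRingHom g P = 0 := by
    rw [hcomp, ← Polynomial.eval₂_map, hP, ← Polynomial.aeval_def, hP'a]
  calc μ ≤ P.natDegree := h P hP0 hPa
    _ = P'.natDegree := hPd
    _ ≤ p.natDegree := hP'd
    _ ≤ Module.finrank K⟮x⟯ F := minpoly.natDegree_le g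

end

section Transc

variable (L : Type*) [Field L] [Algebra ℚ L]

theorem coeff_coeffEmb_jq_pow_self (n : ℕ) : ((coeffEmb L jq) ^ n).coeff (-(n : ℤ)) = 1 := by
  rw [← map_pow, coeffEmb_coeff, coeff_jq_pow_self, map_one]

theorem coeff_coeffEmb_jq_pow_of_lt {n : ℕ} {m : ℤ} (hm : m < -(n : ℤ)) :
    ((coeffEmb L jq) ^ n).coeff m = 0 := by
  rw [← map_pow, coeffEmb_coeff, coeff_jq_pow_of_lt hm, map_zero]

/-- The coefficient of `q^(-n)` in `p(j)` is the `n`-th coefficient of `p` when `n ≥ deg p`. -/
theorem coeff_aeval_jq (p : Polynomial L) (n : ℕ) (hn : p.natDegree ≤ n) :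
    (Polynomial.aeval (coeffEmb L jq) p).coeff (-(n : ℤ)) = p.coeff n := by
  rw [Polynomial.aeval_eq_sum_range' (Nat.lt_succ_of_le hn), HahnSeries.coeff_sum]
  rw [Finset.sum_eq_single n]
  · rw [Algebra.smul_def, algebraMap_laurentSeries_eq_single, HahnSeries.coeff_single_mul, sub_zero,
      coeff_coeffEmb_jq_pow_self, mul_one]
  · intro i hi hin
    have hi' : i < n := lt_of_le_of_ne (Nat.lt_succ_iff.mp (Finset.mem_range.mp hi)) hin
    rw [Algebra.smul_def, algebraMap_laurentSeries_eq_single, HahnSeries.coeff_single_mul, sub_zero,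
      coeff_coeffEmb_jq_pow_of_lt L (by omega), mul_zero]
  · intro h; exact absurd (Finset.mem_range.mpr (Nat.lt_succ_self n)) h

theorem transcendental_coeffEmb_jq : Transcendental L (coeffEmb L jq) := by
  rw [transcendental_iff]
  intro p hp
  by_contra h0
  have := coeff_aeval_jq L p p.natDegree le_rfl
  rw [hp, HahnSeries.coeff_zero] at this
  exact h0 (Polynomial.leadingCoeff_eq_zero.mp this.symm)

end Transc


section Formal

theorem neZero_of_dvd {N d : ℕ} [NeZero N] (h : d ∣ N) : NeZero d :=
  ⟨fun h0 => NeZero.ne N (by rw [h0] at h; exact Nat.eq_zero_of_zero_dvd h)⟩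

/-- The formal series `j(q^d)` with coefficients in `L`, for `d ∣ N`. -/
def jdiv (L : Type*) [Field L] [Algebra ℚ L] (N : ℕ) [NeZero N] (d : {d : ℕ // d ∣ N}) :
    LaurentSeries L :=
  haveI : NeZero d.1 := neZero_of_dvd d.2
  coeffEmb L (qExpand ℚ d.1 jq)

theorem jdiv_def (L : Type*) [Field L] [Algebra ℚ L] (N : ℕ) [NeZero N] (d : ℕ) (hd : d ∣ N)
    [NeZero d] : jdiv L N ⟨d, hd⟩ = coeffEmb L (qExpand ℚ d jq) := rfl

theorem jdiv_eq_qExpand (L : Type*) [Field L] [Algebra ℚ L] (N : ℕ) [NeZero N] (d : ℕ)
    (hd : d ∣ N) [NeZero d] : jdiv L N ⟨d, hd⟩ = qExpand L d (coeffEmb L jq) := by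
  rw [jdiv_def, coeffEmb, ModularCurve.coeffMap_qExpand]

theorem jdiv_one (L : Type*) [Field L] [Algebra ℚ L] (N : ℕ) [NeZero N] :
    jdiv L N ⟨1, one_dvd N⟩ = coeffEmb L jq := by
  rw [jdiv_def, qExpand_one_apply]

variable (N : ℕ) [NeZero N]

local notation "Kb" => AlgebraicClosure ℚ

theorem jdiv_mem_bar (d : {d : ℕ // d ∣ N}) : jdiv Kb N d ∈ modularFunctionFieldBar N := by
  have : NeZero d.1 := neZero_of_dvd d.2
  exact coeffEmb_mem_laurentBaseChange Kb (jqd_mem_full N d.2)

theorem coeffEmb_algebraMap (L : Type*) [Field L] [Algebra ℚ L] (r : ℚ) :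
    coeffEmb L (algebraMap ℚ (LaurentSeries ℚ) r)
      = algebraMap L (LaurentSeries L) (algebraMap ℚ L r) := by
  rw [algebraMap_apply_eq_single, algebraMap_laurentSeries_eq_single, coeffEmb, coeffMap_single]

theorem bar_eq_adjoin :
    modularFunctionFieldBar N = IntermediateField.adjoin Kb (Set.range (jdiv Kb N)) := by
  apply le_antisymm
  · rw [modularFunctionFieldBar, laurentBaseChange, IntermediateField.adjoin_le_iff]
    rintro _ ⟨y, hy, rfl⟩
    change y ∈ IntermediateField.adjoin ℚ (divisorExpansions N) at hy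
    induction hy using IntermediateField.adjoin_induction with
    | mem x hx =>
      obtain ⟨d, hne, hdvd, rfl⟩ := hx
      exact IntermediateField.subset_adjoin Kb _ ⟨⟨d, hdvd⟩, rfl⟩
    | algebraMap r =>
      rw [SetLike.mem_coe, coeffEmb_algebraMap]
      exact IntermediateField.algebraMap_mem _ _
    | add x y _ _ hx hy => rw [SetLike.mem_coe, map_add]; exact add_mem hx hy
    | inv x _ hx => rw [SetLike.mem_coe, map_inv₀]; exact inv_mem hx
    | mul x y _ _ hx hy => rw [SetLike.mem_coe, map_mul]; exact mul_mem hx hy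
  · rw [IntermediateField.adjoin_le_iff]
    rintro _ ⟨d, rfl⟩
    exact jdiv_mem_bar N d

/-- The generators `j(q^d)` as elements of the function field. -/
def jdivF (d : {d : ℕ // d ∣ N}) : modularFunctionFieldBar N := ⟨jdiv Kb N d, jdiv_mem_bar N d⟩

/-- The element `j` of the function field. -/
def jgen : modularFunctionFieldBar N := jdivF N ⟨1, one_dvd N⟩

theorem coe_jgen : ((jgen N : modularFunctionFieldBar N) : LaurentSeries Kb) = coeffEmb Kb jq :=
  jdiv_one Kb N

end Formal


section Assembly

variable (N : ℕ) [NeZero N]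

local notation "Kb" => AlgebraicClosure ℚ

instance finite_dvd : Finite {d : ℕ // d ∣ N} := by
  have h : {d : ℕ | d ∣ N}.Finite :=
    (Nat.divisors N).finite_toSet.subset fun d hd =>
      Finset.mem_coe.mpr (Nat.mem_divisors.mpr ⟨hd, NeZero.ne N⟩)
  exact h.to_subtype

theorem adjoin_range_jdivF_eq_top :
    IntermediateField.adjoin Kb (Set.range (jdivF N)) = ⊤ := by
  have h1 : (IntermediateField.adjoin Kb (Set.range (jdivF N))).map (modularFunctionFieldBar N).val
      = modularFunctionFieldBar N := by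
    rw [IntermediateField.adjoin_map, ← Set.range_comp]
    exact (bar_eq_adjoin N).symm
  have h2 : (⊤ : IntermediateField Kb (modularFunctionFieldBar N)).map
      (modularFunctionFieldBar N).val = modularFunctionFieldBar N := by
    rw [← AlgHom.fieldRange_eq_map, IntermediateField.fieldRange_val]
  exact IntermediateField.map_injective _ (h1.trans h2.symm)

theorem jgen_mem_adjoin : jgen N ∈ Algebra.adjoin Kb (Set.range (jdivF N)) :=
  Algebra.subset_adjoin ⟨⟨1, one_dvd N⟩, rfl⟩

theorem transcendental_jgen : Transcendental Kb (jgen N) := by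
  rw [transcendental_iff]
  intro p hp
  have h := transcendental_iff.mp (transcendental_coeffEmb_jq Kb) p
  apply h
  have := congrArg (modularFunctionFieldBar N).val hp
  rw [← Polynomial.aeval_algHom_apply, map_zero] at this
  rw [← coe_jgen N]
  exact this

omit [NeZero N] in
theorem coe_eval₂ (x r : modularFunctionFieldBar N) (P : Polynomial (Polynomial Kb)) :
    ((Polynomial.eval₂ (Polynomial.aeval x : Polynomial Kb →ₐ[Kb] _).toRingHom r P :
        modularFunctionFieldBar N) : LaurentSeries Kb)
      = Polynomial.eval₂ (Polynomial.aeval (x : LaurentSeries Kb) :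
          Polynomial Kb →ₐ[Kb] LaurentSeries Kb).toRingHom (r : LaurentSeries Kb) P := by
  have := Polynomial.hom_eval₂ P (Polynomial.aeval x : Polynomial Kb →ₐ[Kb] _).toRingHom
    ((modularFunctionFieldBar N).val : _ →+* LaurentSeries Kb) r
  refine this.trans ?_
  congr 1
  refine RingHom.ext fun s => ?_
  exact (Polynomial.aeval_algHom_apply (modularFunctionFieldBar N).val x s).symm

theorem coe_mem_adjoin {r : modularFunctionFieldBar N}
    (hr : r ∈ Algebra.adjoin Kb (Set.range (jdivF N))) :
    (r : LaurentSeries Kb) ∈ Algebra.adjoin Kb (Set.range (jdiv Kb N)) := by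
  have h1 : (Algebra.adjoin Kb (Set.range (jdivF N))).map (modularFunctionFieldBar N).val
      = Algebra.adjoin Kb (Set.range (jdiv Kb N)) := by
    rw [AlgHom.map_adjoin, ← Set.range_comp]
    rfl
  rw [← h1]
  exact ⟨r, hr, rfl⟩

/-- **The degree of `X₀(N)` over the `j`-line, from two-variable relations.**
`hub`: every element of the `K`-algebra generated by the `j(q^d)` satisfies a nonzero relation of
degree `≤ μ` over `K[j]`; `hlb`: `j(q^N)` satisfies no nonzero relation of degree `< μ`. -/
theorem finrank_eq_of_relations (μ : ℕ)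
    (hub : ∀ r ∈ Algebra.adjoin Kb (Set.range (jdiv Kb N)), ∃ P : Polynomial (Polynomial Kb),
        P ≠ 0 ∧ P.natDegree ≤ μ ∧
        Polynomial.eval₂ (Polynomial.aeval (coeffEmb Kb jq) :
          Polynomial Kb →ₐ[Kb] LaurentSeries Kb).toRingHom r P = 0)
    (hlb : ∀ P : Polynomial (Polynomial Kb), P ≠ 0 →
        Polynomial.eval₂ (Polynomial.aeval (coeffEmb Kb jq) :
          Polynomial Kb →ₐ[Kb] LaurentSeries Kb).toRingHom (jdiv Kb N ⟨N, dvd_rfl⟩) P = 0 →
        μ ≤ P.natDegree) :
    FiniteDimensional Kb⟮jgen N⟯ (modularFunctionFieldBar N) ∧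
      Module.finrank Kb⟮jgen N⟯ (modularFunctionFieldBar N) = μ := by
  have hub' := finrank_le_of_relations (jdivF N) (adjoin_range_jdivF_eq_top N) (jgen N)
    (jgen_mem_adjoin N) (transcendental_jgen N) μ (by
      intro r hr
      obtain ⟨P, hP0, hPd, hPr⟩ := hub _ (coe_mem_adjoin N hr)
      refine ⟨P, hP0, hPd, ?_⟩
      apply Subtype.ext
      rw [coe_eval₂, coe_jgen]
      exact hPr)
  obtain ⟨hfd, hle⟩ := hub'
  refine ⟨hfd, le_antisymm hle ?_⟩
  refine le_finrank_of_relations (jgen N) (jdivF N ⟨N, dvd_rfl⟩) (transcendental_jgen N) μ ?_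
  intro P hP0 hPr
  apply hlb P hP0
  have := congrArg (Subtype.val) hPr
  rw [coe_eval₂, coe_jgen] at this
  exact this

end Assembly

end Fermat.Agent.S24.DegreeAlg
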