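/-
S24 slice [LO-poly] (helper7): the level-one theorem and separation.

* `exists_polynomial_of_modularForm` : a level-one form of weight `12 m` is `P(j) Δ^m`, `deg P ≤ m`.
* `exists_polynomial_of_invariant`   : a holomorphic `SL(2,ℤ)`-invariant function on `ℍ` with
  `f Δ^m` (or `f q^m`) bounded at `i∞` is a polynomial of degree `≤ m` in `j`.
* `tendsto_jFun_mul_qParam`          : `j(τ) q(τ) → 1` at `i∞` (simple pole).
* `mem_Gamma0_of_jFun_eq`            : `(∀ τ, j(N γ τ) = j(N τ)) → γ ∈ Γ₀(N)`  (separation).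
* `jFun_heckeDiagMatrix_smul_of_mem_Gamma0` : conversely `τ ↦ j(d τ)` is `Γ₀(N)`-invariant, `d ∣ N`.
-/
import Mathlib
import Fermat.Agent.LevelOne.JBasic
import Fermat.Agent.S23.ThetaE12

set_option autoImplicit false

open UpperHalfPlane hiding I
open ModularForm EisensteinSeries Filter Complex MatrixGroups Function CongruenceSubgroup
open Matrix.SpecialLinearGroup
open scoped Real Topology Manifold

namespace Fermat.Agent.S24.LevelOnePoly

open Fermat.Agent.LevelOne.Ramanujan Fermat.Agent.LevelOne.JBasic Fermat.Agent.S23.ThetaE12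

local notation "Δ" => ModularForm.discriminant
local notation "𝕢" => Periodic.qParam

theorem jFun_mul_discriminant (τ : ℍ) : jFun τ * Δ τ = E₄ τ ^ 3 := by
  rw [jFun_def]; field_simp [discriminant_ne_zero τ]

/-- `E₄ ^ n` as a modular form of weight `k = 4 n`. -/
noncomputable def E₄pow (n : ℕ) (k : ℤ) (hk : k = 4 * n) : ModularForm 𝒮ℒ k :=
  ModularForm.mcast (by rw [hk]; ring) (E₄.pow n)

theorem E₄pow_apply (n : ℕ) (k : ℤ) (hk : k = 4 * n) (τ : ℍ) : E₄pow n k hk τ = E₄ τ ^ n := by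
  have h : (E₄.pow n) τ = E₄ τ ^ n := by
    rw [ModularForm.coe_pow]; simp
  simp [E₄pow, h]

theorem tendsto_E₄pow (n : ℕ) (k : ℤ) (hk : k = 4 * n) :
    Tendsto (E₄pow n k hk) atImInfty (𝓝 1) := by
  have h : Tendsto (fun τ : ℍ => E₄ τ ^ n) atImInfty (𝓝 (1 ^ n)) := tendsto_E₄.pow n
  rw [one_pow] at h
  exact h.congr fun τ => (E₄pow_apply n k hk τ).symm

/-- Every level one modular form of weight `12 m` is `P(j) Δ^m` with `deg P ≤ m`. -/
theorem exists_polynomial_aux (m : ℕ) : ∀ (k : ℤ) (_ : k = 12 * m) (g : ModularForm 𝒮ℒ k),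
    ∃ P : Polynomial ℂ, P.natDegree ≤ m ∧ ∀ τ : ℍ, g τ = P.eval (jFun τ) * Δ τ ^ m := by
  induction m with
  | zero =>
    intro k hk g
    have hk0 : k = 0 := by simpa using hk
    subst hk0
    obtain ⟨c, hc⟩ := ModularFormClass.levelOne_weight_zero_const g
    refine ⟨Polynomial.C c, by simp, fun τ => ?_⟩
    simp [congrFun hc τ]
  | succ m ih =>
    intro k hk g
    have hk4 : k = 4 * ((3 * (m + 1) : ℕ) : ℤ) := by rw [hk]; push_cast; ring
    obtain ⟨E, hE⟩ : ∃ E : ModularForm 𝒮ℒ k, E = E₄pow (3 * (m + 1)) k hk4 := ⟨_, rfl⟩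
    have hE0 : (qExpansion 1 E).coeff 0 = 1 := by
      rw [hE]; exact coeff_zero_of_tendsto _ (tendsto_E₄pow _ _ _)
    have hc := sub_smul_isCuspForm g E hE0
    have hcusp := (isCuspForm_iff_coeffZero_eq_zero _).mp hc
    clear hc
    generalize (qExpansion 1 g).coeff 0 = a at hcusp
    obtain ⟨h, hh⟩ : ∃ h : ModularForm 𝒮ℒ (k - 12),
      h = CuspForm.discriminantEquiv (toCuspForm (g - a • E) hcusp) := ⟨_, rfl⟩
    have hkm : k - 12 = 12 * (m : ℤ) := by rw [hk]; push_cast; ring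
    obtain ⟨P', hdeg, hP'⟩ := ih (k - 12) hkm h
    refine ⟨Polynomial.C a * Polynomial.X ^ (m + 1) + P', ?_, fun τ => ?_⟩
    · refine (Polynomial.natDegree_add_le _ _).trans (max_le ?_ (hdeg.trans (Nat.le_succ m)))
      exact (Polynomial.natDegree_C_mul_le _ _).trans (Polynomial.natDegree_X_pow_le _)
    · have h1 : Δ τ * h τ = g τ - a * E₄ τ ^ (3 * (m + 1)) := by
        rw [hh, discriminant_mul_discriminantEquiv_apply, toCuspForm_apply]
        simp [hE, E₄pow_apply]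
      have h2 := hP' τ
      have h3 := jFun_mul_discriminant τ
      simp only [Polynomial.eval_add, Polynomial.eval_mul, Polynomial.eval_C, Polynomial.eval_pow,
        Polynomial.eval_X]
      have h4 : E₄ τ ^ (3 * (m + 1)) = (jFun τ * Δ τ) ^ (m + 1) := by
        rw [h3, ← pow_mul]
      rw [h2] at h1
      rw [h4] at h1
      rw [mul_pow] at h1
      rw [pow_succ (Δ τ) m]
      linear_combination -h1

theorem exists_polynomial_of_modularForm (m : ℕ) (g : ModularForm 𝒮ℒ (12 * m)) :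
    ∃ P : Polynomial ℂ, P.natDegree ≤ m ∧ ∀ τ : ℍ, g τ = P.eval (jFun τ) * Δ τ ^ m :=
  exists_polynomial_aux m _ rfl g

theorem discriminant_smul (γ : SL(2, ℤ)) (z : ℍ) : Δ (γ • z) = denom γ z ^ (12 : ℤ) * Δ z := by
  have hγ : (γ : GL (Fin 2) ℝ) ∈ 𝒮ℒ := ⟨γ, rfl⟩
  exact SlashInvariantForm.slash_action_eqn'' CuspForm.discriminant hγ z

theorem mdiff_discriminant : MDiff Δ := CuspForm.discriminant.holo'

/-- The modular form `f Δ^m` attached to an invariant holomorphic function `f` with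
`f Δ^m` bounded at `i∞`. -/
noncomputable def mulDeltaPow {f : ℍ → ℂ} (hf : MDiff f)
    (hinv : ∀ (γ : SL(2, ℤ)) (τ : ℍ), f (γ • τ) = f τ) (m : ℕ)
    (hbd : IsBoundedAtImInfty (fun τ => f τ * Δ τ ^ m)) : ModularForm 𝒮ℒ (12 * m) where
  toFun := fun τ => f τ * Δ τ ^ m
  slash_action_eq' := by
    intro A hA
    obtain ⟨γ, rfl⟩ := hA
    funext τ
    have hd : denom γ τ ≠ 0 := denom_ne_zero γ τ
    have h1 : ((fun τ => f τ * Δ τ ^ m) ∣[(12 * m : ℤ)] γ) τ =
        f (γ • τ) * Δ (γ • τ) ^ m * denom γ τ ^ (-(12 * m : ℤ)) := by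
      rw [ModularForm.SL_slash_apply]
    show ((fun τ => f τ * Δ τ ^ m) ∣[(12 * m : ℤ)] γ) τ = f τ * Δ τ ^ m
    rw [h1, hinv, discriminant_smul, mul_pow, ← zpow_natCast (denom γ τ ^ (12 : ℤ)) m, ← zpow_mul,
      zpow_neg]
    field_simp
  holo' := hf.mul (mdiff_discriminant.pow m)
  bdd_at_cusps' := by
    intro c hc
    rw [Subgroup.IsArithmetic.isCusp_iff_isCusp_SL2Z] at hc
    rw [OnePoint.isBoundedAt_iff_forall_SL2Z hc]
    intro γ _
    have : ((fun τ => f τ * Δ τ ^ m) ∣[(12 * m : ℤ)] γ) = fun τ => f τ * Δ τ ^ m := by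
      funext τ
      have hd : denom γ τ ≠ 0 := denom_ne_zero γ τ
      rw [ModularForm.SL_slash_apply, hinv, discriminant_smul, mul_pow,
        ← zpow_natCast (denom γ τ ^ (12 : ℤ)) m, ← zpow_mul, zpow_neg]
      field_simp
    rw [this]
    exact hbd

theorem mulDeltaPow_apply {f : ℍ → ℂ} (hf : MDiff f)
    (hinv : ∀ (γ : SL(2, ℤ)) (τ : ℍ), f (γ • τ) = f τ) (m : ℕ)
    (hbd : IsBoundedAtImInfty (fun τ => f τ * Δ τ ^ m)) (τ : ℍ) :
    mulDeltaPow hf hinv m hbd τ = f τ * Δ τ ^ m := rfl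

/-- **Level-one theorem.** A holomorphic `SL(2,ℤ)`-invariant function on `ℍ` with at most a pole
of order `m` at `i∞` (in the sense that `f Δ^m` is bounded at `i∞`) is a polynomial of degree
`≤ m` in `j`. -/
theorem exists_polynomial_of_invariant {f : ℍ → ℂ} (hf : MDiff f)
    (hinv : ∀ (γ : SL(2, ℤ)) (τ : ℍ), f (γ • τ) = f τ) (m : ℕ)
    (hbd : IsBoundedAtImInfty (fun τ => f τ * Δ τ ^ m)) :
    ∃ P : Polynomial ℂ, P.natDegree ≤ m ∧ ∀ τ : ℍ, f τ = P.eval (jFun τ) := by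
  obtain ⟨P, hdeg, hP⟩ := exists_polynomial_of_modularForm m (mulDeltaPow hf hinv m hbd)
  refine ⟨P, hdeg, fun τ => ?_⟩
  have h := hP τ
  rw [mulDeltaPow_apply] at h
  exact mul_right_cancel₀ (pow_ne_zero m (discriminant_ne_zero τ)) h

/-- `j` has a simple pole with residue `1` in `q` at `i∞`: `j(τ) q(τ) → 1`. -/
theorem tendsto_jFun_mul_qParam : Tendsto (fun τ : ℍ => jFun τ * 𝕢 1 τ) atImInfty (𝓝 1) := by
  have h1 : Tendsto (fun τ : ℍ => E₄ τ ^ 3 / ∏' n, (1 - eta_q n τ) ^ 24) atImInfty (𝓝 (1 ^ 3 / 1)) :=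
    (tendsto_E₄.pow 3).div tendsto_atImInfty_tprod_one_sub_eta_q_pow one_ne_zero
  rw [one_pow, div_one] at h1
  refine h1.congr fun τ => ?_
  have hq : 𝕢 1 (τ : ℂ) ≠ 0 := Periodic.qParam_ne_zero _
  have hΔ := discriminant_ne_zero τ
  have hprod : (∏' n, (1 - eta_q n τ) ^ 24) ≠ 0 := by
    intro h0
    apply hΔ
    rw [discriminant_eq_q_prod, h0, mul_zero]
  rw [jFun_def, discriminant_eq_q_prod]
  field_simp

theorem norm_qParam_one (τ : ℍ) : ‖𝕢 1 (τ : ℂ)‖ = Real.exp (-2 * π * τ.im) := by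
  simp [Periodic.qParam, Complex.norm_exp]

/-- `‖j(τ)‖ e^{-2π Im τ} → 1`. -/
theorem tendsto_norm_jFun_mul_exp :
    Tendsto (fun τ : ℍ => ‖jFun τ‖ * Real.exp (-2 * π * τ.im)) atImInfty (𝓝 1) := by
  have h := tendsto_jFun_mul_qParam.norm
  rw [norm_one] at h
  refine h.congr fun τ => ?_
  rw [norm_mul, norm_qParam_one]

theorem tendsto_im_atImInfty : Tendsto (fun τ : ℍ => τ.im) atImInfty atTop := tendsto_comap

/-- Growth comparison: if `j ∘ φ = j ∘ ψ` where `φ, ψ` scale imaginary parts by `a, b > 0`,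
then `a = b`. -/
theorem eq_of_jFun_comp_eq {a b : ℝ} (ha : 0 < a) (hb : 0 < b) (φ ψ : ℍ → ℍ)
    (hφ : ∀ τ, (φ τ).im = a * τ.im) (hψ : ∀ τ, (ψ τ).im = b * τ.im)
    (h : ∀ τ, jFun (φ τ) = jFun (ψ τ)) : a = b := by
  have hφt : Tendsto φ atImInfty atImInfty := by
    rw [atImInfty, tendsto_comap_iff]
    have : (UpperHalfPlane.im ∘ φ) = fun τ : ℍ => a * τ.im := funext hφ
    rw [this]
    exact Tendsto.const_mul_atTop ha tendsto_comap
  have hψt : Tendsto ψ atImInfty atImInfty := by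
    rw [atImInfty, tendsto_comap_iff]
    have : (UpperHalfPlane.im ∘ ψ) = fun τ : ℍ => b * τ.im := funext hψ
    rw [this]
    exact Tendsto.const_mul_atTop hb tendsto_comap
  have hF := tendsto_norm_jFun_mul_exp.comp hφt
  have hG := tendsto_norm_jFun_mul_exp.comp hψt
  have hGF := hG.div hF one_ne_zero
  rw [div_one] at hGF
  -- eventually the quotient is an exponential
  have hev : ∀ᶠ τ in atImInfty, jFun (φ τ) ≠ 0 := by
    have : ∀ᶠ τ in atImInfty, (1 / 2 : ℝ) < ‖jFun (φ τ)‖ * Real.exp (-2 * π * (φ τ).im) :=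
      hF.eventually (lt_mem_nhds (by norm_num))
    filter_upwards [this] with τ hτ h0
    rw [h0, norm_zero, zero_mul] at hτ
    norm_num at hτ
  have hexp : Tendsto (fun τ : ℍ => Real.exp (-2 * π * (b - a) * τ.im)) atImInfty (𝓝 1) := by
    refine hGF.congr' ?_
    filter_upwards [hev] with τ hτ
    simp only [Function.comp_apply, Pi.div_apply]
    rw [← h τ, hφ, hψ]
    have hn : ‖jFun (φ τ)‖ ≠ 0 := norm_ne_zero_iff.mpr hτ
    rw [mul_div_mul_left _ _ hn, ← Real.exp_sub]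
    congr 1
    ring
  have hlog : Tendsto (fun τ : ℍ => -2 * π * (b - a) * τ.im) atImInfty (𝓝 0) := by
    have := (Real.continuousAt_log one_ne_zero).tendsto.comp hexp
    simpa [Function.comp_def] using this
  by_contra hab
  have hc : -2 * π * (b - a) ≠ 0 := by
    have : b - a ≠ 0 := sub_ne_zero.mpr (Ne.symm hab)
    have hpi := Real.pi_pos
    positivity
  rcases lt_or_gt_of_ne hc with hneg | hpos
  · exact not_tendsto_nhds_of_tendsto_atBot
      (Tendsto.const_mul_atTop_of_neg hneg tendsto_im_atImInfty) _ hlog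
  · exact not_tendsto_nhds_of_tendsto_atTop
      (Tendsto.const_mul_atTop hpos tendsto_im_atImInfty) _ hlog

/-- **Separation.** If `j(N γτ) = j(N τ)` for all `τ`, then `γ ∈ Γ₀(N)`. -/
theorem mem_Gamma0_of_jFun_eq {N : ℕ} [NeZero N] (γ : SL(2, ℤ))
    (h : ∀ τ : ℍ, jFun (heckeDiagMatrix N • (γ • τ)) = jFun (heckeDiagMatrix N • τ)) :
    γ ∈ Gamma0 N := by
  have hN : N ≠ 0 := NeZero.ne N
  have hNpos : (0 : ℝ) < N := by exact_mod_cast Nat.pos_of_ne_zero hN
  obtain ⟨δ, A, B, D, hAD, hA, hD, hADN, h10, hmat⟩ := exists_hermite hN γ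
  have hAR : (0 : ℝ) < A := by exact_mod_cast hA
  have hDR : (0 : ℝ) < D := by exact_mod_cast hD
  have hN1 : (N : ℝ) * 1 ≠ 0 := by rw [mul_one]; exact_mod_cast hN
  have key : ∀ τ : ℍ, jFun (upperTriangularGL A B D hAD • τ) =
      jFun (upperTriangularGL N 0 1 hN1 • τ) := by
    intro τ
    have h1 : heckeDiagMatrix N • (γ • τ) = δ • (upperTriangularGL A B D hAD • τ) := by
      have e1 : heckeDiagMatrix N • (γ • τ) = (heckeDiagMatrix N * mapGL ℝ γ) • τ := by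
        rw [mul_smul]; rfl
      have e2 : δ • (upperTriangularGL A B D hAD • τ) =
          (mapGL ℝ δ * upperTriangularGL A B D hAD) • τ := by
        rw [mul_smul]; rfl
      rw [e1, e2, hmat]
    have h2 := h τ
    rw [h1, jFun_smul, heckeDiagMatrix_eq_upperTriangularGL hN] at h2
    exact h2
  have hratio : (A : ℝ) / D = (N : ℝ) / 1 :=
    eq_of_jFun_comp_eq (div_pos hAR hDR) (div_pos hNpos one_pos) _ _
      (fun τ => im_upperTriangularGL_smul A B D hAD hAR hDR τ)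
      (fun τ => im_upperTriangularGL_smul N 0 1 hN1 hNpos one_pos τ) key
  rw [div_one, div_eq_iff (ne_of_gt hDR)] at hratio
  have hADR : (A : ℝ) * D = N := by exact_mod_cast hADN
  have hD2 : (D : ℝ) * D = 1 := by
    have : (N : ℝ) * ((D : ℝ) * D) = N * 1 := by
      calc (N : ℝ) * ((D : ℝ) * D) = ((N : ℝ) * D) * D := by ring
        _ = A * D := by rw [hratio]
        _ = N * 1 := by rw [hADR, mul_one]
    exact mul_left_cancel₀ (ne_of_gt hNpos) this
  have hD1 : D = 1 := by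
    have h1 : (D : ℝ) = 1 := by nlinarith
    exact_mod_cast h1
  have hAN : A = N := by rw [hD1, mul_one] at hADN; exact hADN
  rw [Gamma0_mem, h10, hAN]
  simp

/-- Variant of `mem_Gamma0_of_jFun_eq` with the inverse, as used for the action
`(g • f)(τ) = f (g⁻¹ • τ)`. -/
theorem mem_Gamma0_of_jFun_inv_eq {N : ℕ} [NeZero N] (g : SL(2, ℤ))
    (h : ∀ τ : ℍ, jFun (heckeDiagMatrix N • (g⁻¹ • τ)) = jFun (heckeDiagMatrix N • τ)) :
    g ∈ Gamma0 N := by
  have := mem_Gamma0_of_jFun_eq g⁻¹ h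
  simpa using (Gamma0 N).inv_mem this

/-- `τ ↦ j(dτ)` is invariant under `Γ₀(N)` for `d ∣ N`. -/
theorem jFun_heckeDiagMatrix_smul_of_mem_Gamma0 {N d : ℕ} [NeZero d] (hd : d ∣ N)
    (γ : SL(2, ℤ)) (hγ : γ ∈ Gamma0 N) (τ : ℍ) :
    jFun (heckeDiagMatrix d • (γ • τ)) = jFun (heckeDiagMatrix d • τ) := by
  rw [Gamma0_mem] at hγ
  have hdvd : (N : ℤ) ∣ γ 1 0 := (ZMod.intCast_zmod_eq_zero_iff_dvd _ N).mp hγ
  have hdvd' : (d : ℤ) ∣ γ 1 0 := (Int.natCast_dvd_natCast.mpr hd).trans hdvd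
  obtain ⟨e, he⟩ := hdvd'
  obtain ⟨g', -, hg'⟩ :=
    P2MW.S_ModularForm_heckeT_slash_eq_self_of_mem_Gamma0.ModularForm.HeckeSlashInvariance.heckeDiagMatrix_mul_of_eq'
      (NeZero.ne d) γ e he
  have e1 : heckeDiagMatrix d • (γ • τ) = (heckeDiagMatrix d * mapGL ℝ γ) • τ := by
    rw [mul_smul]; rfl
  have e2 : g' • (heckeDiagMatrix d • τ) = (mapGL ℝ g' * heckeDiagMatrix d) • τ := by
    rw [mul_smul]; rfl
  rw [e1, hg', ← e2, jFun_smul]

/-- The points `N τ`. -/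
theorem coe_heckeDiagMatrix_smul' {N : ℕ} [NeZero N] (τ : ℍ) :
    ((heckeDiagMatrix N • τ : ℍ) : ℂ) = (N : ℂ) * (τ : ℂ) :=
  coe_heckeDiagMatrix_smul (NeZero.ne N) τ

/-- `Δ(τ) / q(τ) → 1` at `i∞`. -/
theorem tendsto_discriminant_div_qParam :
    Tendsto (fun τ : ℍ => Δ τ / 𝕢 1 τ) atImInfty (𝓝 1) := by
  refine tendsto_atImInfty_tprod_one_sub_eta_q_pow.congr fun τ => ?_
  have hq : 𝕢 1 (τ : ℂ) ≠ 0 := Periodic.qParam_ne_zero _
  rw [discriminant_eq_q_prod]
  field_simp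

/-- Variant of the level-one theorem with the growth condition stated with `q^m`. -/
theorem exists_polynomial_of_invariant' {f : ℍ → ℂ} (hf : MDiff f)
    (hinv : ∀ (γ : SL(2, ℤ)) (τ : ℍ), f (γ • τ) = f τ) (m : ℕ)
    (hbd : IsBoundedAtImInfty (fun τ : ℍ => f τ * 𝕢 1 τ ^ m)) :
    ∃ P : Polynomial ℂ, P.natDegree ≤ m ∧ ∀ τ : ℍ, f τ = P.eval (jFun τ) := by
  refine exists_polynomial_of_invariant hf hinv m ?_
  have h1 : IsBoundedAtImInfty (fun τ : ℍ => (Δ τ / 𝕢 1 τ) ^ m) :=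
    (tendsto_discriminant_div_qParam.pow m).isBigO_one ℝ
  have h2 := hbd.mul h1
  refine h2.congr' ?_ (Filter.EventuallyEq.refl _ _)
  refine Eventually.of_forall fun τ => ?_
  have hq : 𝕢 1 (τ : ℂ) ≠ 0 := Periodic.qParam_ne_zero _
  simp only [Pi.mul_apply]
  rw [div_pow]
  field_simp

end Fermat.Agent.S24.LevelOnePoly
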