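/-
S24 slice (Growth) (helper7): moderate growth at `i∞` of the translates `τ ↦ j(d · gτ)`.

* `isBoundedAtImInfty_jFun_comp` : `j(d·gτ) Δ(τ)^d` is bounded at `i∞` for every `g ∈ SL(2,ℤ)`.
* `IsModerate`                   : `∃ m, f Δ^m` bounded at `i∞`; closed under `+`, `*`, constants,
                                   finite sums and products.
* `mdiff_jFun_comp`              : holomorphy of the translates.
-/
import Mathlib
import Fermat.Agent.S24.LevelOnePoly

set_option autoImplicit false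

open UpperHalfPlane hiding I
open ModularForm EisensteinSeries Filter Complex MatrixGroups Function CongruenceSubgroup
open Matrix.SpecialLinearGroup
open scoped Real Topology Manifold

namespace Fermat.Agent.S24.Growth

open Fermat.Agent.LevelOne.Ramanujan Fermat.Agent.LevelOne.JBasic Fermat.Agent.S23.ThetaE12
open Fermat.Agent.S24.LevelOnePoly

local notation "Δ" => ModularForm.discriminant
local notation "𝕢" => Periodic.qParam

/-- Moderate growth at `i∞`: `f Δ^m` is bounded at `i∞` for some `m`. -/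
def IsModerate (f : ℍ → ℂ) : Prop := ∃ m : ℕ, IsBoundedAtImInfty (fun τ : ℍ => f τ * Δ τ ^ m)

theorem isBoundedAtImInfty_discriminant : IsBoundedAtImInfty (Δ : ℍ → ℂ) :=
  (tendsto_Δ).isBigO_one ℝ

theorem isBoundedAtImInfty_discriminant_pow (n : ℕ) :
    IsBoundedAtImInfty (fun τ : ℍ => Δ τ ^ n) :=
  ((tendsto_Δ).pow n).isBigO_one ℝ

theorem IsModerate.mono {f : ℍ → ℂ} {m n : ℕ} (hmn : m ≤ n)
    (h : IsBoundedAtImInfty (fun τ : ℍ => f τ * Δ τ ^ m)) :
    IsBoundedAtImInfty (fun τ : ℍ => f τ * Δ τ ^ n) := by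
  have h2 := h.mul (isBoundedAtImInfty_discriminant_pow (n - m))
  refine h2.congr' (Eventually.of_forall fun τ => ?_) (EventuallyEq.refl _ _)
  simp only [Pi.mul_apply]
  rw [mul_assoc, ← pow_add, Nat.add_sub_cancel' hmn]

theorem isModerate_const (c : ℂ) : IsModerate (fun _ => c) := by
  refine ⟨0, ?_⟩
  have h : IsBoundedAtImInfty (fun _ : ℍ => c) := Filter.const_boundedAtFilter _ c
  simpa using h

theorem IsModerate.add {f g : ℍ → ℂ} (hf : IsModerate f) (hg : IsModerate g) :
    IsModerate (fun τ => f τ + g τ) := by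
  obtain ⟨m, hm⟩ := hf
  obtain ⟨n, hn⟩ := hg
  refine ⟨max m n, ?_⟩
  have h1 := IsModerate.mono (le_max_left m n) hm
  have h2 := IsModerate.mono (le_max_right m n) hn
  refine (h1.add h2).congr' (Eventually.of_forall fun τ => ?_) (EventuallyEq.refl _ _)
  simp only [Pi.add_apply]
  ring

theorem IsModerate.mul {f g : ℍ → ℂ} (hf : IsModerate f) (hg : IsModerate g) :
    IsModerate (fun τ => f τ * g τ) := by
  obtain ⟨m, hm⟩ := hf
  obtain ⟨n, hn⟩ := hg
  refine ⟨m + n, ?_⟩
  refine (hm.mul hn).congr' (Eventually.of_forall fun τ => ?_) (EventuallyEq.refl _ _)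
  simp only [Pi.mul_apply]
  ring

theorem IsModerate.neg {f : ℍ → ℂ} (hf : IsModerate f) : IsModerate (fun τ => -f τ) := by
  have := (isModerate_const (-1)).mul hf
  simpa using this

theorem IsModerate.sub {f g : ℍ → ℂ} (hf : IsModerate f) (hg : IsModerate g) :
    IsModerate (fun τ => f τ - g τ) := by
  have := hf.add hg.neg
  simpa [sub_eq_add_neg] using this

theorem IsModerate.smul {f : ℍ → ℂ} (c : ℂ) (hf : IsModerate f) : IsModerate (fun τ => c * f τ) :=
  (isModerate_const c).mul hf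

theorem IsModerate.pow {f : ℍ → ℂ} (hf : IsModerate f) (n : ℕ) : IsModerate (fun τ => f τ ^ n) := by
  induction n with
  | zero => simpa using isModerate_const 1
  | succ n ih =>
    have := ih.mul hf
    simpa [pow_succ] using this

theorem isModerate_finset_sum {ι : Type*} (s : Finset ι) (f : ι → ℍ → ℂ)
    (h : ∀ i ∈ s, IsModerate (f i)) : IsModerate (fun τ => ∑ i ∈ s, f i τ) := by
  classical
  induction s using Finset.induction_on with
  | empty => simpa using isModerate_const 0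
  | insert a s ha ih =>
    have h1 := h a (Finset.mem_insert_self a s)
    have h2 := ih fun i hi => h i (Finset.mem_insert_of_mem hi)
    have := h1.add h2
    simpa [Finset.sum_insert ha] using this

theorem isModerate_finset_prod {ι : Type*} (s : Finset ι) (f : ι → ℍ → ℂ)
    (h : ∀ i ∈ s, IsModerate (f i)) : IsModerate (fun τ => ∏ i ∈ s, f i τ) := by
  classical
  induction s using Finset.induction_on with
  | empty => simpa using isModerate_const 1
  | insert a s ha ih =>
    have h1 := h a (Finset.mem_insert_self a s)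
    have h2 := ih fun i hi => h i (Finset.mem_insert_of_mem hi)
    have := h1.mul h2
    simpa [Finset.prod_insert ha] using this

/-- Key estimate: for an upper triangular `U = (A B; 0 D)` with `A, D > 0` and `A / D ≤ m`,
`j(Uτ) Δ(τ)^m` is bounded at `i∞`. -/
theorem isBoundedAtImInfty_jFun_upperTriangular (a b d : ℝ) (had : a * d ≠ 0) (ha : 0 < a)
    (hd : 0 < d) (m : ℕ) (hm : a / d ≤ m) :
    IsBoundedAtImInfty
      (fun τ : ℍ => jFun (upperTriangularGL a b d had • τ) * Δ τ ^ m) := by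
  -- `j(Uτ) q(Uτ)` is bounded
  have h1 : IsBoundedAtImInfty (fun τ : ℍ => jFun (upperTriangularGL a b d had • τ) *
      𝕢 1 ((upperTriangularGL a b d had • τ : ℍ) : ℂ)) :=
    (tendsto_jFun_mul_qParam.comp (tendsto_upperTriangularGL_smul a b d had ha hd)).isBigO_one ℝ
  -- `(Δ/q)^m` is bounded
  have h2 : IsBoundedAtImInfty (fun τ : ℍ => (Δ τ / 𝕢 1 τ) ^ m) :=
    (tendsto_discriminant_div_qParam.pow m).isBigO_one ℝ
  -- `q(τ)^m / q(Uτ)` is bounded (by `1`)
  have h3 : IsBoundedAtImInfty (fun τ : ℍ => 𝕢 1 (τ : ℂ) ^ m /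
      𝕢 1 ((upperTriangularGL a b d had • τ : ℍ) : ℂ)) := by
    rw [IsBoundedAtImInfty, BoundedAtFilter, Asymptotics.isBigO_iff]
    refine ⟨1, Eventually.of_forall fun τ => ?_⟩
    rw [norm_div, norm_pow, norm_qParam_one, norm_qParam_one, im_upperTriangularGL_smul a b d had ha hd,
      ← Real.exp_nat_mul, ← Real.exp_sub]
    simp only [Pi.one_apply, norm_one, mul_one]
    rw [Real.exp_le_one_iff]
    have hy := τ.im_pos
    have hpi := Real.pi_pos
    have : (0 : ℝ) ≤ (m - a / d) * τ.im := mul_nonneg (sub_nonneg.mpr hm) hy.le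
    nlinarith
  refine ((h1.mul h2).mul h3).congr' (Eventually.of_forall fun τ => ?_) (EventuallyEq.refl _ _)
  have hq : 𝕢 1 (τ : ℂ) ≠ 0 := Periodic.qParam_ne_zero _
  have hq' : 𝕢 1 ((upperTriangularGL a b d had • τ : ℍ) : ℂ) ≠ 0 := Periodic.qParam_ne_zero _
  simp only [Pi.mul_apply]
  rw [div_pow]
  field_simp

/-- **Growth.** For `g ∈ SL(2,ℤ)`, `j(d·gτ) Δ(τ)^d` is bounded at `i∞`. -/
theorem isBoundedAtImInfty_jFun_comp (d : ℕ) [NeZero d] (g : SL(2, ℤ)) :
    IsBoundedAtImInfty (fun τ : ℍ => jFun (heckeDiagMatrix d • (g • τ)) * Δ τ ^ d) := by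
  have hd : d ≠ 0 := NeZero.ne d
  obtain ⟨δ, A, B, D, hAD, hA, hD, hADd, -, hmat⟩ := exists_hermite hd g
  have hAR : (0 : ℝ) < A := by exact_mod_cast hA
  have hDR : (0 : ℝ) < D := by exact_mod_cast hD
  have key : ∀ τ : ℍ, jFun (heckeDiagMatrix d • (g • τ)) =
      jFun (upperTriangularGL A B D hAD • τ) := by
    intro τ
    have e1 : heckeDiagMatrix d • (g • τ) = (heckeDiagMatrix d * mapGL ℝ g) • τ := by
      rw [mul_smul]; rfl
    have e2 : δ • (upperTriangularGL A B D hAD • τ) =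
        (mapGL ℝ δ * upperTriangularGL A B D hAD) • τ := by
      rw [mul_smul]; rfl
    rw [e1, hmat, ← e2, jFun_smul]
  simp_rw [key]
  refine isBoundedAtImInfty_jFun_upperTriangular A B D hAD hAR hDR d ?_
  -- `A / D ≤ A ≤ A * D = d`
  have hD1 : (1 : ℝ) ≤ D := by exact_mod_cast hD
  have hADR : (A : ℝ) * D = d := by exact_mod_cast hADd
  rw [div_le_iff₀ hDR]
  nlinarith

theorem isModerate_jFun_comp (d : ℕ) [NeZero d] (g : SL(2, ℤ)) :
    IsModerate (fun τ : ℍ => jFun (heckeDiagMatrix d • (g • τ))) :=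
  ⟨d, isBoundedAtImInfty_jFun_comp d g⟩

/-- The `q`-form of the growth estimate. -/
theorem isBoundedAtImInfty_jFun_comp_qParam (d : ℕ) [NeZero d] (g : SL(2, ℤ)) :
    IsBoundedAtImInfty (fun τ : ℍ => jFun (heckeDiagMatrix d • (g • τ)) * 𝕢 1 τ ^ d) := by
  have h1 := isBoundedAtImInfty_jFun_comp d g
  have h2 : IsBoundedAtImInfty (fun τ : ℍ => (𝕢 1 (τ : ℂ) / Δ τ) ^ d) := by
    have : Tendsto (fun τ : ℍ => (𝕢 1 (τ : ℂ) / Δ τ)) atImInfty (𝓝 (1⁻¹)) := by
      refine (tendsto_discriminant_div_qParam.inv₀ one_ne_zero).congr fun τ => ?_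
      rw [inv_div]
    exact (this.pow d).isBigO_one ℝ
  refine (h1.mul h2).congr' (Eventually.of_forall fun τ => ?_) (EventuallyEq.refl _ _)
  have hΔ := discriminant_ne_zero τ
  simp only [Pi.mul_apply]
  rw [div_pow]
  field_simp

/-- Holomorphy of the translates `τ ↦ j(d·gτ)`. -/
theorem mdiff_jFun_comp (d : ℕ) [NeZero d] (g : SL(2, ℤ)) :
    MDiff (fun τ : ℍ => jFun (heckeDiagMatrix d • (g • τ))) := by
  have h1 : MDiff (fun τ : ℍ => (heckeDiagMatrix d * mapGL ℝ g) • τ) :=
    UpperHalfPlane.mdifferentiable_smul (by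
      rw [map_mul]
      exact mul_pos (det_heckeDiagMatrix_pos d) (by simp))
  have h2 := mdifferentiable_jFun.comp h1
  have heq : (fun τ : ℍ => jFun (heckeDiagMatrix d • (g • τ))) =
      jFun ∘ fun τ : ℍ => (heckeDiagMatrix d * mapGL ℝ g) • τ := by
    funext τ
    simp only [Function.comp_apply]
    rw [mul_smul]; rfl
  rw [heq]
  exact h2

end Fermat.Agent.S24.Growth
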