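import Mathlib

/-!
# S24 slice [T]: Taylor expansion at a point of the upper half plane

`taylorAt τ f : PowerSeries ℂ` is the Taylor series of `f : ℍ → ℂ` at `τ` (in the variable
`t = z - τ`).  On holomorphic functions it is additive, multiplicative, injective, and its order
is the vanishing order.  We also prove the invariance lemma: a meromorphic germ invariant under a
local biholomorphism fixing the point with multiplier `λ` has order `n` with `λ ^ n = 1`.
-/

set_option autoImplicit false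

noncomputable section

open UpperHalfPlane Filter Topology PowerSeries
open scoped Manifold MatrixGroups Nat

namespace Fermat.Agent.S24.Taylor

/-! ### Taylor series of functions `ℂ → ℂ` at a point -/

/-- The Taylor series of `F : ℂ → ℂ` at `z₀`. -/
def taylorC (z₀ : ℂ) (F : ℂ → ℂ) : PowerSeries ℂ :=
  PowerSeries.mk fun m => ((m ! : ℂ))⁻¹ * iteratedDeriv m F z₀

@[simp] theorem coeff_taylorC (z₀ : ℂ) (F : ℂ → ℂ) (m : ℕ) :
    (taylorC z₀ F).coeff m = ((m ! : ℂ))⁻¹ * iteratedDeriv m F z₀ := by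
  simp [taylorC]

theorem taylorC_congr {z₀ : ℂ} {F G : ℂ → ℂ} (h : F =ᶠ[𝓝 z₀] G) : taylorC z₀ F = taylorC z₀ G := by
  ext m
  rw [coeff_taylorC, coeff_taylorC, h.iteratedDeriv_eq m]

theorem taylorC_add {z₀ : ℂ} {F G : ℂ → ℂ} (hF : AnalyticAt ℂ F z₀) (hG : AnalyticAt ℂ G z₀) :
    taylorC z₀ (F + G) = taylorC z₀ F + taylorC z₀ G := by
  ext m
  simp only [coeff_taylorC, map_add]
  rw [iteratedDeriv_add (hF.contDiffAt) (hG.contDiffAt)]
  ring

theorem taylorC_mul {z₀ : ℂ} {F G : ℂ → ℂ} (hF : AnalyticAt ℂ F z₀) (hG : AnalyticAt ℂ G z₀) :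
    taylorC z₀ (F * G) = taylorC z₀ F * taylorC z₀ G := by
  ext n
  simp only [coeff_taylorC, iteratedDeriv_mul hF.contDiffAt hG.contDiffAt, Finset.mul_sum,
    PowerSeries.coeff_mul, Finset.Nat.sum_antidiagonal_eq_sum_range_succ_mk, Nat.succ_eq_add_one]
  refine Finset.sum_congr rfl fun i hi ↦ ?_
  rw [Nat.cast_choose _ (by grind)]
  field_simp [Nat.factorial_ne_zero]

theorem taylorC_const (z₀ c : ℂ) : taylorC z₀ (fun _ => c) = PowerSeries.C c := by
  ext m
  have h2 : iteratedDeriv m (fun _ : ℂ => c) z₀ = if m = 0 then c else 0 :=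
    iteratedDeriv_const
  rw [coeff_taylorC, h2, PowerSeries.coeff_C]
  split_ifs with h
  · subst h; simp
  · simp

theorem taylorC_one (z₀ : ℂ) : taylorC z₀ (1 : ℂ → ℂ) = 1 := by
  have := taylorC_const z₀ 1
  rw [map_one] at this
  exact this

theorem taylorC_zero (z₀ : ℂ) : taylorC z₀ (0 : ℂ → ℂ) = 0 := by
  have := taylorC_const z₀ 0
  rw [map_zero] at this
  exact this

theorem taylorC_smul {z₀ : ℂ} (c : ℂ) {F : ℂ → ℂ} (hF : AnalyticAt ℂ F z₀) :
    taylorC z₀ (c • F) = c • taylorC z₀ F := by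
  have h : c • F = (fun _ => c) * F := by
    funext z; simp
  rw [h, taylorC_mul analyticAt_const hF, taylorC_const, ← PowerSeries.smul_eq_C_mul]

theorem taylorC_neg {z₀ : ℂ} {F : ℂ → ℂ} (hF : AnalyticAt ℂ F z₀) :
    taylorC z₀ (-F) = -taylorC z₀ F := by
  have h : -F = (-1 : ℂ) • F := by simp
  rw [h, taylorC_smul _ hF]
  simp

theorem taylorC_sub {z₀ : ℂ} {F G : ℂ → ℂ} (hF : AnalyticAt ℂ F z₀) (hG : AnalyticAt ℂ G z₀) :
    taylorC z₀ (F - G) = taylorC z₀ F - taylorC z₀ G := by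
  rw [sub_eq_add_neg, taylorC_add hF hG.neg, taylorC_neg hG, sub_eq_add_neg]

theorem taylorC_pow {z₀ : ℂ} {F : ℂ → ℂ} (hF : AnalyticAt ℂ F z₀) (n : ℕ) :
    taylorC z₀ (F ^ n) = taylorC z₀ F ^ n := by
  induction n with
  | zero => simpa using taylorC_one z₀
  | succ n ih => rw [pow_succ, pow_succ, taylorC_mul (hF.pow n) hF, ih]

/-- The order of the Taylor series is the analytic order. -/
theorem order_taylorC {z₀ : ℂ} {F : ℂ → ℂ} (hF : AnalyticAt ℂ F z₀) :
    (taylorC z₀ F).order = analyticOrderAt F z₀ := by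
  refine ENat.eq_of_forall_natCast_le_iff fun n ↦ ?_
  rw [natCast_le_analyticOrderAt_iff_iteratedDeriv_eq_zero hF]
  constructor
  · intro h i hi
    have := PowerSeries.coeff_of_lt_order i (lt_of_lt_of_le (by exact_mod_cast hi) h)
    rw [coeff_taylorC] at this
    have hne : ((i ! : ℂ))⁻¹ ≠ 0 := inv_ne_zero (by exact_mod_cast Nat.factorial_ne_zero i)
    exact (mul_eq_zero.1 this).resolve_left hne
  · intro h
    apply PowerSeries.nat_le_order
    intro i hi
    rw [coeff_taylorC, h i hi, mul_zero]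

theorem taylorC_eq_zero_iff {z₀ : ℂ} {F : ℂ → ℂ} (hF : AnalyticAt ℂ F z₀) :
    taylorC z₀ F = 0 ↔ ∀ᶠ z in 𝓝 z₀, F z = 0 := by
  rw [← PowerSeries.order_eq_top, order_taylorC hF, analyticOrderAt_eq_top]

/-! ### Taylor series of functions on `ℍ` -/

/-- The Taylor series of `f : ℍ → ℂ` at `τ`, in the variable `t = z - τ`. -/
def taylorAt (τ : ℍ) (f : ℍ → ℂ) : PowerSeries ℂ := taylorC (τ : ℂ) (f ∘ ofComplex)

theorem taylorAt_def (τ : ℍ) (f : ℍ → ℂ) : taylorAt τ f = taylorC (τ : ℂ) (f ∘ ofComplex) := rfl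

theorem coeff_taylorAt (τ : ℍ) (f : ℍ → ℂ) (m : ℕ) :
    (taylorAt τ f).coeff m = ((m ! : ℂ))⁻¹ * iteratedDeriv m (f ∘ ofComplex) (τ : ℂ) :=
  coeff_taylorC _ _ m

theorem analyticAt_comp_ofComplex {f : ℍ → ℂ} (hf : MDiff f) (τ : ℍ) :
    AnalyticAt ℂ (f ∘ ofComplex) (τ : ℂ) :=
  (UpperHalfPlane.mdifferentiable_iff.1 hf).analyticAt
    (isOpen_upperHalfPlaneSet.mem_nhds τ.im_pos)

theorem comp_ofComplex_coe (f : ℍ → ℂ) (τ : ℍ) : (f ∘ ofComplex) (τ : ℂ) = f τ := by
  simp [ofComplex_apply]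

theorem constantCoeff_taylorAt (τ : ℍ) (f : ℍ → ℂ) :
    PowerSeries.constantCoeff (taylorAt τ f) = f τ := by
  rw [← PowerSeries.coeff_zero_eq_constantCoeff_apply, coeff_taylorAt]
  simp [ofComplex_apply]

theorem taylorAt_add (τ : ℍ) {f g : ℍ → ℂ} (hf : MDiff f) (hg : MDiff g) :
    taylorAt τ (f + g) = taylorAt τ f + taylorAt τ g :=
  taylorC_add (analyticAt_comp_ofComplex hf τ) (analyticAt_comp_ofComplex hg τ)

theorem taylorAt_mul (τ : ℍ) {f g : ℍ → ℂ} (hf : MDiff f) (hg : MDiff g) :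
    taylorAt τ (f * g) = taylorAt τ f * taylorAt τ g :=
  taylorC_mul (analyticAt_comp_ofComplex hf τ) (analyticAt_comp_ofComplex hg τ)

theorem taylorAt_const (τ : ℍ) (c : ℂ) : taylorAt τ (fun _ => c) = PowerSeries.C c :=
  taylorC_const _ c

theorem taylorAt_one (τ : ℍ) : taylorAt τ (1 : ℍ → ℂ) = 1 := taylorC_one _

theorem taylorAt_zero (τ : ℍ) : taylorAt τ (0 : ℍ → ℂ) = 0 := taylorC_zero _

theorem taylorAt_smul (τ : ℍ) (c : ℂ) {f : ℍ → ℂ} (hf : MDiff f) :
    taylorAt τ (c • f) = c • taylorAt τ f :=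
  taylorC_smul c (analyticAt_comp_ofComplex hf τ)

theorem taylorAt_neg (τ : ℍ) {f : ℍ → ℂ} (hf : MDiff f) :
    taylorAt τ (-f) = -taylorAt τ f :=
  taylorC_neg (analyticAt_comp_ofComplex hf τ)

theorem taylorAt_sub (τ : ℍ) {f g : ℍ → ℂ} (hf : MDiff f) (hg : MDiff g) :
    taylorAt τ (f - g) = taylorAt τ f - taylorAt τ g :=
  taylorC_sub (analyticAt_comp_ofComplex hf τ) (analyticAt_comp_ofComplex hg τ)

theorem taylorAt_pow (τ : ℍ) {f : ℍ → ℂ} (hf : MDiff f) (n : ℕ) :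
    taylorAt τ (f ^ n) = taylorAt τ f ^ n :=
  taylorC_pow (analyticAt_comp_ofComplex hf τ) n

/-- The order of the Taylor series at `τ` is the vanishing order at `τ`. -/
theorem order_taylorAt (τ : ℍ) {f : ℍ → ℂ} (hf : MDiff f) :
    (taylorAt τ f).order = analyticOrderAt (f ∘ ofComplex) (τ : ℂ) :=
  order_taylorC (analyticAt_comp_ofComplex hf τ)

theorem isPreconnected_upperHalfPlaneSet : IsPreconnected upperHalfPlaneSet :=
  (convex_halfSpace_im_gt 0).isPreconnected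

/-- **Injectivity** (identity theorem): a holomorphic function on `ℍ` with vanishing Taylor series
at one point is zero. -/
theorem taylorAt_eq_zero_iff (τ : ℍ) {f : ℍ → ℂ} (hf : MDiff f) : taylorAt τ f = 0 ↔ f = 0 := by
  constructor
  · intro h
    rw [taylorAt, taylorC_eq_zero_iff (analyticAt_comp_ofComplex hf τ)] at h
    have han : AnalyticOnNhd ℂ (f ∘ ofComplex) upperHalfPlaneSet :=
      (UpperHalfPlane.mdifferentiable_iff.1 hf).analyticOnNhd isOpen_upperHalfPlaneSet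
    have := han.eqOn_zero_of_preconnected_of_eventuallyEq_zero isPreconnected_upperHalfPlaneSet
      (show (τ : ℂ) ∈ upperHalfPlaneSet from τ.im_pos) h
    funext z
    have hz := this (show (z : ℂ) ∈ upperHalfPlaneSet from z.im_pos)
    simpa [ofComplex_apply] using hz
  · rintro rfl
    exact taylorAt_zero τ

theorem taylorAt_injective (τ : ℍ) {f g : ℍ → ℂ} (hf : MDiff f) (hg : MDiff g)
    (h : taylorAt τ f = taylorAt τ g) : f = g := by
  have := (taylorAt_eq_zero_iff τ (hf.sub hg)).1 (by rw [taylorAt_sub τ hf hg, h, sub_self])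
  exact sub_eq_zero.1 this

theorem order_taylorAt_ne_top (τ : ℍ) {f : ℍ → ℂ} (hf : MDiff f) (h0 : f ≠ 0) :
    (taylorAt τ f).order ≠ ⊤ := by
  rw [Ne, PowerSeries.order_eq_top, taylorAt_eq_zero_iff τ hf]
  exact h0

end Fermat.Agent.S24.Taylor
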