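/-
S24 slice [Deg], analytic LOWER-bound input (helper7).

The `μ = [SL(2,ℤ) : Γ₀(N)]` translates `τ ↦ j(N · γ_q⁻¹ τ)` of `j_N` are pairwise distinct
holomorphic functions on `ℍ`; consequently there is no nonzero relation `P(j, j_N) = 0` with
`P ∈ ℂ[Y][X]` of `X`-degree `< μ`.
-/
import Mathlib
import Fermat.Agent.S24.Growth
import Fermat.Agent.S24.Taylor

set_option autoImplicit false

noncomputable section

open UpperHalfPlane hiding I
open ModularForm Filter Complex MatrixGroups Function CongruenceSubgroup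
open Matrix.SpecialLinearGroup
open scoped Real Topology Manifold

namespace Fermat.Agent.S24.DegreeLower

open Fermat.Agent.LevelOne.JBasic Fermat.Agent.S24.LevelOnePoly Fermat.Agent.S24.Growth
open Fermat.Agent.S24.Taylor

/-! ### Holomorphic functions on `ℍ` form a domain -/

/-- Holomorphic functions on `ℍ` form a domain. -/
theorem eq_zero_or_eq_zero_of_mul_eq_zero {f g : ℍ → ℂ} (hf : MDiff f) (hg : MDiff g)
    (h : ∀ τ, f τ * g τ = 0) : f = 0 ∨ g = 0 := by
  have h1 : taylorAt UpperHalfPlane.I (f * g) = 0 := by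
    have : f * g = 0 := funext h
    rw [this, taylorAt_zero]
  rw [taylorAt_mul _ hf hg, mul_eq_zero] at h1
  rcases h1 with h1 | h1
  · exact Or.inl ((taylorAt_eq_zero_iff _ hf).1 h1)
  · exact Or.inr ((taylorAt_eq_zero_iff _ hg).1 h1)

theorem mdiff_finset_prod {ι : Type*} (s : Finset ι) (f : ι → ℍ → ℂ)
    (hf : ∀ i ∈ s, MDiff (f i)) : MDiff (fun τ : ℍ => ∏ i ∈ s, f i τ) := by
  classical
  induction s using Finset.induction_on with
  | empty => simpa using (mdifferentiable_const : MDiff (fun _ : ℍ => (1 : ℂ)))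
  | insert a s ha ih =>
    have h1 : MDiff (f a) := hf a (Finset.mem_insert_self a s)
    have h2 := ih (fun i hi => hf i (Finset.mem_insert_of_mem hi))
    have : (fun τ : ℍ => ∏ i ∈ insert a s, f i τ) = f a * (fun τ : ℍ => ∏ i ∈ s, f i τ) := by
      funext τ
      simp [Finset.prod_insert ha]
    rw [this]
    exact h1.mul h2

/-- A finite product of holomorphic functions on `ℍ` vanishing identically has a factor vanishing
identically. -/
theorem exists_eq_zero_of_prod_eq_zero {ι : Type*} (s : Finset ι) (f : ι → ℍ → ℂ)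
    (hf : ∀ i ∈ s, MDiff (f i)) (h : ∀ τ, ∏ i ∈ s, f i τ = 0) : ∃ i ∈ s, f i = 0 := by
  classical
  induction s using Finset.induction_on with
  | empty => simp at h
  | insert a s ha ih =>
    have h1 : MDiff (f a) := hf a (Finset.mem_insert_self a s)
    have h2 := mdiff_finset_prod s f (fun i hi => hf i (Finset.mem_insert_of_mem hi))
    have h3 : ∀ τ, f a τ * (∏ i ∈ s, f i τ) = 0 := by
      intro τ
      have := h τ
      rwa [Finset.prod_insert ha] at this
    rcases eq_zero_or_eq_zero_of_mul_eq_zero h1 h2 h3 with h4 | h4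
    · exact ⟨a, Finset.mem_insert_self a s, h4⟩
    · obtain ⟨i, hi, hi0⟩ := ih (fun i hi => hf i (Finset.mem_insert_of_mem hi))
        (fun τ => congrFun h4 τ)
      exact ⟨i, Finset.mem_insert_of_mem hi, hi0⟩

/-! ### The translates of `j_N` -/

/-- The translate of `j_N = j(N ·)` by (the inverse of) a representative of the coset `q`. -/
def fTr (N : ℕ) (q : SL(2, ℤ) ⧸ Gamma0 N) (τ : ℍ) : ℂ :=
  jFun (heckeDiagMatrix N • ((Quotient.out q)⁻¹ • τ))

theorem mdiff_fTr (N : ℕ) [NeZero N] (q : SL(2, ℤ) ⧸ Gamma0 N) : MDiff (fTr N q) :=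
  mdiff_jFun_comp N (Quotient.out q)⁻¹

/-- **Distinctness of the conjugates**: the translates are pairwise distinct functions. -/
theorem fTr_injective (N : ℕ) [NeZero N] : Function.Injective (fTr N) := by
  intro q q' h
  have key : (Quotient.out q)⁻¹ * Quotient.out q' ∈ Gamma0 N := by
    apply mem_Gamma0_of_jFun_eq
    intro τ
    have := congrFun h (Quotient.out q' • τ)
    simp only [fTr] at this
    rw [mul_smul, this, inv_smul_smul]
  have h2 : ((Quotient.out q : SL(2, ℤ)) : SL(2, ℤ) ⧸ Gamma0 N) = (Quotient.out q' : SL(2, ℤ)) :=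
    QuotientGroup.eq.2 key
  rwa [QuotientGroup.out_eq', QuotientGroup.out_eq'] at h2

/-- Every translate of `j` is `j`. -/
theorem jFun_out_inv_smul (N : ℕ) (q : SL(2, ℤ) ⧸ Gamma0 N) (τ : ℍ) :
    jFun ((Quotient.out q)⁻¹ • τ) = jFun τ :=
  jFun_smul _ τ

/-- Holomorphy of a polynomial in `j`. -/
theorem mdiff_eval_jFun (p : Polynomial ℂ) : MDiff (fun τ : ℍ => p.eval (jFun τ)) := by
  induction p using Polynomial.induction_on' with
  | add p q hp hq =>
    have : (fun τ : ℍ => (p + q).eval (jFun τ)) =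
        (fun τ : ℍ => p.eval (jFun τ)) + (fun τ : ℍ => q.eval (jFun τ)) := by
      funext τ; simp
    rw [this]
    exact hp.add hq
  | monomial n a =>
    have : (fun τ : ℍ => (Polynomial.monomial n a).eval (jFun τ)) =
        (fun _ : ℍ => a) * jFun ^ n := by
      funext τ; simp [Polynomial.eval_monomial]
    rw [this]
    exact mdifferentiable_const.mul (mdifferentiable_jFun.pow n)

/-- `SL(2,ℤ) ⧸ Γ₀(N)` is finite. -/
local instance fintypeQuot (N : ℕ) [NeZero N] : Fintype (SL(2, ℤ) ⧸ Gamma0 N) :=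
  Fintype.ofFinite _

/-- The product of the pairwise differences of the translates. -/
def discr (N : ℕ) [NeZero N] (τ : ℍ) : ℂ :=
  ∏ x ∈ (Finset.univ : Finset (SL(2, ℤ) ⧸ Gamma0 N)).offDiag, (fTr N x.1 τ - fTr N x.2 τ)

theorem discr_ne_zero (N : ℕ) [NeZero N] : (discr N : ℍ → ℂ) ≠ 0 := by
  intro h
  obtain ⟨x, hx, hx0⟩ := exists_eq_zero_of_prod_eq_zero
    (Finset.univ : Finset (SL(2, ℤ) ⧸ Gamma0 N)).offDiag
    (fun x τ => fTr N x.1 τ - fTr N x.2 τ)
    (fun x _ => (mdiff_fTr N x.1).sub (mdiff_fTr N x.2)) (fun τ => congrFun h τ)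
  rw [Finset.mem_offDiag] at hx
  apply hx.2.2
  apply fTr_injective N
  funext τ
  have := congrFun hx0 τ
  simpa [sub_eq_zero] using this

/-- **No small relation** (analytic lower-bound input for `[F : K(j)] ≥ μ`): a polynomial relation
`P(j, j_N) = 0` of `X`-degree less than the index `μ = [SL(2,ℤ) : Γ₀(N)]` is trivial. -/
theorem eq_zero_of_relation (N : ℕ) [NeZero N] (P : Polynomial (Polynomial ℂ))
    (hdeg : P.natDegree < Nat.card (SL(2, ℤ) ⧸ Gamma0 N))
    (h : ∀ τ : ℍ, Polynomial.eval (jFun (heckeDiagMatrix N • τ))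
      (P.map (Polynomial.evalRingHom (jFun τ))) = 0) : P = 0 := by
  classical
  -- all translates are roots
  have hroot : ∀ (q : SL(2, ℤ) ⧸ Gamma0 N) (τ : ℍ),
      Polynomial.eval (fTr N q τ) (P.map (Polynomial.evalRingHom (jFun τ))) = 0 := by
    intro q τ
    have := h ((Quotient.out q)⁻¹ • τ)
    rwa [jFun_smul] at this
  -- pointwise: either two translates collide, or the specialised polynomial vanishes
  have hpt : ∀ (i : ℕ) (τ : ℍ), discr N τ * (P.coeff i).eval (jFun τ) = 0 := by
    intro i τ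
    by_cases hinj : Function.Injective (fun q : SL(2, ℤ) ⧸ Gamma0 N => fTr N q τ)
    · have h0 : P.map (Polynomial.evalRingHom (jFun τ)) = 0 := by
        apply Polynomial.eq_zero_of_natDegree_lt_card_of_eval_eq_zero _ hinj (fun q => hroot q τ)
        calc (P.map (Polynomial.evalRingHom (jFun τ))).natDegree ≤ P.natDegree :=
              Polynomial.natDegree_map_le
          _ < Nat.card (SL(2, ℤ) ⧸ Gamma0 N) := hdeg
          _ = Fintype.card (SL(2, ℤ) ⧸ Gamma0 N) := Nat.card_eq_fintype_card
      have h1 := congrArg (fun p => Polynomial.coeff p i) h0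
      simp only [Polynomial.coeff_map, Polynomial.coe_evalRingHom, Polynomial.coeff_zero] at h1
      rw [h1, mul_zero]
    · have : discr N τ = 0 := by
        simp only [Function.Injective, not_forall] at hinj
        obtain ⟨q, q', heq, hne⟩ := hinj
        refine Finset.prod_eq_zero (i := (q, q')) ?_ ?_
        · simp [Finset.mem_offDiag, hne]
        · simpa [sub_eq_zero] using heq
      rw [this, zero_mul]
  -- the coefficients vanish
  ext i : 1
  rw [Polynomial.coeff_zero]
  have hD : MDiff (discr N) :=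
    mdiff_finset_prod _ (fun (x : (SL(2, ℤ) ⧸ Gamma0 N) × (SL(2, ℤ) ⧸ Gamma0 N)) τ =>
      fTr N x.1 τ - fTr N x.2 τ) (fun x _ => (mdiff_fTr N x.1).sub (mdiff_fTr N x.2))
  rcases eq_zero_or_eq_zero_of_mul_eq_zero hD (mdiff_eval_jFun (P.coeff i)) (hpt i) with h1 | h1
  · exact absurd h1 (discr_ne_zero N)
  · apply Polynomial.funext
    intro z
    obtain ⟨τ, rfl⟩ := jFun_surjective z
    simpa using congrFun h1 τ

/-- Coefficient form of `eq_zero_of_relation`. -/
theorem coeff_eq_zero_of_relation (N : ℕ) [NeZero N] (n : ℕ)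
    (hn : n ≤ Nat.card (SL(2, ℤ) ⧸ Gamma0 N)) (c : ℕ → Polynomial ℂ)
    (h : ∀ τ : ℍ, ∑ i ∈ Finset.range n,
      (c i).eval (jFun τ) * jFun (heckeDiagMatrix N • τ) ^ i = 0) :
    ∀ i < n, c i = 0 := by
  intro i hi
  set P : Polynomial (Polynomial ℂ) :=
    ∑ k ∈ Finset.range n, Polynomial.C (c k) * Polynomial.X ^ k with hP
  have hdeg : P.natDegree < Nat.card (SL(2, ℤ) ⧸ Gamma0 N) := by
    refine lt_of_lt_of_le ?_ hn
    have h1 : P.natDegree ≤ n - 1 := by
      apply Polynomial.natDegree_sum_le_of_forall_le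
      intro k hk
      refine (Polynomial.natDegree_C_mul_X_pow_le _ _).trans ?_
      have := Finset.mem_range.1 hk
      omega
    omega
  have h0 : P = 0 := by
    apply eq_zero_of_relation N P hdeg
    intro τ
    rw [hP, Polynomial.map_sum, Polynomial.eval_finsetSum]
    simpa using h τ
  have h2 : P.coeff i = c i := by
    rw [hP, Polynomial.finsetSum_coeff]
    simp only [Polynomial.coeff_C_mul_X_pow]
    rw [Finset.sum_eq_single i]
    · simp
    · intro b _ hb
      rw [if_neg (fun h => hb h.symm)]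
    · intro h
      exact absurd (Finset.mem_range.2 hi) h
  rw [← h2, h0, Polynomial.coeff_zero]

end Fermat.Agent.S24.DegreeLower
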