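import Mathlib
import Fermat.Agent.S24.LevelOnePoly
import Fermat.Agent.S24.Growth

set_option autoImplicit false

open UpperHalfPlane hiding I
open ModularForm EisensteinSeries Filter Complex MatrixGroups Function CongruenceSubgroup
open Matrix.SpecialLinearGroup
open scoped Real Topology Manifold

noncomputable section

namespace Fermat.Agent.S24.DegreeRel

open Fermat.Agent.LevelOne.JBasic Fermat.Agent.S24.LevelOnePoly

local notation "Δ" => ModularForm.discriminant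

/-- holomorphic functions on `ℍ` of moderate growth at `i∞` -/
def modAlg : Subalgebra ℂ (ℍ → ℂ) where
  carrier := {f | MDiff f ∧ ∃ m : ℕ, IsBoundedAtImInfty (fun τ => f τ * Δ τ ^ m)}
  mul_mem' := by
    rintro f g ⟨hf, m, hm⟩ ⟨hg, n, hn⟩
    refine ⟨hf.mul hg, m + n, ?_⟩
    have := hm.mul hn
    refine this.congr' (Eventually.of_forall fun τ => ?_) (EventuallyEq.refl _ _)
    simp only [Pi.mul_apply, pow_add]; ring
  add_mem' := by
    rintro f g ⟨hf, m, hm⟩ ⟨hg, n, hn⟩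
    refine ⟨hf.add hg, m + n, ?_⟩
    have hΔ : IsBoundedAtImInfty (Δ : ℍ → ℂ) := discriminant_isZeroAtImInfty.boundedAtFilter
    have hΔm : ∀ k : ℕ, IsBoundedAtImInfty (fun τ => Δ τ ^ k) := by
      intro k
      induction k with
      | zero =>
        simp only [pow_zero]
        exact const_boundedAtFilter atImInfty (1 : ℂ)
      | succ k ih =>
        have := ih.mul hΔ
        refine this.congr' (Eventually.of_forall fun τ => ?_) (EventuallyEq.refl _ _)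
        simp only [Pi.mul_apply, pow_succ]
    have := (hm.mul (hΔm n)).add (hn.mul (hΔm m))
    refine this.congr' (Eventually.of_forall fun τ => ?_) (EventuallyEq.refl _ _)
    simp only [Pi.add_apply, Pi.mul_apply, pow_add]; ring
  algebraMap_mem' := by
    intro c
    refine ⟨mdifferentiable_const, 0, ?_⟩
    simp only [pow_zero, mul_one]
    exact const_boundedAtFilter atImInfty c

lemma mem_modAlg {f : ℍ → ℂ} :
    f ∈ modAlg ↔ MDiff f ∧ ∃ m : ℕ, IsBoundedAtImInfty (fun τ => f τ * Δ τ ^ m) := Iff.rfl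

variable {N : ℕ} [NeZero N]

/-- translate of `r` attached to a coset -/
def transl (N : ℕ) (r : ℍ → ℂ) (q : SL(2, ℤ) ⧸ Gamma0 N) : ℍ → ℂ :=
  fun τ => r (q.out⁻¹ • τ)

omit [NeZero N] in
lemma transl_mk {r : ℍ → ℂ} (hinv : ∀ γ ∈ Gamma0 N, ∀ τ, r (γ • τ) = r τ) (γ : SL(2, ℤ))
    (τ : ℍ) : transl N r (γ : SL(2, ℤ) ⧸ Gamma0 N) τ = r (γ⁻¹ • τ) := by
  set q : SL(2, ℤ) ⧸ Gamma0 N := (γ : SL(2, ℤ) ⧸ Gamma0 N) with hq
  have h1 : ((q.out : SL(2, ℤ)) : SL(2, ℤ) ⧸ Gamma0 N) = (γ : SL(2, ℤ) ⧸ Gamma0 N) :=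
    QuotientGroup.out_eq' q
  have h2 : q.out⁻¹ * γ ∈ Gamma0 N := QuotientGroup.eq.mp h1
  have h3 : (q.out⁻¹ * γ)⁻¹ ∈ Gamma0 N := (Gamma0 N).inv_mem h2
  have : γ⁻¹ • τ = (q.out⁻¹ * γ)⁻¹ • (q.out⁻¹ • τ) := by
    rw [← mul_smul]; congr 1; group
  rw [this, hinv _ h3]
  rfl

omit [NeZero N] in
lemma transl_smul {r : ℍ → ℂ} (hinv : ∀ γ ∈ Gamma0 N, ∀ τ, r (γ • τ) = r τ) (g : SL(2, ℤ))
    (q : SL(2, ℤ) ⧸ Gamma0 N) (τ : ℍ) : transl N r q (g • τ) = transl N r (g⁻¹ • q) τ := by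
  obtain ⟨γ, rfl⟩ := QuotientGroup.mk_surjective q
  have : g⁻¹ • (γ : SL(2, ℤ) ⧸ Gamma0 N) = ((g⁻¹ * γ : SL(2, ℤ)) : SL(2, ℤ) ⧸ Gamma0 N) := rfl
  rw [this, transl_mk hinv, transl_mk hinv, ← mul_smul]
  congr 1; group

/-- **Monic relation of degree `μ` over `ℂ[j]`** for a `Γ₀(N)`-invariant holomorphic function all
of whose `SL(2,ℤ)`-translates have moderate growth at `i∞`. -/
theorem exists_monic_relation_of (r : ℍ → ℂ)
    (hinv : ∀ γ ∈ Gamma0 N, ∀ τ, r (γ • τ) = r τ)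
    (hmod : ∀ g : SL(2, ℤ), (fun τ => r (g • τ)) ∈ modAlg) :
    ∃ Φ : Polynomial (Polynomial ℂ), Φ.Monic ∧
      Φ.natDegree = Nat.card (SL(2, ℤ) ⧸ Gamma0 N) ∧
      ∀ τ : ℍ, Polynomial.eval (r τ) (Φ.map (Polynomial.evalRingHom (jFun τ))) = 0 := by
  classical
  let _ : Fintype (SL(2, ℤ) ⧸ Gamma0 N) := Fintype.ofFinite _
  set μ := Fintype.card (SL(2, ℤ) ⧸ Gamma0 N) with hμ
  let a : SL(2, ℤ) ⧸ Gamma0 N → modAlg := fun q => ⟨transl N r q, hmod q.out⁻¹⟩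
  let Ψ : Polynomial modAlg := ∏ q, (Polynomial.X - Polynomial.C (a q))
  have hΨmonic : Ψ.Monic := Polynomial.monic_prod_of_monic _ _ fun q _ => Polynomial.monic_X_sub_C _
  have hΨdeg : Ψ.natDegree = μ := by
    rw [Polynomial.natDegree_prod_of_monic _ _ fun q _ => Polynomial.monic_X_sub_C _]
    simp [hμ]
  let ev : ℍ → modAlg →+* ℂ := fun τ =>
    (Pi.evalRingHom (fun _ : ℍ => ℂ) τ).comp (modAlg.val : modAlg →+* (ℍ → ℂ))
  have hev : ∀ τ q, ev τ (a q) = transl N r q τ := fun τ q => rfl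
  have hΨmap : ∀ τ, Ψ.map (ev τ) = ∏ q, (Polynomial.X - Polynomial.C (transl N r q τ)) := by
    intro τ
    simp only [Ψ, Polynomial.map_prod, Polynomial.map_sub, Polynomial.map_X, Polynomial.map_C, hev]
  have hΨinv : ∀ (g : SL(2, ℤ)) τ, Ψ.map (ev (g • τ)) = Ψ.map (ev τ) := by
    intro g τ
    rw [hΨmap, hΨmap]
    simp_rw [transl_smul hinv]
    exact Equiv.prod_comp (MulAction.toPerm (g⁻¹ : SL(2, ℤ)))
      (fun q => Polynomial.X - Polynomial.C (transl N r q τ))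
  -- coefficient functions
  let c : ℕ → ℍ → ℂ := fun i => ((Ψ.coeff i : modAlg) : ℍ → ℂ)
  have hc : ∀ i τ, c i τ = (Ψ.map (ev τ)).coeff i := by
    intro i τ; rw [Polynomial.coeff_map]; rfl
  have hcinv : ∀ i (g : SL(2, ℤ)) τ, c i (g • τ) = c i τ := by
    intro i g τ; rw [hc, hc, hΨinv]
  have hcmem : ∀ i, c i ∈ modAlg := fun i => (Ψ.coeff i).2
  have hP : ∀ i, ∃ P : Polynomial ℂ, ∀ τ, c i τ = P.eval (jFun τ) := by
    intro i
    obtain ⟨hmd, m, hm⟩ := hcmem i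
    obtain ⟨P, -, hP⟩ := exists_polynomial_of_invariant hmd (hcinv i) m hm
    exact ⟨P, hP⟩
  choose P hPc using hP
  set R : Polynomial (Polynomial ℂ) :=
    ∑ i ∈ Finset.range μ, Polynomial.C (P i) * Polynomial.X ^ i with hR
  have hRdeg : R.degree < μ := by
    rw [Polynomial.degree_lt_iff_coeff_zero]
    intro m hm
    rw [hR, Polynomial.finsetSum_coeff]
    refine Finset.sum_eq_zero fun i hi => ?_
    rw [Polynomial.coeff_C_mul_X_pow]
    have : i < μ := Finset.mem_range.mp hi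
    rw [if_neg (by omega)]
  have hnat : (Polynomial.X ^ μ + R).natDegree = μ := by
    have h1 : R.degree < (Polynomial.X ^ μ : Polynomial (Polynomial ℂ)).degree := by
      rw [Polynomial.degree_X_pow]; exact hRdeg
    rw [Polynomial.natDegree_add_eq_left_of_degree_lt h1, Polynomial.natDegree_X_pow]
  refine ⟨Polynomial.X ^ μ + R, Polynomial.monic_X_pow_add hRdeg,
    hnat.trans (by rw [hμ, Nat.card_eq_fintype_card]), ?_⟩
  intro τ
  have hmapmonic : (Ψ.map (ev τ)).Monic := hΨmonic.map _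
  have hmapdeg : (Ψ.map (ev τ)).natDegree = μ := by
    rw [hΨmonic.natDegree_map, hΨdeg]
  have hΦ : (Polynomial.X ^ μ + R).map (Polynomial.evalRingHom (jFun τ)) = Ψ.map (ev τ) := by
    conv_rhs => rw [hmapmonic.as_sum, hmapdeg]
    rw [Polynomial.map_add, Polynomial.map_pow, Polynomial.map_X, hR, Polynomial.map_sum]
    congr 1
    refine Finset.sum_congr rfl fun i _ => ?_
    rw [Polynomial.map_mul, Polynomial.map_C, Polynomial.map_pow, Polynomial.map_X,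
      Polynomial.coe_evalRingHom, ← hPc, hc]
  rw [hΦ, hΨmap, Polynomial.eval_prod]
  refine Finset.prod_eq_zero (Finset.mem_univ ((1 : SL(2, ℤ)) : SL(2, ℤ) ⧸ Gamma0 N)) ?_
  rw [Polynomial.eval_sub, Polynomial.eval_X, Polynomial.eval_C, transl_mk hinv]
  simp

/-- the function `τ ↦ j(dτ)` -/
def jd (d : ℕ) (τ : ℍ) : ℂ := jFun (heckeDiagMatrix d • τ)

/-- the function `τ ↦ P((j(dτ))_{d ∣ N})` -/
def rP (N : ℕ) (P : MvPolynomial {d : ℕ // d ∣ N} ℂ) (τ : ℍ) : ℂ :=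
  MvPolynomial.eval (fun d : {d : ℕ // d ∣ N} => jd d.1 τ) P

lemma jd_comp_mem_modAlg (d : ℕ) [NeZero d] (g : SL(2, ℤ)) :
    (fun τ => jd d (g • τ)) ∈ modAlg :=
  ⟨Fermat.Agent.S24.Growth.mdiff_jFun_comp d g, d,
    Fermat.Agent.S24.Growth.isBoundedAtImInfty_jFun_comp d g⟩

lemma rP_comp_mem_modAlg (P : MvPolynomial {d : ℕ // d ∣ N} ℂ) (g : SL(2, ℤ)) :
    (fun τ => rP N P (g • τ)) ∈ modAlg := by
  have hne : ∀ d : {d : ℕ // d ∣ N}, NeZero d.1 := fun d =>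
    ⟨fun h => NeZero.ne N (by have := d.2; rw [h] at this; exact Nat.eq_zero_of_zero_dvd this)⟩
  let a : {d : ℕ // d ∣ N} → modAlg := fun d =>
    ⟨fun τ => jd d.1 (g • τ), by have := hne d; exact jd_comp_mem_modAlg d.1 g⟩
  have : (fun τ => rP N P (g • τ)) = ((MvPolynomial.aeval a P : modAlg) : ℍ → ℂ) := by
    ext τ
    let ev : modAlg →ₐ[ℂ] ℂ :=
      (Pi.evalAlgHom ℂ (fun _ : ℍ => ℂ) τ).comp modAlg.val
    have h1 : ev (MvPolynomial.aeval a P) = MvPolynomial.aeval (fun d => ev (a d)) P :=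
      MvPolynomial.comp_aeval_apply a ev P
    have h2 : ev (MvPolynomial.aeval a P) = ((MvPolynomial.aeval a P : modAlg) : ℍ → ℂ) τ := rfl
    rw [← h2, h1, rP, MvPolynomial.aeval_eq_eval]
    rfl
  rw [this]
  exact (MvPolynomial.aeval a P).2

omit [NeZero N] in
lemma rP_smul_of_mem_Gamma0 [NeZero N] (P : MvPolynomial {d : ℕ // d ∣ N} ℂ) (γ : SL(2, ℤ))
    (hγ : γ ∈ Gamma0 N) (τ : ℍ) : rP N P (γ • τ) = rP N P τ := by
  have hne : ∀ d : {d : ℕ // d ∣ N}, NeZero d.1 := fun d =>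
    ⟨fun h => NeZero.ne N (by have := d.2; rw [h] at this; exact Nat.eq_zero_of_zero_dvd this)⟩
  have : (fun d : {d : ℕ // d ∣ N} => jd d.1 (γ • τ)) = fun d => jd d.1 τ := by
    funext d
    have := hne d
    exact jFun_heckeDiagMatrix_smul_of_mem_Gamma0 d.2 γ hγ τ
  show MvPolynomial.eval (fun d : {d : ℕ // d ∣ N} => jd d.1 (γ • τ)) P =
    MvPolynomial.eval (fun d : {d : ℕ // d ∣ N} => jd d.1 τ) P
  rw [this]

/-- **Analytic upper bound input for `[F : K(j)] ≤ μ`.** Every polynomial expression in the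
`j(dτ)`, `d ∣ N`, satisfies a monic relation of degree `μ = [SL(2,ℤ) : Γ₀(N)]` over `ℂ[j]`. -/
theorem exists_monic_relation (N : ℕ) [NeZero N] (P : MvPolynomial {d : ℕ // d ∣ N} ℂ) :
    ∃ Φ : Polynomial (Polynomial ℂ), Φ.Monic ∧
      Φ.natDegree = Nat.card (SL(2, ℤ) ⧸ Gamma0 N) ∧
      ∀ τ : ℍ, Polynomial.eval
        (MvPolynomial.eval (fun d : {d : ℕ // d ∣ N} => jFun (heckeDiagMatrix d.1 • τ)) P)
        (Φ.map (Polynomial.evalRingHom (jFun τ))) = 0 :=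
  exists_monic_relation_of (rP N P) (fun γ hγ τ => rP_smul_of_mem_Gamma0 P γ hγ τ)
    (fun g => rP_comp_mem_modAlg P g)

end Fermat.Agent.S24.DegreeRel
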