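/-
S24, slice [LD] (helper6): formal linear disjointness.

`K`-linearly independent Laurent series over `K` stay `L`-linearly independent after the
coefficientwise base change `K((q)) → L((q))`; consequently a polynomial relation between two
Laurent series `j, r ∈ K((q))` with coefficients in `L` yields one with coefficients in `K` of the
same degree in `r`, and (if `j` is transcendental) bounds the degree of `r` over `K(j)`.
-/
import Mathlib
import Fermat.Prelude.Def_ModularCurve_LaurentCoeff

set_option autoImplicit false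

open Polynomial IntermediateField

namespace Fermat.Agent.S24.LinDisjoint

variable {K L : Type*} [Field K] [Field L] [Algebra K L]

/-- (LD0) Abstract linear disjointness through coordinate functionals. -/
theorem linearIndependent_of_coords {V V' I : Type*} [AddCommGroup V] [Module K V]
    [AddCommGroup V'] [Module L V'] (φ : V → V') (c : I → V →ₗ[K] K) (c' : I → V' →ₗ[L] L)
    (hc : ∀ n v, c' n (φ v) = algebraMap K L (c n v))
    (hinj : ∀ v, (∀ n, c n v = 0) → v = 0)
    {ι : Type*} {v : ι → V} (hv : LinearIndependent K v) : LinearIndependent L (φ ∘ v) := by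
  classical
  rw [linearIndependent_iff']
  intro s g hg i hi
  let b := Module.Basis.ofVectorSpace K L
  have key : ∀ k, ∑ i ∈ s, (b.repr (g i) k) • v i = 0 := by
    intro k
    apply hinj
    intro n
    rw [map_sum]
    simp only [map_smul, smul_eq_mul]
    have h1 : ∑ i ∈ s, g i * algebraMap K L (c n (v i)) = 0 := by
      have := congrArg (c' n) hg
      simpa [map_sum, hc] using this
    have h2 : ∑ i ∈ s, (c n (v i)) • g i = 0 := by
      rw [← h1]
      refine Finset.sum_congr rfl fun i _ => ?_
      rw [Algebra.smul_def, mul_comm]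
    have h3 := congrArg (fun x => b.repr x k) h2
    simp only [map_sum, map_smul, Finsupp.coe_finsetSum, Finsupp.coe_smul, Finset.sum_apply,
      Pi.smul_apply, smul_eq_mul, map_zero, Finsupp.coe_zero, Pi.zero_apply] at h3
    rw [← h3]
    exact Finset.sum_congr rfl fun i _ => mul_comm _ _
  have h4 : ∀ k, b.repr (g i) k = 0 := fun k =>
    (linearIndependent_iff'.mp hv) s (fun i => b.repr (g i) k) (key k) i hi
  have h5 : b.repr (g i) = 0 := Finsupp.ext h4
  simpa using h5

/-- Coefficientwise base change of Laurent series along `K → L`. -/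
noncomputable abbrev bc : LaurentSeries K →+* LaurentSeries L :=
  ModularCurve.coeffMap (algebraMap K L)

/-- The `n`-th coefficient as a linear functional. -/
noncomputable def coeffₗ (F : Type*) [Field F] (n : ℤ) : LaurentSeries F →ₗ[F] F where
  toFun x := x.coeff n
  map_add' _ _ := rfl
  map_smul' _ _ := rfl

@[simp] theorem coeffₗ_apply (F : Type*) [Field F] (n : ℤ) (x : LaurentSeries F) :
    coeffₗ F n x = x.coeff n := rfl

/-- (LD1) `K`-linearly independent Laurent series stay `L`-linearly independent. -/
theorem linearIndependent_bc {ι : Type*} {v : ι → LaurentSeries K}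
    (hv : LinearIndependent K v) :
    LinearIndependent L (fun i => (bc (v i) : LaurentSeries L)) :=
  linearIndependent_of_coords (K := K) (L := L) (fun x => (bc x : LaurentSeries L))
    (coeffₗ K) (coeffₗ L) (fun _ _ => rfl) (fun _ h => HahnSeries.ext (funext h)) hv

/-- (LD2) A nontrivial `L`-linear relation between the monomials `j ^ a * r ^ i` (after base
change) gives a nontrivial `K`-linear relation between them. -/
theorem exists_rel_finset (j r : LaurentSeries K) (S : Finset (ℕ × ℕ)) (p : ℕ × ℕ → L)
    (hp : ∃ s ∈ S, p s ≠ 0)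
    (h0 : ∑ s ∈ S, p s • ((bc j : LaurentSeries L) ^ s.1 * (bc r : LaurentSeries L) ^ s.2) = 0) :
    ∃ k : ℕ × ℕ → K, (∃ s ∈ S, k s ≠ 0) ∧ ∑ s ∈ S, k s • (j ^ s.1 * r ^ s.2) = 0 := by
  classical
  by_contra hcon0
  have hcon : ∀ k : ℕ × ℕ → K, (∃ s ∈ S, k s ≠ 0) → ∑ s ∈ S, k s • (j ^ s.1 * r ^ s.2) = 0 →
      False := fun k h1 h2 => hcon0 ⟨k, h1, h2⟩
  -- the monomials indexed by `S` are `K`-linearly independent
  have hind : LinearIndependent K (fun s : S => j ^ s.1.1 * r ^ s.1.2) := by
    rw [Fintype.linearIndependent_iff]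
    intro g hg s
    by_contra hs
    set k : ℕ × ℕ → K := fun t => if ht : t ∈ S then g ⟨t, ht⟩ else 0 with hk
    have h1 : ∃ t ∈ S, k t ≠ 0 := ⟨s.1, s.2, by simpa [hk] using hs⟩
    have h2 : ∑ t ∈ S, k t • (j ^ t.1 * r ^ t.2) = 0 := by
      rw [← Finset.sum_coe_sort S]
      rw [← hg]
      refine Finset.sum_congr rfl fun t _ => ?_
      simp [hk]
    exact hcon k h1 h2
  have hind' := linearIndependent_bc (L := L) hind
  rw [Fintype.linearIndependent_iff] at hind'
  obtain ⟨s, hs, hps⟩ := hp
  refine hps (hind' (fun t : S => p t.1) ?_ ⟨s, hs⟩)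
  rw [← h0, ← Finset.sum_coe_sort S]
  refine Finset.sum_congr rfl fun t _ => ?_
  simp only [map_mul, map_pow]

/-- The module scalar action on Laurent series agrees with the algebra one. -/
theorem smul_eq_algebraMap_mul {F : Type*} [Field F] (c : F) (x : LaurentSeries F) :
    c • x = algebraMap F (LaurentSeries F) c * x := by
  rw [ModularCurve.algebraMap_laurentSeries_eq_single]
  exact HahnSeries.single_zero_mul_eq_smul.symm

/-- Expansion of a bivariate evaluation as a double sum over a box. -/
theorem eval₂_aeval_eq_sum {F : Type*} [Field F] (x y : LaurentSeries F)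
    (P : Polynomial (Polynomial F)) (A : ℕ) (hA : ∀ i, (P.coeff i).natDegree < A) :
    P.eval₂ ((Polynomial.aeval x : Polynomial F →ₐ[F] LaurentSeries F) :
        Polynomial F →+* LaurentSeries F) y =
      ∑ s ∈ Finset.range A ×ˢ Finset.range (P.natDegree + 1),
        ((P.coeff s.2).coeff s.1) • (x ^ s.1 * y ^ s.2) := by
  rw [Polynomial.eval₂_eq_sum_range, Finset.sum_product_right]
  refine Finset.sum_congr rfl fun i _ => ?_
  rw [RingHom.coe_coe, Polynomial.aeval_eq_sum_range' (hA i), Finset.sum_mul]
  refine Finset.sum_congr rfl fun a _ => ?_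
  rw [Algebra.smul_def, smul_eq_algebraMap_mul, mul_assoc]

/-- (LD3) A nonzero bivariate relation with coefficients in `L` between (the base changes of)
`j, r ∈ K((q))` gives a nonzero bivariate relation with coefficients in `K`, of no larger degree
in the outer variable. -/
theorem exists_rel_over_base (j r : LaurentSeries K) (P : Polynomial (Polynomial L)) (hP : P ≠ 0)
    (h0 : P.eval₂ ((Polynomial.aeval (bc j : LaurentSeries L) :
        Polynomial L →ₐ[L] LaurentSeries L) : Polynomial L →+* LaurentSeries L)
        (bc r : LaurentSeries L) = 0) :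
    ∃ Q : Polynomial (Polynomial K), Q ≠ 0 ∧ Q.natDegree ≤ P.natDegree ∧
      Q.eval₂ ((Polynomial.aeval j : Polynomial K →ₐ[K] LaurentSeries K) :
        Polynomial K →+* LaurentSeries K) r = 0 := by
  classical
  -- a bound for the inner degrees
  set A : ℕ := (Finset.range (P.natDegree + 1)).sup (fun i => (P.coeff i).natDegree) + 1 with hA
  have hAlt : ∀ i, (P.coeff i).natDegree < A := by
    intro i
    by_cases hi : i ∈ Finset.range (P.natDegree + 1)
    · exact Nat.lt_succ_of_le (Finset.le_sup (f := fun i => (P.coeff i).natDegree) hi)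
    · have : P.coeff i = 0 :=
        Polynomial.coeff_eq_zero_of_natDegree_lt (by simpa using hi)
      rw [this, Polynomial.natDegree_zero]
      exact Nat.succ_pos _
  set S := Finset.range A ×ˢ Finset.range (P.natDegree + 1) with hS
  rw [eval₂_aeval_eq_sum _ _ P A hAlt] at h0
  -- some coefficient is nonzero
  have hp : ∃ s ∈ S, (fun s : ℕ × ℕ => (P.coeff s.2).coeff s.1) s ≠ 0 := by
    obtain ⟨i, hi⟩ : ∃ i, P.coeff i ≠ 0 := by
      by_contra h
      exact hP (Polynomial.ext fun i => by simpa using not_not.mp (not_exists.mp h i))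
    obtain ⟨a, ha⟩ : ∃ a, (P.coeff i).coeff a ≠ 0 := by
      by_contra h
      exact hi (Polynomial.ext fun a => by simpa using not_not.mp (not_exists.mp h a))
    refine ⟨(a, i), ?_, ha⟩
    rw [hS, Finset.mem_product, Finset.mem_range, Finset.mem_range]
    refine ⟨lt_of_le_of_lt (Polynomial.le_natDegree_of_ne_zero ha) (hAlt i), ?_⟩
    exact Nat.lt_succ_of_le (Polynomial.le_natDegree_of_ne_zero hi)
  obtain ⟨k, ⟨s, hs, hks⟩, hk0⟩ := exists_rel_finset j r S _ hp h0
  -- build `Q`
  set Q : Polynomial (Polynomial K) := ∑ i ∈ Finset.range (P.natDegree + 1),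
    Polynomial.monomial i (∑ a ∈ Finset.range A, Polynomial.monomial a (k (a, i))) with hQ
  have hQcoeff : ∀ a i, a < A → i < P.natDegree + 1 → (Q.coeff i).coeff a = k (a, i) := by
    intro a i ha hi
    rw [hQ, Polynomial.finsetSum_coeff]
    simp only [Polynomial.coeff_monomial]
    rw [Finset.sum_eq_single i (fun b _ hb => by rw [if_neg hb])
      (fun h => absurd (Finset.mem_range.mpr hi) h), if_pos rfl, Polynomial.finsetSum_coeff]
    simp only [Polynomial.coeff_monomial]
    rw [Finset.sum_eq_single a (fun b _ hb => by rw [if_neg hb])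
      (fun h => absurd (Finset.mem_range.mpr ha) h), if_pos rfl]
  have hQdeg : Q.natDegree ≤ P.natDegree := by
    rw [hQ]
    refine Polynomial.natDegree_sum_le_of_forall_le _ _ fun i hi => ?_
    exact (Polynomial.natDegree_monomial_le _).trans (Nat.lt_succ_iff.mp (Finset.mem_range.mp hi))
  have hQA : ∀ i, (Q.coeff i).natDegree < A := by
    intro i
    have hle : (Q.coeff i).natDegree ≤ A - 1 := by
      rw [hQ, Polynomial.finsetSum_coeff]
      simp only [Polynomial.coeff_monomial]
      refine Polynomial.natDegree_sum_le_of_forall_le _ _ fun b _ => ?_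
      split_ifs
      · refine Polynomial.natDegree_sum_le_of_forall_le _ _ fun a ha => ?_
        exact (Polynomial.natDegree_monomial_le _).trans
          (Nat.le_sub_one_of_lt (Finset.mem_range.mp ha))
      · simp
    have hApos : 0 < A := by rw [hA]; exact Nat.succ_pos _
    omega
  refine ⟨Q, ?_, hQdeg, ?_⟩
  · intro hQ0
    rw [hS, Finset.mem_product, Finset.mem_range, Finset.mem_range] at hs
    have := hQcoeff s.1 s.2 hs.1 hs.2
    rw [hQ0] at this
    simp only [Polynomial.coeff_zero] at this
    exact hks this.symm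
  · rw [eval₂_aeval_eq_sum _ _ Q A hQA]
    have hsub : Finset.range A ×ˢ Finset.range (Q.natDegree + 1) ⊆ S := by
      rw [hS]
      exact Finset.product_subset_product (Finset.Subset.refl _)
        (Finset.range_mono (Nat.succ_le_succ hQdeg))
    rw [Finset.sum_subset hsub]
    · rw [← hk0]
      refine Finset.sum_congr rfl fun t ht => ?_
      rw [hS, Finset.mem_product, Finset.mem_range, Finset.mem_range] at ht
      rw [hQcoeff t.1 t.2 ht.1 ht.2]
    · intro t _ htn
      have : Q.coeff t.2 = 0 := by
        apply Polynomial.coeff_eq_zero_of_natDegree_lt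
        by_contra hlt
        apply htn
        rw [Finset.mem_product, Finset.mem_range, Finset.mem_range]
        rw [hS, Finset.mem_product, Finset.mem_range, Finset.mem_range] at *
        exact ⟨‹_ ∧ _›.1, Nat.lt_succ_of_le (not_lt.mp hlt)⟩
      rw [this]
      simp

/-- A bivariate relation over `K` for `j, r`, with `j` transcendental, makes `r` algebraic over
`K(j)` of degree at most the outer degree. -/
theorem isAlgebraic_of_rel (j r : LaurentSeries K) (hj : Transcendental K j)
    (Q : Polynomial (Polynomial K)) (hQ : Q ≠ 0)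
    (h0 : Q.eval₂ ((Polynomial.aeval j : Polynomial K →ₐ[K] LaurentSeries K) :
        Polynomial K →+* LaurentSeries K) r = 0) :
    IsAlgebraic K⟮j⟯ r ∧ (minpoly K⟮j⟯ r).natDegree ≤ Q.natDegree := by
  set g : K⟮j⟯ := AdjoinSimple.gen K j with hg
  set φ : Polynomial K →+* K⟮j⟯ := ((Polynomial.aeval g : Polynomial K →ₐ[K] K⟮j⟯) :
    Polynomial K →+* K⟮j⟯) with hφ
  have hcomp : (algebraMap K⟮j⟯ (LaurentSeries K)).comp φ =
      ((Polynomial.aeval j : Polynomial K →ₐ[K] LaurentSeries K) :
        Polynomial K →+* LaurentSeries K) := by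
    refine RingHom.ext fun p => ?_
    have := Polynomial.aeval_algebraMap_apply (A := K⟮j⟯) (LaurentSeries K) g p
    rw [AdjoinSimple.algebraMap_gen] at this
    exact this.symm
  have hinj : Function.Injective φ := by
    rw [injective_iff_map_eq_zero]
    intro p hp
    have h1 : (algebraMap K⟮j⟯ (LaurentSeries K)) (φ p) = 0 := by rw [hp, map_zero]
    have h2 : Polynomial.aeval j p = 0 := by
      rw [← RingHom.comp_apply, hcomp] at h1
      exact h1
    by_contra hne
    exact hj ⟨p, hne, h2⟩
  set q : Polynomial K⟮j⟯ := Q.map φ with hq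
  have hq0 : q ≠ 0 := fun h => hQ (Polynomial.map_injective φ hinj (by rw [← hq, h, Polynomial.map_zero]))
  have hqr : Polynomial.aeval r q = 0 := by
    rw [Polynomial.aeval_def, hq, Polynomial.eval₂_map, hcomp]
    exact h0
  refine ⟨⟨q, hq0, hqr⟩, ?_⟩
  have h3 := minpoly.degree_le_of_ne_zero K⟮j⟯ r hq0 hqr
  exact (Polynomial.natDegree_le_natDegree h3).trans (Polynomial.natDegree_map_le)

/-- (LD4) Consumer form: a nonzero bivariate relation over `L` between the base changes of
`j, r ∈ K((q))`, with `j` transcendental over `K`, bounds the degree of `r` over `K(j)`. -/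
theorem natDegree_minpoly_le_of_rel (j r : LaurentSeries K) (hj : Transcendental K j)
    (P : Polynomial (Polynomial L)) (hP : P ≠ 0)
    (h0 : P.eval₂ ((Polynomial.aeval (bc j : LaurentSeries L) :
        Polynomial L →ₐ[L] LaurentSeries L) : Polynomial L →+* LaurentSeries L)
        (bc r : LaurentSeries L) = 0) :
    IsAlgebraic K⟮j⟯ r ∧ (minpoly K⟮j⟯ r).natDegree ≤ P.natDegree := by
  obtain ⟨Q, hQ0, hQdeg, hQr⟩ := exists_rel_over_base j r P hP h0
  obtain ⟨h1, h2⟩ := isAlgebraic_of_rel j r hj Q hQ0 hQr
  exact ⟨h1, h2.trans hQdeg⟩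

/-- (LD4') The same as a bound on the degree of the simple extension `K(j)(r) / K(j)`. -/
theorem finrank_adjoin_le (j r : LaurentSeries K) (hj : Transcendental K j)
    (P : Polynomial (Polynomial L)) (hP : P ≠ 0)
    (h0 : P.eval₂ ((Polynomial.aeval (bc j : LaurentSeries L) :
        Polynomial L →ₐ[L] LaurentSeries L) : Polynomial L →+* LaurentSeries L)
        (bc r : LaurentSeries L) = 0) :
    Module.finrank K⟮j⟯ (K⟮j⟯)⟮r⟯ ≤ P.natDegree := by
  obtain ⟨h1, h2⟩ := natDegree_minpoly_le_of_rel j r hj P hP h0
  rw [IntermediateField.adjoin.finrank h1.isIntegral]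
  exact h2

/-- A Laurent series with a nonzero coefficient in negative degree is transcendental over the
coefficient field (power series are integrally closed in Laurent series). -/
theorem transcendental_of_coeff_neg (x : LaurentSeries K) {n : ℤ} (hn : n < 0)
    (hx : x.coeff n ≠ 0) : Transcendental K x := by
  intro halg
  have : @IsScalarTower K (PowerSeries K) (LaurentSeries K) Algebra.toSMul Algebra.toSMul
      Algebra.toSMul :=
    IsScalarTower.of_algebraMap_eq (R := K) (S := PowerSeries K) (A := LaurentSeries K)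
      fun _ => rfl
  have h1 : IsIntegral K x := halg.isIntegral
  have h2 : IsIntegral (PowerSeries K) x := h1.tower_top
  obtain ⟨y, hy⟩ := (IsIntegrallyClosed.isIntegral_iff (R := PowerSeries K)
    (K := LaurentSeries K)).mp h2
  apply hx
  rw [← hy]
  show (HahnSeries.ofPowerSeries ℤ K y).coeff n = 0
  rw [HahnSeries.ofPowerSeries_apply]
  refine HahnSeries.embDomain_of_notMem_range ?_
  rintro ⟨m, rfl⟩
  exact absurd hn (not_lt.mpr (Int.natCast_nonneg m))

/-! ### Variants for a ring homomorphism `ι : K →+* L` instead of an `Algebra K L` instance -/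

section RingHomVariants

variable {K' L' : Type*} [Field K'] [Field L'] (ι : K' →+* L')

/-- (LD1') `K`-linearly independent Laurent series stay `L`-linearly independent after
`coeffMap ι`. -/
theorem linearIndependent_coeffMap {κ : Type*} {v : κ → LaurentSeries K'}
    (hv : LinearIndependent K' v) :
    LinearIndependent L' (fun i => (ModularCurve.coeffMap ι (v i) : LaurentSeries L')) := by
  let _ : Algebra K' L' := ι.toAlgebra
  exact linearIndependent_bc hv

/-- (LD3') -/
theorem exists_rel_over_base' (j r : LaurentSeries K') (P : Polynomial (Polynomial L'))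
    (hP : P ≠ 0)
    (h0 : P.eval₂ ((Polynomial.aeval (ModularCurve.coeffMap ι j : LaurentSeries L') :
        Polynomial L' →ₐ[L'] LaurentSeries L') : Polynomial L' →+* LaurentSeries L')
        (ModularCurve.coeffMap ι r : LaurentSeries L') = 0) :
    ∃ Q : Polynomial (Polynomial K'), Q ≠ 0 ∧ Q.natDegree ≤ P.natDegree ∧
      Q.eval₂ ((Polynomial.aeval j : Polynomial K' →ₐ[K'] LaurentSeries K') :
        Polynomial K' →+* LaurentSeries K') r = 0 := by
  let _ : Algebra K' L' := ι.toAlgebra
  exact exists_rel_over_base j r P hP h0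

/-- (LD4') -/
theorem natDegree_minpoly_le_of_rel' (j r : LaurentSeries K') (hj : Transcendental K' j)
    (P : Polynomial (Polynomial L')) (hP : P ≠ 0)
    (h0 : P.eval₂ ((Polynomial.aeval (ModularCurve.coeffMap ι j : LaurentSeries L') :
        Polynomial L' →ₐ[L'] LaurentSeries L') : Polynomial L' →+* LaurentSeries L')
        (ModularCurve.coeffMap ι r : LaurentSeries L') = 0) :
    IsAlgebraic K'⟮j⟯ r ∧ (minpoly K'⟮j⟯ r).natDegree ≤ P.natDegree := by
  let _ : Algebra K' L' := ι.toAlgebra
  exact natDegree_minpoly_le_of_rel j r hj P hP h0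

theorem finrank_adjoin_le' (j r : LaurentSeries K') (hj : Transcendental K' j)
    (P : Polynomial (Polynomial L')) (hP : P ≠ 0)
    (h0 : P.eval₂ ((Polynomial.aeval (ModularCurve.coeffMap ι j : LaurentSeries L') :
        Polynomial L' →ₐ[L'] LaurentSeries L') : Polynomial L' →+* LaurentSeries L')
        (ModularCurve.coeffMap ι r : LaurentSeries L') = 0) :
    Module.finrank K'⟮j⟯ (K'⟮j⟯)⟮r⟯ ≤ P.natDegree := by
  let _ : Algebra K' L' := ι.toAlgebra
  exact finrank_adjoin_le j r hj P hP h0

end RingHomVariants

end Fermat.Agent.S24.LinDisjoint
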