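import Mathlib
import Fermat.Prelude.Def_ModularCurve_X0

/-!
# S24: the bridge between formal and analytic `q`-expansions

The prelude function field of `X₀(N)` lives inside formal Laurent series, with
`jq = q⁻¹ * eisenstein4 ^ 3 / etaProd ^ 24` a *formal* object.  Here we show that the analytic
`q`-expansions of `E₄` and `Δ` (Mathlib) are the images of the formal series `eisenstein4` and
`X * dedekindEtaUnit`.
-/

set_option autoImplicit false

noncomputable section

namespace Fermat.Agent.S24.QBridge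

open UpperHalfPlane ModularForm Filter Topology PowerSeries
open scoped MatrixGroups ModularForm Manifold

/-! ### Taylor series at `0` as a formal power series -/

/-- The Taylor series at `0` of a function `ℂ → ℂ`. -/
def taylor (f : ℂ → ℂ) : PowerSeries ℂ :=
  PowerSeries.mk fun m => ((m.factorial : ℂ))⁻¹ * iteratedDeriv m f 0

@[simp] theorem coeff_taylor (f : ℂ → ℂ) (m : ℕ) :
    (taylor f).coeff m = ((m.factorial : ℂ))⁻¹ * iteratedDeriv m f 0 := by
  simp [taylor]

theorem taylor_congr {f g : ℂ → ℂ} (h : f =ᶠ[𝓝 0] g) : taylor f = taylor g := by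
  ext m
  rw [coeff_taylor, coeff_taylor, h.iteratedDeriv_eq m]

theorem taylor_mul {f g : ℂ → ℂ} (hf : AnalyticAt ℂ f 0) (hg : AnalyticAt ℂ g 0) :
    taylor (f * g) = taylor f * taylor g := by
  ext n
  simp only [coeff_taylor, iteratedDeriv_mul hf.contDiffAt hg.contDiffAt, Finset.mul_sum,
    PowerSeries.coeff_mul, Finset.Nat.sum_antidiagonal_eq_sum_range_succ_mk, Nat.succ_eq_add_one]
  refine Finset.sum_congr rfl fun i hi ↦ ?_
  rw [Nat.cast_choose _ (by grind)]
  field_simp [Nat.factorial_ne_zero]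

theorem taylor_one : taylor (1 : ℂ → ℂ) = 1 := by
  ext m
  have h2 : iteratedDeriv m (1 : ℂ → ℂ) 0 = if m = 0 then 1 else 0 := by
    simpa [ite_apply] using! iteratedDeriv_const
  simp +contextual [h2]

theorem taylor_pow {f : ℂ → ℂ} (hf : AnalyticAt ℂ f 0) (n : ℕ) :
    taylor (f ^ n) = taylor f ^ n := by
  induction n with
  | zero => simpa using taylor_one
  | succ n ih =>
    rw [pow_succ, pow_succ, taylor_mul (hf.pow n) hf, ih]

theorem iteratedDeriv_polynomial (P : Polynomial ℂ) (m : ℕ) :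
    iteratedDeriv m (fun q => P.eval q) = fun q => (Polynomial.derivative^[m] P).eval q := by
  induction m with
  | zero => simp
  | succ m ih =>
    rw [iteratedDeriv_succ, ih]
    funext q
    rw [Polynomial.deriv, Function.iterate_succ_apply']

theorem taylor_polynomial (P : Polynomial ℂ) :
    taylor (fun q => P.eval q) = (P : PowerSeries ℂ) := by
  ext m
  rw [coeff_taylor, iteratedDeriv_polynomial, Polynomial.coeff_coe]
  show ((m.factorial : ℂ))⁻¹ * (Polynomial.derivative^[m] P).eval 0 = P.coeff m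
  rw [← Polynomial.coeff_zero_eq_eval_zero, Polynomial.coeff_iterate_derivative]
  simp only [zero_add, Nat.descFactorial_self, nsmul_eq_mul]
  field_simp [Nat.factorial_ne_zero]

theorem qExpansion_eq_taylor (f : ℍ → ℂ) : qExpansion 1 f = taylor (cuspFunction 1 f) := by
  ext m
  rw [qExpansion_coeff, coeff_taylor]

/-! ### Taylor coefficients under locally uniform limits -/

theorem tendstoLocallyUniformlyOn_iteratedDeriv {ι : Type*} {φ : Filter ι} {F : ι → ℂ → ℂ}
    {f : ℂ → ℂ} {U : Set ℂ} (hU : IsOpen U) (hf : TendstoLocallyUniformlyOn F f φ U)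
    (hF : ∀ᶠ n in φ, DifferentiableOn ℂ (F n) U) (k : ℕ) :
    TendstoLocallyUniformlyOn (fun n => iteratedDeriv k (F n)) (iteratedDeriv k f) φ U ∧
      ∀ᶠ n in φ, DifferentiableOn ℂ (iteratedDeriv k (F n)) U := by
  induction k with
  | zero => simpa using ⟨hf, hF⟩
  | succ k ih =>
    obtain ⟨h1, h2⟩ := ih
    constructor
    · have := h1.deriv h2 hU
      simpa [iteratedDeriv_succ, Function.comp_def] using this
    · filter_upwards [h2] with n hn
      rw [iteratedDeriv_succ]
      exact hn.deriv hU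

theorem tendsto_coeff_taylor {ι : Type*} {φ : Filter ι} {F : ι → ℂ → ℂ}
    {f : ℂ → ℂ} {U : Set ℂ} (hU : IsOpen U) (h0 : (0 : ℂ) ∈ U)
    (hf : TendstoLocallyUniformlyOn F f φ U)
    (hF : ∀ᶠ n in φ, DifferentiableOn ℂ (F n) U) (k : ℕ) :
    Tendsto (fun n => (taylor (F n)).coeff k) φ (𝓝 ((taylor f).coeff k)) := by
  have h := ((tendstoLocallyUniformlyOn_iteratedDeriv hU hf hF k).1).tendsto_at h0
  simp only [coeff_taylor]
  exact h.const_mul _

/-! ### The Euler product -/

/-- The analytic Euler product `∏ (1 - q ^ (n + 1))`. -/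
def etaFun (q : ℂ) : ℂ := ∏' n : ℕ, (1 - q ^ (n + 1))

open scoped PowerSeries.WithPiTopology in
theorem eventually_coeff_prod_eq (k : ℕ) :
    ∀ᶠ s : Finset ℕ in atTop,
      (∏ i ∈ s, ((1 : PowerSeries ℤ) - X ^ (i + 1))).coeff k = ModularCurve.etaProd.coeff k := by
  have h := (PowerSeries.WithPiTopology.multipliable_one_sub_X_pow ℤ).hasProd
  have h2 : Tendsto (fun s : Finset ℕ => (∏ i ∈ s, ((1 : PowerSeries ℤ) - X ^ (i + 1))).coeff k)
      atTop (𝓝 (ModularCurve.etaProd.coeff k)) :=
    ((PowerSeries.WithPiTopology.continuous_coeff ℤ k).tendsto _).comp h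
  rw [nhds_discrete, tendsto_pure] at h2
  exact h2

theorem taylor_finprod (s : Finset ℕ) :
    taylor (fun q : ℂ => ∏ i ∈ s, (1 - q ^ (i + 1))) =
      (∏ i ∈ s, ((1 : PowerSeries ℤ) - X ^ (i + 1))).map (Int.castRingHom ℂ) := by
  have h1 : (fun q : ℂ => ∏ i ∈ s, (1 - q ^ (i + 1))) =
      fun q => (∏ i ∈ s, ((1 : Polynomial ℂ) - Polynomial.X ^ (i + 1))).eval q := by
    funext q
    simp [Polynomial.eval_prod]
  rw [h1, taylor_polynomial]
  have h2 : ((∏ i ∈ s, ((1 : Polynomial ℂ) - Polynomial.X ^ (i + 1)) : Polynomial ℂ) :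
      PowerSeries ℂ) = ∏ i ∈ s, ((1 : PowerSeries ℂ) - X ^ (i + 1)) := by
    rw [← Polynomial.coeToPowerSeries.ringHom_apply, map_prod]
    simp
  rw [h2, map_prod]
  simp

theorem taylor_etaFun : taylor etaFun = ModularCurve.etaProd.map (Int.castRingHom ℂ) := by
  ext k
  have hTLU : TendstoLocallyUniformlyOn (fun (s : Finset ℕ) (q : ℂ) => ∏ i ∈ s, (1 - q ^ (i + 1)))
      etaFun atTop (Metric.ball (0 : ℂ) 1) := by
    have := ModularForm.multipliableLocallyUniformlyOn_one_sub_pow.hasProdLocallyUniformlyOn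
    rw [hasProdLocallyUniformlyOn_iff_tendstoLocallyUniformlyOn] at this
    exact this
  have hdiff : ∀ᶠ s : Finset ℕ in atTop, DifferentiableOn ℂ
      (fun q : ℂ => ∏ i ∈ s, (1 - q ^ (i + 1))) (Metric.ball (0 : ℂ) 1) :=
    .of_forall fun s => by fun_prop
  have h1 := tendsto_coeff_taylor Metric.isOpen_ball (Metric.mem_ball_self one_pos) hTLU hdiff k
  have h2 : ∀ᶠ s : Finset ℕ in atTop,
      (taylor (fun q : ℂ => ∏ i ∈ s, (1 - q ^ (i + 1)))).coeff k =
        ((ModularCurve.etaProd.coeff k : ℤ) : ℂ) := by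
    filter_upwards [eventually_coeff_prod_eq k] with s hs
    rw [taylor_finprod, PowerSeries.coeff_map, hs]
    rfl
  have h3 := tendsto_nhds_unique h1 (tendsto_const_nhds.congr' (EventuallyEq.symm h2))
  rw [h3, PowerSeries.coeff_map]
  rfl

theorem taylor_id : taylor (fun q : ℂ => q) = X := by
  have h := taylor_polynomial (Polynomial.X : Polynomial ℂ)
  simpa using h

theorem differentiableOn_etaFun : DifferentiableOn ℂ etaFun (Metric.ball (0 : ℂ) 1) :=
  ModularForm.differentiableOn_tprod_one_sub_pow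

theorem analyticAt_etaFun : AnalyticAt ℂ etaFun 0 :=
  differentiableOn_etaFun.analyticAt (Metric.ball_mem_nhds _ one_pos)

/-- (Br2) The `q`-expansion of `Δ` is the formal series `X * etaProd ^ 24`. -/
theorem qExpansion_discriminant :
    qExpansion 1 ModularForm.discriminant =
      X * ModularCurve.dedekindEtaUnit.map (Int.castRingHom ℂ) := by
  rw [qExpansion_eq_taylor]
  have h1 : cuspFunction 1 ModularForm.discriminant =ᶠ[𝓝 0]
      ((fun q : ℂ => q) * etaFun ^ 24) := by
    filter_upwards [Metric.ball_mem_nhds (0 : ℂ) one_pos] with q hq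
    rw [ModularForm.discriminant_cuspFunction_eqOn hq]
    simp only [Pi.mul_apply, Pi.pow_apply, etaFun]
    rw [(ModularForm.multipliable_one_sub_pow (by simpa using hq)).tprod_pow]
  rw [taylor_congr h1, taylor_mul (by fun_prop) (analyticAt_etaFun.pow 24),
    taylor_pow analyticAt_etaFun, taylor_id, taylor_etaFun, ModularCurve.dedekindEtaUnit, map_pow]

/-- (Br1) The `q`-expansion of `E₄` is the formal series `eisenstein4`. -/
theorem qExpansion_E4 :
    qExpansion 1 E₄ = ModularCurve.eisenstein4.map (Int.castRingHom ℂ) := by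
  ext m
  rw [EisensteinSeries.E_qExpansion_coeff (by norm_num) ⟨2, rfl⟩ m, PowerSeries.coeff_map,
    ModularCurve.eisenstein4, PowerSeries.coeff_mk]
  split_ifs with h
  · simp
  · have hb : bernoulli 4 = -1 / 30 := by
      rw [bernoulli, bernoulli'_four]; norm_num
    simp only [hb, ArithmeticFunction.sigma_apply, eq_intCast]
    push_cast
    ring

end Fermat.Agent.S24.QBridge
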