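import Mathlib
import Fermat.Prelude.Def_ModularCurve_X0
import Fermat.Prelude.Def_ModularCurve_LaurentCoeff
import Fermat.Prelude.Def_ModularForm_HeckeOperator
import Fermat.Prelude.Thm_ModularCurve_coeffMap_qExpand
import Fermat.Agent.S24.QBridge
import Fermat.Agent.LevelOne.JBasic

/-!
# S24: the `q`-expansion bridge, part 2 (Br3, Br4)

* `IsQ F`: `F : ℍ → ℂ` is a holomorphic function of `q = exp(2πiτ)` on the unit disc
  (1-periodic, holomorphic, bounded at `i∞`); closed under `+`, `*`, dilations `τ ↦ dτ`;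
  `IsQ.qExpansion_eq_mk` (uniqueness of `q`-expansions for plain functions).
* `dil d F τ = F(dτ)` and `ofPowerSeries_qExpansion_dil`:
  `qExpansion (dil d F) = qExpand d (qExpansion F)`.
* `Rep F g`: `F = q^{-m} · (holomorphic in q)` with Laurent series `g`; closed under `+`, `*`,
  constants; `Rep.eq_zero_iff : g = 0 ↔ F = 0`.
* (Br3) `qExpansion_J1 : qExpansion 1 (jFun · q) = jNum`, `rep_jFun_dil d : Rep (jFun(d·)) (j(q^d))`.
* (Br4-ℂ) `eval_eq_zero_iff`: a polynomial relation between the `jFun(dτ)` holds on `ℍ` iff it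
  holds between the formal Laurent series `qExpand d jq` over `ℂ`.
-/

set_option autoImplicit false
set_option linter.unusedSectionVars false

noncomputable section

namespace Fermat.Agent.S24.QRep

open UpperHalfPlane ModularForm Filter Topology Function
open scoped MatrixGroups ModularForm Manifold

local notation "𝕢" => Periodic.qParam
local notation "Δ" => ModularForm.discriminant

/-- Holomorphic functions of `q = exp(2πiτ)` on the open unit disc, as functions on `ℍ`. -/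
structure IsQ (F : ℍ → ℂ) : Prop where
  per : Periodic (F ∘ ofComplex) 1
  hol : MDiff F
  bdd : IsBoundedAtImInfty F

theorem periodic_of_vadd {F : ℍ → ℂ} (h : ∀ τ : ℍ, F ((1 : ℝ) +ᵥ τ) = F τ) :
    Periodic (F ∘ ofComplex) 1 := by
  intro w
  by_cases hw : 0 < w.im
  · have hw' : 0 < (w + 1).im := by simpa using hw
    simp only [comp_apply, ofComplex_apply_of_im_pos hw', ofComplex_apply_of_im_pos hw]
    rw [← h ⟨w, hw⟩]
    congr 1
    ext
    simp [add_comm]
  · have hw0 : w.im ≤ 0 := not_lt.mp hw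
    have hw' : (w + 1).im ≤ 0 := by simpa using hw0
    simp [ofComplex_apply_of_im_nonpos hw', ofComplex_apply_of_im_nonpos hw0]

namespace IsQ

variable {F G : ℍ → ℂ}

theorem analyticAt (hF : IsQ F) : AnalyticAt ℂ (cuspFunction 1 F) 0 :=
  analyticAt_cuspFunction_zero one_pos hF.per hF.hol hF.bdd

theorem add (hF : IsQ F) (hG : IsQ G) : IsQ (F + G) :=
  ⟨by simpa using hF.per.add hG.per, hF.hol.add hG.hol, hF.bdd.add hG.bdd⟩

theorem mul (hF : IsQ F) (hG : IsQ G) : IsQ (F * G) :=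
  ⟨by simpa using hF.per.mul hG.per, hF.hol.mul hG.hol, hF.bdd.mul hG.bdd⟩

theorem const (c : ℂ) : IsQ (fun _ => c) :=
  ⟨fun _ => rfl, mdifferentiable_const, Filter.const_boundedAtFilter _ c⟩

theorem pow (hF : IsQ F) (n : ℕ) : IsQ (F ^ n) := by
  induction n with
  | zero =>
    rw [pow_zero]
    exact const 1
  | succ n ih =>
    rw [pow_succ]
    exact ih.mul hF

theorem hasSum (hF : IsQ F) (τ : ℍ) :
    HasSum (fun m : ℕ => (qExpansion 1 F).coeff m • 𝕢 1 τ ^ m) (F τ) :=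
  hasSum_qExpansion one_pos hF.per hF.hol hF.bdd τ

theorem qExpansion_eq_zero_iff (hF : IsQ F) : qExpansion 1 F = 0 ↔ F = 0 :=
  UpperHalfPlane.qExpansion_eq_zero_iff one_pos hF.per hF.hol hF.bdd

theorem qExpansion_add (hF : IsQ F) (hG : IsQ G) :
    qExpansion 1 (F + G) = qExpansion 1 F + qExpansion 1 G :=
  UpperHalfPlane.qExpansion_add hF.analyticAt hG.analyticAt

theorem qExpansion_mul (hF : IsQ F) (hG : IsQ G) :
    qExpansion 1 (F * G) = qExpansion 1 F * qExpansion 1 G :=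
  UpperHalfPlane.qExpansion_mul hF.analyticAt hG.analyticAt

theorem qExpansion_pow (hF : IsQ F) (n : ℕ) : qExpansion 1 (F ^ n) = qExpansion 1 F ^ n := by
  induction n with
  | zero => simpa using qExpansion_one 1
  | succ n ih => rw [pow_succ, (hF.pow n).qExpansion_mul hF, ih, pow_succ]

/-- Uniqueness of the `q`-expansion. -/
theorem qExpansion_eq_mk (hF : IsQ F) {c : ℕ → ℂ}
    (h : ∀ τ : ℍ, HasSum (fun m => c m • 𝕢 1 τ ^ m) (F τ)) : qExpansion 1 F = PowerSeries.mk c := by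
  ext m
  rw [PowerSeries.coeff_mk]
  have h1 := (hasFPowerSeriesOnBall_cuspFunction one_pos hF.analyticAt h).hasFPowerSeriesAt
  have h2 : HasFPowerSeriesAt (cuspFunction 1 F)
      (FormalMultilinearSeries.ofScalars ℂ fun m => (qExpansion 1 F).coeff m) 0 := by
    simpa [qExpansion_coeff, div_eq_mul_inv, mul_comm] using hF.analyticAt.hasFPowerSeriesAt
  simpa using congr_arg (FormalMultilinearSeries.coeff · m) (h2.eq_formalMultilinearSeries h1)

end IsQ

theorem isQ_modularForm {k : ℤ} (f : ModularForm 𝒮ℒ k) : IsQ f :=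
  ⟨SlashInvariantFormClass.periodic_comp_ofComplex f one_mem_strictPeriods_SL,
    ModularFormClass.holo f, ModularFormClass.bdd_at_infty f⟩

theorem isQ_discriminant : IsQ Δ :=
  ⟨SlashInvariantFormClass.periodic_comp_ofComplex CuspForm.discriminant one_mem_strictPeriods_SL,
    CuspForm.discriminant.holo', ModularFormClass.bdd_at_infty CuspForm.discriminant⟩

/-! ### The parameter `q` -/

theorem qParam_vadd (τ : ℍ) : 𝕢 1 (((1 : ℝ) +ᵥ τ : ℍ) : ℂ) = 𝕢 1 τ := by
  have : (((1 : ℝ) +ᵥ τ : ℍ) : ℂ) = (τ : ℂ) + 1 := by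
    simp [add_comm]
  rw [this]
  simp only [Periodic.qParam, Complex.ofReal_one, div_one]
  rw [mul_add, mul_one, Complex.exp_add, Complex.exp_two_pi_mul_I, mul_one]

theorem mdiff_qParam : MDiff (fun τ : ℍ => 𝕢 1 τ) := by
  rw [UpperHalfPlane.mdifferentiable_iff]
  have h1 : DifferentiableOn ℂ (fun z : ℂ => 𝕢 1 z) {z | 0 < z.im} :=
    (Periodic.differentiable_qParam).differentiableOn
  refine h1.congr fun z hz => ?_
  simp [comp_apply, ofComplex_apply_of_im_pos hz]

theorem isQ_qParam : IsQ (fun τ : ℍ => 𝕢 1 τ) := by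
  refine ⟨periodic_of_vadd qParam_vadd, mdiff_qParam, ?_⟩
  exact (qParam_tendsto_atImInfty one_pos).isBigO_one ℝ

theorem qExpansion_qParam : qExpansion 1 (fun τ : ℍ => 𝕢 1 τ) = PowerSeries.X := by
  rw [isQ_qParam.qExpansion_eq_mk (c := fun m => if m = 1 then 1 else 0)]
  · ext m
    simp [PowerSeries.coeff_X]
  · intro τ
    have := hasSum_ite_eq (1 : ℕ) (𝕢 1 τ)
    refine this.congr_fun fun m => ?_
    by_cases hm : m = 1
    · subst hm
      simp
    · simp [hm]

theorem qParam_ne_zero (τ : ℍ) : 𝕢 1 τ ≠ 0 := Periodic.qParam_ne_zero _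

/-! ### Dilations `τ ↦ dτ` -/

/-- `F(dτ)`. -/
def dil (d : ℕ) (F : ℍ → ℂ) : ℍ → ℂ := fun τ => F (heckeDiagMatrix d • τ)

theorem dil_eq_slash (d : ℕ) [NeZero d] (F : ℍ → ℂ) : dil d F = F ∣[(1 : ℤ)] heckeDiagMatrix d := by
  ext τ
  rw [slash_heckeDiagMatrix_apply 1 (NeZero.ne d)]
  simp [dil]

theorem qParam_dil (d : ℕ) [NeZero d] (τ : ℍ) :
    𝕢 1 ((heckeDiagMatrix d • τ : ℍ) : ℂ) = 𝕢 1 τ ^ d := by
  rw [coe_heckeDiagMatrix_smul (NeZero.ne d)]
  simp only [Periodic.qParam, ← Complex.exp_nat_mul]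
  congr 1
  push_cast
  ring

theorem dil_vadd (d : ℕ) [NeZero d] {F : ℍ → ℂ} (hF : ∀ τ : ℍ, F ((1 : ℝ) +ᵥ τ) = F τ) (τ : ℍ) :
    dil d F ((1 : ℝ) +ᵥ τ) = dil d F τ := by
  have hn : ∀ (n : ℕ) (τ : ℍ), F (((n : ℝ)) +ᵥ τ) = F τ := by
    intro n
    induction n with
    | zero => intro τ; simp
    | succ n ih =>
      intro τ
      have : (((n + 1 : ℕ) : ℝ)) +ᵥ τ = (1 : ℝ) +ᵥ ((n : ℝ) +ᵥ τ) := by
        ext
        simp
        ring
      rw [this, hF, ih]
  have : heckeDiagMatrix d • ((1 : ℝ) +ᵥ τ) = (d : ℝ) +ᵥ (heckeDiagMatrix d • τ) := by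
    ext
    rw [coe_heckeDiagMatrix_smul (NeZero.ne d)]
    simp [coe_heckeDiagMatrix_smul (NeZero.ne d)]
    ring
  show F (heckeDiagMatrix d • ((1 : ℝ) +ᵥ τ)) = F (heckeDiagMatrix d • τ)
  rw [this, hn]

theorem IsQ.vadd {F : ℍ → ℂ} (hF : IsQ F) (τ : ℍ) : F ((1 : ℝ) +ᵥ τ) = F τ := by
  have h := hF.per (τ : ℂ)
  have h1 : 0 < ((τ : ℂ) + 1).im := by simpa using τ.im_pos
  simp only [comp_apply, ofComplex_apply_of_im_pos h1, ofComplex_apply] at h
  rw [← h]
  congr 1
  ext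
  simp [add_comm]

/-- Coefficients of the dilated series. -/
def dilCoeff (d : ℕ) (p : PowerSeries ℂ) (n : ℕ) : ℂ := if d ∣ n then p.coeff (n / d) else 0

theorem hasSum_dil (d : ℕ) [NeZero d] {F : ℍ → ℂ} (hF : IsQ F) (τ : ℍ) :
    HasSum (fun n => dilCoeff d (qExpansion 1 F) n • 𝕢 1 τ ^ n) (dil d F τ) := by
  have hd : d ≠ 0 := NeZero.ne d
  have h1 := hF.hasSum (heckeDiagMatrix d • τ)
  have hinj : Function.Injective (fun m : ℕ => d * m) :=
    fun a b h => Nat.eq_of_mul_eq_mul_left (Nat.pos_of_ne_zero hd) h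
  have h3 : ((fun n => dilCoeff d (qExpansion 1 F) n • 𝕢 1 τ ^ n) ∘ fun m : ℕ => d * m) =
      fun m => (qExpansion 1 F).coeff m • 𝕢 1 ((heckeDiagMatrix d • τ : ℍ) : ℂ) ^ m := by
    funext m
    simp only [Function.comp, dilCoeff, Nat.mul_div_cancel_left _ (Nat.pos_of_ne_zero hd),
      dvd_mul_right, if_true, qParam_dil, pow_mul]
  rw [← hinj.hasSum_iff, h3]
  · exact h1
  · intro n hn
    have : ¬ d ∣ n := by
      rintro ⟨m, rfl⟩
      exact hn ⟨m, rfl⟩
    simp [dilCoeff, this]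

theorem IsQ.dil {F : ℍ → ℂ} (hF : IsQ F) (d : ℕ) [NeZero d] : IsQ (dil d F) := by
  refine ⟨periodic_of_vadd (dil_vadd d hF.vadd), ?_, ?_⟩
  · rw [dil_eq_slash]
    exact hF.hol.slash _ _
  · exact isBoundedAtImInfty_of_hasSum_qExpansion one_pos (hasSum_dil d hF)

theorem qExpansion_dil {F : ℍ → ℂ} (hF : IsQ F) (d : ℕ) [NeZero d] :
    qExpansion 1 (dil d F) = PowerSeries.mk (dilCoeff d (qExpansion 1 F)) :=
  (hF.dil d).qExpansion_eq_mk (hasSum_dil d hF)

theorem ofPowerSeries_qExpansion_dil {F : ℍ → ℂ} (hF : IsQ F) (d : ℕ) [NeZero d] :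
    HahnSeries.ofPowerSeries ℤ ℂ (qExpansion 1 (dil d F)) =
      ModularCurve.qExpand ℂ d (HahnSeries.ofPowerSeries ℤ ℂ (qExpansion 1 F)) := by
  rw [qExpansion_dil hF]
  ext k
  by_cases hk : (d : ℤ) ∣ k
  · obtain ⟨m, rfl⟩ := hk
    rw [ModularCurve.qExpand_coeff_mul]
    rcases lt_or_ge m 0 with hm | hm
    · have hneg : (d : ℤ) * m < 0 := mul_neg_of_pos_of_neg (by exact_mod_cast Nat.pos_of_ne_zero (NeZero.ne d)) hm
      rw [ModularCurve.ofPowerSeries_coeff_of_neg _ hneg, ModularCurve.ofPowerSeries_coeff_of_neg _ hm]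
    · obtain ⟨n, rfl⟩ := Int.eq_ofNat_of_zero_le hm
      have : (d : ℤ) * (n : ℤ) = ((d * n : ℕ) : ℤ) := by push_cast; ring
      rw [this, HahnSeries.ofPowerSeries_apply_coeff, HahnSeries.ofPowerSeries_apply_coeff,
        PowerSeries.coeff_mk, dilCoeff, if_pos (dvd_mul_right _ _),
        Nat.mul_div_cancel_left _ (Nat.pos_of_ne_zero (NeZero.ne d))]
  · rw [ModularCurve.qExpand_coeff_of_not_dvd _ _ hk]
    rcases lt_or_ge k 0 with hk0 | hk0
    · exact ModularCurve.ofPowerSeries_coeff_of_neg _ hk0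
    · obtain ⟨n, rfl⟩ := Int.eq_ofNat_of_zero_le hk0
      rw [HahnSeries.ofPowerSeries_apply_coeff, PowerSeries.coeff_mk, dilCoeff, if_neg]
      intro h
      exact hk (by exact_mod_cast h)

/-! ### Meromorphic functions of `q`: the relation between a function and its Laurent series -/

/-- `Rep F g`: the function `F` on `ℍ` is `q^{-m}` times a holomorphic function of `q` on the unit
disc, with Laurent expansion `g`. -/
def Rep (F : ℍ → ℂ) (g : LaurentSeries ℂ) : Prop :=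
  ∃ m : ℕ, IsQ (fun τ => F τ * 𝕢 1 τ ^ m) ∧
    HahnSeries.ofPowerSeries ℤ ℂ (qExpansion 1 (fun τ => F τ * 𝕢 1 τ ^ m)) =
      g * HahnSeries.single (m : ℤ) 1

theorem single_natCast_mul (m n : ℕ) :
    (HahnSeries.single (m : ℤ) (1 : ℂ)) * HahnSeries.single (n : ℤ) 1 =
      HahnSeries.single ((m + n : ℕ) : ℤ) 1 := by
  rw [HahnSeries.single_mul_single, one_mul]
  push_cast
  rfl

theorem ofPowerSeries_X_pow (n : ℕ) :
    HahnSeries.ofPowerSeries ℤ ℂ (PowerSeries.X ^ n) = HahnSeries.single (n : ℤ) 1 := by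
  rw [HahnSeries.ofPowerSeries_X_pow]

namespace Rep

variable {F F' : ℍ → ℂ} {g g' : LaurentSeries ℂ}

theorem of_isQ (hF : IsQ F) : Rep F (HahnSeries.ofPowerSeries ℤ ℂ (qExpansion 1 F)) := by
  refine ⟨0, ?_, ?_⟩
  · simpa using hF
  · simp

theorem shift_aux (m n : ℕ) (hF : IsQ (fun τ => F τ * 𝕢 1 τ ^ m))
    (hg : HahnSeries.ofPowerSeries ℤ ℂ (qExpansion 1 (fun τ => F τ * 𝕢 1 τ ^ m)) =
      g * HahnSeries.single (m : ℤ) 1) :
    IsQ (fun τ => F τ * 𝕢 1 τ ^ (m + n)) ∧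
    HahnSeries.ofPowerSeries ℤ ℂ (qExpansion 1 (fun τ => F τ * 𝕢 1 τ ^ (m + n))) =
      g * HahnSeries.single ((m + n : ℕ) : ℤ) 1 := by
  have h1 : (fun τ : ℍ => F τ * 𝕢 1 τ ^ (m + n)) =
      (fun τ => F τ * 𝕢 1 τ ^ m) * (fun τ : ℍ => 𝕢 1 τ) ^ n := by
    ext τ
    simp only [Pi.mul_apply, Pi.pow_apply, pow_add]
    ring
  have hq := isQ_qParam.pow n
  rw [h1]
  refine ⟨hF.mul hq, ?_⟩
  rw [hF.qExpansion_mul hq, isQ_qParam.qExpansion_pow, qExpansion_qParam, map_mul, hg,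
    ofPowerSeries_X_pow, mul_assoc, single_natCast_mul]

theorem const (c : ℂ) : Rep (fun _ => c) (HahnSeries.C c) := by
  refine ⟨0, ?_, ?_⟩
  · simpa using IsQ.const c
  · have h1 : (fun _ : ℍ => c * 𝕢 1 (0 : ℂ) ^ 0) = c • (1 : ℍ → ℂ) := by
      ext τ
      simp
    have h2 : (fun τ : ℍ => c * 𝕢 1 (τ : ℂ) ^ 0) = c • (1 : ℍ → ℂ) := by
      ext τ
      simp
    have han : AnalyticAt ℂ (cuspFunction 1 (1 : ℍ → ℂ)) 0 := by
      have := (IsQ.const 1).analyticAt
      exact this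
    rw [h2, qExpansion_smul han, qExpansion_one]
    simp only [Nat.cast_zero, HahnSeries.single_zero_one, mul_one]
    rw [show c • (1 : PowerSeries ℂ) = PowerSeries.C c by
      ext n; simp [PowerSeries.coeff_one, PowerSeries.coeff_C]]
    exact HahnSeries.ofPowerSeries_C c

theorem add (h : Rep F g) (h' : Rep F' g') : Rep (F + F') (g + g') := by
  obtain ⟨m, hF, hg⟩ := h
  obtain ⟨m', hF', hg'⟩ := h'
  obtain ⟨h1, h2⟩ := shift_aux m m' hF hg
  obtain ⟨h1', h2'⟩ := shift_aux m' m hF' hg'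
  rw [Nat.add_comm m' m] at h1' h2'
  refine ⟨m + m', ?_, ?_⟩
  · have : (fun τ : ℍ => (F + F') τ * 𝕢 1 τ ^ (m + m')) =
        (fun τ => F τ * 𝕢 1 τ ^ (m + m')) + (fun τ => F' τ * 𝕢 1 τ ^ (m + m')) := by
      ext τ
      simp only [Pi.add_apply]
      ring
    rw [this]
    exact h1.add h1'
  · have : (fun τ : ℍ => (F + F') τ * 𝕢 1 τ ^ (m + m')) =
        (fun τ => F τ * 𝕢 1 τ ^ (m + m')) + (fun τ => F' τ * 𝕢 1 τ ^ (m + m')) := by
      ext τ
      simp only [Pi.add_apply]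
      ring
    rw [this, h1.qExpansion_add h1', map_add, h2, h2', add_mul]

theorem mul (h : Rep F g) (h' : Rep F' g') : Rep (F * F') (g * g') := by
  obtain ⟨m, hF, hg⟩ := h
  obtain ⟨m', hF', hg'⟩ := h'
  have : (fun τ : ℍ => (F * F') τ * 𝕢 1 τ ^ (m + m')) =
      (fun τ => F τ * 𝕢 1 τ ^ m) * (fun τ => F' τ * 𝕢 1 τ ^ m') := by
    ext τ
    simp only [Pi.mul_apply, pow_add]
    ring
  refine ⟨m + m', ?_, ?_⟩
  · rw [this]
    exact hF.mul hF'
  · rw [this, hF.qExpansion_mul hF', map_mul, hg, hg', ← single_natCast_mul]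
    ring

/-- A function is zero iff its Laurent series is. -/
theorem eq_zero_iff (h : Rep F g) : g = 0 ↔ F = 0 := by
  obtain ⟨m, hF, hg⟩ := h
  have hs : HahnSeries.single (m : ℤ) (1 : ℂ) ≠ 0 := HahnSeries.single_ne_zero one_ne_zero
  constructor
  · intro h0
    rw [h0, zero_mul] at hg
    have h1 : qExpansion 1 (fun τ => F τ * 𝕢 1 τ ^ m) = 0 := by
      apply HahnSeries.ofPowerSeries_injective (Γ := ℤ) (R := ℂ)
      rw [hg, map_zero]
    have h2 := hF.qExpansion_eq_zero_iff.mp h1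
    ext τ
    have h3 := congrFun h2 τ
    simp only [Pi.zero_apply, mul_eq_zero] at h3
    exact h3.resolve_right (pow_ne_zero _ (qParam_ne_zero τ))
  · intro h0
    have h1 : (fun τ : ℍ => F τ * 𝕢 1 τ ^ m) = 0 := by
      ext τ
      simp [h0]
    rw [h1, qExpansion_zero, map_zero] at hg
    exact (mul_eq_zero.mp hg.symm).resolve_right hs

end Rep

/-! ### The `j`-function -/

open Fermat.Agent.LevelOne.JBasic

/-- `U = q / Δ`, a unit of the ring of holomorphic functions of `q`. -/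
def Ufun : ℍ → ℂ := fun τ => 𝕢 1 τ / Δ τ

theorem Ufun_eq (τ : ℍ) : Ufun τ = (∏' n : ℕ, (1 - eta_q n τ) ^ 24)⁻¹ := by
  rw [Ufun, discriminant_eq_q_prod, div_mul_cancel_left₀ (qParam_ne_zero τ)]

theorem isQ_Ufun : IsQ Ufun := by
  refine ⟨periodic_of_vadd fun τ => ?_, ?_, ?_⟩
  · rw [Ufun, Ufun, qParam_vadd, isQ_discriminant.vadd]
  · exact mdiff_qParam.div CuspForm.discriminant.holo' discriminant_ne_zero
  · have h1 : Tendsto Ufun atImInfty (𝓝 (1 : ℂ)⁻¹) := by
      have := tendsto_atImInfty_tprod_one_sub_eta_q_pow.inv₀ one_ne_zero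
      refine this.congr fun τ => ?_
      rw [Ufun_eq]
    exact h1.isBigO_one ℝ

theorem Ufun_mul_discriminant : Ufun * Δ = fun τ : ℍ => 𝕢 1 τ := by
  ext τ
  simp only [Pi.mul_apply, Ufun]
  exact div_mul_cancel₀ _ (discriminant_ne_zero τ)

theorem map_etaUnit_mul_inv :
    ModularCurve.dedekindEtaUnit.map (Int.castRingHom ℂ) *
      ModularCurve.dedekindEtaUnitInv.map (Int.castRingHom ℂ) = 1 := by
  rw [← map_mul, ModularCurve.dedekindEtaUnit_mul_inv, map_one]

theorem qExpansion_Ufun :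
    qExpansion 1 Ufun = ModularCurve.dedekindEtaUnitInv.map (Int.castRingHom ℂ) := by
  have h1 := isQ_Ufun.qExpansion_mul isQ_discriminant
  rw [Ufun_mul_discriminant, qExpansion_qParam, QBridge.qExpansion_discriminant] at h1
  have h2 : qExpansion 1 Ufun * ModularCurve.dedekindEtaUnit.map (Int.castRingHom ℂ) = 1 := by
    apply mul_left_cancel₀ (PowerSeries.X_ne_zero (R := ℂ))
    rw [mul_one]
    calc PowerSeries.X * (qExpansion 1 Ufun * ModularCurve.dedekindEtaUnit.map (Int.castRingHom ℂ))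
        = qExpansion 1 Ufun *
            (PowerSeries.X * ModularCurve.dedekindEtaUnit.map (Int.castRingHom ℂ)) := by ring
      _ = PowerSeries.X := h1.symm
  calc qExpansion 1 Ufun
      = qExpansion 1 Ufun * (ModularCurve.dedekindEtaUnit.map (Int.castRingHom ℂ) *
          ModularCurve.dedekindEtaUnitInv.map (Int.castRingHom ℂ)) := by
        rw [map_etaUnit_mul_inv, mul_one]
    _ = ModularCurve.dedekindEtaUnitInv.map (Int.castRingHom ℂ) := by
        rw [← mul_assoc, h2, one_mul]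

/-- `jFun · q`, a holomorphic function of `q`. -/
def J1 : ℍ → ℂ := fun τ => jFun τ * 𝕢 1 τ

theorem J1_eq : J1 = (⇑E₄) ^ 3 * Ufun := by
  ext τ
  simp only [J1, jFun, Pi.mul_apply, Pi.pow_apply, Ufun]
  ring

theorem isQ_J1 : IsQ J1 := by
  rw [J1_eq]
  exact ((isQ_modularForm E₄).pow 3).mul isQ_Ufun

/-- (Br3) The `q`-expansion of `jFun · q` is the formal series `jNum`. -/
theorem qExpansion_J1 : qExpansion 1 J1 = ModularCurve.jNum.map (Int.castRingHom ℂ) := by
  rw [J1_eq, ((isQ_modularForm E₄).pow 3).qExpansion_mul isQ_Ufun,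
    (isQ_modularForm E₄).qExpansion_pow, QBridge.qExpansion_E4, qExpansion_Ufun,
    ModularCurve.jNum, map_mul, map_pow]

theorem coeffMap_ofPowerSeries {R S : Type*} [CommRing R] [CommRing S] (f : R →+* S)
    (p : PowerSeries R) :
    ModularCurve.coeffMap f (HahnSeries.ofPowerSeries ℤ R p) =
      HahnSeries.ofPowerSeries ℤ S (p.map f) := by
  ext k
  rw [ModularCurve.coeffMap_coeff]
  rcases lt_or_ge k 0 with hk | hk
  · rw [ModularCurve.ofPowerSeries_coeff_of_neg _ hk, ModularCurve.ofPowerSeries_coeff_of_neg _ hk,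
      map_zero]
  · obtain ⟨n, rfl⟩ := Int.eq_ofNat_of_zero_le hk
    rw [HahnSeries.ofPowerSeries_apply_coeff, HahnSeries.ofPowerSeries_apply_coeff,
      PowerSeries.coeff_map]

/-- The formal `j` over `ℂ`. -/
theorem coeffEmb_jq_mul_single :
    ModularCurve.coeffEmb ℂ ModularCurve.jq * HahnSeries.single (1 : ℤ) 1 =
      HahnSeries.ofPowerSeries ℤ ℂ (ModularCurve.jNum.map (Int.castRingHom ℂ)) := by
  rw [ModularCurve.jq, map_mul, ModularCurve.coeffEmb, ModularCurve.coeffMap_single,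
    coeffMap_ofPowerSeries, map_one]
  have h1 : ModularCurve.jNumQ.map (algebraMap ℚ ℂ) = ModularCurve.jNum.map (Int.castRingHom ℂ) := by
    ext n
    simp [ModularCurve.jNumQ, PowerSeries.coeff_map]
  rw [h1, mul_comm, ← mul_assoc, HahnSeries.single_mul_single]
  simp

theorem dil_jFun_mul (d : ℕ) [NeZero d] (τ : ℍ) :
    dil d jFun τ * 𝕢 1 τ ^ d = dil d J1 τ := by
  simp only [dil, J1, qParam_dil]

/-- (Br3, level `d`) `τ ↦ jFun(dτ)` has Laurent expansion `j(q^d)`. -/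
theorem rep_jFun_dil (d : ℕ) [NeZero d] :
    Rep (dil d jFun) (ModularCurve.qExpand ℂ d (ModularCurve.coeffEmb ℂ ModularCurve.jq)) := by
  refine ⟨d, ?_, ?_⟩
  · have : (fun τ : ℍ => dil d jFun τ * 𝕢 1 τ ^ d) = dil d J1 := funext (dil_jFun_mul d)
    rw [this]
    exact isQ_J1.dil d
  · have : (fun τ : ℍ => dil d jFun τ * 𝕢 1 τ ^ d) = dil d J1 := funext (dil_jFun_mul d)
    rw [this, ofPowerSeries_qExpansion_dil isQ_J1, qExpansion_J1, ← coeffEmb_jq_mul_single,
      map_mul, ModularCurve.qExpand_single, mul_one]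

/-! ### (Br4) polynomial relations: analytic ⟺ formal -/

section Br4

variable {σ : Type*} (dd : σ → ℕ) [∀ s, NeZero (dd s)]

/-- The analytic evaluation of a polynomial in the `j(dτ)` is represented by its formal
evaluation. -/
theorem rep_eval (P : MvPolynomial σ ℂ) :
    Rep (fun τ => MvPolynomial.eval (fun s => jFun (heckeDiagMatrix (dd s) • τ)) P)
      (MvPolynomial.aeval
        (fun s => ModularCurve.qExpand ℂ (dd s) (ModularCurve.coeffEmb ℂ ModularCurve.jq)) P) := by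
  induction P using MvPolynomial.induction_on with
  | C a =>
    simp only [MvPolynomial.eval_C, MvPolynomial.aeval_C]
    rw [ModularCurve.algebraMap_laurentSeries_eq_single]
    exact Rep.const a
  | add p q hp hq =>
    simp only [map_add]
    exact hp.add hq
  | mul_X p s hp =>
    simp only [map_mul, MvPolynomial.eval_X, MvPolynomial.aeval_X]
    exact hp.mul (rep_jFun_dil (dd s))

/-- **(Br4-ℂ)** A polynomial relation between the functions `τ ↦ jFun(dτ)` holds identically on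
`ℍ` iff it holds between the formal Laurent series `j(q^d)`. -/
theorem eval_eq_zero_iff (P : MvPolynomial σ ℂ) :
    (∀ τ : ℍ, MvPolynomial.eval (fun s => jFun (heckeDiagMatrix (dd s) • τ)) P = 0) ↔
      MvPolynomial.aeval
        (fun s => ModularCurve.qExpand ℂ (dd s) (ModularCurve.coeffEmb ℂ ModularCurve.jq)) P = 0 := by
  rw [(rep_eval dd P).eq_zero_iff]
  exact ⟨fun h => funext h, fun h τ => congrFun h τ⟩

/-- Variant with the formal series written as `coeffEmb ℂ (qExpand ℚ d jq)`. -/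
theorem eval_eq_zero_iff' (P : MvPolynomial σ ℂ) :
    (∀ τ : ℍ, MvPolynomial.eval (fun s => jFun (heckeDiagMatrix (dd s) • τ)) P = 0) ↔
      MvPolynomial.aeval
        (fun s => ModularCurve.coeffEmb ℂ (ModularCurve.qExpand ℚ (dd s) ModularCurve.jq)) P = 0 := by
  rw [eval_eq_zero_iff dd P]
  have : (fun s => ModularCurve.coeffEmb ℂ (ModularCurve.qExpand ℚ (dd s) ModularCurve.jq)) =
      fun s => ModularCurve.qExpand ℂ (dd s) (ModularCurve.coeffEmb ℂ ModularCurve.jq) := by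
    funext s
    exact ModularCurve.coeffMap_qExpand _ _ _
  rw [this]

end Br4

theorem neZero_of_dvd {N : ℕ} [NeZero N] (d : {d : ℕ // d ∣ N}) : NeZero d.1 :=
  ⟨ne_zero_of_dvd_ne_zero (NeZero.ne N) d.2⟩

end Fermat.Agent.S24.QRep
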