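import Mathlib
import Fermat.Agent.S24.DegreeAlg
import Fermat.Agent.S24.LinDisjoint
import Fermat.Agent.S24.QRep
import Fermat.Agent.S24.DegreeRel
import Fermat.Agent.S24.DegreeLower
import Fermat.Agent.S24.FF

/-!
# S24 [Deg]: the degree of `X₀(N)` over the `j`-line is `[SL₂(ℤ) : Γ₀(N)]`

Glue between the pure-algebra core (`DegreeAlg.finrank_eq_of_relations`), linear disjointness
(`LinDisjoint.exists_rel_over_base'`), the formal/analytic bridge (`QRep.eval_eq_zero_iff'`) and the
two analytic inputs (monic relation of degree `μ`; no relation of smaller degree for `j_N`).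
-/

set_option autoImplicit false
noncomputable section
namespace Fermat.Agent.S24.Degree

open Polynomial ModularCurve UpperHalfPlane ModularForm IntermediateField
open Fermat.Agent.S24.DegreeAlg Fermat.Agent.LevelOne.JBasic
open scoped MatrixGroups

local notation "Kb" => AlgebraicClosure ℚ

section Formal

variable {K L : Type*} [Field K] [Field L] (ι : K →+* L)

theorem coeffMap_algebraMap' (a : K) :
    coeffMap ι (algebraMap K (LaurentSeries K) a) = algebraMap L (LaurentSeries L) (ι a) := by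
  rw [algebraMap_laurentSeries_eq_single, algebraMap_laurentSeries_eq_single, coeffMap_single]

/-- `coeffMap ι` commutes with evaluation of two-variable polynomials. -/
theorem coeffMap_eval₂ (x y : LaurentSeries K) (P : Polynomial (Polynomial K)) :
    (P.map (Polynomial.mapRingHom ι)).eval₂
        ((Polynomial.aeval (coeffMap ι x : LaurentSeries L) :
          Polynomial L →ₐ[L] LaurentSeries L) : Polynomial L →+* LaurentSeries L)
        (coeffMap ι y)
      = coeffMap ι (P.eval₂ ((Polynomial.aeval x : Polynomial K →ₐ[K] LaurentSeries K) :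
          Polynomial K →+* LaurentSeries K) y) := by
  rw [Polynomial.eval₂_map, Polynomial.hom_eval₂]
  congr 1
  refine Polynomial.ringHom_ext (fun a => ?_) ?_
  · simp [coeffMap_algebraMap']
  · simp

/-- `coeffMap ι` commutes with evaluation of multivariate polynomials. -/
theorem coeffMap_aeval {σ : Type*} (w : σ → LaurentSeries K) (ρ : MvPolynomial σ K) :
    coeffMap ι (MvPolynomial.aeval w ρ)
      = MvPolynomial.aeval (fun s => coeffMap ι (w s)) (MvPolynomial.map ι ρ) := by
  induction ρ using MvPolynomial.induction_on with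
  | C a => simp [coeffMap_algebraMap']
  | add p q hp hq => simp only [map_add, hp, hq]
  | mul_X p s hp => simp only [map_mul, hp, MvPolynomial.aeval_X, MvPolynomial.map_X]

end Formal

section Substitution

variable {σ : Type*} {R A : Type*} [CommRing R] [CommRing A] [Algebra R A]

/-- Substituting `Y ↦ X s₁`, `X ↦ P` in a two-variable polynomial. -/
def subst (s₁ : σ) (Φ : Polynomial (Polynomial R)) (P : MvPolynomial σ R) : MvPolynomial σ R :=
  Φ.eval₂ ((Polynomial.aeval (MvPolynomial.X s₁ : MvPolynomial σ R) :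
    Polynomial R →ₐ[R] MvPolynomial σ R) : Polynomial R →+* MvPolynomial σ R) P

theorem aeval_subst (s₁ : σ) (Φ : Polynomial (Polynomial R)) (P : MvPolynomial σ R) (w : σ → A) :
    MvPolynomial.aeval w (subst s₁ Φ P)
      = Φ.eval₂ ((Polynomial.aeval (w s₁) : Polynomial R →ₐ[R] A) : Polynomial R →+* A)
          (MvPolynomial.aeval w P) := by
  rw [subst]
  have := Polynomial.hom_eval₂ Φ ((Polynomial.aeval (MvPolynomial.X s₁ : MvPolynomial σ R) :
    Polynomial R →ₐ[R] MvPolynomial σ R) : Polynomial R →+* MvPolynomial σ R)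
    ((MvPolynomial.aeval w : MvPolynomial σ R →ₐ[R] A) : MvPolynomial σ R →+* A) P
  refine this.trans ?_
  congr 1
  refine Polynomial.ringHom_ext (fun a => ?_) ?_
  · simp
  · simp

theorem eval_subst (s₁ : σ) (Φ : Polynomial (Polynomial R)) (P : MvPolynomial σ R) (v : σ → R) :
    MvPolynomial.eval v (subst s₁ Φ P)
      = Polynomial.eval (MvPolynomial.eval v P) (Φ.map (Polynomial.evalRingHom (v s₁))) := by
  rw [subst, Polynomial.eval_map]
  have := Polynomial.hom_eval₂ Φ ((Polynomial.aeval (MvPolynomial.X s₁ : MvPolynomial σ R) :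
    Polynomial R →ₐ[R] MvPolynomial σ R) : Polynomial R →+* MvPolynomial σ R)
    (MvPolynomial.eval v) P
  refine this.trans ?_
  congr 1
  refine Polynomial.ringHom_ext (fun a => ?_) ?_
  · simp
  · simp

end Substitution

section Glue

variable (N : ℕ) [NeZero N]

/-- index of the divisor `1`. -/
abbrev d1 : {d : ℕ // d ∣ N} := ⟨1, one_dvd N⟩

/-- index of the divisor `N`. -/
abbrev dN : {d : ℕ // d ∣ N} := ⟨N, dvd_rfl⟩

/-- the analytic point `(j(dτ))_{d ∣ N}`. -/
def jvec (τ : ℍ) : {d : ℕ // d ∣ N} → ℂ := fun d => jFun (heckeDiagMatrix d.1 • τ)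

theorem heckeDiagMatrix_one_smul (τ : ℍ) : heckeDiagMatrix 1 • τ = τ := by
  apply UpperHalfPlane.ext
  rw [coe_heckeDiagMatrix_smul one_ne_zero]
  simp

omit [NeZero N] in
theorem jvec_d1 (τ : ℍ) : jvec N τ (d1 N) = jFun τ := by
  simp only [jvec, heckeDiagMatrix_one_smul]

theorem coeffMap_jdiv (ι : Kb →+* ℂ) (d : {d : ℕ // d ∣ N}) : coeffMap ι (jdiv Kb N d) = jdiv ℂ N d := by
  have : NeZero d.1 := neZero_of_dvd d.2
  show coeffMap ι (coeffEmb Kb (qExpand ℚ d.1 jq)) = coeffEmb ℂ (qExpand ℚ d.1 jq)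
  rw [coeffEmb, coeffEmb, coeffMap_coeffMap]
  exact coeffMap_congr (Subsingleton.elim _ _) _

theorem jdiv_eq_qrep :
    jdiv ℂ N = fun s : {d : ℕ // d ∣ N} =>
      haveI : NeZero s.1 := Fermat.Agent.S24.QRep.neZero_of_dvd s
      ModularCurve.coeffEmb ℂ (ModularCurve.qExpand ℚ s.1 ModularCurve.jq) := rfl

/-- (Br4-ℂ) in the vocabulary of this file. -/
theorem eval_jvec_eq_zero_iff (Ψ : MvPolynomial {d : ℕ // d ∣ N} ℂ) :
    (∀ τ : ℍ, MvPolynomial.eval (jvec N τ) Ψ = 0) ↔ MvPolynomial.aeval (jdiv ℂ N) Ψ = 0 := by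
  have inst : ∀ s : {d : ℕ // d ∣ N}, NeZero ((fun s : {d : ℕ // d ∣ N} => s.1) s) :=
    fun s => Fermat.Agent.S24.QRep.neZero_of_dvd s
  have := @Fermat.Agent.S24.QRep.eval_eq_zero_iff' _ (fun s : {d : ℕ // d ∣ N} => s.1) inst Ψ
  exact this

/-- **Upper bound input ⟹ formal relations.** -/
theorem exists_relation (ι : Kb →+* ℂ) (μ : ℕ)
    (hrel : ∀ P : MvPolynomial {d : ℕ // d ∣ N} ℂ, ∃ Φ : Polynomial (Polynomial ℂ),
      Φ.Monic ∧ Φ.natDegree = μ ∧ ∀ τ : ℍ,
        Polynomial.eval (MvPolynomial.eval (jvec N τ) P)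
          (Φ.map (Polynomial.evalRingHom (jFun τ))) = 0)
    (r : LaurentSeries Kb) (hr : r ∈ Algebra.adjoin Kb (Set.range (jdiv Kb N))) :
    ∃ Q : Polynomial (Polynomial Kb), Q ≠ 0 ∧ Q.natDegree ≤ μ ∧
      Q.eval₂ ((Polynomial.aeval (coeffEmb Kb jq) : Polynomial Kb →ₐ[Kb] LaurentSeries Kb) :
        Polynomial Kb →+* LaurentSeries Kb) r = 0 := by
  rw [Algebra.adjoin_range_eq_range_aeval] at hr
  obtain ⟨ρ, rfl⟩ := hr
  obtain ⟨Φ, hΦm, hΦd, hΦ⟩ := hrel (MvPolynomial.map ι ρ)
  have h1 : ∀ τ : ℍ, MvPolynomial.eval (jvec N τ) (subst (d1 N) Φ (MvPolynomial.map ι ρ)) = 0 := by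
    intro τ
    rw [eval_subst, jvec_d1]
    exact hΦ τ
  have h2 := (eval_jvec_eq_zero_iff N _).mp h1
  rw [aeval_subst] at h2
  have h3 : MvPolynomial.aeval (jdiv ℂ N) (MvPolynomial.map ι ρ)
      = coeffMap ι (MvPolynomial.aeval (jdiv Kb N) ρ) := by
    have : (fun s => coeffMap ι (jdiv Kb N s)) = jdiv ℂ N := funext (coeffMap_jdiv N ι)
    rw [coeffMap_aeval, this]
  have h4 : jdiv ℂ N (d1 N) = coeffMap ι (coeffEmb Kb jq) := by
    rw [← coeffMap_jdiv N ι, jdiv_one]
  rw [h3, h4] at h2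
  obtain ⟨Q, hQ0, hQd, hQ⟩ := Fermat.Agent.S24.LinDisjoint.exists_rel_over_base' ι
    (coeffEmb Kb jq) _ Φ hΦm.ne_zero h2
  exact ⟨Q, hQ0, hQd.trans hΦd.le, hQ⟩

/-- **Lower bound input ⟹ no small formal relation.** -/
theorem le_natDegree_of_relation (ι : Kb →+* ℂ) (μ : ℕ)
    (hlow : ∀ P : Polynomial (Polynomial ℂ), P.natDegree < μ →
      (∀ τ : ℍ, Polynomial.eval (jFun (heckeDiagMatrix N • τ))
        (P.map (Polynomial.evalRingHom (jFun τ))) = 0) → P = 0)
    (P : Polynomial (Polynomial Kb)) (hP : P ≠ 0)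
    (h0 : P.eval₂ ((Polynomial.aeval (coeffEmb Kb jq) : Polynomial Kb →ₐ[Kb] LaurentSeries Kb) :
        Polynomial Kb →+* LaurentSeries Kb) (jdiv Kb N (dN N)) = 0) :
    μ ≤ P.natDegree := by
  by_contra hlt
  rw [not_le] at hlt
  set PC : Polynomial (Polynomial ℂ) := P.map (Polynomial.mapRingHom ι) with hPC
  have hinj : Function.Injective (Polynomial.mapRingHom ι) :=
    Polynomial.map_injective ι ι.injective
  have hPCd : PC.natDegree < μ := lt_of_le_of_lt Polynomial.natDegree_map_le hlt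
  have h1 : MvPolynomial.aeval (jdiv ℂ N) (subst (d1 N) PC (MvPolynomial.X (dN N))) = 0 := by
    rw [aeval_subst, MvPolynomial.aeval_X, ← coeffMap_jdiv N ι (d1 N), ← coeffMap_jdiv N ι (dN N),
      hPC, coeffMap_eval₂, jdiv_one, h0, map_zero]
  have h2 := (eval_jvec_eq_zero_iff N _).mpr h1
  have h3 : PC = 0 := by
    apply hlow PC hPCd
    intro τ
    have := h2 τ
    rw [eval_subst, jvec_d1, MvPolynomial.eval_X] at this
    exact this
  apply hP
  have : P.map (Polynomial.mapRingHom ι) = (0 : Polynomial (Polynomial Kb)).map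
      (Polynomial.mapRingHom ι) := by rw [← hPC, h3, Polynomial.map_zero]
  exact Polynomial.map_injective _ hinj this

omit [NeZero N] in
theorem exists_embedding : Nonempty (Kb →+* ℂ) := by
  have h : Algebra.IsAlgebraic ℚ Kb := by
    convert AlgebraicClosure.isAlgebraic ℚ
    · rfl
    · exact Subsingleton.elim _ _
  exact ⟨(IsAlgClosed.lift : Kb →ₐ[ℚ] ℂ).toRingHom⟩

/-- **The degree of the function field of `X₀(N)` over `K(j)`**, given the two analytic inputs. -/
theorem finrank_eq_of (μ : ℕ)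
    (hrel : ∀ P : MvPolynomial {d : ℕ // d ∣ N} ℂ, ∃ Φ : Polynomial (Polynomial ℂ),
      Φ.Monic ∧ Φ.natDegree = μ ∧ ∀ τ : ℍ,
        Polynomial.eval (MvPolynomial.eval (jvec N τ) P)
          (Φ.map (Polynomial.evalRingHom (jFun τ))) = 0)
    (hlow : ∀ P : Polynomial (Polynomial ℂ), P.natDegree < μ →
      (∀ τ : ℍ, Polynomial.eval (jFun (heckeDiagMatrix N • τ))
        (P.map (Polynomial.evalRingHom (jFun τ))) = 0) → P = 0) :
    FiniteDimensional Kb⟮jgen N⟯ (modularFunctionFieldBar N) ∧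
      Module.finrank Kb⟮jgen N⟯ (modularFunctionFieldBar N) = μ := by
  obtain ⟨ι⟩ := exists_embedding
  exact finrank_eq_of_relations N μ (fun r hr => exists_relation N ι μ hrel r hr)
    (fun P hP h0 => le_natDegree_of_relation N ι μ hlow P hP h0)

end Glue

section Final

variable (N : ℕ) [NeZero N]

/-- **[Deg]** `[F : K(j)] = [SL₂(ℤ) : Γ₀(N)]` for `F = modularFunctionFieldBar N`,
`K = AlgebraicClosure ℚ`, `j = jgen N`. -/
theorem finrank_eq :
    FiniteDimensional Kb⟮jgen N⟯ (modularFunctionFieldBar N) ∧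
      Module.finrank Kb⟮jgen N⟯ (modularFunctionFieldBar N)
        = Nat.card (SL(2, ℤ) ⧸ CongruenceSubgroup.Gamma0 N) :=
  finrank_eq_of N _ (fun P => Fermat.Agent.S24.DegreeRel.exists_monic_relation N P)
    (fun P hd h => Fermat.Agent.S24.DegreeLower.eq_zero_of_relation N P hd h)

theorem finiteDimensional :
    FiniteDimensional Kb⟮jgen N⟯ (modularFunctionFieldBar N) := (finrank_eq N).1

theorem finrank_eq_card :
    Module.finrank Kb⟮jgen N⟯ (modularFunctionFieldBar N)
      = Nat.card (SL(2, ℤ) ⧸ CongruenceSubgroup.Gamma0 N) := (finrank_eq N).2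

/-- `j` is a separating transcendental element: the hypothesis `IsFF` of the abstract Hurwitz
formula. -/
theorem isFF : Fermat.Agent.S24.FF.IsFF Kb (jgen N) :=
  ⟨transcendental_jgen N, finiteDimensional N⟩

end Final

end Fermat.Agent.S24.Degree
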