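/-
S24 / local differential calculus at a rational place of a function field of one variable in
characteristic zero (helper21).

Main results (for `v : Place K F` with residue field `K`, `F` algebraic over some `K(x)`):
* `dCoordGenerates`, `nontrivial_kaehler` : the prelude side conditions.
* `ordDifferential_D` : `v.ord f ≠ 0 → v.ordDifferential (D K F f) = v.ord f - 1`.
* `ordDifferential_D_sub` : `0 < v.ord (f - c) → v.ordDifferential (D K F f) = v.ord (f - c) - 1`.
* `ordDifferential_smul'` : `v.ordDifferential (c • ω) = v.ord c + v.ordDifferential ω`.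
-/
import Mathlib
import Fermat.Prelude.Def_ModularCurve_CanonicalDivisor
import Fermat.Agent.S24.LocalDiff.Taylor
import Fermat.Agent.S24.LocalDiff.Deriv
import Fermat.Agent.S24.LocalDiff.Compare
import Fermat.Agent.S24.LocalDiff.Trdeg

set_option autoImplicit false

open KaehlerDifferential AlgebraicCurve IntermediateField PowerSeries

namespace Fermat.Agent.S24.LocalDiff

variable {K F : Type*} [Field K] [Field F] [Algebra K F]

section Basic

variable (v : Place K F)

/-- The (private, chosen) uniformizer behind `v.dCoord`. -/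
theorem dCoord_eq :
    ∃ π : v.toValuationSubring, Irreducible π ∧ v.dCoord = D K F (π : F) :=
  ⟨_, (IsDiscreteValuationRing.exists_irreducible v.toValuationSubring).choose_spec, rfl⟩

theorem ord_neg (f : F) : v.ord (-f) = v.ord f := by
  simp [Place.ord, Valuation.map_neg]

theorem mem_of_ord_nonneg {f : F} (hf : 0 ≤ v.ord f) : f ∈ v.toValuationSubring := by
  rcases eq_or_ne f 0 with rfl | hf0
  · exact zero_mem _
  obtain ⟨π, hπ⟩ := IsDiscreteValuationRing.exists_irreducible v.toValuationSubring
  obtain ⟨u, hu⟩ := v.exists_unit_mul_zpow hf0 hπ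
  obtain ⟨n, hn⟩ := Int.eq_ofNat_of_zero_le hf
  rw [hu, hn, zpow_natCast]
  exact mul_mem (u : v.toValuationSubring).2 (pow_mem π.2 n)

theorem ord_coe_eq {π : v.toValuationSubring} (hπ : Irreducible π)
    (u : (v.toValuationSubring)ˣ) (n : ℕ) :
    v.ord (((u : v.toValuationSubring) * π ^ n : v.toValuationSubring) : F) = n := by
  have := v.ord_unit_smul_zpow u hπ (n : ℤ)
  rw [zpow_natCast] at this
  simpa using this

theorem ord_coe_nonneg (g : v.toValuationSubring) : 0 ≤ v.ord (g : F) := by
  rcases eq_or_ne g 0 with rfl | hg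
  · simp
  obtain ⟨π, hπ⟩ := IsDiscreteValuationRing.exists_irreducible v.toValuationSubring
  obtain ⟨k, u, rfl⟩ := IsDiscreteValuationRing.eq_unit_mul_pow_irreducible hg hπ
  rw [ord_coe_eq v hπ u k]
  exact Int.natCast_nonneg k

theorem pow_dvd_iff_le_ord {π : v.toValuationSubring} (hπ : Irreducible π)
    {f : v.toValuationSubring} (hf : f ≠ 0) (n : ℕ) :
    π ^ n ∣ f ↔ (n : ℤ) ≤ v.ord (f : F) := by
  obtain ⟨k, u, rfl⟩ := IsDiscreteValuationRing.eq_unit_mul_pow_irreducible hf hπ
  rw [ord_coe_eq v hπ u k, Nat.cast_le]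
  constructor
  · intro hd
    by_contra hlt
    push_neg at hlt
    have h1 : π ^ (k + 1) ∣ (u : v.toValuationSubring) * π ^ k :=
      dvd_trans (pow_dvd_pow π hlt) hd
    rw [pow_succ', mul_dvd_mul_iff_right (pow_ne_zero k hπ.ne_zero)] at h1
    exact hπ.not_isUnit (isUnit_of_dvd_unit h1 u.isUnit)
  · intro hle
    exact Dvd.dvd.mul_left (pow_dvd_pow π hle) _

/-- Taylor data at a rational place. -/
theorem taylorData (hres : Function.Surjective (algebraMap K v.ResidueField))
    {π : v.toValuationSubring} (hπ : Irreducible π) : TaylorData K π where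
  ne_zero := hπ.ne_zero
  const := by
    intro c hc
    by_contra hc0
    have hu : IsUnit (algebraMap K v.toValuationSubring c) := (IsUnit.mk0 c hc0).map _
    exact hπ.not_isUnit (isUnit_of_dvd_unit hc hu)
  res := by
    intro f
    obtain ⟨c, hc⟩ := hres (IsLocalRing.residue _ f)
    have h0 : IsLocalRing.residue _ (f - algebraMap K v.toValuationSubring c) = 0 := by
      rw [map_sub, ← hc, IsScalarTower.algebraMap_apply K v.toValuationSubring v.ResidueField,
        IsLocalRing.ResidueField.algebraMap_eq, sub_self]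
    rw [IsLocalRing.residue_eq_zero_iff, hπ.maximalIdeal_eq, Ideal.mem_span_singleton] at h0
    obtain ⟨g, hg⟩ := h0
    exact ⟨c, g, by rw [← hg]; ring⟩
  krull := by
    intro f hf
    by_contra hf0
    obtain ⟨n, u, hu⟩ := IsDiscreteValuationRing.eq_unit_mul_pow_irreducible hf0 hπ
    have h1 := hf (n + 1)
    rw [hu, pow_succ', mul_dvd_mul_iff_right (pow_ne_zero n hπ.ne_zero)] at h1
    exact hπ.not_isUnit (isUnit_of_dvd_unit h1 u.isUnit)

theorem isUnit_of_not_dvd {π : v.toValuationSubring} (hπ : Irreducible π)
    (f : v.toValuationSubring) (hf : ¬ π ∣ f) : IsUnit f := by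
  rw [← IsLocalRing.notMem_maximalIdeal, hπ.maximalIdeal_eq, Ideal.mem_span_singleton]
  exact hf

end Basic

section Transcendental

variable (v : Place K F)

theorem aeval_X_eq_coe (p : Polynomial K) :
    Polynomial.aeval (PowerSeries.X : K⟦X⟧) p = (p : K⟦X⟧) := by
  induction p using Polynomial.induction_on with
  | C a => simp
  | add p q hp hq => rw [map_add, hp, hq, Polynomial.coe_add]
  | monomial n a _ =>
    rw [map_mul, map_pow, Polynomial.aeval_C, Polynomial.aeval_X, Polynomial.coe_mul,
      Polynomial.coe_pow, Polynomial.coe_X, Polynomial.coe_C]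
    rfl

/-- A uniformizer at a rational place is transcendental over `K`. -/
theorem transcendental_uniformizer (hres : Function.Surjective (algebraMap K v.ResidueField))
    {π : v.toValuationSubring} (hπ : Irreducible π) : Transcendental K (π : F) := by
  have h := taylorData v hres hπ
  rw [Transcendental, IsAlgebraic]
  rintro ⟨p, hp0, hp⟩
  have h1 : ((Polynomial.aeval π p : v.toValuationSubring) : F) = 0 := by
    rw [← hp]
    exact (Polynomial.aeval_algebraMap_apply F π p).symm
  have h2 : Polynomial.aeval π p = 0 := by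
    exact_mod_cast h1
  have h3 := congrArg h.taylor h2
  rw [← Polynomial.aeval_algHom_apply, TaylorData.taylor_self, map_zero, aeval_X_eq_coe] at h3
  exact hp0 (by exact_mod_cast h3)

end Transcendental

section Main

variable [CharZero K] (v : Place K F)

theorem isAlgebraic_adjoin_uniformizer
    (hres : Function.Surjective (algebraMap K v.ResidueField))
    (htr : ∃ x : F, Algebra.IsAlgebraic K⟮x⟯ F)
    {π : v.toValuationSubring} (hπ : Irreducible π) : Algebra.IsAlgebraic K⟮(π : F)⟯ F := by
  obtain ⟨x, hx⟩ := htr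
  exact isAlgebraic_adjoin_simple_of_transcendental hx (transcendental_uniformizer v hres hπ)

/-- The prelude side condition `DCoordGenerates` holds at a rational place. -/
theorem dCoordGenerates (hres : Function.Surjective (algebraMap K v.ResidueField))
    (htr : ∃ x : F, Algebra.IsAlgebraic K⟮x⟯ F) : v.DCoordGenerates := by
  obtain ⟨π, hπ, hd⟩ := dCoord_eq v
  exact ⟨by rw [hd]; exact span_D_eq_top (isAlgebraic_adjoin_uniformizer v hres htr hπ)⟩

/-- `Ω[F⁄K]` is nontrivial as soon as there is a rational place. -/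
theorem nontrivial_kaehler (hres : Function.Surjective (algebraMap K v.ResidueField)) :
    Nontrivial Ω[F⁄K] := by
  obtain ⟨π, hπ, _⟩ := dCoord_eq v
  exact (taylorData v hres hπ).nontrivial_kaehler (F := F)

/-- Core computation for `0 < ord f`. -/
theorem differentialCoeff_D_of_pos (hres : Function.Surjective (algebraMap K v.ResidueField))
    (htr : ∃ x : F, Algebra.IsAlgebraic K⟮x⟯ F) {f : F} (hpos : 0 < v.ord f) :
    v.differentialCoeff (D K F f) ≠ 0 ∧ v.ordDifferential (D K F f) = v.ord f - 1 := by
  haveI := dCoordGenerates v hres htr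
  haveI := nontrivial_kaehler v hres
  obtain ⟨π, hπ, hd⟩ := dCoord_eq v
  have h := taylorData v hres hπ
  have hfmem : f ∈ v.toValuationSubring := mem_of_ord_nonneg v hpos.le
  lift f to v.toValuationSubring using hfmem
  have hf0 : f ≠ 0 := by
    rintro rfl
    simp at hpos
  set g := v.differentialCoeff (D K F (f : F)) with hg
  have hgrel : D K F (algebraMap v.toValuationSubring F f)
      = g • D K F (algebraMap v.toValuationSubring F π) := by
    show D K F (f : F) = g • D K F (π : F)
    rw [← hd]
    exact (v.differentialCoeff_smul_dCoord _).symm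
  obtain ⟨g', hg', hT⟩ :=
    h.exists_taylor_derivative (F := F) (isUnit_of_not_dvd v hπ) f g hgrel
  obtain ⟨k, hk⟩ : ∃ k : ℕ, v.ord (f : F) = k + 1 := ⟨(v.ord (f : F) - 1).toNat, by omega⟩
  have h1 : π ^ (k + 1) ∣ f :=
    (pow_dvd_iff_le_ord v hπ hf0 (k + 1)).mpr (by rw [hk]; push_cast; omega)
  have h2 : ¬ π ^ (k + 2) ∣ f := fun hdv => by
    have := (pow_dvd_iff_le_ord v hπ hf0 (k + 2)).mp hdv
    rw [hk] at this
    push_cast at this
    omega
  have h1' := (h.X_pow_dvd_taylor_iff f (k + 1)).mpr h1
  have h2' : ¬ (PowerSeries.X : K⟦X⟧) ^ (k + 2) ∣ h.taylor f :=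
    fun hdv => h2 ((h.X_pow_dvd_taylor_iff f (k + 2)).mp hdv)
  have h3 := X_pow_dvd_derivative h1'
  have h4 := not_X_pow_dvd_derivative h2' h1'
  rw [← hT] at h3 h4
  have h5 : π ^ k ∣ g' := (h.X_pow_dvd_taylor_iff g' k).mp h3
  have h6 : ¬ π ^ (k + 1) ∣ g' := fun hdv => h4 ((h.X_pow_dvd_taylor_iff g' (k + 1)).mpr hdv)
  have hg'0 : g' ≠ 0 := by
    rintro rfl
    exact h6 (dvd_zero _)
  have h7 := (pow_dvd_iff_le_ord v hπ hg'0 k).mp h5
  have h8 : ¬ ((k + 1 : ℕ) : ℤ) ≤ v.ord (g' : F) :=
    fun hle => h6 ((pow_dvd_iff_le_ord v hπ hg'0 (k + 1)).mpr hle)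
  have hgg' : g = (g' : F) := hg'.symm
  refine ⟨?_, ?_⟩
  · rw [hgg']
    exact_mod_cast hg'0
  · show v.ord g = _
    rw [hgg', hk]
    push_cast at h8
    omega

/-- MAIN: the order of `df` at a rational place when `ord f ≠ 0` (independent of the chosen
uniformizer). -/
theorem differentialCoeff_D (hres : Function.Surjective (algebraMap K v.ResidueField))
    (htr : ∃ x : F, Algebra.IsAlgebraic K⟮x⟯ F) {f : F} (hf : v.ord f ≠ 0) :
    v.differentialCoeff (D K F f) ≠ 0 ∧ v.ordDifferential (D K F f) = v.ord f - 1 := by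
  haveI := dCoordGenerates v hres htr
  haveI := nontrivial_kaehler v hres
  rcases lt_or_gt_of_ne hf with hneg | hpos
  · have hf0 : f ≠ 0 := by
      rintro rfl
      simp at hneg
    have hinv : 0 < v.ord f⁻¹ := by
      rw [v.ord_inv]
      omega
    obtain ⟨hne, key⟩ := differentialCoeff_D_of_pos v hres htr hinv
    have hD : D K F f = (-(f ^ 2)) • D K F f⁻¹ := by
      have := Derivation.leibniz_inv (D K F) f⁻¹
      simpa using this
    have hc : -(f ^ 2) ≠ 0 := neg_ne_zero.mpr (pow_ne_zero 2 hf0)
    refine ⟨?_, ?_⟩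
    · rw [hD, v.differentialCoeff_smul]
      exact mul_ne_zero hc hne
    · rw [hD, v.ordDifferential_smul hc hne, key, ord_neg, pow_two, v.ord_mul hf0 hf0, v.ord_inv]
      ring
  · exact differentialCoeff_D_of_pos v hres htr hpos

theorem ordDifferential_D (hres : Function.Surjective (algebraMap K v.ResidueField))
    (htr : ∃ x : F, Algebra.IsAlgebraic K⟮x⟯ F) {f : F} (hf : v.ord f ≠ 0) :
    v.ordDifferential (D K F f) = v.ord f - 1 :=
  (differentialCoeff_D v hres htr hf).2

theorem D_ne_zero_of_ord_ne_zero (hres : Function.Surjective (algebraMap K v.ResidueField))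
    (htr : ∃ x : F, Algebra.IsAlgebraic K⟮x⟯ F) {f : F} (hf : v.ord f ≠ 0) :
    D K F f ≠ 0 := by
  haveI := dCoordGenerates v hres htr
  haveI := nontrivial_kaehler v hres
  intro h0
  have := (differentialCoeff_D v hres htr hf).1
  rw [h0, v.differentialCoeff_zero] at this
  exact this rfl

/-- `dx ≠ 0` for `x` transcendental over `K` (needs one rational place). -/
theorem D_ne_zero_of_transcendental (hres : Function.Surjective (algebraMap K v.ResidueField))
    (htr : ∃ x : F, Algebra.IsAlgebraic K⟮x⟯ F) {x : F} (hx : Transcendental K x) :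
    D K F x ≠ 0 := by
  by_cases hmem : x ∈ v.toValuationSubring
  · obtain ⟨π, hπ⟩ := IsDiscreteValuationRing.exists_irreducible v.toValuationSubring
    obtain ⟨c, g, hg⟩ := (taylorData v hres hπ).res ⟨x, hmem⟩
    have hxc : x - algebraMap K F c = (π : F) * (g : F) := by
      have h1 : x = ((algebraMap K v.toValuationSubring c + π * g : v.toValuationSubring) : F) :=
        congrArg (fun y : v.toValuationSubring => (y : F)) hg
      have h2 : ((algebraMap K v.toValuationSubring c + π * g : v.toValuationSubring) : F)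
          = algebraMap K F c + (π : F) * (g : F) := rfl
      rw [h1, h2]
      ring
    have hne : x - algebraMap K F c ≠ 0 := by
      intro h0
      apply hx
      rw [sub_eq_zero.mp h0]
      exact isAlgebraic_algebraMap c
    have hπF : (π : F) ≠ 0 := by
      simpa [ne_eq, ZeroMemClass.coe_eq_zero] using hπ.ne_zero
    have hgF : (g : F) ≠ 0 := by
      intro h0
      apply hne
      rw [hxc, h0, mul_zero]
    have hord : v.ord (x - algebraMap K F c) ≠ 0 := by
      rw [hxc, v.ord_mul hπF hgF, v.ord_coe_irreducible hπ]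
      have hg0 : 0 ≤ v.ord (g : F) := ord_coe_nonneg v g
      omega
    have := D_ne_zero_of_ord_ne_zero v hres htr hord
    rwa [map_sub, Derivation.map_algebraMap, sub_zero] at this
  · have hord : v.ord x ≠ 0 := by
      intro h0
      exact hmem (mem_of_ord_nonneg v (le_of_eq h0.symm))
    exact D_ne_zero_of_ord_ne_zero v hres htr hord

/-- The order of `df` when `f` takes the value `c` at the place: `ord (df) = ord (f - c) - 1`. -/
theorem ordDifferential_D_sub (hres : Function.Surjective (algebraMap K v.ResidueField))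
    (htr : ∃ x : F, Algebra.IsAlgebraic K⟮x⟯ F) (f : F) (c : K)
    (hfc : v.ord (f - algebraMap K F c) ≠ 0) :
    v.ordDifferential (D K F f) = v.ord (f - algebraMap K F c) - 1 := by
  have h := ordDifferential_D v hres htr hfc
  rwa [map_sub, Derivation.map_algebraMap, sub_zero] at h

/-- `differentialCoeff ω ≠ 0` for `ω ≠ 0`. -/
theorem differentialCoeff_ne_zero (hres : Function.Surjective (algebraMap K v.ResidueField))
    (htr : ∃ x : F, Algebra.IsAlgebraic K⟮x⟯ F) {ω : Ω[F⁄K]} (hω : ω ≠ 0) :
    v.differentialCoeff ω ≠ 0 := by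
  haveI := dCoordGenerates v hres htr
  intro h0
  apply hω
  rw [← v.differentialCoeff_smul_dCoord ω, h0, zero_smul]

/-- The prelude lemma `ordDifferential_smul` with its side conditions discharged. -/
theorem ordDifferential_smul' (hres : Function.Surjective (algebraMap K v.ResidueField))
    (htr : ∃ x : F, Algebra.IsAlgebraic K⟮x⟯ F) {c : F} (hc : c ≠ 0) {ω : Ω[F⁄K]} (hω : ω ≠ 0) :
    v.ordDifferential (c • ω) = v.ord c + v.ordDifferential ω := by
  haveI := dCoordGenerates v hres htr
  haveI := nontrivial_kaehler v hres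
  exact v.ordDifferential_smul hc (differentialCoeff_ne_zero v hres htr hω)

/-- The residue field hypothesis holds for algebraically closed `K` and finite residue field. -/
theorem surjective_algebraMap_residueField [IsAlgClosed K] [Module.Finite K v.ResidueField] :
    Function.Surjective (algebraMap K v.ResidueField) := by
  have : Algebra.IsIntegral K v.ResidueField := Algebra.IsIntegral.of_finite K v.ResidueField
  exact (IsAlgClosed.algebraMap_bijective_of_isIntegral (k := K) (K := v.ResidueField)).2

end Main

end Fermat.Agent.S24.LocalDiff
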