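import Mathlib
import Fermat.Prelude.Def_AlgebraicCurve_CanonicalDivisor
import Fermat.Agent.S24.Fibre
import Fermat.Agent.S24.LocalDiff

/-!
# S24, abstract Hurwitz, part 5: the Riemann-Hurwitz formula and the genus

For a function field `F/K` (`K` algebraically closed of characteristic zero) and `x : F`
transcendental with `F/K(x)` finite (`IsFF K x`):

* `zeros hx a`, `poles hx` : the finite sets of zeros of `x - a` and of poles of `x`, with
  `sum_zeros`, `sum_poles` (fundamental identity), `card_zeros`, `card_poles`, `finite_zeros`,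
  `finite_poles`, `finsum_ord_zeros`, `finsum_ord_inv`;
* `D_ne_zero hx : D K F x ≠ 0`;
* `degree_eq_zero_of_ord` : principal divisors have degree zero;
* `degree_canonicalDivisorOf_D` : Riemann-Hurwitz for `dx`;
* `degree_canonicalDivisorOf` : all canonical divisors have the same degree;
* `genus_eq` : the prelude genus from the ramification data of `x`.
-/

set_option autoImplicit false
set_option linter.unusedSectionVars false

namespace Fermat.Agent.S24.Hurwitz

open AlgebraicCurve KaehlerDifferential IsDedekindDomain WithZero IntermediateField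
  Fermat.Agent.S24.PlacePrime Fermat.Agent.S24.FF Fermat.Agent.S24.Ord Fermat.Agent.S24.Fibre

universe u w

variable {K : Type w} {F : Type u} [Field K] [Field F] [Algebra K F]

/-- membership in the maximal ideal of a place, in terms of the adic valuation -/
theorem mem_nonunits_iff (v : Place K F) (y : F) :
    y ∈ v.toValuationSubring.nonunits ↔ v.adicValuation y < 1 := by
  rw [ValuationSubring.mem_nonunits_iff_exists_mem_maximalIdeal]
  constructor
  · rintro ⟨hy, hmem⟩
    exact (mem_maximalIdeal_iff v ⟨y, hy⟩).mp hmem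
  · intro h
    have hy : y ∈ v.toValuationSubring := (mem_iff v y).mpr h.le
    exact ⟨hy, (mem_maximalIdeal_iff v ⟨y, hy⟩).mpr h⟩

theorem not_mem_iff (v : Place K F) (y : F) :
    y ∉ v.toValuationSubring ↔ 1 < v.adicValuation y := by
  rw [mem_iff, not_le]

theorem isAlgebraic_of_isFF {x : F} (hx : IsFF K x) : ∃ x : F, Algebra.IsAlgebraic K⟮x⟯ F :=
  ⟨x, by have := hx.finite; exact Algebra.IsAlgebraic.of_finite _ _⟩

/-- a place at which `x - a` vanishes is a place at which `x` is regular -/
theorem le_one_of_sub_lt_one {x : F} (v : Place K F) {a : K}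
    (h : v.adicValuation (x - algebraMap K F a) < 1) : v.adicValuation x ≤ 1 := by
  have h1 : x = (x - algebraMap K F a) + algebraMap K F a := by ring
  rw [h1]
  exact Valuation.map_add_le _ h.le ((mem_iff v _).mp (v.algebraMap_mem' a))

section AlgClosed

variable [IsAlgClosed K] {x : F}

theorem surjective_residue (hx : IsFF K x) (v : Place K F) :
    Function.Surjective (algebraMap K v.ResidueField) := by
  intro w
  obtain ⟨z, rfl⟩ := IsLocalRing.residue_surjective w
  obtain ⟨c, hc⟩ := exists_sub_lt_one hx v ((mem_iff v _).mp z.2)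
  refine ⟨c, ?_⟩
  have hmem : z - algebraMap K v.toValuationSubring c ∈
      IsLocalRing.maximalIdeal v.toValuationSubring := by
    rw [mem_maximalIdeal_iff]
    exact hc
  have := (IsLocalRing.residue_eq_zero_iff _).mpr hmem
  rw [map_sub, sub_eq_zero] at this
  rw [this]
  rfl

end AlgClosed

section Main

variable [IsAlgClosed K] [CharZero K] {x : F}

/-- the zeros of `x - a` -/
noncomputable def zeros (hx : IsFF K x) (a : K) : Finset (Place K F) :=
  (exists_fibre hx a).choose

theorem mem_zeros (hx : IsFF K x) (a : K) (v : Place K F) :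
    v ∈ zeros hx a ↔ v.adicValuation (x - algebraMap K F a) < 1 :=
  (exists_fibre hx a).choose_spec.1 v

theorem sum_zeros (hx : IsFF K x) (a : K) :
    ∑ v ∈ zeros hx a, v.ord (x - algebraMap K F a) = (Module.finrank K⟮x⟯ F : ℤ) :=
  (exists_fibre hx a).choose_spec.2

/-- the poles of `x` -/
noncomputable def poles (hx : IsFF K x) : Finset (Place K F) :=
  (exists_poles hx).choose

theorem mem_poles (hx : IsFF K x) (v : Place K F) :
    v ∈ poles hx ↔ 1 < v.adicValuation x :=
  (exists_poles hx).choose_spec.1 v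

theorem sum_poles (hx : IsFF K x) :
    ∑ v ∈ poles hx, -v.ord x = (Module.finrank K⟮x⟯ F : ℤ) :=
  (exists_poles hx).choose_spec.2

theorem card_zeros (hx : IsFF K x) (a : K) :
    Nat.card {v : Place K F // x - algebraMap K F a ∈ v.toValuationSubring.nonunits}
      = (zeros hx a).card :=
  Nat.subtype_card _ (fun v => by rw [mem_zeros, mem_nonunits_iff])

theorem card_poles (hx : IsFF K x) :
    Nat.card {v : Place K F // x ∉ v.toValuationSubring} = (poles hx).card :=
  Nat.subtype_card _ (fun v => by rw [mem_poles, not_mem_iff])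

theorem finite_zeros (hx : IsFF K x) (a : K) :
    Finite {v : Place K F // x - algebraMap K F a ∈ v.toValuationSubring.nonunits} := by
  have h : {v : Place K F | x - algebraMap K F a ∈ v.toValuationSubring.nonunits}
      = ↑(zeros hx a) := by
    ext v
    simp only [Set.mem_ofPred_eq, Finset.mem_coe, mem_zeros, mem_nonunits_iff]
  have hf : Set.Finite {v : Place K F | x - algebraMap K F a ∈ v.toValuationSubring.nonunits} :=
    h ▸ Finset.finite_toSet _
  exact hf.to_subtype

theorem finite_poles (hx : IsFF K x) :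
    Finite {v : Place K F // x ∉ v.toValuationSubring} := by
  have h : {v : Place K F | x ∉ v.toValuationSubring} = ↑(poles hx) := by
    ext v
    simp only [Set.mem_ofPred_eq, Finset.mem_coe, mem_poles, not_mem_iff]
  have hf : Set.Finite {v : Place K F | x ∉ v.toValuationSubring} :=
    h ▸ Finset.finite_toSet _
  exact hf.to_subtype

theorem finsum_ord_zeros (hx : IsFF K x) (a : K) :
    ∑ᶠ v : {v : Place K F // x - algebraMap K F a ∈ v.toValuationSubring.nonunits},
      v.1.ord (x - algebraMap K F a) = (Module.finrank K⟮x⟯ F : ℤ) := by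
  have h : {v : Place K F | x - algebraMap K F a ∈ v.toValuationSubring.nonunits}
      = ↑(zeros hx a) := by
    ext v
    simp only [Set.mem_ofPred_eq, Finset.mem_coe, mem_zeros, mem_nonunits_iff]
  calc ∑ᶠ v : {v : Place K F // x - algebraMap K F a ∈ v.toValuationSubring.nonunits},
        v.1.ord (x - algebraMap K F a)
      = ∑ᶠ v ∈ {v : Place K F | x - algebraMap K F a ∈ v.toValuationSubring.nonunits},
          v.ord (x - algebraMap K F a) :=
        finsum_set_coe_eq_finsum_mem (f := fun v : Place K F => v.ord (x - algebraMap K F a))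
          {v : Place K F | x - algebraMap K F a ∈ v.toValuationSubring.nonunits}
    _ = ∑ᶠ v ∈ (↑(zeros hx a) : Set (Place K F)), v.ord (x - algebraMap K F a) := by rw [h]
    _ = ∑ v ∈ zeros hx a, v.ord (x - algebraMap K F a) := finsum_mem_coe_finset _ _
    _ = _ := sum_zeros hx a

omit [IsAlgClosed K] [CharZero K] in
/-- the places at which `x⁻¹` vanishes are the poles of `x` -/
theorem inv_mem_nonunits_iff (hx : IsFF K x) (v : Place K F) :
    x⁻¹ ∈ v.toValuationSubring.nonunits ↔ x ∉ v.toValuationSubring := by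
  rw [mem_nonunits_iff, not_mem_iff, map_inv₀]
  have h0 : v.adicValuation x ≠ 0 := v.adicValuation_ne_zero hx.ne_zero
  rw [inv_lt_one₀ (zero_lt_iff.mpr h0)]

theorem card_inv_zeros (hx : IsFF K x) :
    Nat.card {v : Place K F // x⁻¹ ∈ v.toValuationSubring.nonunits} = (poles hx).card :=
  Nat.subtype_card _ (fun v => by rw [mem_poles, inv_mem_nonunits_iff hx, not_mem_iff])

theorem finite_inv_zeros (hx : IsFF K x) :
    Finite {v : Place K F // x⁻¹ ∈ v.toValuationSubring.nonunits} := by
  have h : {v : Place K F | x⁻¹ ∈ v.toValuationSubring.nonunits} = ↑(poles hx) := by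
    ext v
    simp only [Set.mem_ofPred_eq, Finset.mem_coe, mem_poles, inv_mem_nonunits_iff hx, not_mem_iff]
  have hf : Set.Finite {v : Place K F | x⁻¹ ∈ v.toValuationSubring.nonunits} :=
    h ▸ Finset.finite_toSet _
  exact hf.to_subtype

theorem finsum_ord_inv (hx : IsFF K x) :
    ∑ᶠ v : {v : Place K F // x⁻¹ ∈ v.toValuationSubring.nonunits}, v.1.ord x⁻¹
      = (Module.finrank K⟮x⟯ F : ℤ) := by
  have h : {v : Place K F | x⁻¹ ∈ v.toValuationSubring.nonunits} = ↑(poles hx) := by
    ext v
    simp only [Set.mem_ofPred_eq, Finset.mem_coe, mem_poles, inv_mem_nonunits_iff hx, not_mem_iff]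
  calc ∑ᶠ v : {v : Place K F // x⁻¹ ∈ v.toValuationSubring.nonunits}, v.1.ord x⁻¹
      = ∑ᶠ v ∈ {v : Place K F | x⁻¹ ∈ v.toValuationSubring.nonunits}, v.ord x⁻¹ :=
        finsum_set_coe_eq_finsum_mem (f := fun v : Place K F => v.ord x⁻¹)
          {v : Place K F | x⁻¹ ∈ v.toValuationSubring.nonunits}
    _ = ∑ᶠ v ∈ (↑(poles hx) : Set (Place K F)), v.ord x⁻¹ := by rw [h]
    _ = ∑ v ∈ poles hx, v.ord x⁻¹ := finsum_mem_coe_finset _ _
    _ = ∑ v ∈ poles hx, -v.ord x := Finset.sum_congr rfl fun v _ => v.ord_inv x
    _ = _ := sum_poles hx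

/-! ### local orders of `dx` -/

theorem ordDifferential_D_of_mem_zeros (hx : IsFF K x) {a : K} {v : Place K F}
    (hv : v ∈ zeros hx a) :
    v.ordDifferential (D K F x) = v.ord (x - algebraMap K F a) - 1 := by
  have hlt := (mem_zeros hx a v).mp hv
  have hne : x - algebraMap K F a ≠ 0 := sub_ne_zero.mpr (hx.ne_algebraMap a)
  have hpos := (ord_pos_iff v hne).mpr hlt
  exact LocalDiff.ordDifferential_D_sub v (surjective_residue hx v) (isAlgebraic_of_isFF hx) x a
    hpos.ne'

theorem ordDifferential_D_of_mem_poles (hx : IsFF K x) {v : Place K F}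
    (hv : v ∈ poles hx) :
    v.ordDifferential (D K F x) = v.ord x - 1 := by
  have hlt := (mem_poles hx v).mp hv
  have hneg := (ord_neg_iff v hx.ne_zero).mpr hlt
  exact LocalDiff.ordDifferential_D v (surjective_residue hx v) (isAlgebraic_of_isFF hx) hneg.ne

theorem exists_place (hx : IsFF K x) : Nonempty (Place K F) := by
  have := hx.finite
  have hpos : 0 < Module.finrank K⟮x⟯ F := Module.finrank_pos
  have hs := sum_zeros hx 0
  by_contra hempty
  have h0 : zeros hx 0 = ∅ := by
    rw [Finset.eq_empty_iff_forall_notMem]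
    intro v _
    exact hempty ⟨v⟩
  rw [h0, Finset.sum_empty] at hs
  exact hpos.ne' (by exact_mod_cast hs.symm)

theorem D_ne_zero (hx : IsFF K x) : D K F x ≠ 0 := by
  obtain ⟨v⟩ := exists_place hx
  exact LocalDiff.D_ne_zero_of_transcendental v (surjective_residue hx v) (isAlgebraic_of_isFF hx)
    hx.transcendental

/-! ### degrees -/

theorem degree_eq_sum (hx : IsFF K x) (E : Divisor K F) (U : Finset (Place K F))
    (hU : E.support ⊆ U) : Divisor.degree E = ∑ v ∈ U, E v := by
  have h1 : Divisor.degree E = E.sum fun v n => n * (v.deg : ℤ) := by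
    simp [Divisor.degree, Finsupp.liftAddHom_apply]
  rw [h1, Finsupp.sum_of_support_subset E hU (fun v n => n * (v.deg : ℤ)) (fun _ _ => zero_mul _)]
  refine Finset.sum_congr rfl fun v _ => ?_
  rw [deg_eq_one hx v]
  simp

theorem disjoint_zeros_poles {y : F} (hy : IsFF K y) (a : K) : Disjoint (zeros hy a) (poles hy) := by
  rw [Finset.disjoint_left]
  intro v h1 h2
  rw [mem_zeros] at h1
  rw [mem_poles] at h2
  exact absurd (le_one_of_sub_lt_one v h1) (not_le.mpr h2)

theorem disjoint_zeros_zeros {y : F} (hy : IsFF K y) {a b : K} (hab : a ≠ b) :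
    Disjoint (zeros hy a) (zeros hy b) := by
  rw [Finset.disjoint_left]
  intro v h1 h2
  rw [mem_zeros] at h1 h2
  exact hab ((exists_unique_center hy v (le_one_of_sub_lt_one v h1)).unique h1 h2)

/-- principal divisors have degree zero -/
theorem degree_eq_zero_of_ord (hx : IsFF K x) {c : F} (hc : c ≠ 0) (E : Divisor K F)
    (hE : ∀ v, E v = v.ord c) : Divisor.degree E = 0 := by
  classical
  by_cases hconst : ∃ k : K, algebraMap K F k = c
  · obtain ⟨k, rfl⟩ := hconst
    have h0 : E = 0 := by
      ext v
      rw [hE, ord_algebraMap]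
      rfl
    rw [h0, map_zero]
  · push Not at hconst
    have hc' : IsFF K c := hx.of_not_mem_range hconst
    have hz : ∀ v, v ∈ zeros hc' 0 ↔ v.adicValuation c < 1 := by
      intro v
      rw [mem_zeros, map_zero, sub_zero]
    have hsub : E.support ⊆ zeros hc' 0 ∪ poles hc' := by
      intro v hv
      rw [Finsupp.mem_support_iff, hE] at hv
      rw [Finset.mem_union, hz, mem_poles]
      rcases lt_or_gt_of_ne hv with h | h
      · right
        exact (ord_neg_iff v hc).mp h
      · left
        exact (ord_pos_iff v hc).mp h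
    rw [degree_eq_sum hx E _ hsub, Finset.sum_union (disjoint_zeros_poles hc' 0)]
    have h1 : ∑ v ∈ zeros hc' 0, E v = (Module.finrank K⟮c⟯ F : ℤ) := by
      rw [← sum_zeros hc' 0]
      refine Finset.sum_congr rfl fun v _ => ?_
      rw [hE, map_zero, sub_zero]
    have h2 : ∑ v ∈ poles hc', E v = -(Module.finrank K⟮c⟯ F : ℤ) := by
      rw [← sum_poles hc', ← Finset.sum_neg_distrib]
      refine Finset.sum_congr rfl fun v _ => ?_
      rw [hE, neg_neg]
    rw [h1, h2]
    ring

/-- every place is a pole of `x` or a zero of `x - a` for some `a` -/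
theorem mem_poles_or_mem_zeros (hx : IsFF K x) (v : Place K F) :
    ∃ a : K, v ∈ poles hx ∨ v ∈ zeros hx a := by
  by_cases h : v.adicValuation x ≤ 1
  · obtain ⟨a, ha⟩ := exists_sub_lt_one hx v h
    exact ⟨a, Or.inr ((mem_zeros hx a v).mpr ha)⟩
  · exact ⟨0, Or.inl ((mem_poles hx v).mpr (not_le.mp h))⟩

variable [HasCanonicalDivisor (K := K) (F := F)]

/-- **Riemann–Hurwitz** for `dx`. -/
theorem degree_canonicalDivisorOf_D (hx : IsFF K x) (T : Finset K)
    (hT : ∀ a ∉ T, (zeros hx a).card = Module.finrank K⟮x⟯ F) :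
    Divisor.degree (canonicalDivisorOf (D_ne_zero hx))
      = (∑ a ∈ T, ((Module.finrank K⟮x⟯ F : ℤ) - ((zeros hx a).card : ℤ)))
        - (Module.finrank K⟮x⟯ F : ℤ) - ((poles hx).card : ℤ) := by
  classical
  set E : Divisor K F := canonicalDivisorOf (D_ne_zero hx) with hE
  set n : ℤ := (Module.finrank K⟮x⟯ F : ℤ) with hn
  choose c hc using mem_poles_or_mem_zeros hx
  set A : Finset K := T ∪ E.support.image c with hA
  have hsub : E.support ⊆ poles hx ∪ A.biUnion (zeros hx) := by
    intro v hv
    rw [Finset.mem_union, Finset.mem_biUnion]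
    rcases hc v with h | h
    · exact Or.inl h
    · exact Or.inr ⟨c v, Finset.mem_union_right _ (Finset.mem_image_of_mem c hv), h⟩
  have hdisj : Disjoint (poles hx) (A.biUnion (zeros hx)) := by
    rw [Finset.disjoint_biUnion_right]
    intro a _
    exact (disjoint_zeros_poles hx a).symm
  have hpair : (A : Set K).PairwiseDisjoint (zeros hx) := by
    intro a _ b _ hab
    exact disjoint_zeros_zeros hx hab
  have hzero : ∀ a : K, ∑ v ∈ zeros hx a, E v = n - ((zeros hx a).card : ℤ) := by
    intro a
    have h1 : ∑ v ∈ zeros hx a, E v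
        = ∑ v ∈ zeros hx a, (v.ord (x - algebraMap K F a) - 1) := by
      refine Finset.sum_congr rfl fun v hv => ?_
      rw [hE, canonicalDivisorOf_apply, ordDifferential_D_of_mem_zeros hx hv]
    rw [h1, Finset.sum_sub_distrib, sum_zeros hx a, Finset.sum_const, nsmul_eq_mul, mul_one]
  have hpole : ∑ v ∈ poles hx, E v = -n - ((poles hx).card : ℤ) := by
    have h1 : ∑ v ∈ poles hx, E v = ∑ v ∈ poles hx, (-(-v.ord x) - 1) := by
      refine Finset.sum_congr rfl fun v hv => ?_
      rw [hE, canonicalDivisorOf_apply, ordDifferential_D_of_mem_poles hx hv, neg_neg]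
    rw [h1, Finset.sum_sub_distrib, Finset.sum_neg_distrib, sum_poles hx, Finset.sum_const,
      nsmul_eq_mul, mul_one]
  rw [degree_eq_sum hx E _ hsub, Finset.sum_union hdisj, Finset.sum_biUnion hpair, hpole]
  have h3 : ∑ a ∈ A, ∑ v ∈ zeros hx a, E v = ∑ a ∈ T, (n - ((zeros hx a).card : ℤ)) := by
    rw [Finset.sum_congr rfl fun a _ => hzero a]
    symm
    apply Finset.sum_subset Finset.subset_union_left
    intro a _ haT
    rw [hT a haT, hn, sub_self]
  rw [h3]
  ring

/-- the degree of the divisor of a nonzero differential does not depend on the differential -/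
theorem degree_canonicalDivisorOf (hx : IsFF K x) {ω : Ω[F⁄K]} (hω : ω ≠ 0) :
    Divisor.degree (canonicalDivisorOf hω) = Divisor.degree (canonicalDivisorOf (D_ne_zero hx)) := by
  have halg : Algebra.IsAlgebraic K⟮x⟯ F := by
    have := hx.finite
    exact Algebra.IsAlgebraic.of_finite _ _
  obtain ⟨c, hcω⟩ := LocalDiff.exists_eq_smul_D halg ω
  have hc : c ≠ 0 := by
    rintro rfl
    rw [zero_smul] at hcω
    exact hω hcω
  have key := degree_eq_zero_of_ord hx hc
    (canonicalDivisorOf hω - canonicalDivisorOf (D_ne_zero hx)) (fun v => by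
      rw [Finsupp.sub_apply, canonicalDivisorOf_apply, canonicalDivisorOf_apply]
      conv_lhs => rw [hcω]
      rw [LocalDiff.ordDifferential_smul' v (surjective_residue hx v) (isAlgebraic_of_isFF hx) hc
        (D_ne_zero hx)]
      ring)
  rw [map_sub, sub_eq_zero] at key
  exact key

theorem genus_eq_of_degree (hx : IsFF K x) (g : ℕ)
    (hg : Divisor.degree (canonicalDivisorOf (D_ne_zero hx)) = 2 * (g : ℤ) - 2) :
    AlgebraicCurve.genus K F = g := by
  have h : ∃ ω : Ω[F⁄K], ω ≠ 0 := ⟨_, D_ne_zero hx⟩
  unfold AlgebraicCurve.genus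
  rw [dif_pos h, degree_canonicalDivisorOf hx h.choose_spec, hg]
  omega

/-- **Riemann–Hurwitz**: the genus of a function field `F/K` from the ramification of `x`. -/
theorem genus_eq (hx : IsFF K x) (T : Finset K)
    (hT : ∀ a ∉ T,
      Nat.card {v : Place K F // x - algebraMap K F a ∈ v.toValuationSubring.nonunits}
        = Module.finrank K⟮x⟯ F)
    (g : ℕ)
    (hg : (∑ a ∈ T, ((Module.finrank K⟮x⟯ F : ℤ)
        - (Nat.card {v : Place K F // x - algebraMap K F a ∈ v.toValuationSubring.nonunits} : ℤ)))
        - (Module.finrank K⟮x⟯ F : ℤ)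
        - (Nat.card {v : Place K F // x ∉ v.toValuationSubring} : ℤ) = 2 * (g : ℤ) - 2) :
    AlgebraicCurve.genus K F = g := by
  apply genus_eq_of_degree hx g
  rw [degree_canonicalDivisorOf_D hx T (fun a ha => by rw [← card_zeros hx a]; exact hT a ha),
    ← hg, card_poles hx]
  congr 2
  refine Finset.sum_congr rfl fun a _ => ?_
  rw [card_zeros hx a]

end Main

end Fermat.Agent.S24.Hurwitz
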