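import Mathlib
import Fermat.Prelude.Def_ModularForm_HeckeOperator
import Fermat.Prelude.Sol.S_ModularForm_heckeT_slash_eq_self_of_mem_Gamma0
import Fermat.Prelude.Sol.S_ModularFormClass_isBoundedAt_heckeT
import Fermat.Prelude.Thm_CongruenceSubgroup_one_mem_strictPeriods_Gamma0
import Fermat.Prelude.Thm_ModularCurve_coeffMap_qExpand
import Fermat.Prelude.Def_ModularCurve_X0
import Fermat.Prelude.Def_ModularCurve_LaurentCoeff
import Fermat.Agent.S24.QBridge

set_option autoImplicit false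

/-!
# S24: level raising `f(τ) ↦ f(dτ)` from level one to `Γ₀(N)`, `d ∣ N`

* `raise N d hd f : ModularForm Γ₀(N) k` with `raise N d hd f τ = f (d τ)`;
* its `q`-expansion is the formal `qExpand d` of the `q`-expansion of `f`;
* the generator step of the representation of the formal modular function field by quotients of
  modular forms: `j(q^d) = E₄(dτ)³ / Δ(dτ)`.
-/

open UpperHalfPlane CongruenceSubgroup Matrix.SpecialLinearGroup ModularForm Filter Topology
open scoped MatrixGroups ModularForm Manifold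

noncomputable section

namespace Fermat.Agent.S24.LevelRaise

variable {k : ℤ}

/-- `f ∣[k] diag(d,1)`, as a function. -/
def raiseAuxFun (d : ℕ) (k : ℤ) (f : ℍ → ℂ) : ℍ → ℂ := f ∣[k] (heckeDiagMatrix d)

theorem raiseAuxFun_slash_Gamma0 (N d : ℕ) (hd0 : d ≠ 0) (hd : d ∣ N) (f : ModularForm 𝒮ℒ k)
    (γ : GL (Fin 2) ℝ) (hγ : γ ∈ (Gamma0 N : Subgroup (GL (Fin 2) ℝ))) :
    raiseAuxFun d k f ∣[k] γ = raiseAuxFun d k f := by
  obtain ⟨g, hg, rfl⟩ := hγ
  have hg2 : g ∈ Gamma0 N := hg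
  rw [Gamma0_mem] at hg2
  have hdvd : (N : ℤ) ∣ g 1 0 := (ZMod.intCast_zmod_eq_zero_iff_dvd _ N).mp hg2
  have hdvd' : (d : ℤ) ∣ g 1 0 := (Int.natCast_dvd_natCast.mpr hd).trans hdvd
  obtain ⟨e, he⟩ := hdvd'
  obtain ⟨g', -, hg'⟩ :=
    P2MW.S_ModularForm_heckeT_slash_eq_self_of_mem_Gamma0.ModularForm.HeckeSlashInvariance.heckeDiagMatrix_mul_of_eq'
      hd0 g e he
  rw [raiseAuxFun, ← SlashAction.slash_mul, hg', SlashAction.slash_mul]
  congr 1
  exact SlashInvariantFormClass.slash_action_eq f _ ⟨g', rfl⟩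

theorem mdiff_raiseAuxFun (d : ℕ) (f : ModularForm 𝒮ℒ k) : MDiff (raiseAuxFun d k f) :=
  (ModularFormClass.holo f).slash k _

/-- `f ∣[k] diag(d,1)` as a modular form of weight `k` on `Γ₀(N)`, `d ∣ N`. -/
def raiseAux (N d : ℕ) [NeZero N] (hd : d ∣ N) (f : ModularForm 𝒮ℒ k) :
    ModularForm (Gamma0 N : Subgroup (GL (Fin 2) ℝ)) k where
  toFun := raiseAuxFun d k f
  slash_action_eq' γ hγ :=
    raiseAuxFun_slash_Gamma0 N d (ne_zero_of_dvd_ne_zero (NeZero.ne N) hd) hd f γ hγ
  holo' := mdiff_raiseAuxFun d f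
  bdd_at_cusps' {c} hc := by
    obtain ⟨g, hg⟩ :=
      P2MW.S_ModularFormClass_isBoundedAt_heckeT.ModularForm.S06W2.exists_heckeDiagMatrix_eq_map d
    have hc' : IsCusp c 𝒮ℒ := by
      rw [Subgroup.IsArithmetic.isCusp_iff_isCusp_SL2Z] at hc ⊢
      exact hc
    have := P2MW.S_ModularFormClass_isBoundedAt_heckeT.ModularForm.S06W2.isBoundedAt_slash_ratCast
      f g hc'
    rw [← hg] at this
    exact this

/-- Level raising: `τ ↦ f (d τ)` as a modular form of weight `k` on `Γ₀(N)`, for `d ∣ N`. -/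
def raise (N d : ℕ) [NeZero N] (hd : d ∣ N) (f : ModularForm 𝒮ℒ k) :
    ModularForm (Gamma0 N : Subgroup (GL (Fin 2) ℝ)) k :=
  ((d : ℂ) ^ (k - 1))⁻¹ • raiseAux N d hd f

theorem raise_apply (N d : ℕ) [NeZero N] (hd : d ∣ N) (f : ModularForm 𝒮ℒ k) (τ : ℍ) :
    raise N d hd f τ = f (heckeDiagMatrix d • τ) := by
  have hd0 : d ≠ 0 := ne_zero_of_dvd_ne_zero (NeZero.ne N) hd
  have hdC : (d : ℂ) ^ (k - 1) ≠ 0 := zpow_ne_zero _ (by exact_mod_cast hd0)
  show (((d : ℂ) ^ (k - 1))⁻¹ • raiseAux N d hd f) τ = _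
  rw [smul_apply]
  show ((d : ℂ) ^ (k - 1))⁻¹ • raiseAuxFun d k f τ = _
  rw [raiseAuxFun, slash_heckeDiagMatrix_apply k hd0, smul_eq_mul, ← mul_assoc,
    inv_mul_cancel₀ hdC, one_mul]

/-! ### `q`-expansion -/

theorem qParam_heckeDiagMatrix_smul (d : ℕ) (hd0 : d ≠ 0) (τ : ℍ) :
    Function.Periodic.qParam 1 (heckeDiagMatrix d • τ : ℍ) = Function.Periodic.qParam 1 τ ^ d := by
  rw [coe_heckeDiagMatrix_smul hd0]
  simp only [Function.Periodic.qParam, ← Complex.exp_nat_mul]
  congr 1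
  push_cast
  ring

/-- The coefficients of the `q`-expansion of `raise N d hd f`. -/
def raiseCoeff (d : ℕ) (f : ModularForm 𝒮ℒ k) (n : ℕ) : ℂ :=
  if d ∣ n then (qExpansion 1 f).coeff (n / d) else 0

theorem hasSum_raise (N d : ℕ) [NeZero N] (hd : d ∣ N) (f : ModularForm 𝒮ℒ k) (τ : ℍ) :
    HasSum (fun n => raiseCoeff d f n • Function.Periodic.qParam 1 τ ^ n) (raise N d hd f τ) := by
  have hd0 : d ≠ 0 := ne_zero_of_dvd_ne_zero (NeZero.ne N) hd
  have h1 : HasSum (fun m => (qExpansion 1 f).coeff m • Function.Periodic.qParam 1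
      (heckeDiagMatrix d • τ : ℍ) ^ m) (f (heckeDiagMatrix d • τ)) :=
    UpperHalfPlane.hasSum_qExpansion one_pos
      (SlashInvariantFormClass.periodic_comp_ofComplex f one_mem_strictPeriods_SL)
      (ModularFormClass.holo f) (ModularFormClass.bdd_at_infty f) _
  rw [← raise_apply N d hd f τ] at h1
  have hinj : Function.Injective (fun m : ℕ => d * m) :=
    fun a b h => Nat.eq_of_mul_eq_mul_left (Nat.pos_of_ne_zero hd0) h
  have h3 : ((fun n => raiseCoeff d f n • Function.Periodic.qParam 1 τ ^ n) ∘ fun m : ℕ => d * m) =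
      fun i => (qExpansion 1 f).coeff i • Function.Periodic.qParam 1
        (heckeDiagMatrix d • τ : ℍ) ^ i := by
    funext m
    simp only [Function.comp, raiseCoeff, Nat.mul_div_cancel_left _ (Nat.pos_of_ne_zero hd0),
      dvd_mul_right, if_true, qParam_heckeDiagMatrix_smul d hd0, smul_eq_mul, pow_mul]
  rw [← hinj.hasSum_iff, h3]
  · exact h1
  · intro n hn
    have : ¬ d ∣ n := by
      rintro ⟨m, rfl⟩
      exact hn ⟨m, rfl⟩
    simp [raiseCoeff, this]

theorem qExpansion_raise_coeff (N d : ℕ) [NeZero N] (hd : d ∣ N) (f : ModularForm 𝒮ℒ k) (n : ℕ) :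
    (qExpansion 1 (raise N d hd f)).coeff n = raiseCoeff d f n := by
  have := ModularFormClass.qExpansion_coeff_unique (f := raise N d hd f) (c := raiseCoeff d f)
    one_pos (CongruenceSubgroup.one_mem_strictPeriods_Gamma0 N)
    (fun τ => hasSum_raise N d hd f τ) n
  exact this.symm

/-- The `q`-expansion of `raise N d hd f`, as a Laurent series, is the formal `qExpand d` of the
`q`-expansion of `f`. -/
theorem ofPowerSeries_qExpansion_raise (N d : ℕ) [NeZero N] [NeZero d] (hd : d ∣ N)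
    (f : ModularForm 𝒮ℒ k) :
    HahnSeries.ofPowerSeries ℤ ℂ (qExpansion 1 (raise N d hd f)) =
      ModularCurve.qExpand ℂ d (HahnSeries.ofPowerSeries ℤ ℂ (qExpansion 1 f)) := by
  ext m
  rcases lt_or_ge m 0 with hm | hm
  · rw [ModularCurve.ofPowerSeries_coeff_of_neg _ hm]
    by_cases hdm : (d : ℤ) ∣ m
    · obtain ⟨c, rfl⟩ := hdm
      rw [ModularCurve.qExpand_coeff_mul]
      have hc : c < 0 := by
        by_contra hc
        have : 0 ≤ (d : ℤ) * c := mul_nonneg (by positivity) (not_lt.mp hc)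
        omega
      rw [ModularCurve.ofPowerSeries_coeff_of_neg _ hc]
    · rw [ModularCurve.qExpand_coeff_of_not_dvd d _ hdm]
  · obtain ⟨n, rfl⟩ := Int.eq_ofNat_of_zero_le hm
    rw [HahnSeries.ofPowerSeries_apply_coeff, qExpansion_raise_coeff, raiseCoeff]
    by_cases hdn : d ∣ n
    · rw [if_pos hdn]
      obtain ⟨c, rfl⟩ := hdn
      rw [Nat.mul_div_cancel_left _ (Nat.pos_of_ne_zero (NeZero.ne d))]
      push_cast
      rw [ModularCurve.qExpand_coeff_mul, HahnSeries.ofPowerSeries_apply_coeff]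
    · rw [if_neg hdn, ModularCurve.qExpand_coeff_of_not_dvd d _
        (by rwa [Int.natCast_dvd_natCast])]

/-! ### The generators `j(q^d)` are quotients of modular forms on `Γ₀(N)` -/

/-- `E₄³` as a level one form of weight `12`. -/
def E4cube : ModularForm 𝒮ℒ 12 := ModularForm.mcast (by norm_num) (E₄.pow 3)

theorem E4cube_apply (τ : ℍ) : E4cube τ = E₄ τ ^ 3 := by
  show (E₄.pow 3) τ = _
  rw [ModularForm.coe_pow]
  rfl

/-- `Δ` as a level one modular form of weight `12`. -/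
def DeltaMF : ModularForm 𝒮ℒ 12 := CuspForm.toModularFormₗ CuspForm.discriminant

theorem DeltaMF_apply (τ : ℍ) : DeltaMF τ = ModularForm.discriminant τ := rfl

theorem qExpansion_E4cube :
    qExpansion 1 E4cube = (ModularCurve.eisenstein4 ^ 3).map (Int.castRingHom ℂ) := by
  have h : qExpansion 1 E4cube = qExpansion 1 (E₄.pow 3) := rfl
  rw [h, ModularForm.qExpansion_pow one_pos one_mem_strictPeriods_SL,
    Fermat.Agent.S24.QBridge.qExpansion_E4, map_pow]

theorem qExpansion_DeltaMF :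
    qExpansion 1 DeltaMF =
      PowerSeries.X * ModularCurve.dedekindEtaUnit.map (Int.castRingHom ℂ) :=
  Fermat.Agent.S24.QBridge.qExpansion_discriminant

/-- Naturality of `ofPowerSeries` in the coefficient ring. -/
theorem coeffMap_ofPowerSeries {R S : Type*} [CommRing R] [CommRing S] (φ : R →+* S)
    (p : PowerSeries R) :
    ModularCurve.coeffMap φ (HahnSeries.ofPowerSeries ℤ R p) =
      HahnSeries.ofPowerSeries ℤ S (p.map φ) := by
  ext m
  rw [ModularCurve.coeffMap_coeff]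
  rcases lt_or_ge m 0 with hm | hm
  · rw [ModularCurve.ofPowerSeries_coeff_of_neg _ hm, ModularCurve.ofPowerSeries_coeff_of_neg _ hm,
      map_zero]
  · obtain ⟨n, rfl⟩ := Int.eq_ofNat_of_zero_le hm
    rw [HahnSeries.ofPowerSeries_apply_coeff, HahnSeries.ofPowerSeries_apply_coeff,
      PowerSeries.coeff_map]

/-- The formal identity `jq * (q * η-unit) = E₄³` over `ℚ`. -/
theorem jq_mul_eq :
    ModularCurve.jq * HahnSeries.ofPowerSeries ℤ ℚ
        ((PowerSeries.X * ModularCurve.dedekindEtaUnit).map (Int.castRingHom ℚ)) =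
      HahnSeries.ofPowerSeries ℤ ℚ ((ModularCurve.eisenstein4 ^ 3).map (Int.castRingHom ℚ)) := by
  have h1 : (ModularCurve.eisenstein4 ^ 3 : PowerSeries ℤ) =
      ModularCurve.jNum * ModularCurve.dedekindEtaUnit := by
    rw [ModularCurve.jNum, mul_assoc, mul_comm ModularCurve.dedekindEtaUnitInv,
      ModularCurve.dedekindEtaUnit_mul_inv, mul_one]
  rw [h1, ModularCurve.jq, map_mul, map_mul, map_mul, map_mul, PowerSeries.map_X,
    HahnSeries.ofPowerSeries_X]
  have h2 : (HahnSeries.single (-1 : ℤ) (1 : ℚ)) * (HahnSeries.single (1 : ℤ) (1 : ℚ)) = 1 := by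
    rw [HahnSeries.single_mul_single]
    simp
  show HahnSeries.single (-1 : ℤ) 1 * HahnSeries.ofPowerSeries ℤ ℚ ModularCurve.jNumQ *
      (HahnSeries.single 1 1 * _) = HahnSeries.ofPowerSeries ℤ ℚ ModularCurve.jNumQ * _
  calc _ = (HahnSeries.single (-1 : ℤ) (1 : ℚ) * HahnSeries.single (1 : ℤ) (1 : ℚ)) *
        (HahnSeries.ofPowerSeries ℤ ℚ ModularCurve.jNumQ *
          HahnSeries.ofPowerSeries ℤ ℚ
            (ModularCurve.dedekindEtaUnit.map (Int.castRingHom ℚ))) := by ring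
    _ = _ := by rw [h2, one_mul]

/-- **Generator step**: for `d ∣ N`, the formal series `j(q^d)` is the quotient of the
`q`-expansions of the weight 12 forms `E₄(dτ)³` and `Δ(dτ)` on `Γ₀(N)`. -/
theorem exists_rep_jd (N d : ℕ) [NeZero N] [NeZero d] (hd : d ∣ N) :
    ∃ A B : ModularForm (Gamma0 N : Subgroup (GL (Fin 2) ℝ)) 12, B ≠ 0 ∧
      (∀ τ : ℍ, A τ = E₄ (heckeDiagMatrix d • τ) ^ 3) ∧
      (∀ τ : ℍ, B τ = ModularForm.discriminant (heckeDiagMatrix d • τ)) ∧
      HahnSeries.ofPowerSeries ℤ ℂ (qExpansion 1 A) =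
        ModularCurve.coeffEmb ℂ (ModularCurve.qExpand ℚ d ModularCurve.jq) *
          HahnSeries.ofPowerSeries ℤ ℂ (qExpansion 1 B) := by
  refine ⟨raise N d hd E4cube, raise N d hd DeltaMF, ?_, ?_, ?_, ?_⟩
  · intro h0
    have h1 := raise_apply N d hd DeltaMF UpperHalfPlane.I
    rw [h0, DeltaMF_apply] at h1
    exact ModularForm.discriminant_ne_zero _ h1.symm
  · intro τ
    rw [raise_apply, E4cube_apply]
  · intro τ
    rw [raise_apply, DeltaMF_apply]
  · rw [ofPowerSeries_qExpansion_raise, ofPowerSeries_qExpansion_raise, qExpansion_E4cube,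
      qExpansion_DeltaMF, ModularCurve.coeffEmb, ModularCurve.coeffMap_qExpand, ← map_mul]
    congr 1
    have h := congrArg (ModularCurve.coeffMap (algebraMap ℚ ℂ)) jq_mul_eq
    have e : ∀ p : PowerSeries ℤ, (p.map (Int.castRingHom ℚ)).map (algebraMap ℚ ℂ) =
        p.map (Int.castRingHom ℂ) := by
      intro p
      ext n
      simp
    rw [map_mul, coeffMap_ofPowerSeries, coeffMap_ofPowerSeries, e, e, map_mul,
      PowerSeries.map_X] at h
    exact h.symm

end Fermat.Agent.S24.LevelRaise
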