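import Mathlib

/-!
# Level-one analytic facts for the `j`-function (Project R / S24)

`jFun τ = E₄ τ ^ 3 / Δ τ` on the upper half plane:
* invariance under `SL(2, ℤ)`, holomorphy;
* surjectivity onto `ℂ`;
* the derivative identity `Δ * D j = c * E₄ ^ 2 * E₆` with `c ≠ 0` (via `dim M₁₄ = 1`);
* exact vanishing orders of `j - j τ₀` at every point `τ₀` (`1`, `2` or `3`);
* the special values `j ρ = 0`, `j i = 1728` at the elliptic points.
-/

set_option autoImplicit false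

open UpperHalfPlane hiding I
open Complex ModularForm EisensteinSeries MatrixGroups Filter Derivative
open scoped Real Manifold Topology ModularForm

noncomputable section

namespace Fermat.Agent.S24.LevelOneFacts

local notation "Δ" => ModularForm.discriminant

/-- Klein's `j`-invariant as a function on the upper half plane. -/
def jFun (τ : ℍ) : ℂ := E₄ τ ^ 3 / Δ τ

theorem jFun_mul_discriminant (τ : ℍ) : jFun τ * Δ τ = E₄ τ ^ 3 := by
  unfold jFun
  field_simp [discriminant_ne_zero τ]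

theorem jFun_sub_mul_discriminant (τ : ℍ) : (jFun τ - 1728) * Δ τ = E₆ τ ^ 2 := by
  rw [sub_mul, jFun_mul_discriminant, discriminant_eq_E₄_cube_sub_E₆_sq]
  ring

theorem jFun_eq_zero_iff (τ : ℍ) : jFun τ = 0 ↔ E₄ τ = 0 := by
  constructor
  · intro h
    have := jFun_mul_discriminant τ
    rw [h, zero_mul] at this
    exact pow_eq_zero_iff (by norm_num) |>.mp this.symm
  · intro h
    simp [jFun, h]

theorem jFun_eq_1728_iff (τ : ℍ) : jFun τ = 1728 ↔ E₆ τ = 0 := by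
  constructor
  · intro h
    have := jFun_sub_mul_discriminant τ
    rw [h, sub_self, zero_mul] at this
    exact pow_eq_zero_iff (by norm_num) |>.mp this.symm
  · intro h
    have := jFun_sub_mul_discriminant τ
    rw [h] at this
    have h2 : (jFun τ - 1728) = 0 := by
      rcases mul_eq_zero.mp (this.trans (by norm_num)) with h | h
      · exact h
      · exact absurd h (discriminant_ne_zero τ)
    exact sub_eq_zero.mp h2

/-! ### Invariance and holomorphy -/

theorem levelOne_apply_smul {k : ℤ} (R : ModularForm 𝒮ℒ k) (σ : SL(2, ℤ)) (τ : ℍ) :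
    R (σ • τ) = denom σ τ ^ k * R τ := by
  have hmem : (Matrix.SpecialLinearGroup.mapGL ℝ σ) ∈ 𝒮ℒ := ⟨σ, rfl⟩
  exact SlashInvariantForm.slash_action_eqn'' R hmem τ

theorem discriminant_apply_smul (σ : SL(2, ℤ)) (τ : ℍ) :
    Δ (σ • τ) = denom σ τ ^ (12 : ℤ) * Δ τ :=
  levelOne_apply_smul (CuspForm.discriminant : ModularForm 𝒮ℒ 12) σ τ

theorem jFun_smul (σ : SL(2, ℤ)) (τ : ℍ) : jFun (σ • τ) = jFun τ := by
  unfold jFun
  rw [levelOne_apply_smul E₄ σ τ, discriminant_apply_smul σ τ]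
  have hd : (denom σ τ : ℂ) ≠ 0 := denom_ne_zero _ τ
  have hΔ := discriminant_ne_zero τ
  rw [mul_pow, ← zpow_natCast, ← zpow_mul]
  norm_num
  field_simp

theorem mdifferentiable_discriminant : MDiff (Δ : ℍ → ℂ) :=
  ModularFormClass.holo (CuspForm.discriminant : CuspForm 𝒮ℒ 12)

theorem mdifferentiable_jFun : MDiff jFun := by
  have h4 : MDiff (E₄ : ℍ → ℂ) := ModularFormClass.holo E₄
  have hΔ := mdifferentiable_discriminant
  rw [UpperHalfPlane.mdifferentiable_iff] at h4 hΔ ⊢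
  have : DifferentiableOn ℂ
      (fun z => ((E₄ : ℍ → ℂ) ∘ ofComplex) z ^ 3 / ((Δ : ℍ → ℂ) ∘ ofComplex) z)
      upperHalfPlaneSet :=
    (h4.pow 3).div hΔ (fun z _ => discriminant_ne_zero _)
  exact this

/-! ### Derivatives -/

/-- `D Δ = E₂ Δ` (logarithmic derivative of the eta product). -/
theorem D_discriminant (τ : ℍ) : D (Δ : ℍ → ℂ) τ = E2 τ * Δ τ := by
  have hτ : (τ : ℂ) ∈ upperHalfPlaneSet := τ.im_pos
  have hev : ((Δ : ℍ → ℂ) ∘ ofComplex) =ᶠ[𝓝 (τ : ℂ)] fun z => ModularForm.eta z ^ 24 := by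
    filter_upwards [isOpen_upperHalfPlaneSet.mem_nhds hτ] with w hw
    simp [ModularForm.discriminant, ofComplex_apply_of_im_pos hw]
  have hη := differentiableAt_eta_of_mem_upperHalfPlaneSet hτ
  have hη0 : ModularForm.eta (τ : ℂ) ≠ 0 := eta_ne_zero hτ
  have hlog := logDeriv_eta_eq_E2 τ
  rw [logDeriv_apply, div_eq_iff hη0] at hlog
  simp only [normalizedDerivOfComplex]
  rw [hev.deriv_eq]
  have : deriv (fun z => ModularForm.eta z ^ 24) (τ : ℂ)
      = 24 * ModularForm.eta (τ : ℂ) ^ 23 * deriv ModularForm.eta (τ : ℂ) := by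
    have h := (hη.hasDerivAt.pow 24).deriv
    rw [show (ModularForm.eta ^ 24 : ℂ → ℂ) = fun z => ModularForm.eta z ^ 24 from rfl] at h
    simpa using h
  rw [this, hlog]
  have h2pi : (2 * (π : ℂ) * I) ≠ 0 := by
    simp [Real.pi_ne_zero]
  simp only [ModularForm.discriminant]
  field_simp
  ring

/-- The cube of `E₄` as a function. -/
def E4cube : ℍ → ℂ := fun z => E₄ z ^ 3

theorem mdifferentiable_E4cube : MDiff E4cube := by
  have h4 : MDiff (E₄ : ℍ → ℂ) := ModularFormClass.holo E₄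
  exact fun τ => (h4 τ).pow 3

/-- The weight-14 form `G = ∂₁₂ (E₄³) = Δ · D j`. -/
def G14 : ℍ → ℂ := serreDerivative 12 E4cube

theorem D_jFun_mul_discriminant (τ : ℍ) : D jFun τ * Δ τ = G14 τ := by
  have hmul : jFun * (Δ : ℍ → ℂ) = E4cube := by
    funext z
    simp [E4cube, jFun_mul_discriminant]
  have h := congrFun (normalizedDerivOfComplex_mul jFun (Δ : ℍ → ℂ) mdifferentiable_jFun
    mdifferentiable_discriminant) τ
  rw [hmul] at h
  simp only [Pi.add_apply, Pi.mul_apply, D_discriminant] at h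
  simp only [G14, serreDerivative_apply, h]
  have := jFun_mul_discriminant τ
  simp only [E4cube]
  rw [← this]
  ring

/-! ### `D` of a periodic bounded holomorphic function vanishes at `i∞` -/

local notation "𝕢" => Function.Periodic.qParam

theorem D_eq_qParam_mul_deriv_cuspFunction {F : ℍ → ℂ} (hper : Function.Periodic (F ∘ ofComplex) 1)
    (hol : MDiff F) (hbdd : IsBoundedAtImInfty F) (τ : ℍ) :
    D F τ = 𝕢 1 τ * deriv (cuspFunction 1 F) (𝕢 1 τ) := by
  have hτ : (τ : ℂ) ∈ upperHalfPlaneSet := τ.im_pos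
  have hev : (F ∘ ofComplex) =ᶠ[𝓝 (τ : ℂ)] (cuspFunction 1 F) ∘ (𝕢 1) := by
    filter_upwards [isOpen_upperHalfPlaneSet.mem_nhds hτ] with w hw
    have := eq_cuspFunction (h := 1) (f := F) ⟨w, hw⟩ one_ne_zero hper
    simp only [Function.comp_apply]
    rw [ofComplex_apply_of_im_pos hw]
    exact this.symm
  have hq : ‖𝕢 1 (τ : ℂ)‖ < 1 := Function.Periodic.norm_qParam_lt_one one_pos τ.im_pos
  have hc : DifferentiableAt ℂ (cuspFunction 1 F) (𝕢 1 (τ : ℂ)) :=
    differentiableAt_cuspFunction one_pos hper hol hbdd hq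
  have hqd : HasDerivAt (𝕢 1) (2 * π * I * 𝕢 1 (τ : ℂ)) (τ : ℂ) := by
    have h1 : HasDerivAt (fun z : ℂ => 2 * π * I * z / ((1 : ℝ) : ℂ)) (2 * π * I) (τ : ℂ) := by
      simpa using ((hasDerivAt_id (τ : ℂ)).const_mul (2 * π * I)).div_const ((1 : ℝ) : ℂ)
    have h2 : HasDerivAt (fun z : ℂ => cexp (2 * π * I * z / ((1 : ℝ) : ℂ)))
        (cexp (2 * π * I * (τ : ℂ) / ((1 : ℝ) : ℂ)) * (2 * π * I)) (τ : ℂ) := h1.cexp
    have e : (𝕢 1) = fun z : ℂ => cexp (2 * π * I * z / ((1 : ℝ) : ℂ)) := rfl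
    rw [e]
    rw [show 2 * (π : ℂ) * I * (fun z : ℂ => cexp (2 * π * I * z / ((1 : ℝ) : ℂ))) (τ : ℂ)
      = cexp (2 * π * I * (τ : ℂ) / ((1 : ℝ) : ℂ)) * (2 * π * I) from by ring]
    exact h2
  have hcomp := (hc.hasDerivAt.comp (τ : ℂ) hqd).deriv
  simp only [normalizedDerivOfComplex]
  rw [hev.deriv_eq, hcomp]
  have h2pi : (2 * (π : ℂ) * I) ≠ 0 := by
    simp [Real.pi_ne_zero]
  field_simp

theorem isZeroAtImInfty_D {F : ℍ → ℂ} (hper : Function.Periodic (F ∘ ofComplex) 1)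
    (hol : MDiff F) (hbdd : IsBoundedAtImInfty F) : IsZeroAtImInfty (D F) := by
  have han : AnalyticAt ℂ (cuspFunction 1 F) 0 :=
    analyticAt_cuspFunction_zero one_pos hper hol hbdd
  have hcont : ContinuousAt (deriv (cuspFunction 1 F)) 0 := han.deriv.continuousAt
  have hq : Tendsto (fun τ : ℍ => 𝕢 1 (τ : ℂ)) atImInfty (𝓝 0) :=
    qParam_tendsto_atImInfty one_pos
  have h1 : Tendsto (fun τ : ℍ => deriv (cuspFunction 1 F) (𝕢 1 (τ : ℂ))) atImInfty
      (𝓝 (deriv (cuspFunction 1 F) 0)) := hcont.tendsto.comp hq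
  have h2 := hq.mul h1
  rw [zero_mul] at h2
  show Tendsto (D F) atImInfty (𝓝 0)
  refine h2.congr (fun τ => ?_)
  exact (D_eq_qParam_mul_deriv_cuspFunction hper hol hbdd τ).symm

/-! ### `G14` is a modular form of weight 14 -/

/-- `E₄³` as a modular form of weight 12. -/
def E4cubeForm : ModularForm 𝒮ℒ 12 := ModularForm.mcast (by decide) (E₄.pow 3)

theorem coe_E4cubeForm : ⇑E4cubeForm = E4cube := by
  funext z
  simp only [E4cubeForm, E4cube, ModularForm.coe_mcast, ModularForm.coe_pow, Pi.pow_apply]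

theorem E4cube_slash (γ : SL(2, ℤ)) : E4cube ∣[(12 : ℤ)] γ = E4cube := by
  rw [← coe_E4cubeForm]
  have hmem : (Matrix.SpecialLinearGroup.mapGL ℝ γ) ∈ 𝒮ℒ := ⟨γ, rfl⟩
  exact SlashInvariantForm.slash_action_eqn E4cubeForm _ hmem

theorem G14_slash (γ : SL(2, ℤ)) : G14 ∣[(14 : ℤ)] γ = G14 := by
  have h := serreDerivative_slash_invariant (k := 12) mdifferentiable_E4cube (E4cube_slash γ)
  simpa [G14] using h

theorem isBoundedAtImInfty_E4cube : IsBoundedAtImInfty E4cube := by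
  rw [← coe_E4cubeForm]
  exact ModularFormClass.bdd_at_infty E4cubeForm

theorem periodic_E4cube : Function.Periodic (E4cube ∘ ofComplex) 1 := by
  rw [← coe_E4cubeForm]
  exact_mod_cast SlashInvariantFormClass.periodic_comp_ofComplex E4cubeForm
    one_mem_strictPeriods_SL

theorem isBoundedAtImInfty_G14 : IsBoundedAtImInfty G14 := by
  have h1 : IsBoundedAtImInfty (D E4cube) :=
    (isZeroAtImInfty_D periodic_E4cube mdifferentiable_E4cube
      isBoundedAtImInfty_E4cube).boundedAtFilter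
  have h2 : IsBoundedAtImInfty (fun z => (12 : ℂ) * 12⁻¹ * E2 z * E4cube z) := by
    have := (isBoundedAtImInfty_E2.mul isBoundedAtImInfty_E4cube).const_smul_left
      ((12 : ℂ) * 12⁻¹)
    have e : (fun z => (12 : ℂ) * 12⁻¹ * E2 z * E4cube z)
        = ((12 : ℂ) * 12⁻¹) • (E2 * E4cube) := by
      funext z
      simp
    rw [e]
    exact this
  have := h1.sub h2
  exact this

/-- `G14 = Δ · D j` as a level-one modular form of weight 14. -/
def G14Form : ModularForm 𝒮ℒ 14 where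
  toFun := G14
  slash_action_eq' := fun _ ⟨γ, hγ⟩ => hγ ▸ G14_slash γ
  holo' := serreDerivative_mdifferentiable 12 mdifferentiable_E4cube
  bdd_at_cusps' {c} hc := by
    rw [Subgroup.IsArithmetic.isCusp_iff_isCusp_SL2Z] at hc
    rw [OnePoint.isBoundedAt_iff_forall_SL2Z hc]
    intro γ _
    rw [G14_slash γ]
    exact isBoundedAtImInfty_G14

theorem coe_G14Form : ⇑G14Form = G14 := rfl

/-! ### Values at `i∞` -/

theorem tendsto_atImInfty_coeff_zero {k : ℤ} (f : ModularForm 𝒮ℒ k) :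
    Tendsto f atImInfty (𝓝 ((qExpansion 1 f).coeff 0)) := by
  have hper : Function.Periodic ((f : ℍ → ℂ) ∘ ofComplex) 1 := by
    exact_mod_cast SlashInvariantFormClass.periodic_comp_ofComplex f one_mem_strictPeriods_SL
  have han : AnalyticAt ℂ (cuspFunction 1 f) 0 :=
    ModularFormClass.analyticAt_cuspFunction_zero f one_pos one_mem_strictPeriods_SL
  have h0 : (qExpansion 1 f).coeff 0 = cuspFunction 1 f 0 := by
    simp [qExpansion_coeff]
  rw [h0]
  have hq : Tendsto (fun τ : ℍ => 𝕢 1 (τ : ℂ)) atImInfty (𝓝 0) :=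
    qParam_tendsto_atImInfty one_pos
  have := han.continuousAt.tendsto.comp hq
  refine this.congr (fun τ => ?_)
  exact eq_cuspFunction τ one_ne_zero hper

theorem tendsto_E₄ : Tendsto (E₄ : ℍ → ℂ) atImInfty (𝓝 1) := by
  have := tendsto_atImInfty_coeff_zero E₄
  rwa [E_qExpansion_coeff_zero _ ⟨2, rfl⟩] at this

theorem tendsto_E₆ : Tendsto (E₆ : ℍ → ℂ) atImInfty (𝓝 1) := by
  have := tendsto_atImInfty_coeff_zero E₆
  rwa [E_qExpansion_coeff_zero _ ⟨3, rfl⟩] at this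

theorem tendsto_discriminant : Tendsto (Δ : ℍ → ℂ) atImInfty (𝓝 0) :=
  discriminant_isZeroAtImInfty

/-! ### `M₁₄` is spanned by `E₄² E₆` -/

/-- `E₄² E₆` as a modular form of weight 14. -/
def E4sqE6Form : ModularForm 𝒮ℒ 14 := ModularForm.mcast (by decide) ((E₄.mul E₄).mul E₆)

theorem E4sqE6Form_apply (z : ℍ) : E4sqE6Form z = E₄ z ^ 2 * E₆ z := by
  simp only [E4sqE6Form, ModularForm.mcast_apply, ModularForm.coe_mul, Pi.mul_apply]
  ring

theorem tendsto_E4sqE6Form : Tendsto (E4sqE6Form : ℍ → ℂ) atImInfty (𝓝 1) := by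
  have := (tendsto_E₄.pow 2).mul tendsto_E₆
  simp only [one_pow, mul_one] at this
  refine this.congr (fun z => ?_)
  exact (E4sqE6Form_apply z).symm

theorem E4sqE6Form_ne_zero : E4sqE6Form ≠ 0 := by
  intro h
  have h1 := tendsto_E4sqE6Form
  rw [h] at h1
  have h0 : Tendsto ((0 : ModularForm 𝒮ℒ 14) : ℍ → ℂ) atImInfty (𝓝 0) := by
    have e : ((0 : ModularForm 𝒮ℒ 14) : ℍ → ℂ) = fun _ : ℍ => (0 : ℂ) := by
      funext z
      simp
    rw [e]
    exact tendsto_const_nhds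
  exact one_ne_zero (tendsto_nhds_unique h1 h0)

theorem finrank_weight_fourteen : Module.finrank ℂ (ModularForm 𝒮ℒ 14) = 1 := by
  have h := ModularForm.dimension_level_one 14 ⟨7, rfl⟩
  have h2 : Module.rank ℂ (ModularForm 𝒮ℒ 14) = 1 := by
    rw [show ((14 : ℕ) : ℤ) = 14 from rfl] at h
    rw [h]
    simp [Nat.ModEq]
  exact Module.rank_eq_one_iff_finrank_eq_one.mp h2

theorem exists_G14_eq : ∃ c : ℂ, ∀ z : ℍ, G14 z = c * (E₄ z ^ 2 * E₆ z) := by
  obtain ⟨c, hc⟩ := (finrank_eq_one_iff_of_nonzero' E4sqE6Form E4sqE6Form_ne_zero).mp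
    finrank_weight_fourteen G14Form
  refine ⟨c, fun z => ?_⟩
  have := congrArg (fun f : ModularForm 𝒮ℒ 14 => f z) hc
  simp only [smul_apply, smul_eq_mul, E4sqE6Form_apply] at this
  rw [this]
  rfl

/-! ### Orders of vanishing -/

theorem analyticAt_comp_ofComplex {F : ℍ → ℂ} (hol : MDiff F) (τ : ℍ) :
    AnalyticAt ℂ (fun z : ℂ => F (ofComplex z)) (τ : ℂ) := by
  rw [UpperHalfPlane.mdifferentiable_iff] at hol
  exact hol.analyticAt (isOpen_upperHalfPlaneSet.mem_nhds τ.im_pos)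

theorem isPreconnected_upperHalfPlaneSet : IsPreconnected upperHalfPlaneSet :=
  (Complex.isConnected_of_upperHalfPlane subset_rfl (by grind)).isPreconnected

/-- A holomorphic function on `ℍ` which is not identically zero has finite order everywhere. -/
theorem analyticOrderAt_comp_ofComplex_ne_top {F : ℍ → ℂ} (hol : MDiff F) (hF : F ≠ 0) (τ : ℍ) :
    analyticOrderAt (fun z : ℂ => F (ofComplex z)) (τ : ℂ) ≠ ⊤ := by
  intro htop
  apply hF
  rw [analyticOrderAt_eq_top] at htop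
  rw [UpperHalfPlane.mdifferentiable_iff] at hol
  have han : AnalyticOnNhd ℂ (F ∘ ofComplex) upperHalfPlaneSet :=
    hol.analyticOnNhd isOpen_upperHalfPlaneSet
  have h := han.eqOn_zero_of_preconnected_of_eventuallyEq_zero isPreconnected_upperHalfPlaneSet
    τ.im_pos htop
  funext w
  have := h w.im_pos
  simpa [Function.comp_apply, ofComplex_apply] using this

theorem analyticOrderAt_eq_zero_of_ne {F : ℍ → ℂ} (hol : MDiff F) (τ : ℍ) (h : F τ ≠ 0) :
    analyticOrderAt (fun z : ℂ => F (ofComplex z)) (τ : ℂ) = 0 := by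
  rw [(analyticAt_comp_ofComplex hol τ).analyticOrderAt_eq_zero]
  simpa [ofComplex_apply] using h

theorem jFun_sub_const_ne_zero (j0 : ℂ) : (fun τ : ℍ => jFun τ - j0) ≠ 0 := by
  intro h
  have hE : ∀ τ : ℍ, E₄ τ ^ 3 = j0 * Δ τ := by
    intro τ
    have := congrFun h τ
    simp only [Pi.zero_apply, sub_eq_zero] at this
    rw [← jFun_mul_discriminant, this]
  have h1 : Tendsto (fun τ : ℍ => E₄ τ ^ 3) atImInfty (𝓝 (1 ^ 3)) := tendsto_E₄.pow 3
  have h2 : Tendsto (fun τ : ℍ => j0 * Δ τ) atImInfty (𝓝 (j0 * 0)) :=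
    tendsto_discriminant.const_mul j0
  have h3 : Tendsto (fun τ : ℍ => E₄ τ ^ 3) atImInfty (𝓝 (j0 * 0)) := by
    refine h2.congr (fun τ => (hE τ).symm)
  have := tendsto_nhds_unique h1 h3
  norm_num at this

theorem mdifferentiable_jFun_sub (j0 : ℂ) : MDiff (fun τ : ℍ => jFun τ - j0) :=
  mdifferentiable_jFun.sub mdifferentiable_const

/-- The vanishing order of `j - j₀` at `τ₀` is finite. -/
theorem analyticOrderAt_jFun_sub_ne_top (j0 : ℂ) (τ : ℍ) :
    analyticOrderAt (fun z : ℂ => jFun (ofComplex z) - j0) (τ : ℂ) ≠ ⊤ :=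
  analyticOrderAt_comp_ofComplex_ne_top (mdifferentiable_jFun_sub j0) (jFun_sub_const_ne_zero j0) τ

theorem deriv_jFun_mul_eventually {c : ℂ} (hc : ∀ z : ℍ, G14 z = c * (E₄ z ^ 2 * E₆ z)) (τ : ℍ) :
    (fun z : ℂ => deriv (fun w : ℂ => jFun (ofComplex w)) z * Δ (ofComplex z)) =ᶠ[𝓝 (τ : ℂ)]
      fun z : ℂ => (2 * π * I * c) * (E₄ (ofComplex z) ^ 2 * E₆ (ofComplex z)) := by
  filter_upwards [isOpen_upperHalfPlaneSet.mem_nhds τ.im_pos] with w hw
  have h1 := D_jFun_mul_discriminant ⟨w, hw⟩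
  rw [hc] at h1
  simp only [normalizedDerivOfComplex] at h1
  rw [ofComplex_apply_of_im_pos hw]
  have h2pi : (2 * (π : ℂ) * I) ≠ 0 := by
    simp [Real.pi_ne_zero]
  have e : (jFun ∘ ofComplex) = fun w : ℂ => jFun (ofComplex w) := rfl
  rw [e] at h1
  have : deriv (fun w : ℂ => jFun (ofComplex w)) w * Δ (⟨w, hw⟩ : ℍ)
      = (2 * π * I) * ((2 * π * I)⁻¹ * deriv (fun w : ℂ => jFun (ofComplex w)) w * Δ (⟨w, hw⟩ : ℍ)) := by
    field_simp
  rw [this]
  have h1' : (2 * (π : ℂ) * I)⁻¹ * deriv (fun w : ℂ => jFun (ofComplex w)) w * Δ (⟨w, hw⟩ : ℍ)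
      = c * (E₄ (⟨w, hw⟩ : ℍ) ^ 2 * E₆ (⟨w, hw⟩ : ℍ)) := h1
  rw [h1']
  ring

/-- Key order relation: `ord_τ (j - j τ) = 2 ord_τ E₄ + ord_τ E₆ + 1`. -/
theorem analyticOrderAt_jFun_sub_eq (τ : ℍ) :
    analyticOrderAt (fun z : ℂ => jFun (ofComplex z) - jFun τ) (τ : ℂ) =
      2 • analyticOrderAt (fun z : ℂ => E₄ (ofComplex z)) (τ : ℂ) +
        analyticOrderAt (fun z : ℂ => E₆ (ofComplex z)) (τ : ℂ) + 1 := by
  obtain ⟨c, hc⟩ := exists_G14_eq
  have hJ : AnalyticAt ℂ (fun z : ℂ => jFun (ofComplex z)) (τ : ℂ) :=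
    analyticAt_comp_ofComplex mdifferentiable_jFun τ
  have h4 : AnalyticAt ℂ (fun z : ℂ => E₄ (ofComplex z)) (τ : ℂ) :=
    analyticAt_comp_ofComplex (ModularFormClass.holo E₄) τ
  have h6 : AnalyticAt ℂ (fun z : ℂ => E₆ (ofComplex z)) (τ : ℂ) :=
    analyticAt_comp_ofComplex (ModularFormClass.holo E₆) τ
  have hΔ : AnalyticAt ℂ (fun z : ℂ => Δ (ofComplex z)) (τ : ℂ) :=
    analyticAt_comp_ofComplex mdifferentiable_discriminant τ
  have hΔ0 : analyticOrderAt (fun z : ℂ => Δ (ofComplex z)) (τ : ℂ) = 0 :=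
    analyticOrderAt_eq_zero_of_ne mdifferentiable_discriminant τ (discriminant_ne_zero τ)
  have hd := hJ.analyticOrderAt_deriv_add_one
  simp only [ofComplex_apply] at hd
  have hfin := analyticOrderAt_jFun_sub_ne_top (jFun τ) τ
  -- orders of both sides of the derivative identity
  have hev := analyticOrderAt_congr (deriv_jFun_mul_eventually hc τ)
  have hL : analyticOrderAt
      (fun z : ℂ => deriv (fun w : ℂ => jFun (ofComplex w)) z * Δ (ofComplex z)) (τ : ℂ)
      = analyticOrderAt (deriv (fun w : ℂ => jFun (ofComplex w))) (τ : ℂ) := by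
    have := analyticOrderAt_mul hJ.deriv hΔ
    rw [hΔ0, add_zero] at this
    exact this
  have hc0 : c ≠ 0 := by
    rintro rfl
    have hz : analyticOrderAt
        (fun z : ℂ => (2 * π * I * 0) * (E₄ (ofComplex z) ^ 2 * E₆ (ofComplex z))) (τ : ℂ) = ⊤ := by
      rw [analyticOrderAt_eq_top]
      exact Eventually.of_forall fun z => by simp
    rw [hL, hz] at hev
    rw [hev] at hd
    exact hfin (by rw [← hd]; simp)
  have hR : analyticOrderAt
      (fun z : ℂ => (2 * π * I * c) * (E₄ (ofComplex z) ^ 2 * E₆ (ofComplex z))) (τ : ℂ)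
      = 2 • analyticOrderAt (fun z : ℂ => E₄ (ofComplex z)) (τ : ℂ) +
        analyticOrderAt (fun z : ℂ => E₆ (ofComplex z)) (τ : ℂ) := by
    have hconst : AnalyticAt ℂ (fun _ : ℂ => (2 * π * I * c)) (τ : ℂ) := analyticAt_const
    have hconst0 : analyticOrderAt (fun _ : ℂ => (2 * (π : ℂ) * I * c)) (τ : ℂ) = 0 := by
      rw [hconst.analyticOrderAt_eq_zero]
      simp [Real.pi_ne_zero, hc0]
    have e1 := analyticOrderAt_mul hconst ((h4.pow 2).mul h6)
    have e2 := analyticOrderAt_mul (h4.pow 2) h6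
    have e3 := analyticOrderAt_pow h4 2
    rw [hconst0, zero_add, e2, e3] at e1
    exact e1
  rw [← hd, ← hL, hev, hR]

theorem E₆_ne_zero_of_E₄_eq_zero {τ : ℍ} (h : E₄ τ = 0) : E₆ τ ≠ 0 := by
  intro h6
  have := discriminant_eq_E₄_cube_sub_E₆_sq τ
  rw [h, h6] at this
  exact discriminant_ne_zero τ (by rw [this]; norm_num)

theorem E₄_ne_zero_of_E₆_eq_zero {τ : ℍ} (h : E₆ τ = 0) : E₄ τ ≠ 0 := fun h4 =>
  E₆_ne_zero_of_E₄_eq_zero h4 h

/-- Generic point: `j - j τ` vanishes to order exactly `1` at `τ` when `j τ ∉ {0, 1728}`. -/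
theorem analyticOrderAt_jFun_sub_generic (τ : ℍ) (h0 : jFun τ ≠ 0) (h1 : jFun τ ≠ 1728) :
    analyticOrderAt (fun z : ℂ => jFun (ofComplex z) - jFun τ) (τ : ℂ) = 1 := by
  have h4 : E₄ τ ≠ 0 := fun h => h0 ((jFun_eq_zero_iff τ).mpr h)
  have h6 : E₆ τ ≠ 0 := fun h => h1 ((jFun_eq_1728_iff τ).mpr h)
  rw [analyticOrderAt_jFun_sub_eq,
    analyticOrderAt_eq_zero_of_ne (ModularFormClass.holo E₄) τ h4,
    analyticOrderAt_eq_zero_of_ne (ModularFormClass.holo E₆) τ h6]
  simp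

/-- Order-3 elliptic value: `j` vanishes to order exactly `3` at every zero. -/
theorem analyticOrderAt_jFun_of_eq_zero (τ : ℍ) (h0 : jFun τ = 0) :
    analyticOrderAt (fun z : ℂ => jFun (ofComplex z) - jFun τ) (τ : ℂ) = 3 := by
  have h4 : E₄ τ = 0 := (jFun_eq_zero_iff τ).mp h0
  have h6 : E₆ τ ≠ 0 := E₆_ne_zero_of_E₄_eq_zero h4
  have hrel := analyticOrderAt_jFun_sub_eq τ
  rw [analyticOrderAt_eq_zero_of_ne (ModularFormClass.holo E₆) τ h6, add_zero] at hrel
  have hfin := analyticOrderAt_jFun_sub_ne_top (jFun τ) τ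
  -- second relation from `j Δ = E₄³`
  have a4 : AnalyticAt ℂ (fun z : ℂ => E₄ (ofComplex z)) (τ : ℂ) :=
    analyticAt_comp_ofComplex (ModularFormClass.holo E₄) τ
  have hΔ : AnalyticAt ℂ (fun z : ℂ => Δ (ofComplex z)) (τ : ℂ) :=
    analyticAt_comp_ofComplex mdifferentiable_discriminant τ
  have hΔ0 : analyticOrderAt (fun z : ℂ => Δ (ofComplex z)) (τ : ℂ) = 0 :=
    analyticOrderAt_eq_zero_of_ne mdifferentiable_discriminant τ (discriminant_ne_zero τ)
  have hJ : AnalyticAt ℂ (fun z : ℂ => jFun (ofComplex z) - jFun τ) (τ : ℂ) :=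
    analyticAt_comp_ofComplex (mdifferentiable_jFun_sub (jFun τ)) τ
  have hprod : (fun z : ℂ => jFun (ofComplex z) - jFun τ) * (fun z : ℂ => Δ (ofComplex z))
      = (fun z : ℂ => E₄ (ofComplex z)) ^ 3 := by
    funext z
    simp only [Pi.mul_apply, Pi.pow_apply, h0, sub_zero]
    exact jFun_mul_discriminant _
  have e1 := analyticOrderAt_mul hJ hΔ
  rw [hprod, hΔ0, add_zero, analyticOrderAt_pow a4] at e1
  -- now arithmetic in `ℕ∞`
  rw [← e1] at hfin hrel ⊢
  have hafin : analyticOrderAt (fun z : ℂ => E₄ (ofComplex z)) (τ : ℂ) ≠ ⊤ := by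
    intro h
    apply hfin
    rw [h]
    rfl
  obtain ⟨a, ha⟩ := ENat.ne_top_iff_exists.mp hafin
  rw [← ha] at hrel ⊢
  have : 3 * a = 2 * a + 1 := by
    have := hrel
    simp only [nsmul_eq_mul] at this
    exact_mod_cast this
  have ha1 : a = 1 := by omega
  rw [ha1]
  rfl

/-- Order-2 elliptic value: `j - 1728` vanishes to order exactly `2` at every zero. -/
theorem analyticOrderAt_jFun_of_eq_1728 (τ : ℍ) (h0 : jFun τ = 1728) :
    analyticOrderAt (fun z : ℂ => jFun (ofComplex z) - jFun τ) (τ : ℂ) = 2 := by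
  have h6 : E₆ τ = 0 := (jFun_eq_1728_iff τ).mp h0
  have h4 : E₄ τ ≠ 0 := E₄_ne_zero_of_E₆_eq_zero h6
  have hrel := analyticOrderAt_jFun_sub_eq τ
  rw [analyticOrderAt_eq_zero_of_ne (ModularFormClass.holo E₄) τ h4, smul_zero, zero_add] at hrel
  have hfin := analyticOrderAt_jFun_sub_ne_top (jFun τ) τ
  have a6 : AnalyticAt ℂ (fun z : ℂ => E₆ (ofComplex z)) (τ : ℂ) :=
    analyticAt_comp_ofComplex (ModularFormClass.holo E₆) τ
  have hΔ : AnalyticAt ℂ (fun z : ℂ => Δ (ofComplex z)) (τ : ℂ) :=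
    analyticAt_comp_ofComplex mdifferentiable_discriminant τ
  have hΔ0 : analyticOrderAt (fun z : ℂ => Δ (ofComplex z)) (τ : ℂ) = 0 :=
    analyticOrderAt_eq_zero_of_ne mdifferentiable_discriminant τ (discriminant_ne_zero τ)
  have hJ : AnalyticAt ℂ (fun z : ℂ => jFun (ofComplex z) - jFun τ) (τ : ℂ) :=
    analyticAt_comp_ofComplex (mdifferentiable_jFun_sub (jFun τ)) τ
  have hprod : (fun z : ℂ => jFun (ofComplex z) - jFun τ) * (fun z : ℂ => Δ (ofComplex z))
      = (fun z : ℂ => E₆ (ofComplex z)) ^ 2 := by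
    funext z
    simp only [Pi.mul_apply, Pi.pow_apply, h0]
    exact jFun_sub_mul_discriminant _
  have e1 := analyticOrderAt_mul hJ hΔ
  rw [hprod, hΔ0, add_zero, analyticOrderAt_pow a6] at e1
  rw [← e1] at hfin hrel ⊢
  have hbfin : analyticOrderAt (fun z : ℂ => E₆ (ofComplex z)) (τ : ℂ) ≠ ⊤ := by
    intro h
    apply hfin
    rw [h]
    rfl
  obtain ⟨b, hb⟩ := ENat.ne_top_iff_exists.mp hbfin
  rw [← hb] at hrel ⊢
  have : 2 * b = b + 1 := by
    have := hrel
    simp only [nsmul_eq_mul] at this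
    exact_mod_cast this
  have hb1 : b = 1 := by omega
  rw [hb1]
  rfl

/-! ### Surjectivity of `j` -/

/-- The weight-12 form `E₄³ - c Δ`. -/
def fcForm (c : ℂ) : ModularForm 𝒮ℒ 12 :=
  E4cubeForm - c • (CuspForm.discriminant : ModularForm 𝒮ℒ 12)

theorem fcForm_apply (c : ℂ) (z : ℍ) : fcForm c z = E₄ z ^ 3 - c * Δ z := by
  have h1 : E4cubeForm z = E₄ z ^ 3 := by
    rw [coe_E4cubeForm]
    rfl
  simp only [fcForm, sub_apply, smul_apply, smul_eq_mul, h1]
  rfl

theorem tendsto_fcForm (c : ℂ) : Tendsto (fcForm c : ℍ → ℂ) atImInfty (𝓝 1) := by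
  have h := (tendsto_E₄.pow 3).sub (tendsto_discriminant.const_mul c)
  simp only [one_pow, mul_zero, sub_zero] at h
  refine h.congr (fun z => ?_)
  exact (fcForm_apply c z).symm

theorem quot_slash (c : ℂ) (γ : SL(2, ℤ)) :
    (fun z : ℍ => Δ z / fcForm c z) ∣[(0 : ℤ)] γ = fun z : ℍ => Δ z / fcForm c z := by
  have hγ : (γ : GL (Fin 2) ℝ) ∈ 𝒮ℒ := ⟨γ, rfl⟩
  change (⇑(CuspForm.discriminant : CuspForm 𝒮ℒ 12) / ⇑(fcForm c)) ∣[((12 : ℤ) - 12)] γ
    = ⇑(CuspForm.discriminant : CuspForm 𝒮ℒ 12) / ⇑(fcForm c)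
  simp_rw [div_slash_SL2, ModularForm.SL_slash, SlashInvariantForm.slash_action_eqn _ _ hγ]

/-- If `E₄³ - cΔ` had no zero, `Δ / (E₄³ - cΔ)` would be a level-one form of weight zero. -/
def quotForm (c : ℂ) (hne : ∀ z : ℍ, fcForm c z ≠ 0) : ModularForm 𝒮ℒ 0 where
  toFun z := Δ z / fcForm c z
  slash_action_eq' := fun _ ⟨γ, hγ⟩ => hγ ▸ quot_slash c γ
  holo' := (CuspForm.discriminant : CuspForm 𝒮ℒ 12).holo'.div (fcForm c).holo' hne
  bdd_at_cusps' {cusp} hc := by
    rw [Subgroup.IsArithmetic.isCusp_iff_isCusp_SL2Z] at hc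
    rw [OnePoint.isBoundedAt_iff_forall_SL2Z hc]
    intro γ _
    rw [quot_slash c γ]
    have h := tendsto_discriminant.div (tendsto_fcForm c) one_ne_zero
    exact h.isBigO_one ℝ

theorem jFun_surjective : Function.Surjective jFun := by
  intro c
  by_contra hcon
  have hcon : ∀ z : ℍ, jFun z ≠ c := fun z hz => hcon ⟨z, hz⟩
  have hne : ∀ z : ℍ, fcForm c z ≠ 0 := by
    intro z hz
    apply hcon z
    rw [fcForm_apply, sub_eq_zero] at hz
    rw [jFun, hz]
    field_simp [discriminant_ne_zero z]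
  obtain ⟨c', hc'⟩ := ModularFormClass.levelOne_weight_zero_const (quotForm c hne)
  have h := tendsto_discriminant.div (tendsto_fcForm c) one_ne_zero
  rw [zero_div] at h
  have h' : Tendsto (fun _ : ℍ => c') atImInfty (𝓝 0) := by
    refine h.congr (fun z => ?_)
    exact congrFun hc' z
  have hc0 : c' = 0 := tendsto_nhds_unique tendsto_const_nhds h'
  have := congrFun hc' UpperHalfPlane.I
  rw [hc0] at this
  simp only [Function.const_apply] at this
  have h2 : Δ UpperHalfPlane.I / fcForm c UpperHalfPlane.I = 0 := this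
  rcases div_eq_zero_iff.mp h2 with h3 | h3
  · exact discriminant_ne_zero _ h3
  · exact hne _ h3

/-! ### The elliptic points -/

/-- The elliptic point `ρ = -1/2 + (√3/2) i`. -/
def rho : ℍ := ⟨⟨-1 / 2, Real.sqrt 3 / 2⟩, by
  show (0 : ℝ) < Real.sqrt 3 / 2
  positivity⟩

theorem coe_rho : (rho : ℂ) = ⟨-1 / 2, Real.sqrt 3 / 2⟩ := rfl

theorem rho_sq_add_rho_add_one : (rho : ℂ) ^ 2 + (rho : ℂ) + 1 = 0 := by
  have h3 : (Real.sqrt 3) ^ 2 = 3 := Real.sq_sqrt (by norm_num)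
  apply Complex.ext
  · simp only [coe_rho, pow_two, Complex.add_re, Complex.mul_re, Complex.one_re, Complex.zero_re]
    nlinarith
  · simp only [coe_rho, pow_two, Complex.add_im, Complex.mul_im, Complex.one_im, Complex.zero_im]
    ring

theorem ST_smul_rho : (ModularGroup.S * ModularGroup.T) • rho = rho := by
  rw [mul_smul, modular_T_smul, modular_S_smul]
  apply UpperHalfPlane.ext
  simp only [coe_vadd, Complex.ofReal_one]
  have h := rho_sq_add_rho_add_one
  rw [inv_eq_iff_eq_inv]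
  have hr : (rho : ℂ) ≠ 0 := ne_zero rho
  field_simp
  linear_combination -h

theorem S_smul_I : ModularGroup.S • UpperHalfPlane.I = UpperHalfPlane.I := by
  rw [modular_S_smul]
  apply UpperHalfPlane.ext
  simp only [UpperHalfPlane.coe_I]
  rw [inv_eq_iff_eq_inv, Complex.inv_I]

theorem E₄_rho : E₄ rho = 0 := by
  have h := levelOne_apply_smul E₄ (ModularGroup.S * ModularGroup.T) rho
  rw [ST_smul_rho] at h
  have hd : denom (ModularGroup.S * ModularGroup.T : SL(2, ℤ)) rho = (rho : ℂ) + 1 := by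
    rw [ModularGroup.denom_apply]
    simp [ModularGroup.S, ModularGroup.T]
  rw [hd] at h
  have hr := rho_sq_add_rho_add_one
  -- `(ρ + 1)^4 = -(ρ + 1)`
  have h4 : ((rho : ℂ) + 1) ^ (4 : ℤ) = -((rho : ℂ) + 1) := by
    rw [show (4 : ℤ) = ((4 : ℕ) : ℤ) from rfl, zpow_natCast]
    linear_combination ((rho : ℂ) ^ 2 + 3 * (rho : ℂ) + 2) * hr
  rw [h4] at h
  have hne : (1 : ℂ) + ((rho : ℂ) + 1) ≠ 0 := by
    intro h0
    have : (rho : ℂ) = -2 := by linear_combination h0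
    rw [this] at hr
    norm_num at hr
  have : (1 + ((rho : ℂ) + 1)) * E₄ rho = 0 := by linear_combination h
  rcases mul_eq_zero.mp this with h' | h'
  · exact absurd h' hne
  · exact h'

theorem E₆_I : E₆ UpperHalfPlane.I = 0 := by
  have h := levelOne_apply_smul E₆ ModularGroup.S UpperHalfPlane.I
  rw [S_smul_I, ModularGroup.denom_S, UpperHalfPlane.coe_I] at h
  have h6 : (Complex.I) ^ (6 : ℤ) = -1 := by
    rw [show (6 : ℤ) = ((6 : ℕ) : ℤ) from rfl, zpow_natCast]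
    rw [show (6 : ℕ) = 2 * 3 from rfl, pow_mul, Complex.I_sq]
    norm_num
  rw [h6] at h
  have : (2 : ℂ) * E₆ UpperHalfPlane.I = 0 := by linear_combination h
  simpa using this

theorem jFun_rho : jFun rho = 0 := (jFun_eq_zero_iff rho).mpr E₄_rho

theorem jFun_I : jFun UpperHalfPlane.I = 1728 := (jFun_eq_1728_iff _).mpr E₆_I

/-! ### Summary statements -/

/-- The exact vanishing order of `j - j τ` at `τ`: `3`, `2` or `1`. -/
theorem analyticOrderAt_jFun_sub (τ : ℍ) :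
    analyticOrderAt (fun z : ℂ => jFun (ofComplex z) - jFun τ) (τ : ℂ) =
      if jFun τ = 0 then 3 else if jFun τ = 1728 then 2 else 1 := by
  split_ifs with h0 h1
  · exact analyticOrderAt_jFun_of_eq_zero τ h0
  · exact analyticOrderAt_jFun_of_eq_1728 τ h1
  · exact analyticOrderAt_jFun_sub_generic τ h0 h1

/-- Same, with an arbitrary name for the value. -/
theorem analyticOrderAt_jFun_sub_const (τ : ℍ) (j0 : ℂ) (h : jFun τ = j0) :
    analyticOrderAt (fun z : ℂ => jFun (ofComplex z) - j0) (τ : ℂ) =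
      if j0 = 0 then 3 else if j0 = 1728 then 2 else 1 := by
  subst h
  exact analyticOrderAt_jFun_sub τ

/-- Zeros of `E₄` on `ℍ` are simple. -/
theorem analyticOrderAt_E₄_of_eq_zero (τ : ℍ) (h : E₄ τ = 0) :
    analyticOrderAt (fun z : ℂ => E₄ (ofComplex z)) (τ : ℂ) = 1 := by
  have h0 : jFun τ = 0 := (jFun_eq_zero_iff τ).mpr h
  have h3 := analyticOrderAt_jFun_of_eq_zero τ h0
  have hrel := analyticOrderAt_jFun_sub_eq τ
  rw [analyticOrderAt_eq_zero_of_ne (ModularFormClass.holo E₆) τ (E₆_ne_zero_of_E₄_eq_zero h),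
    add_zero, h3] at hrel
  have hfin : analyticOrderAt (fun z : ℂ => E₄ (ofComplex z)) (τ : ℂ) ≠ ⊤ := by
    intro ht
    rw [ht] at hrel
    exact absurd hrel (by simp)
  obtain ⟨a, ha⟩ := ENat.ne_top_iff_exists.mp hfin
  rw [← ha] at hrel ⊢
  have : 3 = 2 * a + 1 := by
    simp only [nsmul_eq_mul] at hrel
    exact_mod_cast hrel
  have : a = 1 := by omega
  rw [this]
  rfl

/-- Zeros of `E₆` on `ℍ` are simple. -/
theorem analyticOrderAt_E₆_of_eq_zero (τ : ℍ) (h : E₆ τ = 0) :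
    analyticOrderAt (fun z : ℂ => E₆ (ofComplex z)) (τ : ℂ) = 1 := by
  have h0 : jFun τ = 1728 := (jFun_eq_1728_iff τ).mpr h
  have h3 := analyticOrderAt_jFun_of_eq_1728 τ h0
  have hrel := analyticOrderAt_jFun_sub_eq τ
  rw [analyticOrderAt_eq_zero_of_ne (ModularFormClass.holo E₄) τ (E₄_ne_zero_of_E₆_eq_zero h),
    smul_zero, zero_add, h3] at hrel
  have hfin : analyticOrderAt (fun z : ℂ => E₆ (ofComplex z)) (τ : ℂ) ≠ ⊤ := by
    intro ht
    rw [ht] at hrel
    exact absurd hrel (by simp)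
  obtain ⟨b, hb⟩ := ENat.ne_top_iff_exists.mp hfin
  rw [← hb] at hrel ⊢
  have : 2 = b + 1 := by
    exact_mod_cast hrel
  have : b = 1 := by omega
  rw [this]
  rfl

/-- `j` has a simple pole at `i∞`: `j(τ) q(τ) → 1`. -/
theorem tendsto_jFun_mul_qParam :
    Tendsto (fun τ : ℍ => jFun τ * 𝕢 1 (τ : ℂ)) atImInfty (𝓝 1) := by
  have hprod := tendsto_atImInfty_tprod_one_sub_eta_q_pow
  have h := (tendsto_E₄.pow 3).div hprod one_ne_zero
  simp only [one_pow, div_one] at h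
  refine h.congr (fun τ => ?_)
  have hΔ := discriminant_eq_q_prod τ
  have hΔ0 := discriminant_ne_zero τ
  have hq : 𝕢 1 (τ : ℂ) ≠ 0 := Function.Periodic.qParam_ne_zero _
  have hp : (∏' n, (1 - ModularForm.eta_q n (τ : ℂ)) ^ 24) ≠ 0 := by
    intro h0
    rw [h0, mul_zero] at hΔ
    exact hΔ0 hΔ
  rw [jFun, hΔ]
  simp only [Pi.div_apply]
  field_simp

end Fermat.Agent.S24.LevelOneFacts
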