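import Mathlib
import Fermat.Prelude.Def_AlgebraicCurve_DivisorClassGroup

namespace Fermat.Agent.S24.AllPlaces

open Module IsDedekindDomain Polynomial IntermediateField
open scoped IntermediateField.algebraAdjoinAdjoin

/-! ### helper lemmas -/

theorem mem_of_isIntegral' {F R : Type*} [Field F] [CommRing R] [Algebra R F]
    (A : ValuationSubring F) (hR : ∀ r : R, algebraMap R F r ∈ A) {x : F}
    (hx : IsIntegral R x) : x ∈ A := by
  have hint := Valuation.integer.integers A.valuation
  let φ : R →+* A.valuation.integer :=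
    (algebraMap R F).codRestrict A.valuation.integer
      (fun r => (A.valuation_le_one_iff _).2 (hR r))
  obtain ⟨p, hp, hpx⟩ := hx
  have hx' : IsIntegral A.valuation.integer x := by
    refine ⟨p.map φ, hp.map φ, ?_⟩
    rw [eval₂_map]
    exact hpx
  have := hint.mem_of_integral hx'
  exact (A.valuation_le_one_iff _).1 this

theorem inv_mem_of_not_mem_nonunits {F : Type*} [Field F] {A : ValuationSubring F} {x : F}
    (hx : x ∉ A.nonunits) : x⁻¹ ∈ A := by
  rw [ValuationSubring.mem_nonunits_iff_or, not_or, not_not] at hx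
  exact hx.2

theorem mul_mem_nonunits {F : Type*} [Field F] {A : ValuationSubring F} {x y : F}
    (hx : x ∈ A.nonunits) (hy : y ∈ A) : x * y ∈ A.nonunits := by
  rw [ValuationSubring.mem_nonunits_iff] at hx ⊢
  rw [map_mul]
  exact mul_lt_one_of_lt_of_le hx ((A.valuation_le_one_iff _).2 hy)

section Norm

variable {k0 F Ω : Type*} [Field k0] [Field F] [Algebra k0 F] [FiniteDimensional k0 F]
  [Algebra.IsSeparable k0 F] [Field Ω]

/-- If `Q` indexes `finrank k0 F` pairwise distinct ring homs `F →+* Ω` all restricting to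
`L0` on `k0`, then `L0 (norm b)` is the product of the `L q b`. -/
theorem map_norm_eq_prod {Q : Type*} [Fintype Q] (L : Q → F →+* Ω)
    (hinj : Function.Injective L) (hcard : Fintype.card Q = finrank k0 F)
    (L0 : k0 →+* Ω) (hbase : ∀ q y, L q (algebraMap k0 F y) = L0 y) (b : F) :
    L0 (Algebra.norm k0 b) = ∏ q, L q b := by
  classical
  let E := AlgebraicClosure Ω
  letI : Algebra k0 E := ((algebraMap Ω E).comp L0).toAlgebra
  let σ : Q → (F →ₐ[k0] E) := fun q =>
    { toRingHom := (algebraMap Ω E).comp (L q)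
      commutes' := fun y => by
        show algebraMap Ω E (L q (algebraMap k0 F y)) = algebraMap Ω E (L0 y)
        rw [hbase] }
  have hσinj : Function.Injective σ := by
    intro q q' h
    apply hinj
    ext f
    have := congrArg (fun s : F →ₐ[k0] E => s f) h
    exact (algebraMap Ω E).injective this
  have hσbij : Function.Bijective σ := by
    rw [Fintype.bijective_iff_injective_and_card]
    exact ⟨hσinj, by rw [hcard, AlgHom.card]⟩
  have h1 := Algebra.norm_eq_prod_embeddings k0 E b
  have h2 : ∏ s : F →ₐ[k0] E, s b = ∏ q, σ q b :=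
    (Fintype.prod_bijective σ hσbij _ _ (fun _ => rfl)).symm
  have h3 : ∏ q, σ q b = algebraMap Ω E (∏ q, L q b) := by
    rw [map_prod]; rfl
  have h4 : algebraMap k0 E (Algebra.norm k0 b) = algebraMap Ω E (L0 (Algebra.norm k0 b)) := rfl
  rw [h4, h2, h3] at h1
  exact (algebraMap Ω E).injective h1

end Norm

section Center

variable {B F : Type*} [CommRing B] [IsDedekindDomain B] [Field F] [Algebra B F]
  [IsFractionRing B F]

/-- A valuation subring `≠ ⊤` of the fraction field of a Dedekind domain `B` that contains `B`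
is the localization at its centre. -/
theorem exists_eq_valuationSubringAtPrime (A : ValuationSubring F)
    (hBA : ∀ b : B, algebraMap B F b ∈ A) (hA : A ≠ ⊤) :
    ∃ w : HeightOneSpectrum B, A = w.valuationSubringAtPrime F ∧
      ∀ b : B, b ∈ w.asIdeal ↔ algebraMap B F b ∈ A.nonunits := by
  classical
  let φ : B →+* A := (algebraMap B F).codRestrict A.toSubring hBA
  let 𝔭 : Ideal B := (IsLocalRing.maximalIdeal A).comap φ
  have h𝔭mem : ∀ b : B, b ∈ 𝔭 ↔ algebraMap B F b ∈ A.nonunits := by
    intro b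
    show φ b ∈ IsLocalRing.maximalIdeal A ↔ _
    rw [← ValuationSubring.coe_mem_nonunits_iff]
    rfl
  have h𝔭prime : 𝔭.IsPrime := Ideal.comap_isPrime φ _
  have h𝔭ne : 𝔭 ≠ ⊥ := by
    intro hbot
    apply hA
    rw [eq_top_iff]
    intro f _
    obtain ⟨n, d, hd, rfl⟩ := IsFractionRing.div_surjective (A := B) f
    have hd0 : d ≠ 0 := nonZeroDivisors.ne_zero hd
    have hdn : d ∉ 𝔭 := by rw [hbot]; simpa using hd0
    rw [h𝔭mem] at hdn
    rw [div_eq_mul_inv]
    exact A.mul_mem _ _ (hBA n) (inv_mem_of_not_mem_nonunits hdn)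
  let w : HeightOneSpectrum B := ⟨𝔭, h𝔭prime, h𝔭ne⟩
  refine ⟨w, ?_, h𝔭mem⟩
  symm
  apply ValuationSubring.eq_of_le_of_ne_top _ _ hA
  rintro x ⟨a, s, hs, rfl⟩
  have hsn : algebraMap B F s ∉ A.nonunits := by
    rw [← h𝔭mem]; exact hs
  exact A.mul_mem _ _ (hBA a) (inv_mem_of_not_mem_nonunits hsn)

/-- Two valuation subrings `≠ ⊤` containing the Dedekind domain `B`, whose centres are
comparable, coincide. -/
theorem eq_of_center_le (A A' : ValuationSubring F)
    (hBA : ∀ b : B, algebraMap B F b ∈ A) (hBA' : ∀ b : B, algebraMap B F b ∈ A')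
    (hA : A ≠ ⊤) (hA' : A' ≠ ⊤)
    (hc : ∀ b : B, algebraMap B F b ∈ A.nonunits → algebraMap B F b ∈ A'.nonunits) :
    A = A' := by
  obtain ⟨w, hw, hwm⟩ := exists_eq_valuationSubringAtPrime A hBA hA
  obtain ⟨w', hw', hwm'⟩ := exists_eq_valuationSubringAtPrime A' hBA' hA'
  have hle : w.asIdeal ≤ w'.asIdeal := fun b hb => (hwm' b).2 (hc b ((hwm b).1 hb))
  have hmax : w.asIdeal.IsMaximal := w.isMaximal
  have heq : w.asIdeal = w'.asIdeal :=
    hmax.eq_of_le w'.isPrime.ne_top hle
  have : w = w' := HeightOneSpectrum.ext heq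
  rw [hw, hw', this]

end Center

section Main

variable {R0 k0 F Ω : Type*} [CommRing R0] [IsDedekindDomain R0] [Field k0] [Algebra R0 k0]
  [IsFractionRing R0 k0] [Field F] [Algebra k0 F] [Algebra R0 F] [IsScalarTower R0 k0 F]
  [FiniteDimensional k0 F] [Algebra.IsSeparable k0 F] [Field Ω]

/-- For `b` in the integral closure `B` of `R0` in `F`, the norm of `b` comes from an element
`n : R0` with `b ∣ n` in `B`. -/
theorem exists_norm_eq (b : integralClosure R0 F) :
    ∃ (n : R0) (c : integralClosure R0 F),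
      algebraMap R0 k0 n = Algebra.norm k0 (b : F) ∧ algebraMap R0 F n = (b : F) * (c : F) := by
  haveI : IsDedekindDomain (integralClosure R0 F) := integralClosure.isDedekindDomain R0 k0 F
  haveI : IsFractionRing (integralClosure R0 F) F :=
    integralClosure.isFractionRing_of_finite_extension k0 F
  haveI : Module.Finite R0 (integralClosure R0 F) := IsIntegralClosure.finite R0 k0 F _
  haveI : IsTorsionFree R0 (integralClosure R0 F) := by
    rw [isTorsionFree_iff_algebraMap_injective]
    intro x y hxy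
    have h := congrArg (fun z : integralClosure R0 F => (z : F)) hxy
    have h' : algebraMap R0 F x = algebraMap R0 F y := h
    rw [IsScalarTower.algebraMap_apply R0 k0 F, IsScalarTower.algebraMap_apply R0 k0 F] at h'
    exact IsFractionRing.injective R0 k0 ((algebraMap k0 F).injective h')
  obtain ⟨c, hc⟩ := Algebra.dvd_algebraMap_intNorm_self (A := R0) (B := integralClosure R0 F) b
  have h2 := Algebra.algebraMap_intNorm (A := R0) (K := k0) (L := F)
    (B := integralClosure R0 F) b
  refine ⟨Algebra.intNorm R0 (integralClosure R0 F) b, c, h2, ?_⟩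
  have := congrArg (fun z : integralClosure R0 F => (z : F)) hc
  exact this

/-- **All places come from the embeddings.**  `R0` a Dedekind domain with fraction field `k0`,
`F/k0` finite separable of degree `n`; `L q` (`q : Q`, `#Q = n`) pairwise distinct ring homs
`F →+* Ω` with common restriction `L0` to `k0`; `O` a valuation subring of `Ω` with
`L0 (R0) ⊆ O`.  Let `A ≠ ⊤` be a valuation subring of `F` containing `R0` such that every
element of `R0` which is a non-unit of `A` is mapped by `L0` to a non-unit of `O`.  Then `A` is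
one of the `O.comap (L q)`. -/
theorem exists_eq_comap (O : ValuationSubring Ω) {Q : Type*} [Fintype Q] (L : Q → F →+* Ω)
    (hinj : Function.Injective L) (hcard : Fintype.card Q = finrank k0 F)
    (L0 : k0 →+* Ω) (hbase : ∀ q y, L q (algebraMap k0 F y) = L0 y)
    (A : ValuationSubring F) (hA : A ≠ ⊤)
    (h1 : ∀ r : R0, algebraMap R0 F r ∈ A)
    (h2 : ∀ r : R0, L0 (algebraMap R0 k0 r) ∈ O)
    (h3 : ∀ r : R0, algebraMap R0 F r ∈ A.nonunits → L0 (algebraMap R0 k0 r) ∈ O.nonunits) :
    ∃ q, A = O.comap (L q) := by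
  classical
  haveI : IsDedekindDomain (integralClosure R0 F) := integralClosure.isDedekindDomain R0 k0 F
  haveI : IsFractionRing (integralClosure R0 F) F :=
    integralClosure.isFractionRing_of_finite_extension k0 F
  set B := integralClosure R0 F with hB
  let Aq : Q → ValuationSubring F := fun q => O.comap (L q)
  have hQne : Nonempty Q := by
    have hpos : 0 < finrank k0 F := finrank_pos
    rw [← hcard] at hpos
    exact Fintype.card_pos_iff.1 hpos
  have hLR : ∀ q (r : R0), L q (algebraMap R0 F r) = L0 (algebraMap R0 k0 r) := by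
    intro q r
    rw [IsScalarTower.algebraMap_apply R0 k0 F, hbase]
  have hRAq : ∀ q, ∀ r : R0, algebraMap R0 F r ∈ Aq q := by
    intro q r
    show L q (algebraMap R0 F r) ∈ O
    rw [hLR]
    exact h2 r
  have hBA : ∀ b : B, algebraMap B F b ∈ A := fun b => mem_of_isIntegral' A h1 b.2
  have hBAq : ∀ q, ∀ b : B, algebraMap B F b ∈ Aq q := fun q b =>
    mem_of_isIntegral' (Aq q) (hRAq q) b.2
  -- norm of an element of the centre of `A` is mapped to a non-unit of `O`
  have hnormA : ∀ b : B, algebraMap B F b ∈ A.nonunits →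
      L0 (Algebra.norm k0 (b : F)) ∈ O.nonunits := by
    intro b hb
    obtain ⟨n, c, hn1, hn2⟩ := exists_norm_eq (k0 := k0) b
    rw [← hn1]
    apply h3
    rw [hn2]
    exact mul_mem_nonunits hb (hBA c)
  -- `Aq q ≠ ⊤`
  obtain ⟨w, -, hwm⟩ := exists_eq_valuationSubringAtPrime (B := B) A hBA hA
  obtain ⟨b0, hb0mem, hb0ne⟩ := Submodule.exists_mem_ne_zero_of_ne_bot w.ne_bot
  have hb0F : (b0 : F) ≠ 0 := fun h => hb0ne (Subtype.ext h)
  have hAq : ∀ q, Aq q ≠ ⊤ := by
    intro q htop
    have hN := hnormA b0 ((hwm b0).1 hb0mem)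
    have hN0 : Algebra.norm k0 (b0 : F) ≠ 0 := by
      rw [ne_eq, Algebra.norm_eq_zero_iff]; exact hb0F
    have h4 : algebraMap k0 F (Algebra.norm k0 (b0 : F))⁻¹ ∈ Aq q := by rw [htop]; trivial
    have h5 : L q (algebraMap k0 F (Algebra.norm k0 (b0 : F))⁻¹) ∈ O := h4
    rw [hbase, map_inv₀] at h5
    rw [ValuationSubring.mem_nonunits_iff_or] at hN
    rcases hN with h0 | h0
    · exact hN0 (L0.injective (h0.trans (map_zero _).symm))
    · exact h0 h5
  -- centres
  let φA : B →+* A := (algebraMap B F).codRestrict A.toSubring hBA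
  let 𝔭A : Ideal B := (IsLocalRing.maximalIdeal A).comap φA
  have h𝔭A : ∀ b : B, b ∈ 𝔭A ↔ algebraMap B F b ∈ A.nonunits := by
    intro b
    show φA b ∈ IsLocalRing.maximalIdeal A ↔ _
    rw [← ValuationSubring.coe_mem_nonunits_iff]
    rfl
  let φq : ∀ q, B →+* Aq q := fun q => (algebraMap B F).codRestrict (Aq q).toSubring (hBAq q)
  let 𝔭q : Q → Ideal B := fun q => (IsLocalRing.maximalIdeal (Aq q)).comap (φq q)
  have h𝔭q : ∀ q, ∀ b : B, b ∈ 𝔭q q ↔ algebraMap B F b ∈ (Aq q).nonunits := by
    intro q b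
    show φq q b ∈ IsLocalRing.maximalIdeal (Aq q) ↔ _
    rw [← ValuationSubring.coe_mem_nonunits_iff]
    rfl
  have h𝔭qprime : ∀ q, (𝔭q q).IsPrime := fun q => Ideal.comap_isPrime (φq q) _
  -- prime avoidance
  have key : ∃ q, 𝔭A ≤ 𝔭q q := by
    by_contra hcon
    push Not at hcon
    obtain ⟨q0⟩ := hQne
    have hnot : ¬ ((𝔭A : Set B) ⊆ ⋃ q ∈ ((Finset.univ : Finset Q) : Set Q), (𝔭q q : Set B)) := by
      rw [Ideal.subset_union_prime (s := Finset.univ) (f := 𝔭q) q0 q0
        (fun q _ _ _ => h𝔭qprime q)]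
      rintro ⟨q, -, hq⟩
      exact hcon q hq
    rw [Set.not_subset] at hnot
    obtain ⟨b, hbA, hbU⟩ := hnot
    have hbq : ∀ q, b ∉ 𝔭q q := by
      intro q hq
      apply hbU
      simp only [Finset.coe_univ, Set.mem_univ, Set.iUnion_true, Set.mem_iUnion]
      exact ⟨q, hq⟩
    have hbA' : algebraMap B F b ∈ A.nonunits := (h𝔭A b).1 hbA
    have hLbinv : ∀ q, (L q (b : F))⁻¹ ∈ O := by
      intro q
      have hn : algebraMap B F b ∉ (Aq q).nonunits := fun h => hbq q ((h𝔭q q b).2 h)
      have := inv_mem_of_not_mem_nonunits hn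
      have h2 : L q ((b : F))⁻¹ ∈ O := this
      rwa [map_inv₀] at h2
    have hnorm := map_norm_eq_prod L hinj hcard L0 hbase (b : F)
    have hN1 : (L0 (Algebra.norm k0 (b : F)))⁻¹ ∈ O := by
      rw [hnorm, ← Finset.prod_inv_distrib]
      exact Subring.prod_mem O.toSubring (fun q _ => hLbinv q)
    have hN3 := hnormA b hbA'
    rw [ValuationSubring.mem_nonunits_iff_or] at hN3
    rcases hN3 with h0 | h0
    · -- norm = 0 → b = 0 → b ∈ 𝔭q
      have hn0 : Algebra.norm k0 (b : F) = 0 := L0.injective (h0.trans (map_zero _).symm)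
      rw [Algebra.norm_eq_zero_iff] at hn0
      apply hbq q0
      rw [h𝔭q]
      show (b : F) ∈ (Aq q0).nonunits
      rw [hn0, ValuationSubring.mem_nonunits_iff]
      simp
    · exact h0 hN1
  obtain ⟨q, hq⟩ := key
  refine ⟨q, ?_⟩
  exact eq_of_center_le (B := B) A (Aq q) hBA (hBAq q) hA (hAq q)
    (fun b hb => (h𝔭q q b).1 (hq ((h𝔭A b).2 hb)))

end Main

theorem mem_of_mem_nonunits {F : Type*} [Field F] {A : ValuationSubring F} {x : F}
    (hx : x ∈ A.nonunits) : x ∈ A := by
  rw [ValuationSubring.mem_nonunits_iff] at hx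
  exact (A.valuation_le_one_iff _).1 hx.le

section Adjoin

variable {K F : Type*} [Field K] [Field F] [Algebra K F]

theorem isDedekindDomain_adjoin {x : F} (hx : Transcendental K x) :
    IsDedekindDomain (Algebra.adjoin K {x}) := by
  have e := Polynomial.algEquivOfTranscendental K x hx
  haveI : IsPrincipalIdealRing (Algebra.adjoin K {x}) :=
    IsPrincipalIdealRing.of_surjective e.toRingEquiv.toRingHom e.surjective
  infer_instance

/-- `K[x] ⊆ A` if `K ⊆ A` and `x ∈ A`. -/
theorem adjoin_mem {Ω : Type*} [Field Ω] (A : ValuationSubring Ω) (φ : F →+* Ω) {x : F}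
    (hK : ∀ c : K, φ (algebraMap K F c) ∈ A) (hxA : φ x ∈ A) (r : Algebra.adjoin K {x}) :
    φ (r : F) ∈ A := by
  obtain ⟨r, hr⟩ := r
  induction hr using Algebra.adjoin_induction with
  | mem y hy =>
    rw [Set.mem_singleton_iff] at hy
    subst hy
    exact hxA
  | algebraMap c => exact hK c
  | add y z _ _ hy hz => simpa using A.add_mem _ _ hy hz
  | mul y z _ _ hy hz => simpa using A.mul_mem _ _ hy hz

end Adjoin


section Adjoin2

variable {K F Ω : Type*} [Field K] [CharZero K] [Field F] [Algebra K F] [Field Ω]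

/-- **Lemma A.**  `x` transcendental over `K`, `F` finite over `K(x)` of degree `n`, `L q`
(`q : Q`, `#Q = n`) pairwise distinct ring homs `F →+* Ω` agreeing on `K(x)`, mapping `K` into the
valuation subring `O` of `Ω` and `x - a` to a non-unit of `O`.  Then every valuation subring
`A ≠ ⊤` of `F` containing `K` in which `x - a` is a non-unit is one of the `O.comap (L q)`. -/
theorem exists_eq_comap_of_transcendental (O : ValuationSubring Ω) {Q : Type*} [Fintype Q]
    (L : Q → F →+* Ω) {x : F} (hx : Transcendental K x) (a : K) [FiniteDimensional K⟮x⟯ F]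
    (hcard : Fintype.card Q = finrank K⟮x⟯ F) (hinj : Function.Injective L)
    (hbase : ∀ q q' (y : K⟮x⟯), L q y = L q' y)
    (hK : ∀ q (c : K), L q (algebraMap K F c) ∈ O)
    (hxa : ∀ q, L q (x - algebraMap K F a) ∈ O.nonunits)
    (A : ValuationSubring F) (hA : A ≠ ⊤) (hKA : ∀ c : K, algebraMap K F c ∈ A)
    (hv : x - algebraMap K F a ∈ A.nonunits) :
    ∃ q, A = O.comap (L q) := by
  classical
  haveI : IsDedekindDomain (Algebra.adjoin K {x}) := isDedekindDomain_adjoin hx
  haveI : CharZero K⟮x⟯ := charZero_of_injective_algebraMap (algebraMap K K⟮x⟯).injective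
  have hQne : Nonempty Q := by
    have hpos : 0 < finrank K⟮x⟯ F := finrank_pos
    rw [← hcard] at hpos
    exact Fintype.card_pos_iff.1 hpos
  obtain ⟨q0⟩ := hQne
  let L0 : K⟮x⟯ →+* Ω := (L q0).comp (algebraMap K⟮x⟯ F)
  have hbase' : ∀ q (y : K⟮x⟯), L q (algebraMap K⟮x⟯ F y) = L0 y := fun q y => hbase q q0 y
  have hxA : x ∈ A := by
    have h1 := mem_of_mem_nonunits hv
    have := A.add_mem _ _ h1 (hKA a)
    simpa using this
  have hxO : ∀ q, L q x ∈ O := by
    intro q
    have h1 := mem_of_mem_nonunits (hxa q)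
    have := O.add_mem _ _ h1 (hK q a)
    rw [← map_add] at this
    simpa using this
  -- the three hypotheses
  have h1 : ∀ r : Algebra.adjoin K {x}, algebraMap (Algebra.adjoin K {x}) F r ∈ A := by
    intro r
    exact adjoin_mem A (RingHom.id F) hKA hxA r
  have h2 : ∀ r : Algebra.adjoin K {x}, L0 (algebraMap (Algebra.adjoin K {x}) K⟮x⟯ r) ∈ O := by
    intro r
    exact adjoin_mem O (L q0) (hK q0) (hxO q0) r
  have h3 : ∀ r : Algebra.adjoin K {x}, algebraMap (Algebra.adjoin K {x}) F r ∈ A.nonunits →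
      L0 (algebraMap (Algebra.adjoin K {x}) K⟮x⟯ r) ∈ O.nonunits := by
    intro r hr
    obtain ⟨r, hrmem⟩ := r
    obtain ⟨p, rfl⟩ : ∃ p : K[X], aeval x p = r := by
      rw [Algebra.adjoin_singleton_eq_range_aeval] at hrmem
      exact hrmem
    obtain ⟨s, hs⟩ := Polynomial.X_sub_C_dvd_sub_C_eval (a := a) (p := p)
    have hp : aeval x p = algebraMap K F (p.eval a) + (x - algebraMap K F a) * aeval x s := by
      have := congrArg (aeval x) hs
      simp only [map_sub, aeval_C, map_mul, aeval_X] at this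
      rw [← this]; ring
    have hsA : aeval x s ∈ A := by
      have := adjoin_mem A (RingHom.id F) hKA hxA
        ⟨aeval x s, by rw [Algebra.adjoin_singleton_eq_range_aeval]; exact ⟨s, rfl⟩⟩
      exact this
    have hsO : L q0 (aeval x s) ∈ O := by
      have := adjoin_mem O (L q0) (hK q0) (hxO q0)
        ⟨aeval x s, by rw [Algebra.adjoin_singleton_eq_range_aeval]; exact ⟨s, rfl⟩⟩
      exact this
    have hr' : aeval x p ∈ A.nonunits := hr
    have hpa : p.eval a = 0 := by
      by_contra hne
      -- then `aeval x p` is a unit of `A`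
      have hc1 : A.valuation (algebraMap K F (p.eval a)) = 1 := by
        have hle : A.valuation (algebraMap K F (p.eval a)) ≤ 1 :=
          (A.valuation_le_one_iff _).2 (hKA _)
        have hle' : A.valuation (algebraMap K F (p.eval a)⁻¹) ≤ 1 :=
          (A.valuation_le_one_iff _).2 (hKA _)
        rw [map_inv₀, map_inv₀] at hle'
        have hne0 : A.valuation (algebraMap K F (p.eval a)) ≠ 0 := by
          rw [ne_eq, map_eq_zero, map_eq_zero]; exact hne
        have hge : 1 ≤ A.valuation (algebraMap K F (p.eval a)) := by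
          by_contra hlt
          rw [not_le] at hlt
          have := (one_lt_inv₀ (pos_iff_ne_zero.2 hne0)).2 hlt
          exact absurd hle' (not_le.2 this)
        exact le_antisymm hle hge
      have hc2 : A.valuation ((x - algebraMap K F a) * aeval x s) < 1 := by
        have := mul_mem_nonunits hv hsA
        rwa [ValuationSubring.mem_nonunits_iff] at this
      have hsum : A.valuation (aeval x p) = 1 := by
        rw [hp, Valuation.map_add_eq_of_lt_left _ (by rw [hc1]; exact hc2), hc1]
      rw [ValuationSubring.mem_nonunits_iff, hsum] at hr'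
      exact lt_irrefl _ hr'
    show L q0 (aeval x p) ∈ O.nonunits
    rw [hp, hpa, map_zero, zero_add, map_mul]
    exact mul_mem_nonunits (hxa q0) hsO
  exact exists_eq_comap (R0 := Algebra.adjoin K {x}) (k0 := K⟮x⟯) O L hinj hcard L0 hbase' A hA
    h1 h2 h3

end Adjoin2

section PlaceLevel

open AlgebraicCurve

variable {K F Ω : Type*} [Field K] [CharZero K] [Field F] [Algebra K F] [Field Ω]

/-- **Lemma A, place form** (the hypothesis `hall` of `PlaceCount.card_places_eq_card_orbits`,
with `y = x - a`). -/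
theorem exists_place_eq_comap (O : ValuationSubring Ω) {Q : Type*} [Fintype Q]
    (L : Q → F →+* Ω) {x : F} (hx : Transcendental K x) (a : K) [FiniteDimensional K⟮x⟯ F]
    (hcard : Fintype.card Q = finrank K⟮x⟯ F) (hinj : Function.Injective L)
    (hbase : ∀ q q' (y : K⟮x⟯), L q y = L q' y)
    (hK : ∀ q (c : K), L q (algebraMap K F c) ∈ O)
    (hxa : ∀ q, L q (x - algebraMap K F a) ∈ O.nonunits)
    (v : Place K F) (hv : x - algebraMap K F a ∈ v.toValuationSubring.nonunits) :
    ∃ q, v.toValuationSubring = O.comap (L q) :=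
  exists_eq_comap_of_transcendental O L hx a hcard hinj hbase hK hxa v.toValuationSubring
    v.ne_top' v.algebraMap_mem' hv

end PlaceLevel

end Fermat.Agent.S24.AllPlaces
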