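import Mathlib

set_option autoImplicit false

/-!
# Widths of cusps: `T`-orbits on `SL(2,ℤ) ⧸ Γ₀(N)`

For `Q = SL(2,ℤ) ⧸ Γ₀(N)` (left cosets, left multiplication) every orbit of `⟨T⟩` has size dividing
`N`, and `T ^ w` with `w` the orbit size of `q` is conjugated into `Γ₀(N)` by a representative
of `q`.
-/

namespace Fermat.Agent.S24.CuspWidth

open MulAction CongruenceSubgroup

open scoped MatrixGroups

section General

variable {G α : Type*} [Group G] [MulAction G α]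

/-- The orbit of `a` under `⟨d⟩` has `Nat.card` equal to the minimal period of `a` under `d`
(both are `0` if the orbit is infinite). -/
theorem card_orbit_eq_minimalPeriod (d : G) (a : α) :
    Nat.card (orbit (Subgroup.zpowers d) a) = Function.minimalPeriod (d • ·) a := by
  rw [Nat.card_congr (MulAction.orbitZPowersEquiv d a), Nat.card_zmod]

/-- `d ^ (orbit size)` fixes the point. -/
theorem pow_card_orbit_smul (d : G) (a : α) :
    d ^ Nat.card (orbit (Subgroup.zpowers d) a) • a = a := by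
  rw [card_orbit_eq_minimalPeriod, MulAction.pow_smul_eq_iff_minimalPeriod_dvd]

theorem zpow_card_orbit_smul (d : G) (a : α) :
    d ^ ((Nat.card (orbit (Subgroup.zpowers d) a) : ℕ) : ℤ) • a = a := by
  rw [zpow_natCast]; exact pow_card_orbit_smul d a

/-- If `d ^ n` fixes `a` then the orbit size divides `n`. -/
theorem card_orbit_dvd_of_pow_smul_eq {d : G} {a : α} {n : ℕ} (h : d ^ n • a = a) :
    Nat.card (orbit (Subgroup.zpowers d) a) ∣ n := by
  rw [card_orbit_eq_minimalPeriod]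
  exact MulAction.pow_smul_eq_iff_minimalPeriod_dvd.mp h

theorem card_orbit_pos_of_pow_smul_eq {d : G} {a : α} {n : ℕ} (hn : 0 < n) (h : d ^ n • a = a) :
    0 < Nat.card (orbit (Subgroup.zpowers d) a) :=
  Nat.pos_of_dvd_of_pos (card_orbit_dvd_of_pow_smul_eq h) hn

end General

section Coset

variable {G : Type*} [Group G] (H : Subgroup G)

/-- `d • (g : G ⧸ H) = g ↔ g⁻¹ * d * g ∈ H`. -/
theorem smul_mk_eq_iff (d g : G) :
    d • (g : G ⧸ H) = (g : G ⧸ H) ↔ g⁻¹ * d * g ∈ H := by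
  rw [MulAction.Quotient.smul_mk, QuotientGroup.eq]
  constructor
  · intro h
    have h2 := H.inv_mem h
    have e : ((d • g)⁻¹ * g)⁻¹ = g⁻¹ * d * g := by
      simp [smul_eq_mul, mul_assoc]
    rwa [e] at h2
  · intro h
    have h2 := H.inv_mem h
    have e : (g⁻¹ * d * g)⁻¹ = (d • g)⁻¹ * g := by
      simp [smul_eq_mul, mul_assoc]
    rwa [e] at h2

end Coset

variable (N : ℕ)

theorem Gamma_le_Gamma0 : Gamma N ≤ Gamma0 N := by
  intro γ hγ
  rw [Gamma_mem] at hγ
  rw [Gamma0_mem]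
  exact hγ.2.2.1

theorem T_zpow_mem_Gamma : ModularGroup.T ^ (N : ℤ) ∈ Gamma N := by
  have := ModularGroup_T_pow_mem_Gamma (N : ℤ) (N : ℤ) dvd_rfl
  simpa using this

/-- `γ T^N γ⁻¹ ∈ Γ₀(N)` for every `γ`. -/
theorem conj_T_zpow_mem (γ : SL(2, ℤ)) :
    γ * ModularGroup.T ^ (N : ℤ) * γ⁻¹ ∈ Gamma0 N :=
  Gamma_le_Gamma0 N ((Gamma_normal N).conj_mem _ (T_zpow_mem_Gamma N) γ)

theorem conj_T_pow_mem (γ : SL(2, ℤ)) :
    γ * ModularGroup.T ^ N * γ⁻¹ ∈ Gamma0 N := by
  have := conj_T_zpow_mem N γ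
  rwa [zpow_natCast] at this

/-- `T ^ N` acts trivially on `SL(2,ℤ) ⧸ Γ₀(N)`. -/
theorem T_pow_smul (q : SL(2, ℤ) ⧸ Gamma0 N) : ModularGroup.T ^ N • q = q := by
  induction q using QuotientGroup.induction_on with
  | H g =>
    rw [smul_mk_eq_iff]
    have := conj_T_pow_mem N g⁻¹
    rwa [inv_inv] at this

theorem T_zpow_smul (q : SL(2, ℤ) ⧸ Gamma0 N) : ModularGroup.T ^ (N : ℤ) • q = q := by
  rw [zpow_natCast]; exact T_pow_smul N q

/-- **`hdvd` at the cusps**: every `⟨T⟩`-orbit on `SL(2,ℤ) ⧸ Γ₀(N)` has size dividing `N`. -/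
theorem card_orbit_dvd (q : SL(2, ℤ) ⧸ Gamma0 N) :
    Nat.card (orbit (Subgroup.zpowers ModularGroup.T) q) ∣ N :=
  card_orbit_dvd_of_pow_smul_eq (T_pow_smul N q)

theorem card_orbit_pos [NeZero N] (q : SL(2, ℤ) ⧸ Gamma0 N) :
    0 < Nat.card (orbit (Subgroup.zpowers ModularGroup.T) q) :=
  card_orbit_pos_of_pow_smul_eq (Nat.pos_of_ne_zero (NeZero.ne N)) (T_pow_smul N q)

/-- **Width lemma**, arbitrary representative: if `g` represents `q` and `w` is the size of the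
`⟨T⟩`-orbit of `q`, then `g⁻¹ T^w g ∈ Γ₀(N)`. -/
theorem width_mem_of_mk_eq (q : SL(2, ℤ) ⧸ Gamma0 N) (g : SL(2, ℤ))
    (hg : (g : SL(2, ℤ) ⧸ Gamma0 N) = q) :
    g⁻¹ * ModularGroup.T ^ ((Nat.card (orbit (Subgroup.zpowers ModularGroup.T) q) : ℕ) : ℤ) * g
      ∈ Gamma0 N := by
  subst hg
  rw [← smul_mk_eq_iff]
  exact zpow_card_orbit_smul _ _

/-- **Width lemma** for the chosen representative `Quotient.out q`. -/
theorem width_mem (q : SL(2, ℤ) ⧸ Gamma0 N) :
    (Quotient.out q)⁻¹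
        * ModularGroup.T ^ ((Nat.card (orbit (Subgroup.zpowers ModularGroup.T) q) : ℕ) : ℤ)
        * Quotient.out q ∈ Gamma0 N :=
  width_mem_of_mk_eq N q (Quotient.out q) (QuotientGroup.out_eq' q)

/-- The same statement written as `γ T^w γ⁻¹` with `γ := (Quotient.out q)⁻¹` (the shape used by
`LaurentCusp.periodic_slash` / `dvd_width_mul_log_valuation`). -/
theorem width_mem' (q : SL(2, ℤ) ⧸ Gamma0 N) :
    (Quotient.out q)⁻¹
        * ModularGroup.T ^ ((Nat.card (orbit (Subgroup.zpowers ModularGroup.T) q) : ℕ) : ℤ)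
        * ((Quotient.out q)⁻¹)⁻¹ ∈ Gamma0 N := by
  rw [inv_inv]; exact width_mem N q

end Fermat.Agent.S24.CuspWidth
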