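/-
S24 slice [Deg] (helper7): the `hlb` hypothesis of `DegreeAlg.finrank_eq_of_relations`, verbatim,
with `μ = [SL(2,ℤ) : Γ₀(N)]`: a nonzero formal relation `P(j, j_N) = 0` over `ℚ̄` has `X`-degree at
least `μ`.
-/
import Mathlib
import Fermat.Agent.S24.DegreeAlg
import Fermat.Agent.S24.DegreeLower
import Fermat.Agent.S24.QRep

set_option autoImplicit false

noncomputable section

open UpperHalfPlane hiding I
open ModularForm CongruenceSubgroup ModularCurve
open scoped MatrixGroups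

namespace Fermat.Agent.S24.DegreeLowerFormal

open Fermat.Agent.LevelOne.JBasic Fermat.Agent.S24.DegreeAlg

local notation "Kb" => AlgebraicClosure ℚ

/-- An embedding `ℚ̄ → ℂ`. -/
def emb : Kb →+* ℂ :=
  haveI : Algebra.IsAlgebraic ℚ (AlgebraicClosure ℚ) := AlgebraicClosure.isAlgebraic ℚ
  ((IsAlgClosed.lift (R := ℚ) (S := AlgebraicClosure ℚ) (M := ℂ) : AlgebraicClosure ℚ →ₐ[ℚ] ℂ) :
    AlgebraicClosure ℚ →+* ℂ)

/-! ### Base change of coefficients -/

theorem coeffMap_coeffEmb {K L : Type*} [Field K] [Field L] [Algebra ℚ K] [Algebra ℚ L]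
    (φ : K →+* L) (x : LaurentSeries ℚ) : coeffMap φ (coeffEmb K x) = coeffEmb L x := by
  rw [coeffEmb, coeffMap_coeffMap]
  exact coeffMap_congr (RingHom.ext_rat _ _) x

theorem coeffMap_algebraMap {K L : Type*} [Field K] [Field L] (φ : K →+* L) (a : K) :
    coeffMap φ (algebraMap K (LaurentSeries K) a) = algebraMap L (LaurentSeries L) (φ a) := by
  rw [algebraMap_laurentSeries_eq_single, algebraMap_laurentSeries_eq_single, coeffMap_single]

theorem coeffMap_jdiv {K L : Type*} [Field K] [Field L] [Algebra ℚ K] [Algebra ℚ L]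
    (φ : K →+* L) (N : ℕ) [NeZero N] (d : {d : ℕ // d ∣ N}) :
    coeffMap φ (jdiv K N d) = jdiv L N d := by
  unfold jdiv
  exact coeffMap_coeffEmb φ _

/-- Base change of the evaluation homomorphism `Y ↦ x`. -/
theorem coeffMap_comp_aeval {K L : Type*} [Field K] [Field L] [Algebra ℚ K] [Algebra ℚ L]
    (φ : K →+* L) (x : LaurentSeries ℚ) :
    (coeffMap φ).comp
        (Polynomial.aeval (coeffEmb K x) : Polynomial K →ₐ[K] LaurentSeries K).toRingHom =
      ((Polynomial.aeval (coeffEmb L x) : Polynomial L →ₐ[L] LaurentSeries L).toRingHom).comp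
        (Polynomial.mapRingHom φ) := by
  refine Polynomial.ringHom_ext (fun a => ?_) ?_
  · simp only [RingHom.coe_comp, Function.comp_apply, AlgHom.toRingHom_eq_coe, RingHom.coe_coe,
      Polynomial.aeval_C, Polynomial.coe_mapRingHom, Polynomial.map_C]
    exact coeffMap_algebraMap φ a
  · simp only [RingHom.coe_comp, Function.comp_apply, AlgHom.toRingHom_eq_coe, RingHom.coe_coe,
      Polynomial.aeval_X, Polynomial.coe_mapRingHom, Polynomial.map_X]
    exact coeffMap_coeffEmb φ x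

/-- Base change of a two-variable relation. -/
theorem coeffMap_eval₂ {K L : Type*} [Field K] [Field L] [Algebra ℚ K] [Algebra ℚ L]
    (φ : K →+* L) (x : LaurentSeries ℚ) (r : LaurentSeries K) (P : Polynomial (Polynomial K)) :
    coeffMap φ (Polynomial.eval₂
        (Polynomial.aeval (coeffEmb K x) : Polynomial K →ₐ[K] LaurentSeries K).toRingHom r P) =
      Polynomial.eval₂
        (Polynomial.aeval (coeffEmb L x) : Polynomial L →ₐ[L] LaurentSeries L).toRingHom
        (coeffMap φ r) (P.map (Polynomial.mapRingHom φ)) := by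
  rw [Polynomial.hom_eval₂, coeffMap_comp_aeval, Polynomial.eval₂_map]

/-! ### Two-variable polynomials as multivariate polynomials -/

section Mv

variable {σ : Type*} (i₁ i₂ : σ)

/-- `P(Y, X) ↦ P(X_{i₁}, X_{i₂})`. -/
def toMv (P : Polynomial (Polynomial ℂ)) : MvPolynomial σ ℂ :=
  Polynomial.eval₂
    (Polynomial.aeval (MvPolynomial.X i₁ : MvPolynomial σ ℂ) :
      Polynomial ℂ →ₐ[ℂ] MvPolynomial σ ℂ).toRingHom
    (MvPolynomial.X i₂) P

theorem aeval_toMv {A : Type*} [CommRing A] [Algebra ℂ A] (g : σ → A)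
    (P : Polynomial (Polynomial ℂ)) :
    MvPolynomial.aeval g (toMv i₁ i₂ P) =
      Polynomial.eval₂ (Polynomial.aeval (g i₁) : Polynomial ℂ →ₐ[ℂ] A).toRingHom (g i₂) P := by
  unfold toMv
  have h := Polynomial.hom_eval₂ P
    (Polynomial.aeval (MvPolynomial.X i₁ : MvPolynomial σ ℂ) :
      Polynomial ℂ →ₐ[ℂ] MvPolynomial σ ℂ).toRingHom
    ((MvPolynomial.aeval g : MvPolynomial σ ℂ →ₐ[ℂ] A) : MvPolynomial σ ℂ →+* A)
    (MvPolynomial.X i₂)
  have h2 : ((MvPolynomial.aeval g : MvPolynomial σ ℂ →ₐ[ℂ] A) : MvPolynomial σ ℂ →+* A).comp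
      (Polynomial.aeval (MvPolynomial.X i₁ : MvPolynomial σ ℂ) :
        Polynomial ℂ →ₐ[ℂ] MvPolynomial σ ℂ).toRingHom =
      (Polynomial.aeval (g i₁) : Polynomial ℂ →ₐ[ℂ] A).toRingHom := by
    refine Polynomial.ringHom_ext (fun a => ?_) ?_
    · simp
    · simp
  rw [h2] at h
  simpa using h

theorem eval_toMv (f : σ → ℂ) (P : Polynomial (Polynomial ℂ)) :
    MvPolynomial.eval f (toMv i₁ i₂ P) =
      Polynomial.eval (f i₂) (P.map (Polynomial.evalRingHom (f i₁))) := by
  have h := aeval_toMv i₁ i₂ f P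
  rw [MvPolynomial.aeval_eq_eval] at h
  rw [Polynomial.eval_map]
  have h2 : (Polynomial.aeval (f i₁) : Polynomial ℂ →ₐ[ℂ] ℂ).toRingHom =
      Polynomial.evalRingHom (f i₁) := by
    refine Polynomial.ringHom_ext (fun a => ?_) ?_
    · simp
    · simp
  rw [h2] at h
  exact h

end Mv

/-! ### The lower bound -/

theorem heckeDiagMatrix_one_smul (τ : ℍ) : heckeDiagMatrix 1 • τ = τ := by
  apply UpperHalfPlane.ext
  rw [coe_heckeDiagMatrix_smul one_ne_zero]
  simp

variable (N : ℕ) [NeZero N]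

/-- Complex version: a formal relation `P(j, j_N) = 0` over `ℂ` of `X`-degree less than `μ` is
trivial. -/
theorem eq_zero_of_formal_relation (P : Polynomial (Polynomial ℂ))
    (hdeg : P.natDegree < Nat.card (SL(2, ℤ) ⧸ Gamma0 N))
    (h : Polynomial.eval₂
      (Polynomial.aeval (coeffEmb ℂ jq) : Polynomial ℂ →ₐ[ℂ] LaurentSeries ℂ).toRingHom
      (jdiv ℂ N ⟨N, dvd_rfl⟩) P = 0) : P = 0 := by
  apply Fermat.Agent.S24.DegreeLower.eq_zero_of_relation N P hdeg
  have : ∀ s : {d : ℕ // d ∣ N}, NeZero (s.1) := fun s => Fermat.Agent.S24.QRep.neZero_of_dvd s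
  have key := (Fermat.Agent.S24.QRep.eval_eq_zero_iff' (σ := {d : ℕ // d ∣ N}) (fun s => s.1)
    (toMv ⟨1, one_dvd N⟩ ⟨N, dvd_rfl⟩ P)).2 (by
      have e : (fun s : {d : ℕ // d ∣ N} => coeffEmb ℂ (qExpand ℚ s.1 jq)) = jdiv ℂ N := by
        funext s
        rfl
      rw [e, aeval_toMv, jdiv_one]
      exact h)
  intro τ
  have := key τ
  rw [eval_toMv] at this
  simp only [heckeDiagMatrix_one_smul] at this
  exact this

/-- **`hlb` of `DegreeAlg.finrank_eq_of_relations`, verbatim**, with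
`μ := Nat.card (SL(2,ℤ) ⧸ Γ₀(N))`. -/
theorem hlb : ∀ P : Polynomial (Polynomial Kb), P ≠ 0 →
    Polynomial.eval₂ (Polynomial.aeval (coeffEmb Kb jq) :
      Polynomial Kb →ₐ[Kb] LaurentSeries Kb).toRingHom (jdiv Kb N ⟨N, dvd_rfl⟩) P = 0 →
    Nat.card (SL(2, ℤ) ⧸ Gamma0 N) ≤ P.natDegree := by
  intro P hP0 hP
  by_contra hlt
  rw [not_le] at hlt
  apply hP0
  have h1 := congrArg (coeffMap emb) hP
  rw [coeffMap_eval₂, coeffMap_jdiv, map_zero] at h1
  have h2 : P.map (Polynomial.mapRingHom emb) = 0 := by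
    apply eq_zero_of_formal_relation N _ _ h1
    exact lt_of_le_of_lt Polynomial.natDegree_map_le hlt
  have hinj : Function.Injective (Polynomial.map (Polynomial.mapRingHom emb) :
      Polynomial (Polynomial Kb) → Polynomial (Polynomial ℂ)) :=
    Polynomial.map_injective _ (Polynomial.map_injective _ emb.injective)
  apply hinj
  rw [h2, Polynomial.map_zero]

end Fermat.Agent.S24.DegreeLowerFormal
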