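import Mathlib

/-!
# Laurent expansions at the cusp `i∞` in the parameter `q_N` (Project P / S24, slice [Lc])

For `f : ℍ → ℂ` holomorphic, `N`-periodic and bounded at `i∞` (`IsCuspHol N f`), `cuspExp N f`
is the `q_N`-expansion of `f` viewed inside `LaurentSeries ℂ`.  It is additive, multiplicative and
injective on `IsCuspHol N` functions; all slashes `A ∣[k] γ` of forms of level `Γ₀(N)` are
`IsCuspHol N`.  We also prove the period refinement (a `w`-periodic function only has
`q_N`-coefficients in degrees divisible by `N / w`) and the compatibility with translations.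
-/

set_option autoImplicit false

open UpperHalfPlane hiding I
open Complex Filter Function ModularForm
open scoped Real Manifold Topology MatrixGroups CongruenceSubgroup

noncomputable section

namespace Fermat.Agent.S24.LaurentCusp

local notation "𝕢" => Function.Periodic.qParam

/-! ### The class `IsCuspHol` -/

/-- `f` is holomorphic on `ℍ`, `N`-periodic and bounded at `i∞`. -/
structure IsCuspHol (N : ℕ) (f : ℍ → ℂ) : Prop where
  hol : MDiff f
  per : Periodic (f ∘ ofComplex) (N : ℝ)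
  bdd : IsBoundedAtImInfty f

variable {N : ℕ}

namespace IsCuspHol

variable {f g : ℍ → ℂ}

theorem const (N : ℕ) (c : ℂ) : IsCuspHol N (fun _ => c) where
  hol := mdifferentiable_const
  per := fun _ => rfl
  bdd := by
    have : (fun _ : ℍ => c) = Function.const ℍ c := rfl
    rw [this]
    exact Filter.const_boundedAtFilter _ c

theorem zero (N : ℕ) : IsCuspHol N (0 : ℍ → ℂ) := const N 0

theorem one (N : ℕ) : IsCuspHol N (1 : ℍ → ℂ) := const N 1

theorem add (hf : IsCuspHol N f) (hg : IsCuspHol N g) : IsCuspHol N (f + g) where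
  hol := hf.hol.add hg.hol
  per := fun w => by
    have h1 := hf.per w
    have h2 := hg.per w
    simp only [comp_apply, Pi.add_apply] at h1 h2 ⊢
    rw [h1, h2]
  bdd := hf.bdd.add hg.bdd

theorem mul (hf : IsCuspHol N f) (hg : IsCuspHol N g) : IsCuspHol N (f * g) where
  hol := hf.hol.mul hg.hol
  per := fun w => by
    have h1 := hf.per w
    have h2 := hg.per w
    simp only [comp_apply, Pi.mul_apply] at h1 h2 ⊢
    rw [h1, h2]
  bdd := hf.bdd.mul hg.bdd

theorem neg (hf : IsCuspHol N f) : IsCuspHol N (-f) where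
  hol := hf.hol.neg
  per := fun w => by
    have h1 := hf.per w
    simp only [comp_apply, Pi.neg_apply] at h1 ⊢
    rw [h1]
  bdd := hf.bdd.neg

theorem sub (hf : IsCuspHol N f) (hg : IsCuspHol N g) : IsCuspHol N (f - g) := by
  rw [sub_eq_add_neg]
  exact hf.add hg.neg

theorem smul (c : ℂ) (hf : IsCuspHol N f) : IsCuspHol N (c • f) := by
  have : c • f = (fun _ => c) * f := by
    funext z
    simp
  rw [this]
  exact (const N c).mul hf

theorem pow (hf : IsCuspHol N f) (n : ℕ) : IsCuspHol N (f ^ n) := by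
  induction n with
  | zero => simpa using one N
  | succ n ih => rw [pow_succ]; exact ih.mul hf

variable [NeZero N]

theorem natCast_pos : (0 : ℝ) < (N : ℝ) := by
  exact_mod_cast Nat.pos_of_ne_zero (NeZero.ne N)

theorem analyticAt (hf : IsCuspHol N f) : AnalyticAt ℂ (cuspFunction N f) 0 :=
  analyticAt_cuspFunction_zero natCast_pos hf.per hf.hol hf.bdd

theorem hasSum (hf : IsCuspHol N f) (τ : ℍ) :
    HasSum (fun m : ℕ => (qExpansion N f).coeff m • 𝕢 N τ ^ m) (f τ) :=
  hasSum_qExpansion natCast_pos hf.per hf.hol hf.bdd τ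

end IsCuspHol

/-! ### The expansion map -/

/-- The `q_N`-expansion of `f` as a Laurent series. -/
def cuspExp (N : ℕ) (f : ℍ → ℂ) : LaurentSeries ℂ :=
  HahnSeries.ofPowerSeries ℤ ℂ (qExpansion N f)

theorem cuspExp_def (N : ℕ) (f : ℍ → ℂ) :
    cuspExp N f = HahnSeries.ofPowerSeries ℤ ℂ (qExpansion N f) := rfl

variable [NeZero N] {f g : ℍ → ℂ}

theorem cuspExp_add (hf : IsCuspHol N f) (hg : IsCuspHol N g) :
    cuspExp N (f + g) = cuspExp N f + cuspExp N g := by
  simp only [cuspExp, qExpansion_add hf.analyticAt hg.analyticAt, map_add]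

theorem cuspExp_mul (hf : IsCuspHol N f) (hg : IsCuspHol N g) :
    cuspExp N (f * g) = cuspExp N f * cuspExp N g := by
  simp only [cuspExp, qExpansion_mul hf.analyticAt hg.analyticAt, map_mul]

theorem cuspExp_neg (hf : IsCuspHol N f) : cuspExp N (-f) = -cuspExp N f := by
  simp only [cuspExp, qExpansion_neg hf.analyticAt, map_neg]

theorem cuspExp_sub (hf : IsCuspHol N f) (hg : IsCuspHol N g) :
    cuspExp N (f - g) = cuspExp N f - cuspExp N g := by
  simp only [cuspExp, qExpansion_sub hf.analyticAt hg.analyticAt, map_sub]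

omit [NeZero N] in
theorem cuspExp_zero : cuspExp N (0 : ℍ → ℂ) = 0 := by
  simp only [cuspExp, qExpansion_zero, map_zero]

omit [NeZero N] in
theorem cuspExp_one : cuspExp N (1 : ℍ → ℂ) = 1 := by
  simp only [cuspExp, qExpansion_one, map_one]

theorem cuspExp_smul (c : ℂ) (hf : IsCuspHol N f) :
    cuspExp N (c • f) = HahnSeries.C c * cuspExp N f := by
  simp only [cuspExp, qExpansion_smul hf.analyticAt]
  rw [show c • qExpansion N f = PowerSeries.C c * qExpansion N f by
    rw [← PowerSeries.smul_eq_C_mul]]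
  rw [map_mul, HahnSeries.ofPowerSeries_C]

theorem cuspExp_const (c : ℂ) : cuspExp N (fun _ : ℍ => c) = HahnSeries.C c := by
  have : (fun _ : ℍ => c) = c • (1 : ℍ → ℂ) := by
    funext z
    simp
  rw [this, cuspExp_smul c (IsCuspHol.one N), cuspExp_one, mul_one]

theorem cuspExp_pow (hf : IsCuspHol N f) (n : ℕ) : cuspExp N (f ^ n) = cuspExp N f ^ n := by
  induction n with
  | zero => simp [cuspExp_one]
  | succ n ih => rw [pow_succ, pow_succ, cuspExp_mul (hf.pow n) hf, ih]

theorem cuspExp_eq_zero_iff (hf : IsCuspHol N f) : cuspExp N f = 0 ↔ f = 0 := by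
  rw [cuspExp, map_eq_zero_iff _ HahnSeries.ofPowerSeries_injective]
  exact qExpansion_eq_zero_iff IsCuspHol.natCast_pos hf.per hf.hol hf.bdd

theorem cuspExp_injOn (hf : IsCuspHol N f) (hg : IsCuspHol N g)
    (h : cuspExp N f = cuspExp N g) : f = g := by
  have := (cuspExp_eq_zero_iff (hf.sub hg)).mp (by rw [cuspExp_sub hf hg, h, sub_self])
  exact sub_eq_zero.mp this

/-! ### Uniqueness of `q`-expansions for plain functions -/

omit [NeZero N] in
theorem coeff_unique {h : ℝ} (hh : 0 < h) {c : ℕ → ℂ}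
    (han : AnalyticAt ℂ (cuspFunction h f) 0)
    (hsum : ∀ τ : ℍ, HasSum (fun m : ℕ => c m • 𝕢 h τ ^ m) (f τ)) (m : ℕ) :
    (qExpansion h f).coeff m = c m := by
  have h1 := (hasFPowerSeriesOnBall_cuspFunction hh han hsum).hasFPowerSeriesAt
  have h2 := han.hasFPowerSeriesAt
  have h3 := congr_arg (FormalMultilinearSeries.coeff · m) (h1.eq_formalMultilinearSeries h2)
  simp only [FormalMultilinearSeries.coeff_ofScalars] at h3
  rw [qExpansion_coeff, h3, div_eq_mul_inv, mul_comm]

/-! ### Period refinement -/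

omit [NeZero N] in
theorem qParam_pow_eq {w d : ℕ} (hN : w * d = N) (hw : 0 < w) (hd : 0 < d) (z : ℂ) :
    𝕢 (N : ℝ) z ^ d = 𝕢 (w : ℝ) z := by
  simp only [Function.Periodic.qParam]
  rw [← Complex.exp_nat_mul]
  congr 1
  have hwc : (w : ℂ) ≠ 0 := by exact_mod_cast hw.ne'
  have hdc : (d : ℂ) ≠ 0 := by exact_mod_cast hd.ne'
  have hNc : ((N : ℝ) : ℂ) = (w : ℂ) * (d : ℂ) := by
    rw [← hN]
    push_cast
    ring
  rw [hNc]
  push_cast
  field_simp

omit [NeZero N] in
theorem periodic_of_dvd {w d : ℕ} (hN : w * d = N) (hper : Periodic (f ∘ ofComplex) (w : ℝ)) :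
    Periodic (f ∘ ofComplex) (N : ℝ) := by
  have := hper.nat_mul d
  rw [← hN]
  push_cast
  rw [mul_comm]
  exact this

/-- A `w`-periodic function has `q_N`-coefficients only in degrees divisible by `N / w`. -/
theorem qExpansion_coeff_of_period {w d : ℕ} (hN : w * d = N) (hw : 0 < w)
    (hf : MDiff f) (hper : Periodic (f ∘ ofComplex) (w : ℝ)) (hbdd : IsBoundedAtImInfty f)
    (n : ℕ) :
    (qExpansion N f).coeff n = if d ∣ n then (qExpansion w f).coeff (n / d) else 0 := by
  have hd : 0 < d := by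
    rcases Nat.eq_zero_or_pos d with h | h
    · exfalso
      rw [h, mul_zero] at hN
      exact NeZero.ne N hN.symm
    · exact h
  have hwpos : (0 : ℝ) < (w : ℝ) := by exact_mod_cast hw
  have hfN : IsCuspHol N f := ⟨hf, periodic_of_dvd hN hper, hbdd⟩
  set c : ℕ → ℂ := fun m => if d ∣ m then (qExpansion w f).coeff (m / d) else 0 with hc
  have hsum : ∀ τ : ℍ, HasSum (fun m : ℕ => c m • 𝕢 (N : ℝ) τ ^ m) (f τ) := by
    intro τ
    have h1 := hasSum_qExpansion hwpos hper hf hbdd τ
    have hinj : Function.Injective (fun m : ℕ => d * m) := fun a b hab =>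
      Nat.eq_of_mul_eq_mul_left hd hab
    rw [← hinj.hasSum_iff]
    · refine h1.congr_fun ?_ |> fun h => h
      intro m
      simp only [comp_apply, hc]
      rw [if_pos (Dvd.intro m rfl), Nat.mul_div_cancel_left m hd, pow_mul,
        qParam_pow_eq hN hw hd]
    · intro m hm
      have hnd : ¬ d ∣ m := by
        rintro ⟨k, rfl⟩
        exact hm ⟨k, rfl⟩
      simp only [hc, if_neg hnd, zero_smul]
  exact coeff_unique IsCuspHol.natCast_pos hfN.analyticAt hsum n

/-! ### Slashes of forms of level `Γ₀(N)` -/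

open CongruenceSubgroup

omit [NeZero N] in
theorem denom_T_zpow (n : ℤ) (τ : ℍ) : denom (ModularGroup.T ^ n : SL(2, ℤ)) τ = 1 := by
  rw [ModularGroup.denom_apply, ModularGroup.coe_T_zpow]
  simp

omit [NeZero N] in
theorem slash_T_zpow_apply (F : ℍ → ℂ) (k : ℤ) (n : ℤ) (τ : ℍ) :
    (F ∣[k] (ModularGroup.T ^ n : SL(2, ℤ))) τ = F ((n : ℝ) +ᵥ τ) := by
  rw [SL_slash_apply, denom_T_zpow, one_zpow, mul_one, modular_T_zpow_smul]

omit [NeZero N] in
theorem periodic_of_slash_T_zpow {F : ℍ → ℂ} {k : ℤ} {w : ℕ}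
    (h : F ∣[k] (ModularGroup.T ^ (w : ℤ) : SL(2, ℤ)) = F) :
    Periodic (F ∘ ofComplex) (w : ℝ) := by
  intro z
  by_cases hz : 0 < im z
  · have hz' : 0 < im (z + (w : ℝ)) := by simpa using hz
    simp only [comp_apply, ofComplex_apply_of_im_pos hz', ofComplex_apply_of_im_pos hz]
    have h1 := congrFun h ⟨z, hz⟩
    rw [slash_T_zpow_apply] at h1
    rw [← h1]
    congr 1
    apply UpperHalfPlane.ext
    simp [add_comm]
  · have hz0 : im z ≤ 0 := not_lt.mp hz
    have hz' : im (z + (w : ℝ)) ≤ 0 := by simpa using hz0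
    show F (ofComplex (z + (w : ℝ))) = F (ofComplex z)
    rw [ofComplex_apply_of_im_nonpos hz', ofComplex_apply_of_im_nonpos hz0]

omit [NeZero N] in
theorem slash_conj_invariant {k : ℤ} (A : ModularForm (Gamma0 N) k) (γ δ : SL(2, ℤ))
    (hδ : γ * δ * γ⁻¹ ∈ Gamma0 N) : (⇑A ∣[k] γ) ∣[k] δ = ⇑A ∣[k] γ := by
  have hmem : (Matrix.SpecialLinearGroup.mapGL ℝ (γ * δ * γ⁻¹)) ∈
      ((Gamma0 N : Subgroup SL(2, ℤ)) : Subgroup (GL (Fin 2) ℝ)) :=
    Subgroup.mem_map_of_mem _ hδ
  have hinv : ⇑A ∣[k] (γ * δ * γ⁻¹) = ⇑A :=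
    SlashInvariantForm.slash_action_eqn A _ hmem
  calc (⇑A ∣[k] γ) ∣[k] δ = ⇑A ∣[k] (γ * δ) := (SlashAction.slash_mul k γ δ ⇑A).symm
    _ = ⇑A ∣[k] ((γ * δ * γ⁻¹) * γ) := by
        congr 1
        group
    _ = (⇑A ∣[k] (γ * δ * γ⁻¹)) ∣[k] γ := SlashAction.slash_mul k _ γ ⇑A
    _ = ⇑A ∣[k] γ := by rw [hinv]

omit [NeZero N] in
theorem Gamma_le_Gamma0 (N : ℕ) : CongruenceSubgroup.Gamma N ≤ Gamma0 N := by
  intro γ hγ
  rw [Gamma_mem] at hγ
  rw [Gamma0_mem]
  exact hγ.2.2.1

omit [NeZero N] in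
theorem conj_T_pow_mem (N : ℕ) (γ : SL(2, ℤ)) :
    γ * ModularGroup.T ^ (N : ℤ) * γ⁻¹ ∈ Gamma0 N := by
  apply Gamma_le_Gamma0 N
  have hT : ModularGroup.T ^ (N : ℤ) ∈ CongruenceSubgroup.Gamma N := by
    have := ModularGroup_T_pow_mem_Gamma (N : ℤ) (N : ℤ) dvd_rfl
    simpa using this
  exact (Gamma_normal (N := N)).conj_mem _ hT γ

omit [NeZero N] in
/-- The slash `A ∣[k] γ` of a form of level `Γ₀(N)` is `w`-periodic whenever
`γ T^w γ⁻¹ ∈ Γ₀(N)`. -/
theorem periodic_slash {k : ℤ} (A : ModularForm (Gamma0 N) k) (γ : SL(2, ℤ)) {w : ℕ}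
    (hw : γ * ModularGroup.T ^ (w : ℤ) * γ⁻¹ ∈ Gamma0 N) :
    Periodic ((⇑A ∣[k] γ) ∘ ofComplex) (w : ℝ) :=
  periodic_of_slash_T_zpow (slash_conj_invariant A γ _ hw)

theorem isCuspHol_slash {k : ℤ} (A : ModularForm (Gamma0 N) k) (γ : SL(2, ℤ)) :
    IsCuspHol N (⇑A ∣[k] γ) where
  hol := by
    rw [SL_slash]
    exact (ModularFormClass.holo A).slash k _
  per := periodic_slash A γ (conj_T_pow_mem N γ)
  bdd := ModularFormClass.bdd_at_infty_slash A γ


/-! ### The `X`-adic valuation of a Laurent series and its order -/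

omit [NeZero N] in
theorem valuation_eq_exp_neg_order {x : LaurentSeries ℂ} (hx : x ≠ 0) :
    (Valued.v x : WithZero (Multiplicative ℤ)) = WithZero.exp (-x.order) := by
  have h1 : Valued.v x ≤ WithZero.exp (-x.order) := by
    rw [LaurentSeries.valuation_le_iff_coeff_lt_eq_zero]
    intro n hn
    exact HahnSeries.coeff_eq_zero_of_lt_order hn
  refine le_antisymm h1 ?_
  by_contra hlt
  rw [not_le] at hlt
  have hv0 : Valued.v x ≠ 0 := (Valuation.ne_zero_iff _).mpr hx
  have h2 : Valued.v x ≤ WithZero.exp (-(x.order + 1)) := by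
    have hlog : WithZero.log (Valued.v x) < -x.order := by
      rw [← WithZero.exp_lt_exp, WithZero.exp_log hv0]
      exact hlt
    rw [← WithZero.exp_log hv0, WithZero.exp_le_exp]
    omega
  rw [LaurentSeries.valuation_le_iff_coeff_lt_eq_zero] at h2
  have := h2 x.order (by omega)
  exact hx (HahnSeries.coeff_order_eq_zero.mp this)

omit [NeZero N] in
theorem log_valuation_eq {x : LaurentSeries ℂ} (hx : x ≠ 0) :
    WithZero.log (Valued.v x) = -x.order := by
  rw [valuation_eq_exp_neg_order hx, WithZero.log_exp]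

omit [NeZero N] in
theorem dvd_order_of_support {d : ℤ} {x : LaurentSeries ℂ}
    (h : ∀ n : ℤ, x.coeff n ≠ 0 → d ∣ n) : d ∣ x.order := by
  by_cases hx : x = 0
  · rw [hx, HahnSeries.order_zero]
    exact dvd_zero d
  · exact h _ (fun h0 => hx (HahnSeries.coeff_order_eq_zero.mp h0))

omit [NeZero N] in
theorem order_div_eq {x y : LaurentSeries ℂ} (hx : x ≠ 0) (hy : y ≠ 0) :
    (x / y).order = x.order - y.order := by
  have hxy : x / y ≠ 0 := div_ne_zero hx hy
  have := HahnSeries.order_mul hxy hy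
  rw [div_mul_cancel₀ x hy] at this
  omega

omit [NeZero N] in
/-- Two Laurent series with the same support have the same order. -/
theorem order_eq_of_support {x y : LaurentSeries ℂ}
    (h : ∀ n : ℤ, x.coeff n = 0 ↔ y.coeff n = 0) : x.order = y.order := by
  by_cases hx : x = 0
  · have hy : y = 0 := by
      ext n
      rw [HahnSeries.coeff_zero]
      exact (h n).mp (by rw [hx, HahnSeries.coeff_zero])
    rw [hx, hy]
  · have hy : y ≠ 0 := by
      intro hy
      apply hx
      ext n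
      rw [HahnSeries.coeff_zero]
      exact (h n).mpr (by rw [hy, HahnSeries.coeff_zero])
    apply le_antisymm
    · apply HahnSeries.order_le_of_coeff_ne_zero
      intro h0
      exact hy (HahnSeries.coeff_order_eq_zero.mp ((h _).mp h0))
    · apply HahnSeries.order_le_of_coeff_ne_zero
      intro h0
      exact hx (HahnSeries.coeff_order_eq_zero.mp ((h _).mpr h0))

omit [NeZero N] in
theorem valuation_eq_of_support {x y : LaurentSeries ℂ}
    (h : ∀ n : ℤ, x.coeff n = 0 ↔ y.coeff n = 0) :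
    (Valued.v x : WithZero (Multiplicative ℤ)) = Valued.v y := by
  by_cases hx : x = 0
  · have hy : y = 0 := by
      ext n
      rw [HahnSeries.coeff_zero]
      exact (h n).mp (by rw [hx, HahnSeries.coeff_zero])
    rw [hx, hy]
  · have hy : y ≠ 0 := by
      intro hy
      apply hx
      ext n
      rw [HahnSeries.coeff_zero]
      exact (h n).mpr (by rw [hy, HahnSeries.coeff_zero])
    rw [valuation_eq_exp_neg_order hx, valuation_eq_exp_neg_order hy, order_eq_of_support h]

omit [NeZero N] in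
theorem coeff_cuspExp (f : ℍ → ℂ) (n : ℤ) :
    (cuspExp N f).coeff n = if n < 0 then 0 else (qExpansion N f).coeff n.natAbs :=
  PowerSeries.coeff_coe _ n

/-! ### Divisibility of the order by `N / width` -/

/-- The `q_N`-order of a `w`-periodic function is divisible by `N / w`. -/
theorem dvd_order_cuspExp_of_period {w d : ℕ} (hN : w * d = N) (hw : 0 < w)
    (hf : MDiff f) (hper : Periodic (f ∘ ofComplex) (w : ℝ)) (hbdd : IsBoundedAtImInfty f) :
    (d : ℤ) ∣ (cuspExp N f).order := by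
  apply dvd_order_of_support
  intro n hn
  rw [coeff_cuspExp] at hn
  split_ifs at hn with hneg
  · exact absurd rfl hn
  · rw [qExpansion_coeff_of_period hN hw hf hper hbdd] at hn
    split_ifs at hn with hd
    · exact Int.natCast_dvd.mpr hd
    · exact absurd rfl hn

/-- The `q_N`-order of `A ∣[k] γ` is divisible by `N / w` if `γ T^w γ⁻¹ ∈ Γ₀(N)`. -/
theorem dvd_order_cuspExp_slash {k : ℤ} (A : ModularForm (Gamma0 N) k) (γ : SL(2, ℤ)) {w d : ℕ}
    (hN : w * d = N) (hw0 : 0 < w) (hw : γ * ModularGroup.T ^ (w : ℤ) * γ⁻¹ ∈ Gamma0 N) :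
    (d : ℤ) ∣ (cuspExp N (⇑A ∣[k] γ)).order :=
  dvd_order_cuspExp_of_period hN hw0 (isCuspHol_slash A γ).hol (periodic_slash A γ hw)
    (isCuspHol_slash A γ).bdd

/-- Quotient version, in the shape of the hypothesis `hs` of the place count. -/
theorem dvd_width_mul_log_valuation {k : ℤ} (A B : ModularForm (Gamma0 N) k) (γ : SL(2, ℤ))
    {w : ℕ} (hwN : w ∣ N) (hw0 : 0 < w)
    (hw : γ * ModularGroup.T ^ (w : ℤ) * γ⁻¹ ∈ Gamma0 N)
    (hA : cuspExp N (⇑A ∣[k] γ) ≠ 0) (hB : cuspExp N (⇑B ∣[k] γ) ≠ 0) :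
    (N : ℤ) ∣ (w : ℤ) * WithZero.log
      (Valued.v (cuspExp N (⇑A ∣[k] γ) / cuspExp N (⇑B ∣[k] γ))) := by
  obtain ⟨d, hd⟩ := hwN
  rw [log_valuation_eq (div_ne_zero hA hB), order_div_eq hA hB]
  obtain ⟨a, ha⟩ := dvd_order_cuspExp_slash A γ hd.symm hw0 hw
  obtain ⟨b, hb⟩ := dvd_order_cuspExp_slash B γ hd.symm hw0 hw
  rw [ha, hb]
  refine ⟨-(a - b), ?_⟩
  rw [hd]
  push_cast
  ring

/-! ### Translations -/

omit [NeZero N] in
theorem translate_eq_slash (F : ℍ → ℂ) (n : ℤ) :
    (fun τ : ℍ => F ((n : ℝ) +ᵥ τ)) = F ∣[(0 : ℤ)] (ModularGroup.T ^ n : SL(2, ℤ)) := by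
  funext τ
  rw [slash_T_zpow_apply]

omit [NeZero N] in
theorem ofComplex_add_real {z : ℂ} (hz : 0 < im z) (r : ℝ) :
    ofComplex (z + r) = r +ᵥ ofComplex z := by
  have hz' : 0 < im (z + (r : ℂ)) := by simpa using hz
  apply UpperHalfPlane.ext
  rw [ofComplex_apply_of_im_pos hz', UpperHalfPlane.coe_vadd, ofComplex_apply_of_im_pos hz]
  simp [add_comm]

omit [NeZero N] in
theorem IsCuspHol.translate (hf : IsCuspHol N f) (n : ℤ) :
    IsCuspHol N (fun τ : ℍ => f ((n : ℝ) +ᵥ τ)) where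
  hol := by
    rw [translate_eq_slash, SL_slash]
    exact hf.hol.slash 0 _
  per := by
    intro z
    by_cases hz : 0 < im z
    · have hz' : 0 < im (z + ((N : ℝ) : ℂ)) := by simpa using hz
      have hzn : 0 < im (z + ((n : ℝ) : ℂ)) := by simpa using hz
      show f ((n : ℝ) +ᵥ ofComplex (z + ((N : ℝ) : ℂ))) = f ((n : ℝ) +ᵥ ofComplex z)
      have h1 : (n : ℝ) +ᵥ ofComplex (z + ((N : ℝ) : ℂ)) = ofComplex ((z + ((n : ℝ) : ℂ)) + (N : ℝ)) := by
        rw [ofComplex_add_real hzn, ofComplex_add_real hz, ofComplex_add_real hz]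
        apply UpperHalfPlane.ext
        simp only [UpperHalfPlane.coe_vadd]
        ring
      have h2 : (n : ℝ) +ᵥ ofComplex z = ofComplex (z + ((n : ℝ) : ℂ)) := (ofComplex_add_real hz _).symm
      rw [h1, h2]
      exact hf.per (z + ((n : ℝ) : ℂ))
    · have hz0 : im z ≤ 0 := not_lt.mp hz
      have hz' : im (z + ((N : ℝ) : ℂ)) ≤ 0 := by simpa using hz0
      show f ((n : ℝ) +ᵥ ofComplex (z + ((N : ℝ) : ℂ))) = f ((n : ℝ) +ᵥ ofComplex z)
      rw [ofComplex_apply_of_im_nonpos hz', ofComplex_apply_of_im_nonpos hz0]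
  bdd := by
    have h := hf.bdd
    rw [UpperHalfPlane.isBoundedAtImInfty_iff] at h ⊢
    obtain ⟨M, A, hMA⟩ := h
    refine ⟨M, A, fun z hz => hMA _ ?_⟩
    rw [UpperHalfPlane.vadd_im]
    exact hz

omit [NeZero N] in
theorem qParam_vadd (n : ℤ) (τ : ℍ) :
    𝕢 (N : ℝ) (((n : ℝ) +ᵥ τ : ℍ) : ℂ) = 𝕢 (N : ℝ) (n : ℂ) * 𝕢 (N : ℝ) τ := by
  simp only [Function.Periodic.qParam, UpperHalfPlane.coe_vadd]
  rw [← Complex.exp_add]
  congr 1
  push_cast
  ring

/-- Translation by `n` multiplies the `m`-th `q_N`-coefficient by `ζ^m`, `ζ = exp (2πi n / N)`. -/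
theorem qExpansion_coeff_translate (hf : IsCuspHol N f) (n : ℤ) (m : ℕ) :
    (qExpansion N (fun τ : ℍ => f ((n : ℝ) +ᵥ τ))).coeff m =
      (qExpansion N f).coeff m * 𝕢 (N : ℝ) (n : ℂ) ^ m := by
  refine coeff_unique (c := fun m => (qExpansion N f).coeff m * 𝕢 (N : ℝ) (n : ℂ) ^ m)
    IsCuspHol.natCast_pos (hf.translate n).analyticAt ?_ m
  intro τ
  have h1 := hf.hasSum ((n : ℝ) +ᵥ τ)
  refine h1.congr_fun ?_ |> fun h => h
  intro i
  rw [qParam_vadd, mul_pow, smul_eq_mul, smul_eq_mul, mul_assoc]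

theorem qParam_ne_zero (h : ℝ) (z : ℂ) : 𝕢 h z ≠ 0 := Complex.exp_ne_zero _

theorem coeff_cuspExp_translate_eq_zero_iff (hf : IsCuspHol N f) (n : ℤ) (i : ℤ) :
    (cuspExp N (fun τ : ℍ => f ((n : ℝ) +ᵥ τ))).coeff i = 0 ↔ (cuspExp N f).coeff i = 0 := by
  rw [coeff_cuspExp, coeff_cuspExp]
  split_ifs with hi
  · exact Iff.rfl
  · rw [qExpansion_coeff_translate hf, mul_eq_zero]
    constructor
    · rintro (h | h)
      · exact h
      · exact absurd h (pow_ne_zero _ (qParam_ne_zero _ _))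
    · intro h
      exact Or.inl h

theorem order_cuspExp_translate (hf : IsCuspHol N f) (n : ℤ) :
    (cuspExp N (fun τ : ℍ => f ((n : ℝ) +ᵥ τ))).order = (cuspExp N f).order :=
  order_eq_of_support (coeff_cuspExp_translate_eq_zero_iff hf n)

theorem valuation_cuspExp_translate (hf : IsCuspHol N f) (n : ℤ) :
    (Valued.v (cuspExp N (fun τ : ℍ => f ((n : ℝ) +ᵥ τ))) : WithZero (Multiplicative ℤ)) =
      Valued.v (cuspExp N f) :=
  valuation_eq_of_support (coeff_cuspExp_translate_eq_zero_iff hf n)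

theorem valuation_cuspExp_slash_T_zpow (hf : IsCuspHol N f) (k : ℤ) (n : ℤ) :
    (Valued.v (cuspExp N (f ∣[k] (ModularGroup.T ^ n : SL(2, ℤ)))) :
      WithZero (Multiplicative ℤ)) = Valued.v (cuspExp N f) := by
  have : f ∣[k] (ModularGroup.T ^ n : SL(2, ℤ)) = fun τ : ℍ => f ((n : ℝ) +ᵥ τ) := by
    funext τ
    rw [slash_T_zpow_apply]
  rw [this]
  exact valuation_cuspExp_translate hf n

/-! ### Level one forms: `Δ` has `q_N`-order `N`, `E₄` has `q_N`-order `0` -/

omit [NeZero N] in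
theorem isCuspHol_one_of_class {F' : Type*} [FunLike F' ℍ ℂ] {k : ℤ} [ModularFormClass F' 𝒮ℒ k]
    (F : F') : IsCuspHol 1 (⇑F) where
  hol := ModularFormClass.holo F
  per := by
    rw [Nat.cast_one]
    exact SlashInvariantFormClass.periodic_comp_ofComplex F one_mem_strictPeriods_SL
  bdd := ModularFormClass.bdd_at_infty F

theorem coeff_qExpansion_of_isCuspHol_one (hf : IsCuspHol 1 f) (n : ℕ) :
    (qExpansion N f).coeff n = if N ∣ n then (qExpansion 1 f).coeff (n / N) else 0 := by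
  have h := qExpansion_coeff_of_period (N := N) (w := 1) (d := N) (one_mul N) one_pos
    hf.hol hf.per hf.bdd n
  rw [Nat.cast_one] at h
  exact h

omit [NeZero N] in
theorem IsCuspHol.of_one (hf : IsCuspHol 1 f) : IsCuspHol N f where
  hol := hf.hol
  per := periodic_of_dvd (one_mul N) hf.per
  bdd := hf.bdd

/-- If the `q`-expansion of a `1`-periodic function has order `r`, its `q_N`-expansion has
order `N r`. -/
theorem order_cuspExp_of_isCuspHol_one (hf : IsCuspHol 1 f) {r : ℕ}
    (hr : (qExpansion 1 f).coeff r ≠ 0) (hlt : ∀ i < r, (qExpansion 1 f).coeff i = 0) :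
    (cuspExp N f).order = (N : ℤ) * r := by
  have hNpos : 0 < N := Nat.pos_of_ne_zero (NeZero.ne N)
  have hcoeff : (cuspExp N f).coeff ((N : ℤ) * r) ≠ 0 := by
    rw [coeff_cuspExp, if_neg (not_lt.mpr (by positivity))]
    have : ((N : ℤ) * r).natAbs = N * r := by
      rw [Int.natAbs_mul, Int.natAbs_natCast, Int.natAbs_natCast]
    rw [this, coeff_qExpansion_of_isCuspHol_one hf, if_pos (Dvd.intro r rfl),
      Nat.mul_div_cancel_left r hNpos]
    exact hr
  have hne : cuspExp N f ≠ 0 := by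
    intro h0
    rw [h0, HahnSeries.coeff_zero] at hcoeff
    exact hcoeff rfl
  apply le_antisymm
  · exact HahnSeries.order_le_of_coeff_ne_zero hcoeff
  · rw [HahnSeries.le_order_iff_forall hne]
    intro j hj
    rw [coeff_cuspExp]
    split_ifs with hneg
    · rfl
    · rw [coeff_qExpansion_of_isCuspHol_one hf]
      split_ifs with hd
      · obtain ⟨c, hc⟩ := hd
        rw [hc, Nat.mul_div_cancel_left c hNpos]
        apply hlt
        have hj' : j = (N : ℤ) * c := by
          have : (j.natAbs : ℤ) = j := Int.natAbs_of_nonneg (not_lt.mp hneg)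
          rw [← this, hc]
          push_cast
          ring
        rw [hj'] at hj
        have hN' : (0 : ℤ) < N := by exact_mod_cast hNpos
        have := lt_of_mul_lt_mul_left hj hN'.le
        exact_mod_cast this
      · rfl

theorem order_cuspExp_discriminant :
    (cuspExp N ModularForm.discriminant).order = (N : ℤ) := by
  have h1 : IsCuspHol 1 ModularForm.discriminant := isCuspHol_one_of_class CuspForm.discriminant
  have h := order_cuspExp_of_isCuspHol_one (N := N) h1 (r := 1)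
    (by rw [discriminant_qExpansion_coeff_one]; exact one_ne_zero)
    (by
      intro i hi
      obtain rfl : i = 0 := by omega
      have := discriminant_qExpansion_order
      exact PowerSeries.coeff_of_lt_order 0 (by rw [this]; exact_mod_cast one_pos))
  rw [h]
  simp

theorem order_cuspExp_E₄ : (cuspExp N (⇑ModularForm.E₄)).order = 0 := by
  have h1 : IsCuspHol 1 (⇑ModularForm.E₄) := isCuspHol_one_of_class ModularForm.E₄
  have h := order_cuspExp_of_isCuspHol_one (N := N) h1 (r := 0)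
    (by
      rw [EisensteinSeries.E_qExpansion_coeff_zero _ ⟨2, rfl⟩]
      exact one_ne_zero)
    (by intro i hi; omega)
  rw [h]
  simp

theorem cuspExp_discriminant_ne_zero : cuspExp N ModularForm.discriminant ≠ 0 := by
  intro h
  have := order_cuspExp_discriminant (N := N)
  rw [h, HahnSeries.order_zero] at this
  exact NeZero.ne N (by exact_mod_cast this.symm)

theorem cuspExp_E₄_ne_zero : cuspExp N (⇑ModularForm.E₄) ≠ 0 := by
  intro h
  have h4 : IsCuspHol N (⇑ModularForm.E₄) :=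
    (isCuspHol_one_of_class ModularForm.E₄).of_one
  have h0 : (⇑ModularForm.E₄ : ℍ → ℂ) = 0 := (cuspExp_eq_zero_iff h4).mp h
  exact EisensteinSeries.E_ne_zero (by norm_num) ⟨2, rfl⟩ (DFunLike.coe_injective h0)

/-- **`1/j = Δ/E₄³` has a zero of order exactly `N` in the parameter `q_N`.** -/
theorem valuation_discriminant_div_E₄_cube :
    (Valued.v (cuspExp N ModularForm.discriminant / cuspExp N (⇑ModularForm.E₄) ^ 3) :
      WithZero (Multiplicative ℤ)) = WithZero.exp (-(N : ℤ)) := by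
  have h3 : cuspExp N (⇑ModularForm.E₄) ^ 3 ≠ 0 := pow_ne_zero _ cuspExp_E₄_ne_zero
  rw [valuation_eq_exp_neg_order (div_ne_zero cuspExp_discriminant_ne_zero h3),
    order_div_eq cuspExp_discriminant_ne_zero h3, order_cuspExp_discriminant,
    HahnSeries.order_pow, order_cuspExp_E₄]
  simp

end Fermat.Agent.S24.LaurentCusp
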