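import Fermat.Agent.S24.RepHom
import Fermat.Agent.S24.Taylor
import Fermat.Agent.S24.LevelRaise
import Fermat.Agent.LevelOne.JBasic

/-!
# S24 (PROJECT P), slice [O1b]: the function `j` in the represented field and its local orders

* `valued_ofPS`: the valuation of the Laurent series of a non-zero power series is `exp (-order)`;
* `jC = coeffEmb ℂ jq`, `jrep N : repField N` (represented by the level one pair `(E₄³, Δ)`);
* `Lmap_jrep_sub`: for an expansion functional `T` which is the Taylor expansion at `τ` on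
  holomorphic functions, `Lmap T γ (jrep - C c) = ofPS (taylorAt τ (jFun - c))`;
* `valued_Lmap_jrep_sub`: its valuation is `exp (-n)`, `n = 3 / 2 / 1` (`c = jFun τ`);
* `valued_Lmap_const`: constants `≠ 0` have valuation `1`.
-/

set_option autoImplicit false

noncomputable section

namespace Fermat.Agent.S24.LmapJ

open UpperHalfPlane CongruenceSubgroup ModularForm WithZero
open Fermat.Agent.S20 Fermat.Agent.S23.QRing Fermat.Agent.S24.RepHom Fermat.Agent.S24.Taylor
open Fermat.Agent.S24.LevelRaise Fermat.Agent.LevelOne.JBasic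
open scoped ModularForm Manifold MatrixGroups

/-- The valuation of (the Laurent series of) a non-zero power series is given by its order. -/
theorem valued_ofPS {p : PowerSeries ℂ} (hp : p ≠ 0) :
    Valued.v (ofPS p) = exp (-(p.order.toNat : ℤ)) := by
  set n := p.order.toNat with hn
  have hne : ofPS p ≠ 0 := by
    intro h
    exact hp (ofPS_injective (by rw [h, map_zero]))
  have hv0 : Valued.v (ofPS p) ≠ 0 := (Valuation.ne_zero_iff _).mpr hne
  have hle : Valued.v (ofPS p) ≤ exp (-(n : ℤ)) := by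
    have := (LaurentSeries.intValuation_le_iff_coeff_lt_eq_zero ℂ (d := n) p).mpr
    refine this fun m hm => ?_
    refine PowerSeries.coeff_of_lt_order m ?_
    have : (p.order.toNat : ℕ∞) = p.order := ENat.natCast_toNat (by
      rwa [Ne, PowerSeries.order_eq_top])
    rw [← this]
    exact_mod_cast hm
  have hnle : ¬ Valued.v (ofPS p) ≤ exp (-((n + 1 : ℕ) : ℤ)) := by
    intro h
    have := (LaurentSeries.intValuation_le_iff_coeff_lt_eq_zero ℂ (d := n + 1) p).mp h n
      (Nat.lt_succ_self n)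
    exact PowerSeries.coeff_order hp this
  obtain ⟨k, hk⟩ : ∃ k : ℤ, Valued.v (ofPS p) = exp k := ⟨log _, (exp_log hv0).symm⟩
  rw [hk] at hle hnle ⊢
  rw [exp_le_exp] at hle
  rw [exp_le_exp] at hnle
  congr 1
  push_cast at hnle
  omega

/-- Constants `≠ 0` have valuation `1`. -/
theorem valued_C {c : ℂ} (hc : c ≠ 0) : Valued.v (HahnSeries.C c : LaurentSeries ℂ) = 1 := by
  have h0 : (PowerSeries.C c : PowerSeries ℂ) ≠ 0 := by
    intro h
    apply hc
    have := congrArg PowerSeries.constantCoeff h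
    simpa using this
  have h1 := valued_ofPS h0
  have h2 : (PowerSeries.C c : PowerSeries ℂ).order = 0 := by
    rw [PowerSeries.order_eq_nat.mpr ⟨by simpa using hc, fun i hi => absurd hi (Nat.not_lt_zero i)⟩]
    rfl
  rw [h2] at h1
  simpa [ofPS, HahnSeries.ofPowerSeries_C] using h1

variable {N : ℕ} [NeZero N]

/-- The `q`-expansion of `j` with complex coefficients. -/
def jC : LaurentSeries ℂ := ModularCurve.coeffEmb ℂ ModularCurve.jq

/-- `ofPS (qExp E₄³) = j * ofPS (qExp Δ)`. -/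
theorem ofPS_qx_E4cube :
    ofPS (qx (⇑E4cube)) = jC * ofPS (qx (⇑DeltaMF)) := by
  show HahnSeries.ofPowerSeries ℤ ℂ (qExpansion 1 E4cube) =
    jC * HahnSeries.ofPowerSeries ℤ ℂ (qExpansion 1 DeltaMF)
  rw [qExpansion_E4cube, qExpansion_DeltaMF, jC, ModularCurve.coeffEmb]
  have h := congrArg (ModularCurve.coeffMap (algebraMap ℚ ℂ)) jq_mul_eq
  have e : ∀ p : PowerSeries ℤ, (p.map (Int.castRingHom ℚ)).map (algebraMap ℚ ℂ) =
      p.map (Int.castRingHom ℂ) := by
    intro p
    ext n
    simp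
  rw [map_mul, coeffMap_ofPowerSeries, coeffMap_ofPowerSeries, e, e, map_mul,
    PowerSeries.map_X] at h
  exact h.symm

theorem DeltaMF_ne_zero : (⇑DeltaMF : ℍ → ℂ) ≠ 0 := by
  intro h
  have := congrFun h UpperHalfPlane.I
  rw [DeltaMF_apply] at this
  exact ModularForm.discriminant_ne_zero _ this

/-- The numerator `E₄³ - c Δ` of `j - c`. -/
def num (c : ℂ) : ℍ → ℂ := ⇑E4cube - c • ⇑DeltaMF

theorem isMF_num (c : ℂ) : IsMF 𝒮ℒ 12 (num c) :=
  (IsMF.coe E4cube).sub ((IsMF.coe DeltaMF).smul c)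

theorem num_apply (c : ℂ) (τ : ℍ) : num c τ = E₄ τ ^ 3 - c * discriminant τ := by
  simp only [num, Pi.sub_apply, Pi.smul_apply, smul_eq_mul, E4cube_apply, DeltaMF_apply]

/-- `j - c` is represented by the level one pair `(E₄³ - c Δ, Δ)`. -/
theorem isRepOf_jC_sub (N : ℕ) [NeZero N] (c : ℂ) :
    IsRepOf N (jC - HahnSeries.C c) 12 (num c) (⇑DeltaMF) where
  ha := (isMF_num c).ofLevelOne
  hb := (IsMF.coe DeltaMF).ofLevelOne
  hb0 := DeltaMF_ne_zero
  eq := by
    have hQ1 : IsQ (⇑E4cube) := isQ_of_levelOne E4cube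
    have hQ2 : IsQ (⇑DeltaMF) := isQ_of_levelOne DeltaMF
    rw [num, qx_sub hQ1 (hQ2.smul c), qx_smul c hQ2, map_sub, ofPS_qx_E4cube, sub_mul,
      PowerSeries.smul_eq_C_mul, map_mul]
    congr 1
    rw [ofPS, HahnSeries.ofPowerSeries_C]

theorem isRepOf_jC (N : ℕ) [NeZero N] : IsRepOf N jC 12 (⇑E4cube) (⇑DeltaMF) := by
  have h := isRepOf_jC_sub N 0
  have e1 : jC - HahnSeries.C (0 : ℂ) = jC := by rw [map_zero, sub_zero]
  have e2 : num 0 = ⇑E4cube := by rw [num, zero_smul, sub_zero]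
  rwa [e1, e2] at h

theorem jC_mem (N : ℕ) [NeZero N] : jC ∈ repField N := ⟨_, _, _, isRepOf_jC N⟩

/-- The function `j` as an element of the represented field. -/
def jrep (N : ℕ) [NeZero N] : repField N := ⟨jC, jC_mem N⟩

/-- A constant as an element of the represented field. -/
def crep (N : ℕ) [NeZero N] (c : ℂ) : repField N := ⟨HahnSeries.C c, const_mem_repField c⟩

theorem coe_jrep_sub_crep (c : ℂ) :
    ((jrep N - crep N c : repField N) : LaurentSeries ℂ) = jC - HahnSeries.C c := rfl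

theorem mdiff_jFun_sub (c : ℂ) : MDiff (fun z : ℍ => jFun z - c) :=
  mdifferentiable_jFun.sub mdifferentiable_const

theorem num_eq_mul (c : ℂ) : num c = ⇑DeltaMF * fun z : ℍ => jFun z - c := by
  funext z
  rw [num_apply, Pi.mul_apply, DeltaMF_apply, jFun_def]
  have hΔ : discriminant z ≠ 0 := ModularForm.discriminant_ne_zero z
  field_simp

section Lmap

variable {P : (ℍ → ℂ) → Prop} (T : HolHom P (LaurentSeries ℂ))

/-- Non-zero constants have valuation `1` under every `Lmap`. -/
theorem valued_Lmap_const (γ : SL(2, ℤ)) (hP : SlashP N P γ) {c : ℂ} (hc : c ≠ 0) :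
    Valued.v (Lmap T γ hP (crep N c)) = 1 := by
  rw [crep, Lmap_const hP c (const_mem_repField c)]
  have : algebraMap ℂ (LaurentSeries ℂ) c = HahnSeries.C c := by
    rw [HahnSeries.algebraMap_apply', ← HahnSeries.ofPowerSeries_C]
    rfl
  rw [this]
  exact valued_C hc

variable {τ : ℍ} (hT : ∀ f : ℍ → ℂ, MDiff f → T.T f = ofPS (taylorAt τ f))
include hT

/-- For the Taylor expansion at `τ`, `Lmap T γ (j - c)` is the Taylor series of `jFun - c`
(for every `γ`). -/
theorem Lmap_jrep_sub (γ : SL(2, ℤ)) (hP : SlashP N P γ) (c : ℂ) :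
    Lmap T γ hP (jrep N - crep N c) = ofPS (taylorAt τ fun z : ℍ => jFun z - c) := by
  have hrep : IsRepOf N ((jrep N - crep N c : repField N) : LaurentSeries ℂ) 12 (num c)
      (⇑DeltaMF) := isRepOf_jC_sub N c
  have hΔmd : MDiff (⇑DeltaMF : ℍ → ℂ) := mdiff_of_isMF (IsMF.coe DeltaMF)
  rw [Lmap_levelOne hP _ hrep (isMF_num c) (IsMF.coe DeltaMF),
    hT _ (mdiff_of_isMF (isMF_num c)), hT _ hΔmd, num_eq_mul,
    taylorAt_mul τ hΔmd (mdiff_jFun_sub c), map_mul]
  have hne : ofPS (taylorAt τ (⇑DeltaMF)) ≠ 0 := by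
    intro h
    have h1 : taylorAt τ (⇑DeltaMF) = 0 := ofPS_injective (by rw [h, map_zero])
    exact DeltaMF_ne_zero ((taylorAt_eq_zero_iff τ hΔmd).mp h1)
  rw [mul_comm, mul_div_assoc, div_self hne, mul_one]

/-- **Local order of `j - j(τ)`** in the Taylor expansion at `τ`: `3` if `j(τ) = 0`, `2` if
`j(τ) = 1728`, `1` otherwise; the same for every translate. -/
theorem valued_Lmap_jrep_sub (γ : SL(2, ℤ)) (hP : SlashP N P γ) :
    Valued.v (Lmap T γ hP (jrep N - crep N (jFun τ))) =
      exp (-((if jFun τ = 0 then 3 else if jFun τ = 1728 then 2 else 1 : ℕ) : ℤ)) := by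
  rw [Lmap_jrep_sub T hT γ hP]
  have hmd := mdiff_jFun_sub (jFun τ)
  have hord : (taylorAt τ fun z : ℍ => jFun z - jFun τ).order =
      ((if jFun τ = 0 then 3 else if jFun τ = 1728 then 2 else 1 : ℕ) : ℕ∞) := by
    rw [order_taylorAt τ hmd]
    have := analyticOrderAt_jSub τ
    have e : ((fun z : ℍ => jFun z - jFun τ) ∘ ofComplex) = jSub (jFun τ) := rfl
    rw [e, this]
    split_ifs <;> rfl
  have hne : (taylorAt τ fun z : ℍ => jFun z - jFun τ) ≠ 0 := by
    intro h
    rw [h, PowerSeries.order_zero] at hord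
    exact ENat.top_ne_coe _ hord
  rw [valued_ofPS hne, hord, ENat.toNat_coe]

end Lmap

end Fermat.Agent.S24.LmapJ
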