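import Mathlib
import Fermat.Agent.S20.IsMF
import Fermat.Agent.S23.QRing

/-!
# S24 (PROJECT P): ring homomorphisms on the field of `Γ₀(N)`-modular functions, from representatives

A Laurent series `g ∈ ℂ((q))` is *represented* by a pair `(a, b)` of modular forms of the same
weight for `Γ₀(N)` (`b ≠ 0`) if `qExp a = g * qExp b`.  The represented series form a subfield
`repField N` of `ℂ((q))`.  For every "expansion functional" `T` (a ring homomorphism from
holomorphic functions on `ℍ` to a field `Ω`, e.g. the Taylor expansion at a point, or the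
expansion at a cusp) and every `γ ∈ SL(2, ℤ)` we construct the ring homomorphism
`Lmap T γ : repField N →+* Ω`, `g ↦ T (a ∣ γ) / T (b ∣ γ)`.
-/

set_option autoImplicit false
set_option linter.unusedSectionVars false

noncomputable section

namespace Fermat.Agent.S24.RepHom

open UpperHalfPlane CongruenceSubgroup Fermat.Agent.S20 Fermat.Agent.S23.QRing

open scoped ModularForm Manifold MatrixGroups

/-- Power series as Laurent series. -/
abbrev ofPS : PowerSeries ℂ →+* LaurentSeries ℂ := HahnSeries.ofPowerSeries ℤ ℂ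

theorem ofPS_injective : Function.Injective ofPS := HahnSeries.ofPowerSeries_injective

variable {N : ℕ} [NeZero N]

/-- A form for `Γ₀(N)` has a `q`-expansion in the sense of `QRing`. -/
theorem isQ_of_isMF {k : ℤ} {a : ℍ → ℂ} (h : IsMF (G0 N) k a) : IsQ a := by
  obtain ⟨F, rfl⟩ := h
  exact isQ_of_modularForm F

theorem mdiff_of_isMF {Γ : Subgroup (GL (Fin 2) ℝ)} {k : ℤ} {a : ℍ → ℂ} (h : IsMF Γ k a) :
    MDiff a := by
  obtain ⟨F, rfl⟩ := h
  exact F.holo'

/-- The pair `(a, b)` of forms of weight `k` represents the Laurent series `g`. -/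
structure IsRepOf (N : ℕ) (g : LaurentSeries ℂ) (k : ℤ) (a b : ℍ → ℂ) : Prop where
  ha : IsMF (G0 N) k a
  hb : IsMF (G0 N) k b
  hb0 : b ≠ 0
  eq : ofPS (qx a) = g * ofPS (qx b)

/-- `g` is the `q`-expansion of a quotient of two forms of the same weight for `Γ₀(N)`. -/
def IsRepC (N : ℕ) (g : LaurentSeries ℂ) : Prop := ∃ (k : ℤ) (a b : ℍ → ℂ), IsRepOf N g k a b

namespace IsRepOf

variable {g g' : LaurentSeries ℂ} {k k' : ℤ} {a b a' b' : ℍ → ℂ}

theorem qx_b_ne_zero (h : IsRepOf N g k a b) : ofPS (qx b) ≠ 0 := by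
  intro h0
  have : qx b = 0 := ofPS_injective (by rw [h0, map_zero])
  exact h.hb0 ((qx_eq_zero_iff (isQ_of_isMF h.hb)).mp this)

theorem zero : IsRepOf N 0 0 (0 : ℍ → ℂ) (1 : ℍ → ℂ) where
  ha := IsMF.zero
  hb := IsMF.const 1
  hb0 := one_ne_zero
  eq := by rw [qx_zero, map_zero, zero_mul]

theorem one : IsRepOf N 1 0 (1 : ℍ → ℂ) (1 : ℍ → ℂ) where
  ha := IsMF.const 1
  hb := IsMF.const 1
  hb0 := one_ne_zero
  eq := by rw [one_mul]

theorem const (c : ℂ) : IsRepOf N (HahnSeries.C c) 0 (fun _ => c) (1 : ℍ → ℂ) where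
  ha := IsMF.const c
  hb := IsMF.const 1
  hb0 := one_ne_zero
  eq := by rw [qx_const, qx_one, map_one, mul_one, HahnSeries.ofPowerSeries_C]

theorem mul_ne_zero' (h : IsRepOf N g k a b) (h' : IsRepOf N g' k' a' b') : b * b' ≠ 0 := by
  intro h0
  have h1 : qx (b * b') = 0 := by rw [h0, qx_zero]
  rw [qx_mul (isQ_of_isMF h.hb) (isQ_of_isMF h'.hb)] at h1
  rcases mul_eq_zero.mp h1 with h2 | h2
  · exact h.hb0 ((qx_eq_zero_iff (isQ_of_isMF h.hb)).mp h2)
  · exact h'.hb0 ((qx_eq_zero_iff (isQ_of_isMF h'.hb)).mp h2)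

theorem mul (h : IsRepOf N g k a b) (h' : IsRepOf N g' k' a' b') :
    IsRepOf N (g * g') (k + k') (a * a') (b * b') where
  ha := h.ha.mul h'.ha
  hb := h.hb.mul h'.hb
  hb0 := h.mul_ne_zero' h'
  eq := by
    rw [qx_mul (isQ_of_isMF h.ha) (isQ_of_isMF h'.ha), qx_mul (isQ_of_isMF h.hb) (isQ_of_isMF h'.hb),
      map_mul, map_mul, h.eq, h'.eq]
    ring

theorem add (h : IsRepOf N g k a b) (h' : IsRepOf N g' k' a' b') :
    IsRepOf N (g + g') (k + k') (a * b' + a' * b) (b * b') where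
  ha := (h.ha.mul h'.hb).add ((h'.ha.mul h.hb).cast (add_comm k' k))
  hb := h.hb.mul h'.hb
  hb0 := h.mul_ne_zero' h'
  eq := by
    have hab' := (isQ_of_isMF h.ha).mul (isQ_of_isMF h'.hb)
    have ha'b := (isQ_of_isMF h'.ha).mul (isQ_of_isMF h.hb)
    rw [qx_add hab' ha'b, qx_mul (isQ_of_isMF h.ha) (isQ_of_isMF h'.hb),
      qx_mul (isQ_of_isMF h'.ha) (isQ_of_isMF h.hb), qx_mul (isQ_of_isMF h.hb) (isQ_of_isMF h'.hb),
      map_add, map_mul, map_mul, map_mul, h.eq, h'.eq]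
    ring

theorem neg (h : IsRepOf N g k a b) : IsRepOf N (-g) k (-a) b where
  ha := h.ha.neg
  hb := h.hb
  hb0 := h.hb0
  eq := by
    rw [qx_neg (isQ_of_isMF h.ha), map_neg, h.eq]
    exact (neg_mul g (ofPS (qx b))).symm

theorem inv (h : IsRepOf N g k a b) (hg : g ≠ 0) : IsRepOf N g⁻¹ k b a where
  ha := h.hb
  hb := h.ha
  hb0 := by
    intro h0
    have h1 := h.eq
    rw [h0, qx_zero, map_zero] at h1
    rcases mul_eq_zero.mp h1.symm with h2 | h2
    · exact hg h2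
    · exact h.qx_b_ne_zero h2
  eq := by rw [h.eq, ← mul_assoc, inv_mul_cancel₀ hg, one_mul]

/-- Two representatives of the same series are proportional. -/
theorem cross (h : IsRepOf N g k a b) (h' : IsRepOf N g k' a' b') : a * b' = a' * b := by
  have hab' := (isQ_of_isMF h.ha).mul (isQ_of_isMF h'.hb)
  have ha'b := (isQ_of_isMF h'.ha).mul (isQ_of_isMF h.hb)
  refine qx_injective hab' ha'b (ofPS_injective ?_)
  rw [qx_mul (isQ_of_isMF h.ha) (isQ_of_isMF h'.hb), qx_mul (isQ_of_isMF h'.ha) (isQ_of_isMF h.hb),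
    map_mul, map_mul, h.eq, h'.eq]
  ring

end IsRepOf

/-- The field of `q`-expansions of modular functions for `Γ₀(N)` (quotients of forms of equal
weight), as a subfield of `ℂ((q))`. -/
def repField (N : ℕ) [NeZero N] : Subfield (LaurentSeries ℂ) where
  carrier := {g | IsRepC N g}
  mul_mem' := by
    rintro g g' ⟨k, a, b, h⟩ ⟨k', a', b', h'⟩
    exact ⟨_, _, _, h.mul h'⟩
  one_mem' := ⟨_, _, _, IsRepOf.one⟩
  add_mem' := by
    rintro g g' ⟨k, a, b, h⟩ ⟨k', a', b', h'⟩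
    exact ⟨_, _, _, h.add h'⟩
  zero_mem' := ⟨_, _, _, IsRepOf.zero⟩
  neg_mem' := by
    rintro g ⟨k, a, b, h⟩
    exact ⟨_, _, _, h.neg⟩
  inv_mem' := by
    rintro g ⟨k, a, b, h⟩
    by_cases hg : g = 0
    · subst hg
      rw [inv_zero]
      exact ⟨_, _, _, IsRepOf.zero⟩
    · exact ⟨_, _, _, h.inv hg⟩

theorem mem_repField {g : LaurentSeries ℂ} : g ∈ repField N ↔ IsRepC N g := Iff.rfl

/-! ### Expansion functionals -/

/-- An "expansion functional" on the class `P` of functions on `ℍ` (e.g. all holomorphic functions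
for the Taylor expansion at a point; `N`-periodic holomorphic functions bounded at `i∞` for the
expansion at the cusp): a map to a field which is additive and multiplicative on `P`, injective
on `P`, and compatible with constants. -/
structure HolHom (P : (ℍ → ℂ) → Prop) (Ω : Type*) [Field Ω] [Algebra ℂ Ω] where
  T : (ℍ → ℂ) → Ω
  P_mul : ∀ f g : ℍ → ℂ, P f → P g → P (f * g)
  map_add : ∀ f g : ℍ → ℂ, P f → P g → T (f + g) = T f + T g
  map_mul : ∀ f g : ℍ → ℂ, P f → P g → T (f * g) = T f * T g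
  map_const : ∀ c : ℂ, T (fun _ => c) = algebraMap ℂ Ω c
  inj : ∀ f : ℍ → ℂ, P f → T f = 0 → f = 0

namespace HolHom

variable {P : (ℍ → ℂ) → Prop} {Ω : Type*} [Field Ω] [Algebra ℂ Ω] (T : HolHom P Ω)

theorem map_zero : T.T 0 = 0 := by
  have := T.map_const 0
  rwa [_root_.map_zero] at this

theorem map_one : T.T 1 = 1 := by
  have := T.map_const 1
  rwa [_root_.map_one] at this

theorem ne_zero {f : ℍ → ℂ} (hf : P f) (h0 : f ≠ 0) : T.T f ≠ 0 := fun h => h0 (T.inj f hf h)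

end HolHom

/-- The class `P` contains all translates by `γ` of forms for `Γ₀(N)`. -/
def SlashP (N : ℕ) (P : (ℍ → ℂ) → Prop) (γ : SL(2, ℤ)) : Prop :=
  ∀ (k : ℤ) (a : ℍ → ℂ), IsMF (G0 N) k a → P (a ∣[k] γ)

theorem mdiff_slash (γ : SL(2, ℤ)) {k : ℤ} {a : ℍ → ℂ} (h : MDiff a) : MDiff (a ∣[k] γ) := by
  rw [ModularForm.SL_slash]
  exact h.slash k _

/-- Holomorphy is preserved by all translates. -/
theorem slashP_mdiff (N : ℕ) (γ : SL(2, ℤ)) : SlashP N (fun f => MDiff f) γ :=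
  fun _ _ h => mdiff_slash γ (mdiff_of_isMF h)

/-! ### The homomorphisms `Lmap` -/

section Lmap

variable {P : (ℍ → ℂ) → Prop} {Ω : Type*} [Field Ω] [Algebra ℂ Ω] (T : HolHom P Ω)
  (γ : SL(2, ℤ))

theorem slash_ne_zero {k : ℤ} {b : ℍ → ℂ} (hb : b ≠ 0) : b ∣[k] γ ≠ 0 := by
  intro h0
  apply hb
  have : (b ∣[k] γ) ∣[k] γ⁻¹ = b := by
    rw [← SlashAction.slash_mul, mul_inv_cancel, SlashAction.slash_one]
  rw [← this, h0, SlashAction.zero_slash]

/-- The value of the would-be homomorphism on a representative. -/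
def Lval (k : ℤ) (a b : ℍ → ℂ) : Ω := T.T (a ∣[k] γ) / T.T (b ∣[k] γ)

variable {T γ}

theorem den_ne_zero (hP : SlashP N P γ) {g : LaurentSeries ℂ} {k : ℤ} {a b : ℍ → ℂ}
    (h : IsRepOf N g k a b) : T.T (b ∣[k] γ) ≠ 0 :=
  T.ne_zero (hP k b h.hb) (slash_ne_zero γ h.hb0)

/-- `Lval` does not depend on the representative. -/
theorem Lval_eq (hP : SlashP N P γ) {g : LaurentSeries ℂ} {k k' : ℤ} {a b a' b' : ℍ → ℂ}
    (h : IsRepOf N g k a b) (h' : IsRepOf N g k' a' b') :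
    Lval T γ k a b = Lval T γ k' a' b' := by
  unfold Lval
  rw [div_eq_div_iff (den_ne_zero hP h) (den_ne_zero hP h')]
  have hc := h.cross h'
  have h1 : (a * b') ∣[k + k'] γ = (a ∣[k] γ) * (b' ∣[k'] γ) := ModularForm.mul_slash_SL2 k k' γ a b'
  have h2 : (a' * b) ∣[k' + k] γ = (a' ∣[k'] γ) * (b ∣[k] γ) := ModularForm.mul_slash_SL2 k' k γ a' b
  rw [add_comm k' k, ← hc, h1] at h2
  have h3 := congrArg T.T h2
  rw [T.map_mul _ _ (hP k a h.ha) (hP k' b' h'.hb),
    T.map_mul _ _ (hP k' a' h'.ha) (hP k b h.hb)] at h3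
  exact h3

variable (T γ)

/-- The underlying function of `Lmap`. -/
def Lfun (g : repField N) : Ω :=
  Lval T γ (Classical.choose g.2) (Classical.choose (Classical.choose_spec g.2))
    (Classical.choose (Classical.choose_spec (Classical.choose_spec g.2)))

variable {T γ}

theorem Lfun_eq (hP : SlashP N P γ) (g : repField N) {k : ℤ} {a b : ℍ → ℂ}
    (h : IsRepOf N (g : LaurentSeries ℂ) k a b) :
    Lfun T γ g = Lval T γ k a b :=
  Lval_eq hP (Classical.choose_spec (Classical.choose_spec (Classical.choose_spec g.2))) h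

variable (T γ)

/-- **The homomorphism attached to an expansion functional and a coset representative.** -/
def Lmap (hP : SlashP N P γ) : repField N →+* Ω where
  toFun := Lfun T γ
  map_one' := by
    rw [Lfun_eq hP (1 : repField N) (IsRepOf.one (N := N))]
    unfold Lval
    exact div_self (den_ne_zero hP (IsRepOf.one (N := N)))
  map_mul' := by
    rintro ⟨g, k, a, b, h⟩ ⟨g', k', a', b', h'⟩
    have e1 : Lfun T γ ⟨g, k, a, b, h⟩ = Lval T γ k a b := Lfun_eq hP _ h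
    have e2 : Lfun T γ ⟨g', k', a', b', h'⟩ = Lval T γ k' a' b' := Lfun_eq hP _ h'
    have e3 : Lfun T γ ((⟨g, k, a, b, h⟩ : repField N) * (⟨g', k', a', b', h'⟩ : repField N))
        = Lval T γ (k + k') (a * a') (b * b') := Lfun_eq hP _ (h.mul h')
    rw [e1, e2, e3]
    unfold Lval
    rw [ModularForm.mul_slash_SL2, ModularForm.mul_slash_SL2,
      T.map_mul _ _ (hP k a h.ha) (hP k' a' h'.ha),
      T.map_mul _ _ (hP k b h.hb) (hP k' b' h'.hb),
      mul_div_mul_comm]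
  map_zero' := by
    rw [Lfun_eq hP (0 : repField N) (IsRepOf.zero (N := N))]
    unfold Lval
    rw [SlashAction.zero_slash, T.map_zero, zero_div]
  map_add' := by
    rintro ⟨g, k, a, b, h⟩ ⟨g', k', a', b', h'⟩
    have e1 : Lfun T γ ⟨g, k, a, b, h⟩ = Lval T γ k a b := Lfun_eq hP _ h
    have e2 : Lfun T γ ⟨g', k', a', b', h'⟩ = Lval T γ k' a' b' := Lfun_eq hP _ h'
    have e3 : Lfun T γ ((⟨g, k, a, b, h⟩ : repField N) + (⟨g', k', a', b', h'⟩ : repField N))
        = Lval T γ (k + k') (a * b' + a' * b) (b * b') := Lfun_eq hP _ (h.add h')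
    rw [e1, e2, e3]
    unfold Lval
    have hb := den_ne_zero (T := T) hP h
    have hb' := den_ne_zero (T := T) hP h'
    have h2 : (a' * b) ∣[k + k'] γ = (a' ∣[k'] γ) * (b ∣[k] γ) := by
      rw [add_comm k k']
      exact ModularForm.mul_slash_SL2 k' k γ a' b
    rw [SlashAction.add_slash, ModularForm.mul_slash_SL2, h2, ModularForm.mul_slash_SL2,
      T.map_add _ _
        (T.P_mul _ _ (hP k a h.ha) (hP k' b' h'.hb))
        (T.P_mul _ _ (hP k' a' h'.ha) (hP k b h.hb)),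
      T.map_mul _ _ (hP k a h.ha) (hP k' b' h'.hb),
      T.map_mul _ _ (hP k' a' h'.ha) (hP k b h.hb),
      T.map_mul _ _ (hP k b h.hb) (hP k' b' h'.hb)]
    field_simp

variable {T γ}

/-- **Characterisation of `Lmap`.** -/
theorem Lmap_spec (hP : SlashP N P γ) (g : repField N) {k : ℤ} {a b : ℍ → ℂ}
    (h : IsRepOf N (g : LaurentSeries ℂ) k a b) :
    Lmap T γ hP g * T.T (b ∣[k] γ) = T.T (a ∣[k] γ) := by
  show Lfun T γ g * _ = _
  rw [Lfun_eq hP g h]
  unfold Lval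
  exact div_mul_cancel₀ _ (den_ne_zero hP h)

theorem Lmap_eq_div (hP : SlashP N P γ) (g : repField N) {k : ℤ} {a b : ℍ → ℂ}
    (h : IsRepOf N (g : LaurentSeries ℂ) k a b) :
    Lmap T γ hP g = T.T (a ∣[k] γ) / T.T (b ∣[k] γ) :=
  Lfun_eq hP g h

theorem const_mem_repField (c : ℂ) : HahnSeries.C c ∈ repField N :=
  ⟨_, _, _, IsRepOf.const c⟩

/-- On constants, `Lmap` is the structure map. -/
theorem Lmap_const (hP : SlashP N P γ) (c : ℂ) (hc : HahnSeries.C c ∈ repField N) :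
    Lmap T γ hP ⟨HahnSeries.C c, hc⟩ = algebraMap ℂ Ω c := by
  rw [Lmap_eq_div (T := T) hP ⟨HahnSeries.C c, hc⟩ (IsRepOf.const (N := N) c)]
  have h1 : (fun _ : ℍ => c) ∣[(0 : ℤ)] γ = fun _ => c := ModularForm.is_invariant_const γ c
  have h2 : (1 : ℍ → ℂ) ∣[(0 : ℤ)] γ = 1 := ModularForm.is_invariant_const γ 1
  rw [h1, h2, T.map_const, T.map_one, div_one]

/-- A level one form is invariant under the slash action of `SL(2, ℤ)`. -/
theorem slash_eq_of_isMF_levelOne {k : ℤ} {a : ℍ → ℂ} (ha : IsMF 𝒮ℒ k a) (γ : SL(2, ℤ)) :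
    a ∣[k] γ = a := by
  obtain ⟨F, rfl⟩ := ha
  rw [ModularForm.SL_slash]
  exact SlashInvariantFormClass.slash_action_eq F _ ⟨γ, rfl⟩

/-- On quotients of level one forms, `Lmap T γ` does not depend on `γ`. -/
theorem Lmap_levelOne (hP : SlashP N P γ) (g : repField N) {k : ℤ} {a b : ℍ → ℂ}
    (h : IsRepOf N (g : LaurentSeries ℂ) k a b) (ha : IsMF 𝒮ℒ k a) (hb : IsMF 𝒮ℒ k b) :
    Lmap T γ hP g = T.T a / T.T b := by
  rw [Lmap_eq_div hP g h, slash_eq_of_isMF_levelOne ha, slash_eq_of_isMF_levelOne hb]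

/-- Translates by `δ * γ`, `δ ∈ Γ₀(N)`, are translates by `γ`. -/
theorem slash_mul_left_of_mem {δ : SL(2, ℤ)} (hδ : δ ∈ Gamma0 N) {k : ℤ} {c : ℍ → ℂ}
    (hc : IsMF (G0 N) k c) : c ∣[k] (δ * γ) = c ∣[k] γ := by
  obtain ⟨F, rfl⟩ := hc
  rw [SlashAction.slash_mul]
  congr 1
  rw [ModularForm.SL_slash]
  exact SlashInvariantFormClass.slash_action_eq F _ ⟨δ, hδ, rfl⟩

theorem slashP_mul_left {δ : SL(2, ℤ)} (hδ : δ ∈ Gamma0 N) (hP : SlashP N P γ) :
    SlashP N P (δ * γ) := fun k a h => by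
  rw [slash_mul_left_of_mem hδ h]
  exact hP k a h

/-- `Lmap T γ` only depends on the coset `Γ₀(N) γ`. -/
theorem Lmap_mul_left {δ : SL(2, ℤ)} (hδ : δ ∈ Gamma0 N) (hP : SlashP N P γ) :
    Lmap (N := N) T (δ * γ) (slashP_mul_left hδ hP) = Lmap T γ hP := by
  ext ⟨g, k, a, b, h⟩
  rw [Lmap_eq_div _ _ h, Lmap_eq_div _ _ h, slash_mul_left_of_mem hδ h.ha,
    slash_mul_left_of_mem hδ h.hb]

end Lmap

end Fermat.Agent.S24.RepHom
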