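/-
S24 slice [O1c] (helper7): the representative of `j_N = j(q^N)` in `repField N`, and separation of
the homomorphisms `Lmap T γ` by `j_N`:  `Lmap T γ j_N = Lmap T γ' j_N → γ' γ⁻¹ ∈ Γ₀(N)`.
-/
import Mathlib
import Fermat.Agent.S24.RepHom
import Fermat.Agent.S24.LevelRaise
import Fermat.Agent.S24.LevelOnePoly

set_option autoImplicit false

noncomputable section

open UpperHalfPlane hiding I
open ModularForm CongruenceSubgroup Matrix.SpecialLinearGroup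
open scoped MatrixGroups ModularForm Manifold

namespace Fermat.Agent.S24.LmapSep

open Fermat.Agent.S20 Fermat.Agent.S23.QRing Fermat.Agent.S24.RepHom
open Fermat.Agent.LevelOne.JBasic Fermat.Agent.S24.LevelOnePoly

local notation "Δ" => ModularForm.discriminant

/-- The formal series `j(q^d)` with complex coefficients. -/
def jdSeries (d : ℕ) [NeZero d] : LaurentSeries ℂ :=
  ModularCurve.coeffEmb ℂ (ModularCurve.qExpand ℚ d ModularCurve.jq)

/-- Numerator `τ ↦ E₄(dτ)³` of `j(dτ)`. -/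
def numFun (d : ℕ) (τ : ℍ) : ℂ := E₄ (heckeDiagMatrix d • τ) ^ 3

/-- Denominator `τ ↦ Δ(dτ)` of `j(dτ)`. -/
def denFun (d : ℕ) (τ : ℍ) : ℂ := Δ (heckeDiagMatrix d • τ)

theorem denFun_ne_zero (d : ℕ) (τ : ℍ) : denFun d τ ≠ 0 := discriminant_ne_zero _

theorem numFun_eq (d : ℕ) (τ : ℍ) :
    numFun d τ = jFun (heckeDiagMatrix d • τ) * denFun d τ := by
  rw [numFun, denFun, jFun_mul_discriminant]

variable {N : ℕ} [NeZero N]

/-- `j(q^d)`, `d ∣ N`, is represented by the pair `(E₄(dτ)³, Δ(dτ))` of weight `12` forms on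
`Γ₀(N)`. -/
theorem isRepOf_jd {d : ℕ} [NeZero d] (hd : d ∣ N) :
    IsRepOf N (jdSeries d) 12 (numFun d) (denFun d) := by
  obtain ⟨A, B, hB, hA, hB', hq⟩ := Fermat.Agent.S24.LevelRaise.exists_rep_jd N d hd
  have eA : (⇑A : ℍ → ℂ) = numFun d := funext hA
  have eB : (⇑B : ℍ → ℂ) = denFun d := funext hB'
  refine ⟨⟨A, eA⟩, ⟨B, eB⟩, ?_, ?_⟩
  · intro h0
    exact denFun_ne_zero d UpperHalfPlane.I (congrFun h0 _)
  · rw [← eA, ← eB]
    exact hq

theorem jdSeries_mem {d : ℕ} [NeZero d] (hd : d ∣ N) : jdSeries d ∈ repField N :=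
  ⟨_, _, _, isRepOf_jd hd⟩

/-- `j(q^d)` as an element of `repField N`. -/
def jdRep (N : ℕ) [NeZero N] (d : ℕ) [NeZero d] (hd : d ∣ N) : repField N :=
  ⟨jdSeries d, jdSeries_mem hd⟩

/-- `j_N = j(q^N)` as an element of `repField N`. -/
def jNrep (N : ℕ) [NeZero N] : repField N := jdRep N N dvd_rfl

@[simp] theorem coe_jdRep {d : ℕ} [NeZero d] (hd : d ∣ N) :
    ((jdRep N d hd : repField N) : LaurentSeries ℂ) = jdSeries d := rfl

@[simp] theorem coe_jNrep : ((jNrep N : repField N) : LaurentSeries ℂ) = jdSeries N := rfl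

section Sep

variable {P : (ℍ → ℂ) → Prop} {Ω : Type*} [Field Ω] [Algebra ℂ Ω]

/-- An expansion functional on a class closed under subtraction is injective on it. -/
theorem HolHom.eq_of_map_eq (T : HolHom P Ω) (hsub : ∀ f g : ℍ → ℂ, P f → P g → P (f - g))
    {f g : ℍ → ℂ} (hf : P f) (hg : P g) (h : T.T f = T.T g) : f = g := by
  have h1 : T.T ((f - g) + g) = T.T (f - g) + T.T g := T.map_add _ _ (hsub f g hf hg) hg
  rw [sub_add_cancel, h] at h1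
  have h2 : T.T (f - g) = 0 := by
    have := h1
    rwa [right_eq_add] at this
  exact sub_eq_zero.1 (T.inj _ (hsub f g hf hg) h2)

/-- Value of `Lmap` on `j(q^d)`. -/
theorem Lmap_jdRep_mul (T : HolHom P Ω) {γ : SL(2, ℤ)} (hP : SlashP N P γ) {d : ℕ} [NeZero d]
    (hd : d ∣ N) :
    Lmap T γ hP (jdRep N d hd) * T.T (denFun d ∣[(12 : ℤ)] γ) = T.T (numFun d ∣[(12 : ℤ)] γ) :=
  Lmap_spec hP (jdRep N d hd) (isRepOf_jd hd)

theorem Lmap_jdRep_eq_div (T : HolHom P Ω) {γ : SL(2, ℤ)} (hP : SlashP N P γ) {d : ℕ} [NeZero d]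
    (hd : d ∣ N) :
    Lmap T γ hP (jdRep N d hd) = T.T (numFun d ∣[(12 : ℤ)] γ) / T.T (denFun d ∣[(12 : ℤ)] γ) :=
  Lmap_eq_div hP (jdRep N d hd) (isRepOf_jd hd)

/-- Pointwise value of the translates of numerator and denominator. -/
theorem numFun_slash_apply (d : ℕ) (γ : SL(2, ℤ)) (z : ℍ) :
    (numFun d ∣[(12 : ℤ)] γ) z =
      jFun (heckeDiagMatrix d • (γ • z)) * (denFun d ∣[(12 : ℤ)] γ) z := by
  rw [ModularForm.SL_slash_apply, ModularForm.SL_slash_apply, numFun_eq]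
  ring

theorem denFun_slash_ne_zero (d : ℕ) (γ : SL(2, ℤ)) (z : ℍ) :
    (denFun d ∣[(12 : ℤ)] γ) z ≠ 0 := by
  rw [ModularForm.SL_slash_apply]
  exact mul_ne_zero (denFun_ne_zero d _) (zpow_ne_zero _ (denom_ne_zero _ _))

/-- **Separation**: two homomorphisms `Lmap T γ`, `Lmap T γ'` agreeing on `j(q^d)` come from
translates of `j(dτ)` which agree as functions. -/
theorem jFun_comp_eq_of_Lmap_eq (T : HolHom P Ω)
    (hsub : ∀ f g : ℍ → ℂ, P f → P g → P (f - g)) {γ γ' : SL(2, ℤ)}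
    (hP : SlashP N P γ) (hP' : SlashP N P γ') {d : ℕ} [NeZero d] (hd : d ∣ N)
    (h : Lmap T γ hP (jdRep N d hd) = Lmap T γ' hP' (jdRep N d hd)) (z : ℍ) :
    jFun (heckeDiagMatrix d • (γ • z)) = jFun (heckeDiagMatrix d • (γ' • z)) := by
  have hr := isRepOf_jd (N := N) hd
  have hA : P (numFun d ∣[(12 : ℤ)] γ) := hP 12 _ hr.ha
  have hB : P (denFun d ∣[(12 : ℤ)] γ) := hP 12 _ hr.hb
  have hA' : P (numFun d ∣[(12 : ℤ)] γ') := hP' 12 _ hr.ha
  have hB' : P (denFun d ∣[(12 : ℤ)] γ') := hP' 12 _ hr.hb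
  have hB0 : T.T (denFun d ∣[(12 : ℤ)] γ) ≠ 0 := den_ne_zero hP hr
  have hB0' : T.T (denFun d ∣[(12 : ℤ)] γ') ≠ 0 := den_ne_zero hP' hr
  rw [Lmap_jdRep_eq_div, Lmap_jdRep_eq_div, div_eq_div_iff hB0 hB0'] at h
  rw [← T.map_mul _ _ hA hB', ← T.map_mul _ _ hA' hB] at h
  have h2 := HolHom.eq_of_map_eq T hsub (T.P_mul _ _ hA hB') (T.P_mul _ _ hA' hB) h
  have h3 := congrFun h2 z
  simp only [Pi.mul_apply] at h3
  rw [numFun_slash_apply, numFun_slash_apply] at h3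
  have h4 : (jFun (heckeDiagMatrix d • (γ • z)) - jFun (heckeDiagMatrix d • (γ' • z))) *
      ((denFun d ∣[(12 : ℤ)] γ) z * (denFun d ∣[(12 : ℤ)] γ') z) = 0 := by
    linear_combination h3
  rcases mul_eq_zero.1 h4 with h5 | h5
  · exact sub_eq_zero.1 h5
  · exact absurd h5 (mul_ne_zero (denFun_slash_ne_zero d γ z) (denFun_slash_ne_zero d γ' z))

/-- **Separation by `j_N`**: `Lmap T γ j_N = Lmap T γ' j_N → γ' γ⁻¹ ∈ Γ₀(N)`. -/
theorem mem_Gamma0_of_Lmap_eq (T : HolHom P Ω)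
    (hsub : ∀ f g : ℍ → ℂ, P f → P g → P (f - g)) {γ γ' : SL(2, ℤ)}
    (hP : SlashP N P γ) (hP' : SlashP N P γ')
    (h : Lmap T γ hP (jNrep N) = Lmap T γ' hP' (jNrep N)) : γ' * γ⁻¹ ∈ Gamma0 N := by
  apply mem_Gamma0_of_jFun_eq
  intro τ
  have := jFun_comp_eq_of_Lmap_eq T hsub hP hP' dvd_rfl h (γ⁻¹ • τ)
  rw [smul_inv_smul] at this
  rw [mul_smul, ← this]

/-- Conversely, `Lmap T γ` only depends on the coset `Γ₀(N) γ` (restatement of
`RepHom.Lmap_mul_left` on `j_N`). -/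
theorem Lmap_jNrep_eq_of_mem (T : HolHom P Ω) {γ δ : SL(2, ℤ)} (hδ : δ ∈ Gamma0 N)
    (hP : SlashP N P γ) :
    Lmap T (δ * γ) (slashP_mul_left hδ hP) (jNrep N) = Lmap T γ hP (jNrep N) := by
  rw [Lmap_mul_left hδ hP]

/-- The `MDiff` class is closed under subtraction. -/
theorem mdiff_sub_closed : ∀ f g : ℍ → ℂ, MDiff f → MDiff g → MDiff (f - g) :=
  fun _ _ hf hg => hf.sub hg

/-- **Separation, holomorphic class** (e.g. `T = ` Taylor expansion at a point). -/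
theorem mem_Gamma0_of_Lmap_eq_mdiff (T : HolHom (fun f : ℍ → ℂ => MDiff f) Ω) (γ γ' : SL(2, ℤ))
    (h : Lmap (N := N) T γ (slashP_mdiff N γ) (jNrep N) =
      Lmap T γ' (slashP_mdiff N γ') (jNrep N)) : γ' * γ⁻¹ ∈ Gamma0 N :=
  mem_Gamma0_of_Lmap_eq T mdiff_sub_closed _ _ h

/-- **Injectivity of `q ↦ Lmap T (out q)⁻¹`** on `Q = SL(2,ℤ) ⧸ Γ₀(N)`. -/
theorem quot_eq_of_Lmap_out_inv_eq (T : HolHom P Ω)
    (hsub : ∀ f g : ℍ → ℂ, P f → P g → P (f - g)) (q q' : SL(2, ℤ) ⧸ Gamma0 N)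
    (hP : SlashP N P (Quotient.out q)⁻¹) (hP' : SlashP N P (Quotient.out q')⁻¹)
    (h : Lmap T (Quotient.out q)⁻¹ hP (jNrep N) = Lmap T (Quotient.out q')⁻¹ hP' (jNrep N)) :
    q = q' := by
  have key := mem_Gamma0_of_Lmap_eq T hsub hP hP' h
  rw [inv_inv] at key
  have h2 : ((Quotient.out q' : SL(2, ℤ)) : SL(2, ℤ) ⧸ Gamma0 N) = (Quotient.out q : SL(2, ℤ)) :=
    QuotientGroup.eq.2 key
  rw [QuotientGroup.out_eq', QuotientGroup.out_eq'] at h2
  exact h2.symm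

theorem quot_eq_of_Lmap_out_inv_eq_mdiff (T : HolHom (fun f : ℍ → ℂ => MDiff f) Ω)
    (q q' : SL(2, ℤ) ⧸ Gamma0 N)
    (h : Lmap (N := N) T (Quotient.out q)⁻¹ (slashP_mdiff N _) (jNrep N) =
      Lmap T (Quotient.out q')⁻¹ (slashP_mdiff N _) (jNrep N)) : q = q' :=
  quot_eq_of_Lmap_out_inv_eq T mdiff_sub_closed q q' _ _ h

end Sep

end Fermat.Agent.S24.LmapSep
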