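import Mathlib
import Fermat.Agent.S24.RepHom
import Fermat.Agent.S24.Taylor

/-!
# S24 (PROJECT P), common vocabulary for the orbit instantiations `[O]`

* `ι : AlgebraicClosure ℚ →+* ℂ`, the fixed embedding;
* `v_ofPS`: the `X`-adic valuation of a power series inside `LaurentSeries ℂ`;
* `tay τ : RepHom.HolHom (LaurentSeries ℂ)`, the Taylor expansion functional at `τ`;
* the abstract coset glue: from a family `Λ : G → α` with `Λ (δ * γ) = Λ γ` for `δ ∈ H` one gets a
  family `Lq : G ⧸ H → α`, `Lq q = Λ (out q)⁻¹`, with `Lq (d • q) = Λ ((out q)⁻¹ * d⁻¹)`.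
-/

set_option autoImplicit false

noncomputable section

namespace Fermat.Agent.S24.OrbitDefs

open UpperHalfPlane WithZero Fermat.Agent.S24.RepHom Fermat.Agent.S24.Taylor

open scoped ModularForm Manifold MatrixGroups

/-- `ℚ̄/ℚ` is algebraic (for the `DivisionRing.toRatAlgebra` instance). -/
theorem isAlgebraic_Qbar : Algebra.IsAlgebraic ℚ (AlgebraicClosure ℚ) :=
  AlgebraicClosure.isAlgebraic ℚ

/-- The fixed embedding `ℚ̄ → ℂ`. -/
def ι : AlgebraicClosure ℚ →+* ℂ :=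
  haveI := isAlgebraic_Qbar
  ((IsAlgClosed.lift (R := ℚ) (S := AlgebraicClosure ℚ) (M := ℂ) : AlgebraicClosure ℚ →ₐ[ℚ] ℂ) :
    AlgebraicClosure ℚ →+* ℂ)

theorem ι_injective : Function.Injective ι := ι.injective

/-! ### Coset glue -/

section Glue

variable {G : Type*} [Group G] (H : Subgroup G) {α : Type*} (Λ : G → α)

/-- The family indexed by left cosets `g H`, `Lq (g H) = Λ g⁻¹`. -/
def Lq (q : G ⧸ H) : α := Λ (Quotient.out q)⁻¹

variable {H Λ}

theorem Lq_mk (hΛ : ∀ δ ∈ H, ∀ γ, Λ (δ * γ) = Λ γ) (g : G) :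
    Lq H Λ (g : G ⧸ H) = Λ g⁻¹ := by
  unfold Lq
  obtain ⟨h, hh⟩ := QuotientGroup.mk_out_eq_mul H g
  rw [hh, mul_inv_rev]
  exact hΛ _ (H.inv_mem h.2) _

theorem Lq_smul (hΛ : ∀ δ ∈ H, ∀ γ, Λ (δ * γ) = Λ γ) (d : G) (q : G ⧸ H) :
    Lq H Λ (d • q) = Λ ((Quotient.out q)⁻¹ * d⁻¹) := by
  conv_lhs => rw [← QuotientGroup.out_eq' q]
  rw [show d • ((Quotient.out q : G) : G ⧸ H) = ((d * Quotient.out q : G) : G ⧸ H) from rfl,
    Lq_mk hΛ, mul_inv_rev]

theorem Lq_injective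
    (hsep : ∀ γ γ', Λ γ = Λ γ' → γ' * γ⁻¹ ∈ H) : Function.Injective (Lq H Λ) := by
  intro q q' h
  unfold Lq at h
  have h1 := hsep _ _ h
  rw [inv_inv] at h1
  rw [← QuotientGroup.out_eq' q, ← QuotientGroup.out_eq' q']
  exact (QuotientGroup.eq.mpr h1).symm

theorem smul_eq_iff (d : G) (q : G ⧸ H) :
    d • q = q ↔ (Quotient.out q)⁻¹ * d * Quotient.out q ∈ H := by
  conv_lhs => rw [← QuotientGroup.out_eq' q]
  rw [show d • ((Quotient.out q : G) : G ⧸ H) = ((d * Quotient.out q : G) : G ⧸ H) from rfl,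
    eq_comm, QuotientGroup.eq, mul_assoc]

end Glue

/-! ### The `X`-adic valuation of a power series -/

/-- The `X`-adic valuation on `ℂ((X))`. -/
abbrev v : Valuation (LaurentSeries ℂ) ℤᵐ⁰ := Valued.v

theorem v_ofPS_le_one (p : PowerSeries ℂ) : v (ofPS p) ≤ 1 := by
  rw [LaurentSeries.val_le_one_iff_eq_coe]
  exact ⟨p, rfl⟩

theorem v_ofPS_X : v (ofPS (PowerSeries.X : PowerSeries ℂ)) = exp (-1 : ℤ) := by
  have := LaurentSeries.valuation_X_pow ℂ 1
  simpa using this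

/-- A power series with nonzero constant coefficient has valuation `1`. -/
theorem v_ofPS_of_constantCoeff_ne_zero {p : PowerSeries ℂ}
    (hp : PowerSeries.constantCoeff p ≠ 0) : v (ofPS p) = 1 := by
  apply le_antisymm (v_ofPS_le_one p)
  have hu : IsUnit p := PowerSeries.isUnit_iff_constantCoeff.mpr (isUnit_iff_ne_zero.mpr hp)
  obtain ⟨u, rfl⟩ := hu
  have h1 : v (ofPS (u : PowerSeries ℂ)) * v (ofPS ((u⁻¹ : (PowerSeries ℂ)ˣ) : PowerSeries ℂ)) = 1 := by
    rw [← map_mul, ← map_mul, Units.mul_inv, map_one, map_one]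
  have h2 := v_ofPS_le_one ((u⁻¹ : (PowerSeries ℂ)ˣ) : PowerSeries ℂ)
  calc (1 : ℤᵐ⁰) = v (ofPS (u : PowerSeries ℂ)) * v (ofPS ((u⁻¹ : (PowerSeries ℂ)ˣ) : PowerSeries ℂ)) :=
        h1.symm
    _ ≤ v (ofPS (u : PowerSeries ℂ)) * 1 := by gcongr
    _ = v (ofPS (u : PowerSeries ℂ)) := mul_one _

/-- **Valuation of a power series**: `v p = exp (-order p)`. -/
theorem v_ofPS {p : PowerSeries ℂ} (hp : p ≠ 0) :
    v (ofPS p) = exp (-(p.order.toNat : ℤ)) := by
  have hfin : p.order < ⊤ := (PowerSeries.order_finite_iff_ne_zero).mpr hp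
  obtain ⟨n, hn⟩ : ∃ n : ℕ, p.order = n := ⟨p.order.toNat, (ENat.natCast_toNat (ne_of_lt hfin)).symm⟩
  have hdvd : (PowerSeries.X : PowerSeries ℂ) ^ n ∣ p := by
    rw [PowerSeries.X_pow_dvd_iff]
    intro m hm
    exact PowerSeries.coeff_of_lt_order m (by rw [hn]; exact_mod_cast hm)
  obtain ⟨u, hu⟩ := hdvd
  have hcoeff : PowerSeries.coeff n p ≠ 0 := by
    have h1 := PowerSeries.coeff_order (φ := p) hp
    have h2 : p.order.toNat = n := by rw [hn]; rfl
    rwa [h2] at h1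
  have hu0 : PowerSeries.constantCoeff u ≠ 0 := by
    intro h0
    apply hcoeff
    rw [hu]
    have : PowerSeries.coeff n (PowerSeries.X ^ n * u) = PowerSeries.coeff 0 u := by
      have := PowerSeries.coeff_X_pow_mul u n 0
      simpa using this
    rw [this, PowerSeries.coeff_zero_eq_constantCoeff_apply, h0]
  have hn' : p.order.toNat = n := by rw [hn]; rfl
  rw [hn', hu, map_mul, map_mul, map_pow, map_pow, v_ofPS_X, v_ofPS_of_constantCoeff_ne_zero hu0,
    mul_one, ← WithZero.exp_nsmul]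
  simp

/-! ### The Taylor expansion functional -/

theorem algebraMap_eq_ofPS_C (c : ℂ) :
    algebraMap ℂ (LaurentSeries ℂ) c = ofPS (PowerSeries.C c) := by
  rw [HahnSeries.ofPowerSeries_C]
  exact LaurentSeries.algebraMap_apply ℂ c

/-- The Taylor expansion at `τ`, as an expansion functional on holomorphic functions. -/
def tay (τ : ℍ) : HolHom (fun f : ℍ → ℂ => MDiff f) (LaurentSeries ℂ) where
  T f := ofPS (taylorAt τ f)
  P_mul f g hf hg := hf.mul hg
  map_add f g hf hg := by rw [taylorAt_add τ hf hg, map_add]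
  map_mul f g hf hg := by rw [taylorAt_mul τ hf hg, map_mul]
  map_const c := by rw [taylorAt_const, algebraMap_eq_ofPS_C]
  inj f hf h := by
    have : taylorAt τ f = 0 := ofPS_injective (by rw [h, map_zero])
    exact (taylorAt_eq_zero_iff τ hf).mp this

theorem tay_T (τ : ℍ) (f : ℍ → ℂ) : (tay τ).T f = ofPS (taylorAt τ f) := rfl

/-- The valuation of the Taylor expansion of a nonzero holomorphic function. -/
theorem v_tay (τ : ℍ) {f : ℍ → ℂ} (hf : MDiff f) (h0 : f ≠ 0) :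
    v ((tay τ).T f) = exp (-((taylorAt τ f).order.toNat : ℤ)) :=
  v_ofPS (fun h => h0 ((taylorAt_eq_zero_iff τ hf).mp h))

end Fermat.Agent.S24.OrbitDefs
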