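import Fermat.Agent.S24.TaylorInv
import Fermat.Agent.S24.RepHom
import Fermat.Agent.S24.OrbitDefs

/-!
# S24 slice [O1a]: the homomorphisms `Lmap` for the Taylor expansion functional

* `order_taylorAt_slash`: `ord_τ (A ∣[k] σ) = ord_{σ τ} A`.
* `log_valued_Lmap_of`: `log v (Lmap T γ g) = -(ord_τ (a ∣ γ) - ord_τ (b ∣ γ))` for the Taylor
  functional at `τ`.
* `valued_Lmap_mul_of`: `v (Lmap (tay τ) (γ * σ) g) = v (Lmap (tay (σ • τ)) γ g)`.
* `(Inv)`: divisibility of `log (v (Lmap (tay τ) γ g))` at the elliptic points.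
-/

set_option autoImplicit false
set_option linter.unusedSectionVars false

noncomputable section

open UpperHalfPlane Filter Topology PowerSeries CongruenceSubgroup WithZero
open scoped Manifold MatrixGroups ModularForm

namespace Fermat.Agent.S24.LmapTaylor

open Fermat.Agent.S24.Taylor Fermat.Agent.S24.TaylorInv Fermat.Agent.S24.RepHom
open Fermat.Agent.S24.OrbitDefs Fermat.Agent.S20

/-! ### The valuation of a quotient of power series -/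

theorem valued_ofPS_div (p q : PowerSeries ℂ) (hp : p ≠ 0) (hq : q ≠ 0) :
    (Valued.v (ofPS p / ofPS q) : ℤᵐ⁰) =
      exp (-((p.order.toNat : ℤ) - (q.order.toNat : ℤ))) := by
  have h1 : (Valued.v (ofPS p) : ℤᵐ⁰) = exp (-(p.order.toNat : ℤ)) := v_ofPS hp
  have h2 : (Valued.v (ofPS q) : ℤᵐ⁰) = exp (-(q.order.toNat : ℤ)) := v_ofPS hq
  rw [map_div₀, h1, h2, ← exp_sub]
  congr 1
  ring

theorem log_valued_ofPS_div (p q : PowerSeries ℂ) (hp : p ≠ 0) (hq : q ≠ 0) :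
    log (Valued.v (ofPS p / ofPS q) : ℤᵐ⁰) = -((p.order.toNat : ℤ) - (q.order.toNat : ℤ)) := by
  rw [valued_ofPS_div p q hp hq, log_exp]

/-! ### Orders and the slash action -/

theorem mdiff_comp_smul {A : ℍ → ℂ} (hA : MDiff A) (σ : SL(2, ℤ)) :
    MDiff (fun z : ℍ => A (σ • z)) :=
  hA.comp (mdifferentiable_smul (g := (σ : GL (Fin 2) ℝ)) (by
    have := det_coe_pos σ
    simpa [Matrix.GeneralLinearGroup.val_det_apply] using this))

/-- The order of `z ↦ A (σ z)` at `τ` is the order of `A` at `σ τ`. -/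
theorem order_taylorAt_comp_smul {A : ℍ → ℂ} (hA : MDiff A) (σ : SL(2, ℤ)) (τ : ℍ) :
    (taylorAt τ (fun z : ℍ => A (σ • z))).order = (taylorAt (σ • τ) A).order := by
  rw [order_taylorAt τ (mdiff_comp_smul hA σ), order_taylorAt (σ • τ) hA]
  have hfun : (fun z : ℍ => A (σ • z)) ∘ ofComplex = (A ∘ ofComplex) ∘ mob σ := by
    funext z
    simp only [Function.comp_apply, mob]
    rw [ofComplex_apply]
    rfl
  rw [hfun]
  have hg := analyticAt_mob σ τ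
  have hgz : mob σ (τ : ℂ) = ((σ • τ : ℍ) : ℂ) := mob_coe σ τ
  have hAan : AnalyticAt ℂ (A ∘ ofComplex) (mob σ (τ : ℂ)) := by
    rw [hgz]
    exact Fermat.Agent.LevelOne.JBasic.analyticAt_comp_ofComplex hA (σ • τ)
  have hl : deriv (mob σ) (τ : ℂ) ≠ 0 := by
    rw [deriv_mob]
    exact one_div_ne_zero (pow_ne_zero 2 (denom_ne_zero _ _))
  rw [hAan.analyticOrderAt_comp hg, hg.analyticOrderAt_sub_eq_one_of_deriv_ne_zero hl, mul_one,
    hgz]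

/-- **The order of a slash.** `ord_τ (A ∣[k] σ) = ord_{σ τ} A`. -/
theorem order_taylorAt_slash {A : ℍ → ℂ} (hA : MDiff A) (k : ℤ) (σ : SL(2, ℤ)) (τ : ℍ) :
    (taylorAt τ (A ∣[k] σ)).order = (taylorAt (σ • τ) A).order := by
  have h1 : A ∣[k] σ = (fun z : ℍ => A (σ • z)) *
      (fun z : ℍ => denom (σ : GL (Fin 2) ℝ) z ^ (-k)) := by
    funext z
    rw [ModularForm.SL_slash_apply]
    rfl
  have hd : MDiff (fun z : ℍ => denom (σ : GL (Fin 2) ℝ) z ^ (-k)) :=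
    mdifferentiable_denom_zpow _ _
  rw [h1, taylorAt_mul τ (mdiff_comp_smul hA σ) hd, PowerSeries.order_mul,
    order_taylorAt_comp_smul hA σ τ]
  have h0 : (taylorAt τ (fun z : ℍ => denom (σ : GL (Fin 2) ℝ) z ^ (-k))).order = 0 := by
    apply PowerSeries.order_zero_of_unit
    rw [PowerSeries.isUnit_iff_constantCoeff, constantCoeff_taylorAt, isUnit_iff_ne_zero]
    exact zpow_ne_zero _ (denom_ne_zero _ _)
  rw [h0, add_zero]

/-! ### Valuations of `Lmap` -/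

variable {N : ℕ} [NeZero N]

theorem num_ne_zero_of_isRepOf {g : LaurentSeries ℂ} {k : ℤ} {a b : ℍ → ℂ}
    (h : IsRepOf N g k a b) (hg : g ≠ 0) : a ≠ 0 := (h.inv hg).hb0

/-- Two ring homomorphisms with the same absolute values pull the valuation ring back to the same
subring. -/
theorem comap_eq_of_valued_eq {R : Type*} [Field R] {Om : Type*} [Field Om]
    (w : Valuation Om ℤᵐ⁰) (ℓ ℓ' : R →+* Om) (h : ∀ x, w (ℓ x) = w (ℓ' x)) :
    w.valuationSubring.comap ℓ = w.valuationSubring.comap ℓ' := by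
  ext x
  rw [ValuationSubring.mem_comap, ValuationSubring.mem_comap, Valuation.mem_valuationSubring_iff,
    Valuation.mem_valuationSubring_iff, h x]

/-- If `γ σ γ⁻¹ ∈ Γ₀(N)`, the quotient `(a ∣ γ) / (b ∣ γ)` is `σ`-invariant (in cross-multiplied
form). -/
theorem cross_invariant_of_conj (γ σ : SL(2, ℤ)) (hconj : γ * σ * γ⁻¹ ∈ Gamma0 N) {k : ℤ}
    {a b : ℍ → ℂ} (ha : IsMF (G0 N) k a) (hb : IsMF (G0 N) k b) (z : ℍ) :
    (a ∣[k] γ) (σ • z) * (b ∣[k] γ) z = (a ∣[k] γ) z * (b ∣[k] γ) (σ • z) := by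
  have key : ∀ {c : ℍ → ℂ}, IsMF (G0 N) k c → (c ∣[k] γ) ∣[k] σ = c ∣[k] γ := by
    rintro c ⟨F, rfl⟩
    have e : γ * σ = (γ * σ * γ⁻¹) * γ := by group
    rw [← SlashAction.slash_mul, e, SlashAction.slash_mul]
    congr 1
    rw [ModularForm.SL_slash]
    exact SlashInvariantFormClass.slash_action_eq F _ ⟨_, hconj, rfl⟩
  have hval : ∀ {c : ℍ → ℂ}, IsMF (G0 N) k c → ∀ z : ℍ,
      (c ∣[k] γ) (σ • z) = (c ∣[k] γ) z * denom (σ : GL (Fin 2) ℝ) z ^ k := by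
    intro c hc z
    have h1 := congrFun (key hc) z
    rw [ModularForm.SL_slash_apply] at h1
    rw [← h1, mul_assoc, ← zpow_add₀ (denom_ne_zero _ _), neg_add_cancel, zpow_zero, mul_one]
  rw [hval ha z, hval hb z]
  ring

section general

variable {P : (ℍ → ℂ) → Prop} (T : HolHom P (LaurentSeries ℂ)) (τ : ℍ)
  (hT : ∀ f : ℍ → ℂ, MDiff f → T.T f = ofPS (taylorAt τ f))
include hT

theorem Lmap_eq_of (γ : SL(2, ℤ)) (hP : SlashP N P γ) (g : repField N) {k : ℤ} {a b : ℍ → ℂ}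
    (h : IsRepOf N (g : LaurentSeries ℂ) k a b) :
    Lmap T γ hP g = ofPS (taylorAt τ (a ∣[k] γ)) / ofPS (taylorAt τ (b ∣[k] γ)) := by
  rw [Lmap_eq_div hP g h, hT _ (mdiff_slash γ (mdiff_of_isMF h.ha)),
    hT _ (mdiff_slash γ (mdiff_of_isMF h.hb))]

theorem log_valued_Lmap_of (γ : SL(2, ℤ)) (hP : SlashP N P γ) (g : repField N) (hg : g ≠ 0)
    {k : ℤ} {a b : ℍ → ℂ} (h : IsRepOf N (g : LaurentSeries ℂ) k a b) :
    log (Valued.v (Lmap T γ hP g) : ℤᵐ⁰) =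
      -(((taylorAt τ (a ∣[k] γ)).order.toNat : ℤ) - ((taylorAt τ (b ∣[k] γ)).order.toNat : ℤ)) := by
  have hg' : (g : LaurentSeries ℂ) ≠ 0 := fun h0 => hg (Subtype.ext h0)
  have ha0 : a ∣[k] γ ≠ 0 := slash_ne_zero γ (num_ne_zero_of_isRepOf h hg')
  have hb0 : b ∣[k] γ ≠ 0 := slash_ne_zero γ h.hb0
  have ha : MDiff (a ∣[k] γ) := mdiff_slash γ (mdiff_of_isMF h.ha)
  have hb : MDiff (b ∣[k] γ) := mdiff_slash γ (mdiff_of_isMF h.hb)
  rw [Lmap_eq_of T τ hT γ hP g h]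
  exact log_valued_ofPS_div _ _ (fun h0 => ha0 ((taylorAt_eq_zero_iff τ ha).1 h0))
    (fun h0 => hb0 ((taylorAt_eq_zero_iff τ hb).1 h0))

theorem valued_Lmap_of (γ : SL(2, ℤ)) (hP : SlashP N P γ) (g : repField N) (hg : g ≠ 0)
    {k : ℤ} {a b : ℍ → ℂ} (h : IsRepOf N (g : LaurentSeries ℂ) k a b) :
    (Valued.v (Lmap T γ hP g) : ℤᵐ⁰) =
      exp (-(((taylorAt τ (a ∣[k] γ)).order.toNat : ℤ) -
        ((taylorAt τ (b ∣[k] γ)).order.toNat : ℤ))) := by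
  have hg' : (g : LaurentSeries ℂ) ≠ 0 := fun h0 => hg (Subtype.ext h0)
  have ha0 : a ∣[k] γ ≠ 0 := slash_ne_zero γ (num_ne_zero_of_isRepOf h hg')
  have hb0 : b ∣[k] γ ≠ 0 := slash_ne_zero γ h.hb0
  have ha : MDiff (a ∣[k] γ) := mdiff_slash γ (mdiff_of_isMF h.ha)
  have hb : MDiff (b ∣[k] γ) := mdiff_slash γ (mdiff_of_isMF h.hb)
  rw [Lmap_eq_of T τ hT γ hP g h]
  exact valued_ofPS_div _ _ (fun h0 => ha0 ((taylorAt_eq_zero_iff τ ha).1 h0))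
    (fun h0 => hb0 ((taylorAt_eq_zero_iff τ hb).1 h0))

omit hT in
/-- **Change of base point.** Expanding `f ∘ (γ σ)` at `τ` and `f ∘ γ` at `σ τ` gives the same
absolute value. -/
theorem valued_Lmap_mul_of {P' : (ℍ → ℂ) → Prop} (T' : HolHom P' (LaurentSeries ℂ))
    (σ γ : SL(2, ℤ)) (hP : SlashP N P (γ * σ)) (hP' : SlashP N P' γ)
    (hT : ∀ f : ℍ → ℂ, MDiff f → T.T f = ofPS (taylorAt τ f))
    (hT' : ∀ f : ℍ → ℂ, MDiff f → T'.T f = ofPS (taylorAt (σ • τ) f)) (g : repField N) :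
    (Valued.v (Lmap T (γ * σ) hP g) : ℤᵐ⁰) = Valued.v (Lmap T' γ hP' g) := by
  by_cases hg : g = 0
  · simp [hg]
  obtain ⟨k, a, b, h⟩ := g.2
  rw [valued_Lmap_of T τ hT (γ * σ) hP g hg h, valued_Lmap_of T' (σ • τ) hT' γ hP' g hg h]
  have ha : MDiff (a ∣[k] γ) := mdiff_slash γ (mdiff_of_isMF h.ha)
  have hb : MDiff (b ∣[k] γ) := mdiff_slash γ (mdiff_of_isMF h.hb)
  rw [SlashAction.slash_mul, SlashAction.slash_mul, order_taylorAt_slash ha k σ τ,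
    order_taylorAt_slash hb k σ τ]

/-- **(Inv) for `Lmap`.** If `σ` fixes `τ` and `γ σ γ⁻¹ ∈ Γ₀(N)`, then the multiplier of `σ` at
`τ` to the power `log v (Lmap T γ g)` is `1`. -/
theorem denom_zpow_log_valued_Lmap_of (γ σ : SL(2, ℤ)) (hP : SlashP N P γ)
    (hconj : γ * σ * γ⁻¹ ∈ Gamma0 N) (hfix : σ • τ = τ) (g : repField N) (hg : g ≠ 0) :
    denom (σ : GL (Fin 2) ℝ) τ ^ (2 * log (Valued.v (Lmap T γ hP g) : ℤᵐ⁰)) = 1 := by
  obtain ⟨k, a, b, h⟩ := g.2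
  have hg' : (g : LaurentSeries ℂ) ≠ 0 := fun h0 => hg (Subtype.ext h0)
  have ha0 : a ∣[k] γ ≠ 0 := slash_ne_zero γ (num_ne_zero_of_isRepOf h hg')
  have hb0 : b ∣[k] γ ≠ 0 := slash_ne_zero γ h.hb0
  have ha : MDiff (a ∣[k] γ) := mdiff_slash γ (mdiff_of_isMF h.ha)
  have hb : MDiff (b ∣[k] γ) := mdiff_slash γ (mdiff_of_isMF h.hb)
  have hmain := denom_zpow_eq_one_of_invariant ha hb ha0 hb0 σ τ hfix
    (cross_invariant_of_conj γ σ hconj h.ha h.hb)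
  rw [log_valued_Lmap_of T τ hT γ hP g hg h, mul_neg, zpow_neg, hmain, inv_one]

end general

/-! ### The elliptic points -/

theorem S_smul_I : ModularGroup.S • UpperHalfPlane.I = UpperHalfPlane.I := by
  rw [modular_S_smul]
  ext
  simp [Complex.inv_I]

open Fermat.Agent.LevelOne.JBasic in
/-- At `τ = i`: if `γ S γ⁻¹ ∈ Γ₀(N)` then all `Lmap`-orders are even. -/
theorem two_dvd_log_valued_Lmap_of {P : (ℍ → ℂ) → Prop} (T : HolHom P (LaurentSeries ℂ))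
    (hT : ∀ f : ℍ → ℂ, MDiff f → T.T f = ofPS (taylorAt UpperHalfPlane.I f)) (γ : SL(2, ℤ))
    (hP : SlashP N P γ) (hconj : γ * ModularGroup.S * γ⁻¹ ∈ Gamma0 N) (g : repField N) :
    (2 : ℤ) ∣ log (Valued.v (Lmap T γ hP g) : ℤᵐ⁰) := by
  by_cases hg : g = 0
  · simp [hg]
  obtain ⟨k, a, b, h⟩ := g.2
  have hg' : (g : LaurentSeries ℂ) ≠ 0 := fun h0 => hg (Subtype.ext h0)
  have ha0 : a ∣[k] γ ≠ 0 := slash_ne_zero γ (num_ne_zero_of_isRepOf h hg')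
  have hb0 : b ∣[k] γ ≠ 0 := slash_ne_zero γ h.hb0
  have ha : MDiff (a ∣[k] γ) := mdiff_slash γ (mdiff_of_isMF h.ha)
  have hb : MDiff (b ∣[k] γ) := mdiff_slash γ (mdiff_of_isMF h.hb)
  rw [log_valued_Lmap_of T _ hT γ hP g hg h, dvd_neg]
  exact two_dvd_of_S_invariant ha hb ha0 hb0 (cross_invariant_of_conj γ _ hconj h.ha h.hb)

open Fermat.Agent.LevelOne.JBasic in
/-- At `τ = ρ`: if `γ (S T) γ⁻¹ ∈ Γ₀(N)` then all `Lmap`-orders are divisible by `3`. -/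
theorem three_dvd_log_valued_Lmap_of {P : (ℍ → ℂ) → Prop} (T : HolHom P (LaurentSeries ℂ))
    (hT : ∀ f : ℍ → ℂ, MDiff f → T.T f = ofPS (taylorAt rho f)) (γ : SL(2, ℤ))
    (hP : SlashP N P γ) (hconj : γ * (ModularGroup.S * ModularGroup.T) * γ⁻¹ ∈ Gamma0 N)
    (g : repField N) :
    (3 : ℤ) ∣ log (Valued.v (Lmap T γ hP g) : ℤᵐ⁰) := by
  by_cases hg : g = 0
  · simp [hg]
  obtain ⟨k, a, b, h⟩ := g.2
  have hg' : (g : LaurentSeries ℂ) ≠ 0 := fun h0 => hg (Subtype.ext h0)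
  have ha0 : a ∣[k] γ ≠ 0 := slash_ne_zero γ (num_ne_zero_of_isRepOf h hg')
  have hb0 : b ∣[k] γ ≠ 0 := slash_ne_zero γ h.hb0
  have ha : MDiff (a ∣[k] γ) := mdiff_slash γ (mdiff_of_isMF h.ha)
  have hb : MDiff (b ∣[k] γ) := mdiff_slash γ (mdiff_of_isMF h.hb)
  rw [log_valued_Lmap_of T _ hT γ hP g hg h, dvd_neg]
  exact three_dvd_of_ST_invariant ha hb ha0 hb0 (cross_invariant_of_conj γ _ hconj h.ha h.hb)

/-! ### Specialisation to `OrbitDefs.tay` -/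

theorem tay_T_of_mdiff (τ : ℍ) : ∀ f : ℍ → ℂ, MDiff f → (tay τ).T f = ofPS (taylorAt τ f) :=
  fun _ _ => rfl

theorem v_Lmap_tay_mul (τ : ℍ) (γ σ : SL(2, ℤ)) (g : repField N) :
    v (Lmap (tay τ) (γ * σ) (slashP_mdiff N (γ * σ)) g) =
      v (Lmap (tay (σ • τ)) γ (slashP_mdiff N γ) g) :=
  valued_Lmap_mul_of (tay τ) τ (tay (σ • τ)) σ γ _ _ (tay_T_of_mdiff τ) (tay_T_of_mdiff _) g

/-- `hsame`: right multiplication by an element of the stabiliser of `τ` does not change the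
absolute value. -/
theorem v_Lmap_tay_mul_of_fix (τ : ℍ) (γ σ : SL(2, ℤ)) (hfix : σ • τ = τ) (g : repField N) :
    v (Lmap (tay τ) (γ * σ) (slashP_mdiff N (γ * σ)) g) =
      v (Lmap (tay τ) γ (slashP_mdiff N γ) g) := by
  have := v_Lmap_tay_mul τ γ σ g
  rwa [hfix] at this

theorem comap_Lmap_tay_mul_of_fix (τ : ℍ) (γ σ : SL(2, ℤ)) (hfix : σ • τ = τ) :
    v.valuationSubring.comap (Lmap (N := N) (tay τ) (γ * σ) (slashP_mdiff N (γ * σ))) =
      v.valuationSubring.comap (Lmap (tay τ) γ (slashP_mdiff N γ)) :=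
  comap_eq_of_valued_eq _ _ _ (v_Lmap_tay_mul_of_fix τ γ σ hfix)

theorem denom_zpow_log_v_Lmap_tay (τ : ℍ) (γ σ : SL(2, ℤ))
    (hconj : γ * σ * γ⁻¹ ∈ Gamma0 N) (hfix : σ • τ = τ) (g : repField N) (hg : g ≠ 0) :
    denom (σ : GL (Fin 2) ℝ) τ ^ (2 * log (v (Lmap (tay τ) γ (slashP_mdiff N γ) g))) = 1 :=
  denom_zpow_log_valued_Lmap_of (tay τ) τ (tay_T_of_mdiff τ) γ σ _ hconj hfix g hg

theorem two_dvd_log_v_Lmap_tay (γ : SL(2, ℤ))
    (hconj : γ * ModularGroup.S * γ⁻¹ ∈ Gamma0 N) (g : repField N) :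
    (2 : ℤ) ∣ log (v (Lmap (tay UpperHalfPlane.I) γ (slashP_mdiff N γ) g)) :=
  two_dvd_log_valued_Lmap_of _ (tay_T_of_mdiff _) γ _ hconj g

open Fermat.Agent.LevelOne.JBasic in
theorem three_dvd_log_v_Lmap_tay (γ : SL(2, ℤ))
    (hconj : γ * (ModularGroup.S * ModularGroup.T) * γ⁻¹ ∈ Gamma0 N) (g : repField N) :
    (3 : ℤ) ∣ log (v (Lmap (tay rho) γ (slashP_mdiff N γ) g)) :=
  three_dvd_log_valued_Lmap_of _ (tay_T_of_mdiff _) γ _ hconj g

end Fermat.Agent.S24.LmapTaylor
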