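import Mathlib
import Fermat.Agent.S24.AllPlaces
import Fermat.Agent.S24.Fibre

/-!
# S24, Lemma A in consumer form

`AllPlaces.exists_place_eq_comap` with the hypothesis "all `L q` agree on `K(x)`" replaced by
"all `L q` agree on `K` and on `x`", and the version for the poles of `x`
(`x⁻¹` in place of `x - a`).
-/

set_option autoImplicit false

namespace Fermat.Agent.S24.LemmaA

open Module IntermediateField AlgebraicCurve Fermat.Agent.S24.FF

variable {K F Ω : Type*} [Field K] [Field F] [Algebra K F] [Field Ω]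

/-- Two ring homomorphisms which agree on `K` and on `x` agree on `K(x)`. -/
theorem eq_on_adjoin {φ ψ : F →+* Ω} {x : F}
    (hK : ∀ c : K, φ (algebraMap K F c) = ψ (algebraMap K F c)) (hx : φ x = ψ x)
    (y : K⟮x⟯) : φ (y : F) = ψ (y : F) := by
  let E : IntermediateField K F :=
    { carrier := {z | φ z = ψ z}
      mul_mem' := by
        intro a b ha hb
        simp only [Set.mem_setOf_eq] at ha hb ⊢
        rw [map_mul, map_mul, ha, hb]
      one_mem' := by simp
      add_mem' := by
        intro a b ha hb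
        simp only [Set.mem_setOf_eq] at ha hb ⊢
        rw [map_add, map_add, ha, hb]
      zero_mem' := by simp
      algebraMap_mem' := hK
      inv_mem' := by
        intro a ha
        simp only [Set.mem_setOf_eq] at ha ⊢
        rw [map_inv₀, map_inv₀, ha] }
  have hle : K⟮x⟯ ≤ E := by
    rw [IntermediateField.adjoin_simple_le_iff]
    exact hx
  exact hle y.2

variable [CharZero K]

/-- **Lemma A at a finite point `a`.** -/
theorem exists_place_eq_comap_sub (O : ValuationSubring Ω) {Q : Type*} [Fintype Q]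
    (L : Q → F →+* Ω) {x : F} (hx : IsFF K x) (a : K)
    (hcard : Fintype.card Q = finrank K⟮x⟯ F) (hinj : Function.Injective L)
    (hconst : ∀ q q' (c : K), L q (algebraMap K F c) = L q' (algebraMap K F c))
    (hLx : ∀ q q', L q x = L q' x)
    (hK : ∀ q (c : K), L q (algebraMap K F c) ∈ O)
    (hxa : ∀ q, L q (x - algebraMap K F a) ∈ O.nonunits)
    (v : Place K F) (hv : x - algebraMap K F a ∈ v.toValuationSubring.nonunits) :
    ∃ q, v.toValuationSubring = O.comap (L q) := by
  haveI := hx.finite
  exact AllPlaces.exists_place_eq_comap O L hx.transcendental a hcard hinj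
    (fun q q' y => eq_on_adjoin (hconst q q') (hLx q q') y) hK hxa v hv

/-- **Lemma A at the poles of `x`.** -/
theorem exists_place_eq_comap_inv (O : ValuationSubring Ω) {Q : Type*} [Fintype Q]
    (L : Q → F →+* Ω) {x : F} (hx : IsFF K x)
    (hcard : Fintype.card Q = finrank K⟮x⟯ F) (hinj : Function.Injective L)
    (hconst : ∀ q q' (c : K), L q (algebraMap K F c) = L q' (algebraMap K F c))
    (hLx : ∀ q q', L q x = L q' x)
    (hK : ∀ q (c : K), L q (algebraMap K F c) ∈ O)
    (hxinv : ∀ q, L q x⁻¹ ∈ O.nonunits)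
    (v : Place K F) (hv : x⁻¹ ∈ v.toValuationSubring.nonunits) :
    ∃ q, v.toValuationSubring = O.comap (L q) := by
  have hxi : IsFF K x⁻¹ := hx.inv
  haveI := hxi.finite
  have hcard' : Fintype.card Q = finrank K⟮x⁻¹⟯ F := by
    rw [hcard, Fibre.adjoin_inv]
  have hLx' : ∀ q q', L q x⁻¹ = L q' x⁻¹ := by
    intro q q'
    rw [map_inv₀, map_inv₀, hLx q q']
  refine AllPlaces.exists_place_eq_comap O L hxi.transcendental 0 hcard' hinj
    (fun q q' y => eq_on_adjoin (hconst q q') (hLx' q q') y) hK ?_ v ?_
  · intro q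
    rw [map_zero, sub_zero]
    exact hxinv q
  · rw [map_zero, sub_zero]
    exact hv

/-- `x ∉ O_v` iff `x⁻¹` is a non-unit of `O_v` (for `x ≠ 0`). -/
theorem not_mem_iff_inv_mem_nonunits (A : ValuationSubring F) {x : F} (hx : x ≠ 0) :
    x ∉ A ↔ x⁻¹ ∈ A.nonunits := by
  rw [ValuationSubring.mem_nonunits_iff_or, inv_inv]
  constructor
  · intro h
    exact Or.inr h
  · rintro (h | h)
    · exact absurd (inv_eq_zero.mp h) hx
    · exact h

end Fermat.Agent.S24.LemmaA
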