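import Mathlib
import Fermat.Prelude.Def_AlgebraicCurve_DivisorClassGroup

/-!
# S24, slice [A2]: counting the places over a point (Lemma B)

Model-agnostic counting lemma.  `F/K` a field extension, `y : F` (think `y = x - a`), `Om` a field
with a `ℤᵐ⁰`-valued valuation `w`, and a finite family `L q : F →+* Om` of embeddings.  If every
place of `F/K` at which `y` vanishes is the pull-back of `w` along some `L q` (Lemma A), the
fundamental identity `∑_v ord_v y = #Q` holds, and the ramification is bounded by the class sizes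
of an equivalence relation `r` on `Q` which is compatible with the pull-backs, then the places at
which `y` vanishes are in bijection with `Q / r`.
-/

set_option autoImplicit false

open AlgebraicCurve WithZero

namespace Fermat.Agent.S24.PlaceCount

variable {K F Om : Type*} [Field K] [Field F] [Algebra K F] [Field Om]

theorem coe_units_inv (A : ValuationSubring F) (u : Aˣ) :
    (((u⁻¹ : Aˣ) : A) : F) = ((u : A) : F)⁻¹ := by
  have h : ((u : A) : F) * (((u⁻¹ : Aˣ) : A) : F) = 1 := by
    have h1 : ((u : A) * ((u⁻¹ : Aˣ) : A) : A) = 1 := u.mul_inv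
    have h2 := congrArg (fun z : A => (z : F)) h1
    simpa only [MulMemClass.coe_mul, OneMemClass.coe_one] using h2
  exact eq_inv_of_mul_eq_one_right h

theorem coe_irreducible_ne_zero (A : ValuationSubring F) {π : A} (hπ : Irreducible π) :
    (π : F) ≠ 0 := by
  simpa [ne_eq, ZeroMemClass.coe_eq_zero] using hπ.ne_zero

/-- `y ∈ m_v`, `y ≠ 0` implies `0 < ord_v y`. -/
theorem ord_pos_of_mem_nonunits (v : Place K F) {y : F} (hy0 : y ≠ 0)
    (hy : y ∈ v.toValuationSubring.nonunits) : 0 < v.ord y := by
  obtain ⟨π, hπ⟩ := IsDiscreteValuationRing.exists_irreducible v.toValuationSubring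
  obtain ⟨u, hu⟩ := v.exists_unit_mul_zpow hy0 hπ
  by_contra hle
  rw [not_lt] at hle
  have hyinv : y⁻¹ ∈ v.toValuationSubring := by
    have h1 : y⁻¹ = (((u⁻¹ : v.toValuationSubringˣ) : v.toValuationSubring) : F)
        * (π : F) ^ (-(v.ord y)) := by
      conv_lhs => rw [hu]
      rw [mul_inv, zpow_neg, coe_units_inv]
    rw [h1]
    refine v.toValuationSubring.mul_mem _ _ (Subtype.mem _) ?_
    obtain ⟨k, hk⟩ := Int.eq_ofNat_of_zero_le (neg_nonneg.mpr hle)
    rw [hk, zpow_natCast]
    exact v.toValuationSubring.pow_mem π.2 k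
  rcases (v.toValuationSubring.mem_nonunits_iff_or).mp hy with h | h
  · exact hy0 h
  · exact h hyinv

/-- Local ramification bound: if `O_v` is the pull-back of `w` along `ℓ`, `w (ℓ y) = exp (-m)` and
all `w`-orders of elements of `ℓ F` are divisible by `s`, then `s * ord_v y ≤ m`. -/
theorem mul_ord_le (v : Place K F) (w : Valuation Om ℤᵐ⁰) (ℓ : F →+* Om)
    (hv : v.toValuationSubring = w.valuationSubring.comap ℓ) {y : F} (hy0 : y ≠ 0)
    (hy : y ∈ v.toValuationSubring.nonunits) (m s : ℕ) (hm : w (ℓ y) = exp (-(m : ℤ)))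
    (hs : ∀ f : F, f ≠ 0 → (s : ℤ) ∣ log (w (ℓ f))) :
    (s : ℤ) * v.ord y ≤ m := by
  have hmem : ∀ z : F, z ∈ v.toValuationSubring ↔ w (ℓ z) ≤ 1 := by
    intro z
    rw [hv, ValuationSubring.mem_comap, Valuation.mem_valuationSubring_iff]
  have hne : ∀ z : F, z ≠ 0 → w (ℓ z) ≠ 0 := by
    intro z hz
    rw [ne_eq, Valuation.zero_iff]
    exact (map_ne_zero ℓ).mpr hz
  obtain ⟨π, hπ⟩ := IsDiscreteValuationRing.exists_irreducible v.toValuationSubring
  obtain ⟨u, hu⟩ := v.exists_unit_mul_zpow hy0 hπ
  have he : 0 < v.ord y := ord_pos_of_mem_nonunits v hy0 hy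
  have hπ0 : (π : F) ≠ 0 := coe_irreducible_ne_zero _ hπ
  -- `w (ℓ u) = 1`
  have hu1 : w (ℓ ((u : v.toValuationSubring) : F)) = 1 := by
    apply le_antisymm
    · exact (hmem _).mp (Subtype.mem _)
    · have h2 := (hmem _).mp (Subtype.mem ((u⁻¹ : v.toValuationSubringˣ) : v.toValuationSubring))
      rw [coe_units_inv, map_inv₀, map_inv₀] at h2
      have hu0 : w (ℓ ((u : v.toValuationSubring) : F)) ≠ 0 :=
        hne _ (by simp [ne_eq, ZeroMemClass.coe_eq_zero])
      exact (inv_le_one₀ (zero_lt_iff.mpr hu0)).mp h2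
  -- `w (ℓ π) < 1`
  have hπ1 : w (ℓ (π : F)) < 1 := by
    refine lt_of_le_of_ne ((hmem _).mp π.2) ?_
    intro h1
    have h3 : ((π : F))⁻¹ ∈ v.toValuationSubring := by
      rw [hmem, map_inv₀, map_inv₀, h1, inv_one]
    apply hπ.not_isUnit
    refine IsUnit.of_mul_eq_one (⟨((π : F))⁻¹, h3⟩ : v.toValuationSubring) ?_
    apply Subtype.ext
    simp [hπ0]
  set t := w (ℓ (π : F)) with ht
  have ht0 : t ≠ 0 := hne _ hπ0
  have hlog : log t < 0 := by
    rw [log_lt_iff_lt_exp ht0, exp_zero]
    exact hπ1
  -- `exp (-m) = t ^ e`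
  have hkey : (-(m : ℤ)) = v.ord y * log t := by
    have h4 : w (ℓ y) = t ^ (v.ord y) := by
      conv_lhs => rw [hu]
      rw [map_mul, map_mul, hu1, one_mul, map_zpow₀, map_zpow₀]
    rw [hm] at h4
    have h5 := congrArg log h4
    rw [log_exp, log_zpow, smul_eq_mul] at h5
    exact h5
  obtain ⟨c, hc⟩ := hs (π : F) hπ0
  rw [← ht] at hc
  -- `log t = s * c`, `log t < 0`, so `s * (-c) > 0`
  rcases Nat.eq_zero_or_pos s with hs0 | hs0
  · subst hs0
    simp
  · have hcneg : c < 0 := by
      by_contra hc0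
      rw [not_lt] at hc0
      have : 0 ≤ log t := by rw [hc]; positivity
      omega
    have hsz : (0 : ℤ) < s := by exact_mod_cast hs0
    have : (m : ℤ) = (s : ℤ) * v.ord y * (-c) := by
      rw [hc] at hkey
      linarith [hkey, mul_comm (v.ord y) ((s : ℤ) * c), mul_assoc (s : ℤ) c (v.ord y),
        mul_assoc (s : ℤ) (v.ord y) c, mul_comm c (v.ord y)]
    rw [this]
    have h1 : 1 ≤ -c := by omega
    have hpos : 0 ≤ (s : ℤ) * v.ord y := by positivity
    nlinarith

/-- **Lemma B.**  Counting the places at which `y` vanishes. -/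
theorem card_places_eq_card_quotient
    (w : Valuation Om ℤᵐ⁰) {Q : Type*} [Fintype Q] (L : Q → F →+* Om) (y : F)
    [Finite {v : Place K F // y ∈ v.toValuationSubring.nonunits}]
    (hFI : ∑ᶠ v : {v : Place K F // y ∈ v.toValuationSubring.nonunits}, v.1.ord y
      = Fintype.card Q)
    (hall : ∀ v : Place K F, y ∈ v.toValuationSubring.nonunits →
      ∃ q, v.toValuationSubring = w.valuationSubring.comap (L q))
    (m : ℕ) (hm0 : 0 < m) (hm : ∀ q, w (L q y) = exp (-(m : ℤ)))
    (r : Setoid Q) (hsame : ∀ q q', r q q' →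
      w.valuationSubring.comap (L q) = w.valuationSubring.comap (L q'))
    (s : Q → ℕ) (hs : ∀ q f, f ≠ 0 → ((s q : ℕ) : ℤ) ∣ log (w (L q f)))
    (hclass : ∀ q, s q * Nat.card {q' // r q q'} = m) :
    Nat.card {v : Place K F // y ∈ v.toValuationSubring.nonunits} = Nat.card (Quotient r) := by
  classical
  rcases isEmpty_or_nonempty Q with hQ | hQ
  · -- no embeddings: no places
    have : IsEmpty {v : Place K F // y ∈ v.toValuationSubring.nonunits} :=
      ⟨fun v => by obtain ⟨q, _⟩ := hall v.1 v.2; exact hQ.elim q⟩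
    have : IsEmpty (Quotient r) := ⟨fun C => Quotient.inductionOn C fun q => hQ.elim q⟩
    simp
  obtain ⟨q₀⟩ := hQ
  have hy0 : y ≠ 0 := by
    rintro rfl
    have := hm q₀
    rw [map_zero, map_zero] at this
    exact exp_ne_zero this.symm
  set P := {v : Place K F // y ∈ v.toValuationSubring.nonunits} with hP
  let _ : Fintype P := Fintype.ofFinite P
  choose qv hqv using fun v : P => hall v.1 v.2
  let g : P → Quotient r := fun v => Quotient.mk r (qv v)
  have hg : Function.Injective g := by
    intro v v' h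
    have h1 : r (qv v) (qv v') := Quotient.exact h
    have h2 := hsame _ _ h1
    apply Subtype.ext
    apply Place.ext
    rw [hqv v, hqv v', h2]
  let cs : Quotient r → ℕ := fun C => Fintype.card {q : Q // Quotient.mk r q = C}
  have hcs_pos : ∀ C, 0 < cs C := by
    intro C
    induction C using Quotient.inductionOn with
    | _ q => exact Fintype.card_pos_iff.mpr ⟨⟨q, rfl⟩⟩
  have hcs_sum : ∑ C, cs C = Fintype.card Q := by
    rw [← Fintype.card_sigma]
    exact Fintype.card_congr (Equiv.sigmaFiberEquiv (Quotient.mk r))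
  have hcs_eq : ∀ q, Nat.card {q' // r q q'} = cs (Quotient.mk r q) := by
    intro q
    rw [Nat.card_eq_fintype_card]
    refine Fintype.card_congr (Equiv.subtypeEquivRight fun q' => ?_)
    constructor
    · intro h; exact (Quotient.sound h).symm
    · intro h; exact Quotient.exact h.symm
  -- local bound
  have hloc : ∀ v : P, v.1.ord y ≤ (cs (g v) : ℤ) := by
    intro v
    have h1 := mul_ord_le v.1 w (L (qv v)) (hqv v) hy0 v.2 m (s (qv v)) (hm _) (hs _)
    have h2 := hclass (qv v)
    rw [hcs_eq] at h2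
    have hs0 : 0 < s (qv v) := by
      rcases Nat.eq_zero_or_pos (s (qv v)) with h | h
      · rw [h, zero_mul] at h2; omega
      · exact h
    have h3 : ((s (qv v) : ℕ) : ℤ) * v.1.ord y ≤ (s (qv v) : ℤ) * (cs (g v) : ℤ) := by
      rw [← h2] at h1
      push_cast at h1
      exact h1
    exact le_of_mul_le_mul_left h3 (by exact_mod_cast hs0)
  -- global count
  rw [finsum_eq_sum_of_fintype] at hFI
  have hsum1 : (Fintype.card Q : ℤ) ≤ ∑ v : P, (cs (g v) : ℤ) := by
    rw [← hFI]
    exact Finset.sum_le_sum fun v _ => hloc v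
  have hsum2 : ∑ v : P, (cs (g v) : ℤ) = ∑ C ∈ Finset.univ.image g, (cs C : ℤ) := by
    rw [Finset.sum_image (fun v _ v' _ h => hg h)]
  have hsurj : Function.Surjective g := by
    by_contra hns
    rw [Function.Surjective] at hns
    push Not at hns
    obtain ⟨C₀, hC₀⟩ := hns
    have hlt : ∑ C ∈ Finset.univ.image g, (cs C : ℤ) < ∑ C, (cs C : ℤ) := by
      apply Finset.sum_lt_sum_of_subset (Finset.subset_univ _) (Finset.mem_univ C₀)
      · simp only [Finset.mem_image, Finset.mem_univ, true_and, not_exists]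
        exact hC₀
      · exact_mod_cast hcs_pos C₀
      · intro C _ _
        positivity
    have : (∑ C, (cs C : ℤ)) = Fintype.card Q := by exact_mod_cast hcs_sum
    omega
  rw [Nat.card_eq_fintype_card, Nat.card_eq_fintype_card]
  exact Fintype.card_congr (Equiv.ofBijective g ⟨hg, hsurj⟩)

/-- **Lemma B, orbit form.**  The classes are the orbits of the cyclic group generated by `d`
acting on the index set `Q` (think `Q = SL(2,ℤ) ⧸ Γ₀(N)`, `d = S, S*T, T, 1`). -/
theorem card_places_eq_card_orbits
    (w : Valuation Om ℤᵐ⁰) {Q : Type*} [Fintype Q] {G : Type*} [Group G] [MulAction G Q] (d : G)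
    (L : Q → F →+* Om) (y : F)
    [Finite {v : Place K F // y ∈ v.toValuationSubring.nonunits}]
    (hFI : ∑ᶠ v : {v : Place K F // y ∈ v.toValuationSubring.nonunits}, v.1.ord y
      = Fintype.card Q)
    (hall : ∀ v : Place K F, y ∈ v.toValuationSubring.nonunits →
      ∃ q, v.toValuationSubring = w.valuationSubring.comap (L q))
    (m : ℕ) (hm0 : 0 < m) (hm : ∀ q, w (L q y) = exp (-(m : ℤ)))
    (hsame : ∀ q : Q, w.valuationSubring.comap (L (d • q)) = w.valuationSubring.comap (L q))
    (hdvd : ∀ q : Q, Nat.card (MulAction.orbit (Subgroup.zpowers d) q) ∣ m)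
    (hs : ∀ (q : Q) (f : F), f ≠ 0 →
      (m : ℤ) ∣ (Nat.card (MulAction.orbit (Subgroup.zpowers d) q) : ℤ) * log (w (L q f))) :
    Nat.card {v : Place K F // y ∈ v.toValuationSubring.nonunits}
      = Nat.card (MulAction.orbitRel.Quotient (Subgroup.zpowers d) Q) := by
  classical
  have hsameZ : ∀ (k : ℤ) (q : Q),
      w.valuationSubring.comap (L (d ^ k • q)) = w.valuationSubring.comap (L q) := by
    intro k
    induction k using Int.induction_on with
    | zero => intro q; simp
    | succ i ih => intro q; rw [zpow_add_one, mul_smul, ih, hsame]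
    | pred i ih =>
      intro q
      rw [zpow_sub_one, mul_smul, ih]
      have := hsame (d⁻¹ • q)
      rw [smul_inv_smul] at this
      exact this.symm
  have horb_pos : ∀ q : Q, 0 < Nat.card (MulAction.orbit (Subgroup.zpowers d) q) := fun q =>
    Nat.card_pos_iff.mpr ⟨⟨⟨q, MulAction.mem_orbit_self q⟩⟩, inferInstance⟩
  refine card_places_eq_card_quotient (K := K) w L y hFI hall m hm0 hm
    (MulAction.orbitRel (Subgroup.zpowers d) Q) ?_
    (fun q => m / Nat.card (MulAction.orbit (Subgroup.zpowers d) q)) ?_ ?_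
  · intro q q' h
    rw [MulAction.orbitRel_apply] at h
    obtain ⟨⟨g, hg⟩, rfl⟩ := h
    obtain ⟨k, rfl⟩ := Subgroup.mem_zpowers_iff.mp hg
    exact hsameZ k q'
  · intro q f hf
    obtain ⟨c, hc⟩ := hdvd q
    have h1 := hs q f hf
    have hcpos : 0 < c := by
      rcases Nat.eq_zero_or_pos c with h | h
      · rw [h, mul_zero] at hc; omega
      · exact h
    have hdiv : m / Nat.card (MulAction.orbit (Subgroup.zpowers d) q) = c := by
      rw [hc]; exact Nat.mul_div_cancel_left c (horb_pos q)
    rw [hdiv]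
    rw [hc] at h1
    push_cast at h1
    exact (mul_dvd_mul_iff_left (by exact_mod_cast (horb_pos q).ne')).mp h1
  · intro q
    have hcard : Nat.card {q' // (MulAction.orbitRel (Subgroup.zpowers d) Q) q q'}
        = Nat.card (MulAction.orbit (Subgroup.zpowers d) q) := by
      refine Nat.card_congr (Equiv.subtypeEquivRight fun q' => ?_)
      rw [MulAction.orbitRel_apply]
      constructor
      · intro h
        exact (MulAction.orbitRel (Subgroup.zpowers d) Q).symm
          (show (MulAction.orbitRel (Subgroup.zpowers d) Q) q q' from h)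
      · intro h
        exact (MulAction.orbitRel (Subgroup.zpowers d) Q).symm
          (show (MulAction.orbitRel (Subgroup.zpowers d) Q) q' q from h)
    rw [hcard]
    exact Nat.div_mul_cancel (hdvd q)

end Fermat.Agent.S24.PlaceCount
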