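import Mathlib
import Fermat.Agent.S24.PlaceCount
import Fermat.Agent.S24.LemmaA
import Fermat.Agent.S24.Hurwitz

/-!
# S24 (PROJECT P): the number of places over a point = the number of orbits

Lemma A (`LemmaA.exists_place_eq_comap_sub/inv`) + Lemma B (`PlaceCount.card_places_eq_card_orbits`)
+ the fundamental identity (`Hurwitz.finsum_ord_zeros/inv`), in the consumer form used by the
orbit instantiations `[O2]` (points of `ℍ`) and `[O3]` (the cusp).
-/

set_option autoImplicit false

open AlgebraicCurve WithZero IntermediateField Module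

namespace Fermat.Agent.S24.OrbitCount

open Fermat.Agent.S24.FF

variable {K F Ω : Type*} [Field K] [IsAlgClosed K] [CharZero K] [Field F] [Algebra K F] [Field Ω]

theorem mem_valuationSubring_of_le_one (w : Valuation Ω ℤᵐ⁰) {z : Ω} (h : w z ≤ 1) :
    z ∈ w.valuationSubring := h

theorem mem_nonunits_of_eq_exp (w : Valuation Ω ℤᵐ⁰) {z : Ω} {m : ℕ} (hm0 : 0 < m)
    (h : w z = exp (-(m : ℤ))) : z ∈ w.valuationSubring.nonunits := by
  have hlt : w z < 1 := by
    rw [h, ← WithZero.exp_zero, WithZero.exp_lt_exp]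
    omega
  rw [ValuationSubring.mem_nonunits_iff_exists_mem_maximalIdeal]
  have hmem : z ∈ w.valuationSubring := hlt.le
  refine ⟨hmem, ?_⟩
  rw [IsLocalRing.mem_maximalIdeal, mem_nonunits_iff]
  intro hu
  have h1 := (Valuation.integer.integers w).isUnit_iff_valuation_eq_one.mp hu
  exact absurd h1 (ne_of_lt hlt)

/-- **Zeros of `x - a`**: if the `μ = [F : K(x)]` embeddings `L q : F → Ω` all send `x - a` to an
element of valuation `exp (-m)`, are permuted (up to equivalence of the pulled back valuation) by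
`d`, and the ramification conditions `hdvd`, `hs` hold, then the number of zeros of `x - a` is the
number of orbits of `⟨d⟩` on `Q`. -/
theorem card_zeros_eq_card_orbits {x : F} (hx : IsFF K x) (a : K)
    (w : Valuation Ω ℤᵐ⁰) {Q : Type*} [Fintype Q] {G : Type*} [Group G] [MulAction G Q] (d : G)
    (L : Q → F →+* Ω)
    (hcard : Fintype.card Q = finrank K⟮x⟯ F) (hinj : Function.Injective L)
    (hconst : ∀ q q' (c : K), L q (algebraMap K F c) = L q' (algebraMap K F c))
    (hLx : ∀ q q', L q x = L q' x)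
    (hK : ∀ q (c : K), w (L q (algebraMap K F c)) ≤ 1)
    (m : ℕ) (hm0 : 0 < m) (hm : ∀ q, w (L q (x - algebraMap K F a)) = exp (-(m : ℤ)))
    (hsame : ∀ q : Q, w.valuationSubring.comap (L (d • q)) = w.valuationSubring.comap (L q))
    (hdvd : ∀ q : Q, Nat.card (MulAction.orbit (Subgroup.zpowers d) q) ∣ m)
    (hs : ∀ (q : Q) (f : F), f ≠ 0 →
      (m : ℤ) ∣ (Nat.card (MulAction.orbit (Subgroup.zpowers d) q) : ℤ) * log (w (L q f))) :
    Nat.card {v : Place K F // x - algebraMap K F a ∈ v.toValuationSubring.nonunits}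
      = Nat.card (MulAction.orbitRel.Quotient (Subgroup.zpowers d) Q) := by
  haveI := Hurwitz.finite_zeros hx a
  refine PlaceCount.card_places_eq_card_orbits (K := K) w d L (x - algebraMap K F a)
    ?_ ?_ m hm0 hm hsame hdvd hs
  · rw [Hurwitz.finsum_ord_zeros hx a, hcard]
  · intro v hv
    exact LemmaA.exists_place_eq_comap_sub w.valuationSubring L hx a hcard hinj hconst hLx
      (fun q c => hK q c) (fun q => mem_nonunits_of_eq_exp w hm0 (hm q)) v hv

/-- **Poles of `x`**: the same with `x⁻¹` in place of `x - a`. -/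
theorem card_poles_eq_card_orbits {x : F} (hx : IsFF K x)
    (w : Valuation Ω ℤᵐ⁰) {Q : Type*} [Fintype Q] {G : Type*} [Group G] [MulAction G Q] (d : G)
    (L : Q → F →+* Ω)
    (hcard : Fintype.card Q = finrank K⟮x⟯ F) (hinj : Function.Injective L)
    (hconst : ∀ q q' (c : K), L q (algebraMap K F c) = L q' (algebraMap K F c))
    (hLx : ∀ q q', L q x = L q' x)
    (hK : ∀ q (c : K), w (L q (algebraMap K F c)) ≤ 1)
    (m : ℕ) (hm0 : 0 < m) (hm : ∀ q, w (L q x⁻¹) = exp (-(m : ℤ)))
    (hsame : ∀ q : Q, w.valuationSubring.comap (L (d • q)) = w.valuationSubring.comap (L q))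
    (hdvd : ∀ q : Q, Nat.card (MulAction.orbit (Subgroup.zpowers d) q) ∣ m)
    (hs : ∀ (q : Q) (f : F), f ≠ 0 →
      (m : ℤ) ∣ (Nat.card (MulAction.orbit (Subgroup.zpowers d) q) : ℤ) * log (w (L q f))) :
    Nat.card {v : Place K F // x ∉ v.toValuationSubring}
      = Nat.card (MulAction.orbitRel.Quotient (Subgroup.zpowers d) Q) := by
  haveI := Hurwitz.finite_inv_zeros hx
  have h1 : Nat.card {v : Place K F // x ∉ v.toValuationSubring}
      = Nat.card {v : Place K F // x⁻¹ ∈ v.toValuationSubring.nonunits} := by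
    rw [Hurwitz.card_poles hx, Hurwitz.card_inv_zeros hx]
  rw [h1]
  refine PlaceCount.card_places_eq_card_orbits (K := K) w d L x⁻¹
    ?_ ?_ m hm0 hm hsame hdvd hs
  · rw [Hurwitz.finsum_ord_inv hx, hcard]
  · intro v hv
    exact LemmaA.exists_place_eq_comap_inv w.valuationSubring L hx hcard hinj hconst hLx
      (fun q c => hK q c) (fun q => mem_nonunits_of_eq_exp w hm0 (hm q)) v hv

end Fermat.Agent.S24.OrbitCount
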