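import Fermat.Agent.S24.RepHom
import Fermat.Agent.S24.LevelRaise
import Fermat.Prelude.Def_ModularCurve_ArithmeticGalois

set_option autoImplicit false

/-!
# S24, slice [R]: every element of the formal modular function field is a quotient of forms

For every ring homomorphism `ι : ℚ̄ →+* ℂ` and every `f` in the prelude field
`modularFunctionFieldBar N ⊆ ℚ̄((q))`, the series `coeffMap ι f ∈ ℂ((q))` is the quotient of the
`q`-expansions of two modular forms of the same weight for `Γ₀(N)` (`RepHom.IsRepC`).
-/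

open UpperHalfPlane CongruenceSubgroup ModularForm
open scoped MatrixGroups ModularForm Manifold

noncomputable section

namespace Fermat.Agent.S24.RepAll

open Fermat.Agent.S24.RepHom Fermat.Agent.S24.LevelRaise Fermat.Agent.S20
  Fermat.Agent.S23.QRing

variable (N : ℕ) [NeZero N]

/-- The generators `j(q^d)`, `d ∣ N`, are represented by quotients of forms for `Γ₀(N)`. -/
theorem jd_mem_repField (d : ℕ) [NeZero d] (hd : d ∣ N) :
    ModularCurve.coeffEmb ℂ (ModularCurve.qExpand ℚ d ModularCurve.jq) ∈ repField N := by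
  obtain ⟨A, B, hB, -, -, h⟩ := exists_rep_jd N d hd
  refine ⟨12, ⇑A, ⇑B, ⟨A, rfl⟩, ⟨B, rfl⟩, ?_, h⟩
  intro h0
  exact hB (DFunLike.coe_injective h0)

/-- Explicit form of the generator step: `j(q^d)` is represented by the pair of functions
`τ ↦ E₄(dτ)³`, `τ ↦ Δ(dτ)` (forms of weight `12` for `Γ₀(N)`). -/
theorem isRepOf_jd (d : ℕ) [NeZero d] (hd : d ∣ N) :
    IsRepOf N (ModularCurve.coeffEmb ℂ (ModularCurve.qExpand ℚ d ModularCurve.jq)) 12
      (fun τ : ℍ => E₄ (heckeDiagMatrix d • τ) ^ 3)
      (fun τ : ℍ => ModularForm.discriminant (heckeDiagMatrix d • τ)) := by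
  obtain ⟨A, B, hB, hA', hB', h⟩ := exists_rep_jd N d hd
  have eA : (⇑A : ℍ → ℂ) = fun τ : ℍ => E₄ (heckeDiagMatrix d • τ) ^ 3 := funext hA'
  have eB : (⇑B : ℍ → ℂ) = fun τ : ℍ => ModularForm.discriminant (heckeDiagMatrix d • τ) :=
    funext hB'
  refine ⟨⟨A, eA⟩, ⟨B, eB⟩, ?_, ?_⟩
  · rw [← eB]
    intro h0
    exact hB (DFunLike.coe_injective h0)
  · rw [← eA, ← eB]
    exact h

/-- The element `j(q^d)` of the field of represented series. -/
def jdRep (d : ℕ) [NeZero d] (hd : d ∣ N) : repField N :=
  ⟨ModularCurve.coeffEmb ℂ (ModularCurve.qExpand ℚ d ModularCurve.jq), jd_mem_repField N d hd⟩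

theorem isRepOf_jdRep (d : ℕ) [NeZero d] (hd : d ∣ N) :
    IsRepOf N ((jdRep N d hd : repField N) : LaurentSeries ℂ) 12
      (fun τ : ℍ => E₄ (heckeDiagMatrix d • τ) ^ 3)
      (fun τ : ℍ => ModularForm.discriminant (heckeDiagMatrix d • τ)) :=
  isRepOf_jd N d hd

theorem isMF_E4cube : IsMF 𝒮ℒ 12 (fun τ : ℍ => E₄ τ ^ 3) :=
  ⟨E4cube, funext E4cube_apply⟩

theorem isMF_discriminant : IsMF 𝒮ℒ 12 (ModularForm.discriminant : ℍ → ℂ) :=
  ⟨DeltaMF, rfl⟩

omit [NeZero N] in
/-- Level one: `j(q)` is represented by the level one pair `E₄³`, `Δ`. -/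
theorem isRepOf_j :
    IsRepOf N (ModularCurve.coeffEmb ℂ ModularCurve.jq) 12
      (fun τ : ℍ => E₄ τ ^ 3) (ModularForm.discriminant : ℍ → ℂ) := by
  refine ⟨isMF_E4cube.ofLevelOne, isMF_discriminant.ofLevelOne, ?_, ?_⟩
  · intro h0
    exact ModularForm.discriminant_ne_zero UpperHalfPlane.I (congrFun h0 _)
  · have e1 : qx (fun τ : ℍ => E₄ τ ^ 3) = qExpansion 1 E4cube := by
      have : (fun τ : ℍ => E₄ τ ^ 3) = ⇑E4cube := (funext E4cube_apply).symm
      rw [this]
      rfl
    have e2 : qx (ModularForm.discriminant : ℍ → ℂ) = qExpansion 1 DeltaMF := rfl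
    rw [e1, e2, qExpansion_E4cube, qExpansion_DeltaMF]
    have h := congrArg (ModularCurve.coeffMap (algebraMap ℚ ℂ)) jq_mul_eq
    have e : ∀ p : PowerSeries ℤ, (p.map (Int.castRingHom ℚ)).map (algebraMap ℚ ℂ) =
        p.map (Int.castRingHom ℂ) := by
      intro p
      ext n
      simp
    rw [map_mul, coeffMap_ofPowerSeries, coeffMap_ofPowerSeries, e, e, map_mul,
      PowerSeries.map_X] at h
    exact h.symm

/-- Constants of `ℂ((q))` are represented. -/
theorem algebraMap_mem_repField (c : ℂ) :
    algebraMap ℂ (LaurentSeries ℂ) c ∈ repField N := by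
  rw [ModularCurve.algebraMap_laurentSeries_eq_single]
  exact const_mem_repField c

/-- Every element of the rational field `ℚ(j(q^d) : d ∣ N)` is represented. -/
theorem coeffEmb_mem_repField_aux {x : LaurentSeries ℚ}
    (hx' : x ∈ Subfield.closure
      (Set.range (algebraMap ℚ (LaurentSeries ℚ)) ∪ ModularCurve.divisorExpansions N)) :
    ModularCurve.coeffEmb ℂ x ∈ repField N := by
  induction hx' using Subfield.closure_induction with
  | mem y hy =>
    rcases hy with ⟨a, rfl⟩ | ⟨d, hd0, hd, rfl⟩
    · have : ModularCurve.coeffEmb ℂ (algebraMap ℚ (LaurentSeries ℚ) a) =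
          algebraMap ℂ (LaurentSeries ℂ) (algebraMap ℚ ℂ a) := by
        rw [ModularCurve.algebraMap_laurentSeries_eq_single,
          ModularCurve.algebraMap_laurentSeries_eq_single, ModularCurve.coeffEmb,
          ModularCurve.coeffMap_single]
      rw [this]
      exact algebraMap_mem_repField N _
    · haveI := hd0
      exact jd_mem_repField N d hd
  | one => rw [map_one]; exact (repField N).one_mem
  | add y z _ _ hy hz => rw [map_add]; exact (repField N).add_mem hy hz
  | neg y _ hy => rw [map_neg]; exact (repField N).neg_mem hy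
  | inv y _ hy => rw [map_inv₀]; exact (repField N).inv_mem hy
  | mul y z _ _ hy hz => rw [map_mul]; exact (repField N).mul_mem hy hz

/-- Every element of the rational field `ℚ(j(q^d) : d ∣ N)` is represented. -/
theorem coeffEmb_mem_repField {x : LaurentSeries ℚ}
    (hx : x ∈ ModularCurve.modularFunctionFieldFull N) :
    ModularCurve.coeffEmb ℂ x ∈ repField N :=
  coeffEmb_mem_repField_aux N hx

theorem coeffMap_mem_repField_aux (ι : AlgebraicClosure ℚ →+* ℂ)
    {f : LaurentSeries (AlgebraicClosure ℚ)}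
    (hf' : f ∈ Subfield.closure
        (Set.range (algebraMap (AlgebraicClosure ℚ) (LaurentSeries (AlgebraicClosure ℚ))) ∪
          (⇑(ModularCurve.coeffEmb (AlgebraicClosure ℚ)) ''
            (ModularCurve.modularFunctionFieldFull N : Set (LaurentSeries ℚ))))) :
    ModularCurve.coeffMap ι f ∈ repField N := by
  induction hf' using Subfield.closure_induction with
  | mem y hy =>
    rcases hy with ⟨a, rfl⟩ | ⟨z, hz, rfl⟩
    · have : ModularCurve.coeffMap ι
          (algebraMap (AlgebraicClosure ℚ) (LaurentSeries (AlgebraicClosure ℚ)) a) =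
          algebraMap ℂ (LaurentSeries ℂ) (ι a) := by
        rw [ModularCurve.algebraMap_laurentSeries_eq_single,
          ModularCurve.algebraMap_laurentSeries_eq_single, ModularCurve.coeffMap_single]
      rw [this]
      exact algebraMap_mem_repField N _
    · have : ModularCurve.coeffMap ι (ModularCurve.coeffEmb (AlgebraicClosure ℚ) z) =
          ModularCurve.coeffEmb ℂ z := by
        rw [ModularCurve.coeffEmb, ModularCurve.coeffMap_coeffMap]
        exact ModularCurve.coeffMap_congr (RingHom.ext_rat _ _) z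
      rw [this]
      exact coeffEmb_mem_repField N hz
  | one => rw [map_one]; exact (repField N).one_mem
  | add y z _ _ hy hz => rw [map_add]; exact (repField N).add_mem hy hz
  | neg y _ hy => rw [map_neg]; exact (repField N).neg_mem hy
  | inv y _ hy => rw [map_inv₀]; exact (repField N).inv_mem hy
  | mul y z _ _ hy hz => rw [map_mul]; exact (repField N).mul_mem hy hz

/-- **Slice [R]**: every element of `modularFunctionFieldBar N`, pushed to `ℂ((q))` along an
embedding `ι : ℚ̄ →+* ℂ`, is represented by a quotient of forms for `Γ₀(N)`. -/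
theorem coeffMap_mem_repField (ι : AlgebraicClosure ℚ →+* ℂ)
    {f : LaurentSeries (AlgebraicClosure ℚ)} (hf : f ∈ ModularCurve.modularFunctionFieldBar N) :
    ModularCurve.coeffMap ι f ∈ repField N :=
  coeffMap_mem_repField_aux N ι (ModularCurve.mem_laurentBaseChange_iff.mp hf)

/-- **Slice [R]**, in `IsRepC` form. -/
theorem exists_rep (ι : AlgebraicClosure ℚ →+* ℂ)
    {f : LaurentSeries (AlgebraicClosure ℚ)} (hf : f ∈ ModularCurve.modularFunctionFieldBar N) :
    IsRepC N (ModularCurve.coeffMap ι f) :=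
  coeffMap_mem_repField N ι hf

/-- The ring homomorphism from the prelude field to the field of represented series. -/
def toRepField (ι : AlgebraicClosure ℚ →+* ℂ) :
    ModularCurve.modularFunctionFieldBar N →+* repField N where
  toFun f := ⟨ModularCurve.coeffMap ι (f : LaurentSeries (AlgebraicClosure ℚ)),
    coeffMap_mem_repField N ι f.2⟩
  map_one' := Subtype.ext (map_one _)
  map_mul' _ _ := Subtype.ext (map_mul _ _ _)
  map_zero' := Subtype.ext (map_zero _)
  map_add' _ _ := Subtype.ext (map_add _ _ _)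

@[simp]
theorem coe_toRepField (ι : AlgebraicClosure ℚ →+* ℂ) (f : ModularCurve.modularFunctionFieldBar N) :
    ((toRepField N ι f : repField N) : LaurentSeries ℂ) =
      ModularCurve.coeffMap ι (f : LaurentSeries (AlgebraicClosure ℚ)) := rfl

end Fermat.Agent.S24.RepAll
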