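/-
S24 slice [O3], second line (helper7): the number of poles of `j` on `X₀(N)` is the number of
orbits of `⟨T⟩` on `SL(2,ℤ) ⧸ Γ₀(N)` (the cusps), via `OrbitCount.card_poles_eq_card_orbits` applied
to the family of `q_N`-expansions at the cusps.
-/
import Mathlib
import Fermat.Agent.S24.OrbitCount
import Fermat.Agent.S24.LaurentCusp
import Fermat.Agent.S24.CuspWidth
import Fermat.Agent.S24.RepAll
import Fermat.Agent.S24.LmapSep
import Fermat.Agent.S24.LmapJ
import Fermat.Agent.S24.OrbitDefs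
import Fermat.Agent.S24.LmapTaylor
import Fermat.Agent.S24.Degree
import Fermat.Agent.S24.DegreeLowerFormal

set_option autoImplicit false

noncomputable section

open UpperHalfPlane hiding I
open ModularForm CongruenceSubgroup ModularCurve AlgebraicCurve WithZero
open scoped MatrixGroups ModularForm Manifold

namespace Fermat.Agent.S24.OrbitsCuspAlt

open Fermat.Agent.S20 Fermat.Agent.S24.RepHom Fermat.Agent.S24.LaurentCusp
open Fermat.Agent.S24.OrbitDefs Fermat.Agent.S24.RepAll Fermat.Agent.S24.DegreeAlg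

local notation "Kb" => AlgebraicClosure ℚ

variable (N : ℕ) [NeZero N]

/-! ### The cusp expansion functional -/

theorem algebraMap_eq_C (c : ℂ) : algebraMap ℂ (LaurentSeries ℂ) c = HahnSeries.C c := by
  rw [algebraMap_eq_ofPS_C, ofPS, HahnSeries.ofPowerSeries_C]

/-- The `q_N`-expansion at `i∞` as an expansion functional on `IsCuspHol N`. -/
def cuspHolHom : HolHom (IsCuspHol N) (LaurentSeries ℂ) where
  T := cuspExp N
  P_mul := fun _ _ hf hg => hf.mul hg
  map_add := fun _ _ hf hg => cuspExp_add hf hg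
  map_mul := fun _ _ hf hg => cuspExp_mul hf hg
  map_const := fun c => by rw [cuspExp_const, algebraMap_eq_C]
  inj := fun _ hf h => (cuspExp_eq_zero_iff hf).1 h

theorem slashP_cusp (γ : SL(2, ℤ)) : SlashP N (IsCuspHol N) γ := by
  rintro k a ⟨A, rfl⟩
  exact isCuspHol_slash A γ

/-- Expansion at the cusp `γ⁻¹ ∞`... of the translate by `γ`. -/
def Lc (γ : SL(2, ℤ)) : repField N →+* LaurentSeries ℂ :=
  Lmap (cuspHolHom N) γ (slashP_cusp N γ)

theorem Lc_mul_left {δ : SL(2, ℤ)} (hδ : δ ∈ Gamma0 N) (γ : SL(2, ℤ)) :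
    Lc N (δ * γ) = Lc N γ :=
  Lmap_mul_left hδ (slashP_cusp N γ)

/-- The family of embeddings indexed by `Q = SL(2,ℤ) ⧸ Γ₀(N)`. -/
def Lfam (q : SL(2, ℤ) ⧸ Gamma0 N) : ↥(modularFunctionFieldBar N) →+* LaurentSeries ℂ :=
  (Lq (Gamma0 N) (Lc N) q).comp (toRepField N ι)

/-! ### Dictionary `F ↔ repField N` -/

theorem toRepField_jgen : toRepField N ι (jgen N) = LmapJ.jrep N := by
  apply Subtype.ext
  rw [coe_toRepField, coe_jgen]
  exact DegreeLowerFormal.coeffMap_coeffEmb ι _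

theorem toRepField_algebraMap (c : Kb) :
    toRepField N ι (algebraMap Kb ↥(modularFunctionFieldBar N) c) = LmapJ.crep N (ι c) := by
  apply Subtype.ext
  rw [coe_toRepField]
  show coeffMap ι (algebraMap Kb (LaurentSeries Kb) c) = HahnSeries.C (ι c)
  rw [DegreeLowerFormal.coeffMap_algebraMap, algebraMap_eq_C]

theorem toRepField_jdivF_N :
    toRepField N ι (jdivF N ⟨N, dvd_rfl⟩) = LmapSep.jNrep N := by
  apply Subtype.ext
  rw [coe_toRepField]
  show coeffMap ι (jdiv Kb N ⟨N, dvd_rfl⟩) = LmapSep.jdSeries N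
  rw [DegreeLowerFormal.coeffMap_jdiv]
  rfl

theorem toRepField_injective : Function.Injective (toRepField N ι) :=
  (toRepField N ι).injective

/-! ### Values of the family -/

theorem Lfam_apply (q : SL(2, ℤ) ⧸ Gamma0 N) (f : ↥(modularFunctionFieldBar N)) :
    Lfam N q f = Lc N (Quotient.out q)⁻¹ (toRepField N ι f) := rfl

/-- On `j`, every member of the family is the `q_N`-expansion of `E₄³/Δ`. -/
theorem Lc_jrep (γ : SL(2, ℤ)) :
    Lc N γ (LmapJ.jrep N) =
      cuspExp N (⇑ModularForm.E₄) ^ 3 / cuspExp N ModularForm.discriminant := by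
  have h := Lmap_levelOne (T := cuspHolHom N) (slashP_cusp N γ) (LmapJ.jrep N) (LmapJ.isRepOf_jC N)
    (IsMF.coe LevelRaise.E4cube) (IsMF.coe LevelRaise.DeltaMF)
  have e1 : (⇑LevelRaise.E4cube : ℍ → ℂ) = (⇑ModularForm.E₄) ^ 3 :=
    funext LevelRaise.E4cube_apply
  have h4 : IsCuspHol N (⇑ModularForm.E₄) :=
    (isCuspHol_one_of_class ModularForm.E₄).of_one
  show Lmap (cuspHolHom N) γ (slashP_cusp N γ) (LmapJ.jrep N) = _
  rw [h]
  show cuspExp N (⇑LevelRaise.E4cube) / cuspExp N (⇑LevelRaise.DeltaMF) = _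
  rw [e1, cuspExp_pow h4]
  rfl

theorem Lc_crep (γ : SL(2, ℤ)) (c : ℂ) : Lc N γ (LmapJ.crep N c) = HahnSeries.C c := by
  show Lmap (cuspHolHom N) γ (slashP_cusp N γ) ⟨HahnSeries.C c, const_mem_repField c⟩ = _
  rw [Lmap_const (slashP_cusp N γ) c (const_mem_repField c), algebraMap_eq_C]

theorem hLx (q q' : SL(2, ℤ) ⧸ Gamma0 N) : Lfam N q (jgen N) = Lfam N q' (jgen N) := by
  rw [Lfam_apply, Lfam_apply, toRepField_jgen, Lc_jrep, Lc_jrep]

theorem hconst (q q' : SL(2, ℤ) ⧸ Gamma0 N) (c : Kb) :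
    Lfam N q (algebraMap Kb ↥(modularFunctionFieldBar N) c) =
      Lfam N q' (algebraMap Kb ↥(modularFunctionFieldBar N) c) := by
  rw [Lfam_apply, Lfam_apply, toRepField_algebraMap, Lc_crep, Lc_crep]

theorem v_C_le_one (c : ℂ) : v (HahnSeries.C c : LaurentSeries ℂ) ≤ 1 := by
  have := v_ofPS_le_one (PowerSeries.C c)
  rwa [ofPS, HahnSeries.ofPowerSeries_C] at this

theorem hK (q : SL(2, ℤ) ⧸ Gamma0 N) (c : Kb) :
    v (Lfam N q (algebraMap Kb ↥(modularFunctionFieldBar N) c)) ≤ 1 := by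
  rw [Lfam_apply, toRepField_algebraMap, Lc_crep]
  exact v_C_le_one _

theorem hm (q : SL(2, ℤ) ⧸ Gamma0 N) : v (Lfam N q (jgen N)⁻¹) = exp (-(N : ℤ)) := by
  rw [map_inv₀, Lfam_apply, toRepField_jgen, Lc_jrep, inv_div]
  exact valuation_discriminant_div_E₄_cube

theorem hinj : Function.Injective (Lfam N) := by
  intro q q' h
  have h1 := congrArg (fun φ => φ (jdivF N ⟨N, dvd_rfl⟩)) h
  simp only [Lfam_apply, toRepField_jdivF_N] at h1
  exact LmapSep.quot_eq_of_Lmap_out_inv_eq (cuspHolHom N) (fun _ _ hf hg => hf.sub hg) q q'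
    (slashP_cusp N _) (slashP_cusp N _) h1

/-! ### Translation by `T` does not change valuations -/

theorem Lc_eq_div (γ : SL(2, ℤ)) (g : repField N) {k : ℤ} {a b : ℍ → ℂ}
    (h : IsRepOf N (g : LaurentSeries ℂ) k a b) :
    Lc N γ g = cuspExp N (a ∣[k] γ) / cuspExp N (b ∣[k] γ) :=
  Lmap_eq_div (T := cuspHolHom N) (slashP_cusp N γ) g h

theorem v_Lc_mul_T_zpow (γ : SL(2, ℤ)) (n : ℤ) (g : repField N) :
    v (Lc N (γ * ModularGroup.T ^ n) g) = v (Lc N γ g) := by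
  obtain ⟨k, a, b, h⟩ := g.2
  rw [Lc_eq_div N _ g h, Lc_eq_div N _ g h, map_div₀, map_div₀, SlashAction.slash_mul,
    SlashAction.slash_mul]
  have ha : IsCuspHol N (a ∣[k] γ) := slashP_cusp N γ k a h.ha
  have hb : IsCuspHol N (b ∣[k] γ) := slashP_cusp N γ k b h.hb
  have e1 := valuation_cuspExp_slash_T_zpow ha k n
  have e2 := valuation_cuspExp_slash_T_zpow hb k n
  show (Valued.v (cuspExp N ((a ∣[k] γ) ∣[k] (ModularGroup.T ^ n : SL(2, ℤ)))) : ℤᵐ⁰) /
      Valued.v (cuspExp N ((b ∣[k] γ) ∣[k] (ModularGroup.T ^ n : SL(2, ℤ)))) = _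
  rw [e1, e2]

theorem hsame (q : SL(2, ℤ) ⧸ Gamma0 N) :
    (v.valuationSubring).comap (Lfam N ((ModularGroup.T : SL(2, ℤ)) • q)) =
      (v.valuationSubring).comap (Lfam N q) := by
  apply LmapTaylor.comap_eq_of_valued_eq
  intro x
  have h1 : Lfam N ((ModularGroup.T : SL(2, ℤ)) • q) x =
      Lc N ((Quotient.out q)⁻¹ * (ModularGroup.T : SL(2, ℤ))⁻¹) (toRepField N ι x) := by
    show Lq (Gamma0 N) (Lc N) ((ModularGroup.T : SL(2, ℤ)) • q) (toRepField N ι x) = _
    rw [Lq_smul (fun δ hδ γ => Lc_mul_left N hδ γ)]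
  have e : (ModularGroup.T : SL(2, ℤ))⁻¹ = ModularGroup.T ^ (-1 : ℤ) := (zpow_neg_one _).symm
  rw [h1, Lfam_apply, e, v_Lc_mul_T_zpow]

/-! ### Ramification at the cusp -/

theorem hs (q : SL(2, ℤ) ⧸ Gamma0 N) (f : ↥(modularFunctionFieldBar N)) (hf : f ≠ 0) :
    (N : ℤ) ∣ (Nat.card (MulAction.orbit (Subgroup.zpowers (ModularGroup.T : SL(2, ℤ))) q) : ℤ) *
      log (v (Lfam N q f)) := by
  set g := toRepField N ι f with hg
  have hg0 : g ≠ 0 := by
    intro h0
    exact hf (toRepField_injective N (by rw [← hg, h0, map_zero]))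
  obtain ⟨k, a, b, h⟩ := g.2
  obtain ⟨A, rfl⟩ := h.ha
  obtain ⟨B, rfl⟩ := h.hb
  set γ : SL(2, ℤ) := (Quotient.out q)⁻¹ with hγ
  have hval : Lfam N q f = cuspExp N (⇑A ∣[k] γ) / cuspExp N (⇑B ∣[k] γ) := by
    rw [Lfam_apply, ← hg]
    exact Lc_eq_div N γ g h
  have hne : Lfam N q f ≠ 0 := by
    rw [Lfam_apply, ← hg]
    exact (map_ne_zero (Lc N γ)).2 hg0
  have hB : cuspExp N (⇑B ∣[k] γ) ≠ 0 := by
    intro h0
    apply hne
    rw [hval, h0, div_zero]
  have hA : cuspExp N (⇑A ∣[k] γ) ≠ 0 := by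
    intro h0
    apply hne
    rw [hval, h0, zero_div]
  rw [hval]
  exact dvd_width_mul_log_valuation A B γ (CuspWidth.card_orbit_dvd N q)
    (CuspWidth.card_orbit_pos N q) (CuspWidth.width_mem' N q) hA hB

/-! ### The count -/

/-- `SL(2,ℤ) ⧸ Γ₀(N)` is finite. -/
local instance fintypeQuot : Fintype (SL(2, ℤ) ⧸ Gamma0 N) := Fintype.ofFinite _

/-- **The poles of `j` on `X₀(N)` are counted by the `⟨T⟩`-orbits on `SL(2,ℤ) ⧸ Γ₀(N)`.** -/
theorem card_poles :
    Nat.card {v : Place Kb ↥(modularFunctionFieldBar N) // jgen N ∉ v.toValuationSubring}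
      = Nat.card (MulAction.orbitRel.Quotient
          (Subgroup.zpowers (ModularGroup.T : SL(2, ℤ))) (SL(2, ℤ) ⧸ Gamma0 N)) := by
  refine OrbitCount.card_poles_eq_card_orbits (K := Kb) (Degree.isFF N) v
    (ModularGroup.T : SL(2, ℤ)) (Lfam N) ?_ (hinj N) (hconst N) (hLx N) (hK N) N
    (Nat.pos_of_ne_zero (NeZero.ne N)) (hm N) (hsame N) (CuspWidth.card_orbit_dvd N) (hs N)
  rw [Degree.finrank_eq_card N, Nat.card_eq_fintype_card]

end Fermat.Agent.S24.OrbitsCuspAlt
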