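import Mathlib
import Fermat.Agent.S24.LemmaA
import Fermat.Agent.S24.PlaceCount
import Fermat.Agent.S24.Hurwitz
import Fermat.Agent.S24.RepAll
import Fermat.Agent.S24.DegreeAlg

/-!
# S24, slice [O], abstract form

For an expansion functional `T : HolHom P (LaurentSeries ℂ)` (Taylor expansion at a point of `ℍ`,
or `q_N`-expansion at the cusp `∞`), the family of ring homomorphisms
`Lq q = Lmap T (out q)⁻¹ ∘ toRepField : F →+* ℂ((t))`, `q ∈ SL(2,ℤ) ⧸ Γ₀(N)`, and an element
`d ∈ SL(2,ℤ)`, we combine Lemma A (`LemmaA`), Lemma B (`PlaceCount`) and the fundamental identity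
(`Hurwitz`) into:  the number of places of `F = \bar ℚ(X₀(N))` over the point is the number of
`⟨d⟩`-orbits on `SL(2,ℤ) ⧸ Γ₀(N)`.  The case-specific analytic inputs are hypotheses.
-/

set_option autoImplicit false

noncomputable section

namespace Fermat.Agent.S24.OrbitsAbs

open UpperHalfPlane CongruenceSubgroup ModularCurve AlgebraicCurve MulAction WithZero Module
open IntermediateField
open Fermat.Agent.S24.RepHom Fermat.Agent.S24.FF Fermat.Agent.S24.DegreeAlg
open scoped MatrixGroups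

variable (N : ℕ) [NeZero N]

local notation "Kb" => AlgebraicClosure ℚ
/-- The function field of `X₀(N)` over `\bar ℚ`, as a type. -/
abbrev FunF (N : ℕ) : Type := ↥(modularFunctionFieldBar N)

/-- The left cosets of `Γ₀(N)` in `SL(2, ℤ)`. -/
abbrev Cos (N : ℕ) : Type := SL(2, ℤ) ⧸ Gamma0 N

instance finiteQ : Finite (Cos N) := Subgroup.finite_quotient_of_finiteIndex

instance fintypeQ : Fintype (Cos N) := Fintype.ofFinite _

variable {P : (ℍ → ℂ) → Prop} (T : HolHom P (LaurentSeries ℂ)) (hP : ∀ γ : SL(2, ℤ), SlashP N P γ)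
  (ι : Kb →+* ℂ)

/-- The family of embeddings `F →+* ℂ((t))` indexed by the left cosets of `Γ₀(N)`. -/
def Lq (q : (Cos N)) : (FunF N) →+* LaurentSeries ℂ :=
  (Lmap T (Quotient.out q)⁻¹ (hP _)).comp (RepAll.toRepField N ι)

theorem Lq_apply (q : (Cos N)) (f : (FunF N)) :
    Lq N T hP ι q f = Lmap T (Quotient.out q)⁻¹ (hP _) (RepAll.toRepField N ι f) := rfl

/-- `Lmap` only depends on the right coset; version with arbitrary `SlashP` proofs. -/
theorem Lmap_congr {γ γ' : SL(2, ℤ)} (h : γ' * γ⁻¹ ∈ Gamma0 N) :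
    Lmap T γ' (hP γ') = Lmap T γ (hP γ) := by
  have h1 : γ' = (γ' * γ⁻¹) * γ := by group
  have h2 := Lmap_mul_left (T := T) (γ := γ) h (hP γ)
  rw [← h2]
  congr 1


/-! ### Constants -/

theorem toRepField_algebraMap (c : Kb) :
    RepAll.toRepField N ι (algebraMap Kb (FunF N) c)
      = ⟨HahnSeries.C (ι c), const_mem_repField (ι c)⟩ := by
  apply Subtype.ext
  rw [RepAll.coe_toRepField]
  show coeffMap ι (algebraMap Kb (LaurentSeries Kb) c) = HahnSeries.C (ι c)
  rw [algebraMap_laurentSeries_eq_single, coeffMap_single]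
  rfl

theorem Lq_algebraMap (q : (Cos N)) (c : Kb) :
    Lq N T hP ι q (algebraMap Kb (FunF N) c) = algebraMap ℂ (LaurentSeries ℂ) (ι c) := by
  rw [Lq_apply, toRepField_algebraMap, Lmap_const]

theorem v_algebraMap_le_one (z : ℂ) :
    (Valued.v : Valuation (LaurentSeries ℂ) ℤᵐ⁰) (algebraMap ℂ (LaurentSeries ℂ) z) ≤ 1 := by
  rw [LaurentSeries.val_le_one_iff_eq_coe]
  refine ⟨PowerSeries.C z, ?_⟩
  rw [algebraMap_laurentSeries_eq_single]
  exact HahnSeries.ofPowerSeries_C z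

/-! ### Dependence on the coset -/

theorem Lq_eq_of_out (q : (Cos N)) (γ : SL(2, ℤ)) (hγ : (γ : (Cos N)) = q) :
    Lq N T hP ι q = (Lmap T γ⁻¹ (hP _)).comp (RepAll.toRepField N ι) := by
  unfold Lq
  congr 1
  apply Lmap_congr
  have h1 : ((Quotient.out q : SL(2, ℤ)) : (Cos N)) = (γ : (Cos N)) := by
    rw [hγ]; exact Quotient.out_eq' q
  have h2 := QuotientGroup.eq.mp h1
  rw [inv_inv]
  exact h2

theorem Lq_smul (d : SL(2, ℤ)) (q : (Cos N)) :
    Lq N T hP ι (d • q)
      = (Lmap T ((Quotient.out q)⁻¹ * d⁻¹) (hP _)).comp (RepAll.toRepField N ι) := by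
  have h := Lq_eq_of_out N T hP ι (d • q) (d * Quotient.out q) (by
    show ((d * Quotient.out q : SL(2, ℤ)) : (Cos N)) = d • q
    conv_rhs => rw [← Quotient.out_eq' q]
    rfl)
  rw [h]
  congr 2
  group

/-! ### The abstract count -/

section main

variable (hFF : IsFF Kb (jgen N)) (hdeg : finrank Kb⟮jgen N⟯ (FunF N) = Nat.card (Cos N))
  (hsep : ∀ γ γ' : SL(2, ℤ),
    (∀ f : (FunF N), Lmap T γ (hP γ) (RepAll.toRepField N ι f)
      = Lmap T γ' (hP γ') (RepAll.toRepField N ι f)) → γ' * γ⁻¹ ∈ Gamma0 N)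
  (hLx : ∀ γ γ' : SL(2, ℤ), Lmap T γ (hP γ) (RepAll.toRepField N ι (jgen N))
      = Lmap T γ' (hP γ') (RepAll.toRepField N ι (jgen N)))

include hsep in
theorem Lq_injective : Function.Injective (Lq N T hP ι) := by
  intro q q' h
  have h1 := hsep (Quotient.out q)⁻¹ (Quotient.out q')⁻¹ (fun f => by
    have := congrArg (fun φ : (FunF N) →+* LaurentSeries ℂ => φ f) h
    exact this)
  rw [inv_inv] at h1
  have h2 : ((Quotient.out q' : SL(2, ℤ)) : (Cos N)) = ((Quotient.out q : SL(2, ℤ)) : (Cos N)) :=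
    QuotientGroup.eq.mpr h1
  have e1 : ((Quotient.out q' : SL(2, ℤ)) : (Cos N)) = q' := Quotient.out_eq' q'
  have e2 : ((Quotient.out q : SL(2, ℤ)) : (Cos N)) = q := Quotient.out_eq' q
  rw [e1, e2] at h2
  exact h2.symm

include hFF hdeg hsep hLx in
/-- **Finite points.**  Number of places over `j = a` is the number of `⟨d⟩`-orbits. -/
theorem card_zeros_eq_card_orbits (a : Kb) (d : SL(2, ℤ)) (m : ℕ) (hm0 : 0 < m)
    (hm : ∀ γ : SL(2, ℤ), Valued.v (Lmap T γ (hP γ)
      (RepAll.toRepField N ι (jgen N - algebraMap Kb (FunF N) a))) = exp (-(m : ℤ)))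
    (hsame : ∀ (γ : SL(2, ℤ)) (g : repField N),
      Valued.v (Lmap T (γ * d⁻¹) (hP _) g) ≤ 1 ↔ Valued.v (Lmap T γ (hP γ) g) ≤ 1)
    (hdvd : ∀ q : (Cos N), Nat.card (orbit (Subgroup.zpowers d) q) ∣ m)
    (hs : ∀ (q : (Cos N)) (g : repField N), g ≠ 0 →
      (m : ℤ) ∣ (Nat.card (orbit (Subgroup.zpowers d) q) : ℤ)
        * log (Valued.v (Lmap T (Quotient.out q)⁻¹ (hP _) g))) :
    Nat.card {v : Place Kb (FunF N) //
        jgen N - algebraMap Kb (FunF N) a ∈ v.toValuationSubring.nonunits}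
      = Nat.card (orbitRel.Quotient (Subgroup.zpowers d) (Cos N)) := by
  have := Hurwitz.finite_zeros hFF a
  have hcard : Fintype.card (Cos N) = finrank Kb⟮jgen N⟯ (FunF N) := by
    rw [hdeg, Nat.card_eq_fintype_card]
  refine PlaceCount.card_places_eq_card_orbits (K := Kb) (Valued.v) d (Lq N T hP ι)
    (jgen N - algebraMap Kb (FunF N) a) ?_ ?_ m hm0 ?_ ?_ hdvd ?_
  · rw [Hurwitz.finsum_ord_zeros hFF a, hcard]
  · intro v hv
    refine LemmaA.exists_place_eq_comap_sub _ (Lq N T hP ι) hFF a hcard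
      (Lq_injective N T hP ι hsep) ?_ ?_ ?_ ?_ v hv
    · intro q q' c
      rw [Lq_algebraMap, Lq_algebraMap]
    · intro q q'
      exact hLx _ _
    · intro q c
      rw [Lq_algebraMap]
      exact v_algebraMap_le_one _
    · intro q
      have hequiv := Valuation.isEquiv_valuation_valuationSubring
        (Valued.v : Valuation (LaurentSeries ℂ) ℤᵐ⁰)
      rw [ValuationSubring.mem_nonunits_iff, ← hequiv.lt_one_iff_lt_one, Lq_apply, hm, ← exp_zero,
        exp_lt_exp]
      omega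
  · intro q
    exact hm _
  · intro q
    rw [Lq_smul]
    ext f
    simp only [ValuationSubring.mem_comap, RingHom.comp_apply, Valuation.mem_valuationSubring_iff]
    exact hsame _ _
  · intro q f hf
    refine hs q (RepAll.toRepField N ι f) ?_
    exact (map_ne_zero _).mpr hf


include hFF hdeg hsep hLx in
/-- **Poles.**  Number of places over `j = ∞` is the number of `⟨d⟩`-orbits. -/
theorem card_inv_zeros_eq_card_orbits (d : SL(2, ℤ)) (m : ℕ) (hm0 : 0 < m)
    (hm : ∀ γ : SL(2, ℤ), Valued.v (Lmap T γ (hP γ)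
      (RepAll.toRepField N ι (jgen N)⁻¹)) = exp (-(m : ℤ)))
    (hsame : ∀ (γ : SL(2, ℤ)) (g : repField N),
      Valued.v (Lmap T (γ * d⁻¹) (hP _) g) ≤ 1 ↔ Valued.v (Lmap T γ (hP γ) g) ≤ 1)
    (hdvd : ∀ q : (Cos N), Nat.card (orbit (Subgroup.zpowers d) q) ∣ m)
    (hs : ∀ (q : (Cos N)) (g : repField N), g ≠ 0 →
      (m : ℤ) ∣ (Nat.card (orbit (Subgroup.zpowers d) q) : ℤ)
        * log (Valued.v (Lmap T (Quotient.out q)⁻¹ (hP _) g))) :
    Nat.card {v : Place Kb (FunF N) // (jgen N)⁻¹ ∈ v.toValuationSubring.nonunits}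
      = Nat.card (orbitRel.Quotient (Subgroup.zpowers d) (Cos N)) := by
  have := Hurwitz.finite_inv_zeros hFF
  have hcard : Fintype.card (Cos N) = finrank Kb⟮jgen N⟯ (FunF N) := by
    rw [hdeg, Nat.card_eq_fintype_card]
  refine PlaceCount.card_places_eq_card_orbits (K := Kb) (Valued.v) d (Lq N T hP ι)
    (jgen N)⁻¹ ?_ ?_ m hm0 ?_ ?_ hdvd ?_
  · rw [Hurwitz.finsum_ord_inv hFF, hcard]
  · intro v hv
    refine LemmaA.exists_place_eq_comap_inv _ (Lq N T hP ι) hFF hcard
      (Lq_injective N T hP ι hsep) ?_ ?_ ?_ ?_ v hv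
    · intro q q' c
      rw [Lq_algebraMap, Lq_algebraMap]
    · intro q q'
      exact hLx _ _
    · intro q c
      rw [Lq_algebraMap]
      exact v_algebraMap_le_one _
    · intro q
      have hequiv := Valuation.isEquiv_valuation_valuationSubring
        (Valued.v : Valuation (LaurentSeries ℂ) ℤᵐ⁰)
      rw [ValuationSubring.mem_nonunits_iff, ← hequiv.lt_one_iff_lt_one, Lq_apply, hm, ← exp_zero,
        exp_lt_exp]
      omega
  · intro q
    exact hm _
  · intro q
    rw [Lq_smul]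
    ext f
    simp only [ValuationSubring.mem_comap, RingHom.comp_apply, Valuation.mem_valuationSubring_iff]
    exact hsame _ _
  · intro q f hf
    refine hs q (RepAll.toRepField N ι f) ?_
    exact (map_ne_zero _).mpr hf

include hFF hdeg hsep hLx in
/-- **Poles**, in the shape of `Hurwitz.genus_eq`. -/
theorem card_poles_eq_card_orbits (d : SL(2, ℤ)) (m : ℕ) (hm0 : 0 < m)
    (hm : ∀ γ : SL(2, ℤ), Valued.v (Lmap T γ (hP γ)
      (RepAll.toRepField N ι (jgen N)⁻¹)) = exp (-(m : ℤ)))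
    (hsame : ∀ (γ : SL(2, ℤ)) (g : repField N),
      Valued.v (Lmap T (γ * d⁻¹) (hP _) g) ≤ 1 ↔ Valued.v (Lmap T γ (hP γ) g) ≤ 1)
    (hdvd : ∀ q : (Cos N), Nat.card (orbit (Subgroup.zpowers d) q) ∣ m)
    (hs : ∀ (q : (Cos N)) (g : repField N), g ≠ 0 →
      (m : ℤ) ∣ (Nat.card (orbit (Subgroup.zpowers d) q) : ℤ)
        * log (Valued.v (Lmap T (Quotient.out q)⁻¹ (hP _) g))) :
    Nat.card {v : Place Kb (FunF N) // jgen N ∉ v.toValuationSubring}
      = Nat.card (orbitRel.Quotient (Subgroup.zpowers d) (Cos N)) := by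
  rw [(Hurwitz.card_poles hFF).trans (Hurwitz.card_inv_zeros hFF).symm]
  exact card_inv_zeros_eq_card_orbits N T hP ι hFF hdeg hsep hLx d m hm0 hm hsame hdvd hs

end main

end Fermat.Agent.S24.OrbitsAbs
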