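import Mathlib
import Fermat.Agent.S20.CountOrbitSize
import Fermat.Agent.S24.OrbitDefs

/-!
# S24 slice [O2]: pure group-action glue for the point cases

* `card_orbitRel_quotient_one`: the orbits of the trivial cyclic group are the points;
* `card_orbit_one`: they have one element;
* `dvd_card_orbit_mul`: the reduction of the hypothesis `hs` of
  `PlaceCount.card_places_eq_card_orbits` to the fixed points of `d`, for `d ^ m` acting trivially,
  `m` prime;
* the instances `d = S`, `m = 2` and `d = S * T`, `m = 3` on `SL(2,ℤ) ⧸ Γ₀(N)`;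
* `conj_mem_of_smul_eq`: a fixed coset gives a conjugate in the subgroup.
-/

set_option autoImplicit false

open CongruenceSubgroup ModularGroup MulAction
open scoped MatrixGroups

namespace Fermat.Agent.S24.OrbitsPtGlue

section general

variable {G X : Type*} [Group G] [MulAction G X]

/-- The orbit of a point under the trivial cyclic group is a singleton. -/
theorem card_orbit_one (x : X) : Nat.card (orbit (Subgroup.zpowers (1 : G)) x) = 1 := by
  rw [Fermat.Agent.S20.Count.card_orbit_zpowers]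
  exact Function.minimalPeriod_eq_one_iff_isFixedPt.mpr (one_smul G x)

theorem card_orbit_one_dvd (x : X) : Nat.card (orbit (Subgroup.zpowers (1 : G)) x) ∣ 1 := by
  rw [card_orbit_one]

/-- The orbits of the trivial cyclic group are the points. -/
theorem card_orbitRel_quotient_one :
    Nat.card (orbitRel.Quotient (Subgroup.zpowers (1 : G)) X) = Nat.card X := by
  refine (Nat.card_congr (Equiv.ofBijective
    (fun x : X => (Quotient.mk'' x : orbitRel.Quotient (Subgroup.zpowers (1 : G)) X)) ⟨?_, ?_⟩)).symm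
  · intro x y h
    have h1 : x ∈ orbit (Subgroup.zpowers (1 : G)) y := by
      rw [← orbitRel_apply]
      exact Quotient.exact' h
    obtain ⟨⟨g, hg⟩, rfl⟩ := h1
    rw [Subgroup.zpowers_one_eq_bot, Subgroup.mem_bot] at hg
    subst hg
    exact one_smul _ _
  · intro c
    induction c using Quotient.inductionOn' with
    | h x => exact ⟨x, rfl⟩

/-- **Reduction of `hs` to the fixed points.** If `d ^ m` fixes `x`, `m` is prime, and the integer
`n` is divisible by `m` whenever `d` fixes `x`, then `m ∣ #(⟨d⟩-orbit of x) * n`. -/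
theorem dvd_card_orbit_mul (d : G) (x : X) {m : ℕ} (hm : m.Prime) (hpow : d ^ m • x = x) (n : ℤ)
    (h : d • x = x → (m : ℤ) ∣ n) :
    (m : ℤ) ∣ (Nat.card (orbit (Subgroup.zpowers d) x) : ℤ) * n := by
  classical
  rw [Fermat.Agent.S20.Count.card_orbit_zpowers_prime d x m hm hpow]
  split_ifs with hfix
  · rw [Nat.cast_one, one_mul]
    exact h hfix
  · exact Dvd.intro _ rfl

/-- The case `m = 1`. -/
theorem one_dvd_card_orbit_mul (d : G) (x : X) (n : ℤ) :
    ((1 : ℕ) : ℤ) ∣ (Nat.card (orbit (Subgroup.zpowers d) x) : ℤ) * n := by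
  rw [Nat.cast_one]
  exact one_dvd _

/-- A fixed coset gives a conjugate in the subgroup (the form `γ * d * γ⁻¹` with
`γ = (out q)⁻¹`). -/
theorem conj_mem_of_smul_eq {H : Subgroup G} (d : G) (q : G ⧸ H) (h : d • q = q) :
    (Quotient.out q)⁻¹ * d * ((Quotient.out q)⁻¹)⁻¹ ∈ H := by
  rw [inv_inv]
  exact (Fermat.Agent.S24.OrbitDefs.smul_eq_iff d q).mp h

end general

variable (N : ℕ)

/-- `hdvd` for `d = S`, `m = 2`. -/
theorem card_orbit_S_dvd (q : SL(2, ℤ) ⧸ Gamma0 N) :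
    Nat.card (orbit (Subgroup.zpowers (S : SL(2, ℤ))) q) ∣ 2 :=
  Fermat.Agent.S20.Count.card_orbit_zpowers_dvd _ q 2 (Fermat.Agent.S20.Count.S_sq_smul N q)

/-- `hdvd` for `d = S * T`, `m = 3`. -/
theorem card_orbit_ST_dvd (q : SL(2, ℤ) ⧸ Gamma0 N) :
    Nat.card (orbit (Subgroup.zpowers (S * T : SL(2, ℤ))) q) ∣ 3 :=
  Fermat.Agent.S20.Count.card_orbit_zpowers_dvd _ q 3 (Fermat.Agent.S20.Count.ST_cube_smul N q)

/-- `hs` for `d = S`, `m = 2`, reduced to the fixed cosets. -/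
theorem two_dvd_card_orbit_S_mul (q : SL(2, ℤ) ⧸ Gamma0 N) (n : ℤ)
    (h : (S : SL(2, ℤ)) • q = q → (2 : ℤ) ∣ n) :
    ((2 : ℕ) : ℤ) ∣ (Nat.card (orbit (Subgroup.zpowers (S : SL(2, ℤ))) q) : ℤ) * n :=
  dvd_card_orbit_mul S q Nat.prime_two (Fermat.Agent.S20.Count.S_sq_smul N q) n
    (by simpa using h)

/-- `hs` for `d = S * T`, `m = 3`, reduced to the fixed cosets. -/
theorem three_dvd_card_orbit_ST_mul (q : SL(2, ℤ) ⧸ Gamma0 N) (n : ℤ)
    (h : (S * T : SL(2, ℤ)) • q = q → (3 : ℤ) ∣ n) :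
    ((3 : ℕ) : ℤ) ∣ (Nat.card (orbit (Subgroup.zpowers (S * T : SL(2, ℤ))) q) : ℤ) * n :=
  dvd_card_orbit_mul (S * T) q Nat.prime_three (Fermat.Agent.S20.Count.ST_cube_smul N q) n
    (by simpa using h)

/-- `S • q = q` gives `γ * S * γ⁻¹ ∈ Γ₀(N)` for `γ = (out q)⁻¹`. -/
theorem conj_S_mem (q : SL(2, ℤ) ⧸ Gamma0 N) (h : (S : SL(2, ℤ)) • q = q) :
    (Quotient.out q)⁻¹ * S * ((Quotient.out q)⁻¹)⁻¹ ∈ Gamma0 N :=
  conj_mem_of_smul_eq S q h

theorem conj_ST_mem (q : SL(2, ℤ) ⧸ Gamma0 N) (h : (S * T : SL(2, ℤ)) • q = q) :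
    (Quotient.out q)⁻¹ * (S * T) * ((Quotient.out q)⁻¹)⁻¹ ∈ Gamma0 N :=
  conj_mem_of_smul_eq (S * T) q h

end Fermat.Agent.S24.OrbitsPtGlue
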