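import Mathlib
import Fermat.Agent.S24.OrbitsAbs
import Fermat.Agent.S24.OrbitDefs
import Fermat.Agent.S24.LmapJ
import Fermat.Agent.S24.LmapSep
import Fermat.Agent.S24.LmapTaylor
import Fermat.Agent.S24.Degree
import Fermat.Agent.S24.DegreeLowerFormal
import Fermat.Agent.S24.OrbitsPtGlue

/-!
# S24, slice [O2] (second line): the three point cases

Number of places of `\bar ℚ(X₀(N))` over `j = a`:  `#Q` for `a ≠ 0, 1728`, the number of
`⟨S⟩`-orbits for `a = 1728`, the number of `⟨S T⟩`-orbits for `a = 0`.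
-/

set_option autoImplicit false

noncomputable section

namespace Fermat.Agent.S24.OrbitsPtAlt

open UpperHalfPlane CongruenceSubgroup ModularCurve AlgebraicCurve MulAction WithZero Module
open IntermediateField ModularGroup
open Fermat.Agent.S24.RepHom Fermat.Agent.S24.FF Fermat.Agent.S24.DegreeAlg
open Fermat.Agent.S24.OrbitsAbs Fermat.Agent.S24.OrbitDefs Fermat.Agent.S24.Taylor
open Fermat.Agent.LevelOne.JBasic
open scoped MatrixGroups

variable (N : ℕ) [NeZero N]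

local notation "Kb" => AlgebraicClosure ℚ

/-! ### The dictionary `F ↔ repField` -/

theorem toRepField_jgen (ι : Kb →+* ℂ) : RepAll.toRepField N ι (jgen N) = LmapJ.jrep N := by
  apply Subtype.ext
  rw [RepAll.coe_toRepField, coe_jgen, DegreeLowerFormal.coeffMap_coeffEmb]
  rfl

theorem toRepField_const (ι : Kb →+* ℂ) (c : Kb) :
    RepAll.toRepField N ι (algebraMap Kb (FunF N) c) = LmapJ.crep N (ι c) :=
  toRepField_algebraMap N ι c

theorem toRepField_jN (ι : Kb →+* ℂ) :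
    RepAll.toRepField N ι (jdivF N ⟨N, dvd_rfl⟩) = LmapSep.jNrep N := by
  apply Subtype.ext
  rw [RepAll.coe_toRepField]
  show coeffMap ι (jdiv Kb N ⟨N, dvd_rfl⟩) = _
  rw [DegreeLowerFormal.coeffMap_jdiv]
  rfl

theorem toRepField_jgen_sub (ι : Kb →+* ℂ) (c : Kb) :
    RepAll.toRepField N ι (jgen N - algebraMap Kb (FunF N) c)
      = LmapJ.jrep N - LmapJ.crep N (ι c) := by
  rw [map_sub, toRepField_jgen, toRepField_const]

/-! ### The hypotheses of `OrbitsAbs.card_zeros_eq_card_orbits` for `T = tay τ` -/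

theorem hsep_tay (ι : Kb →+* ℂ) (τ : ℍ) (γ γ' : SL(2, ℤ))
    (h : ∀ f : FunF N, Lmap (tay τ) γ (slashP_mdiff N γ) (RepAll.toRepField N ι f)
      = Lmap (tay τ) γ' (slashP_mdiff N γ') (RepAll.toRepField N ι f)) :
    γ' * γ⁻¹ ∈ Gamma0 N := by
  apply LmapSep.mem_Gamma0_of_Lmap_eq_mdiff (tay τ) γ γ'
  have := h (jdivF N ⟨N, dvd_rfl⟩)
  rwa [toRepField_jN] at this

theorem hLx_tay (ι : Kb →+* ℂ) (τ : ℍ) (γ γ' : SL(2, ℤ)) :
    Lmap (tay τ) γ (slashP_mdiff N γ) (RepAll.toRepField N ι (jgen N))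
      = Lmap (tay τ) γ' (slashP_mdiff N γ') (RepAll.toRepField N ι (jgen N)) := by
  rw [toRepField_jgen]
  have h := LmapJ.isRepOf_jC N
  rw [Lmap_levelOne (slashP_mdiff N γ) (LmapJ.jrep N) h (Fermat.Agent.S20.IsMF.coe _)
      (Fermat.Agent.S20.IsMF.coe _),
    Lmap_levelOne (slashP_mdiff N γ') (LmapJ.jrep N) h (Fermat.Agent.S20.IsMF.coe _)
      (Fermat.Agent.S20.IsMF.coe _)]

theorem hm_tay (ι : Kb →+* ℂ) (τ : ℍ) (a : Kb) (ha : jFun τ = ι a) (γ : SL(2, ℤ)) :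
    Valued.v (Lmap (tay τ) γ (slashP_mdiff N γ)
      (RepAll.toRepField N ι (jgen N - algebraMap Kb (FunF N) a)))
      = exp (-((if jFun τ = 0 then 3 else if jFun τ = 1728 then 2 else 1 : ℕ) : ℤ)) := by
  rw [toRepField_jgen_sub, ← ha]
  exact LmapJ.valued_Lmap_jrep_sub (tay τ) (LmapTaylor.tay_T_of_mdiff τ) γ (slashP_mdiff N γ)

theorem hsame_tay (τ : ℍ) (d : SL(2, ℤ)) (hfix : d • τ = τ) (γ : SL(2, ℤ)) (g : repField N) :
    Valued.v (Lmap (tay τ) (γ * d⁻¹) (slashP_mdiff N _) g) ≤ 1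
      ↔ Valued.v (Lmap (tay τ) γ (slashP_mdiff N γ) g) ≤ 1 := by
  have hfix' : d⁻¹ • τ = τ := by
    conv_lhs => rw [← hfix]
    rw [inv_smul_smul]
  have := LmapTaylor.v_Lmap_tay_mul_of_fix (N := N) τ γ d⁻¹ hfix' g
  unfold OrbitDefs.v at this
  rw [this]


/-! ### The three counts -/

/-- Generic points. -/
theorem card_generic (a : Kb) (h1728 : a ≠ 1728) (h0 : a ≠ 0) :
    Nat.card {v : Place Kb ↥(modularFunctionFieldBar N) //
        jgen N - algebraMap Kb _ a ∈ v.toValuationSubring.nonunits}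
      = Nat.card (SL(2, ℤ) ⧸ Gamma0 N) := by
  obtain ⟨τ, hτ⟩ := jFun_surjective (OrbitDefs.ι a)
  have hτ0 : jFun τ ≠ 0 := by
    rw [hτ]
    exact (map_ne_zero _).mpr h0
  have hτ1728 : jFun τ ≠ 1728 := by
    rw [hτ]
    intro h
    apply h1728
    apply OrbitDefs.ι_injective
    rw [h, map_ofNat]
  have key := card_zeros_eq_card_orbits N (tay τ) (fun γ => slashP_mdiff N γ) OrbitDefs.ι
    (Degree.isFF N) (Degree.finrank_eq_card N) (hsep_tay N _ τ) (hLx_tay N _ τ) a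
    (1 : SL(2, ℤ)) 1 Nat.one_pos
    (fun γ => by
      rw [hm_tay N _ τ a hτ γ, if_neg hτ0, if_neg hτ1728])
    (hsame_tay N τ 1 (one_smul _ _))
    (fun q => OrbitsPtGlue.card_orbit_one_dvd q)
    (fun q g _ => OrbitsPtGlue.one_dvd_card_orbit_mul _ q _)
  rw [key]
  exact OrbitsPtGlue.card_orbitRel_quotient_one

/-- The point `j = 1728`. -/
theorem card_1728 :
    Nat.card {v : Place Kb ↥(modularFunctionFieldBar N) //
        jgen N - algebraMap Kb _ 1728 ∈ v.toValuationSubring.nonunits}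
      = Nat.card (orbitRel.Quotient (Subgroup.zpowers (S : SL(2, ℤ)))
          (SL(2, ℤ) ⧸ Gamma0 N)) := by
  have hτ : jFun UpperHalfPlane.I = OrbitDefs.ι 1728 := by
    rw [jFun_I, map_ofNat]
  have hτ0 : jFun UpperHalfPlane.I ≠ 0 := by
    rw [jFun_I]; norm_num
  exact card_zeros_eq_card_orbits N (tay UpperHalfPlane.I) (fun γ => slashP_mdiff N γ)
    OrbitDefs.ι (Degree.isFF N) (Degree.finrank_eq_card N) (hsep_tay N _ _) (hLx_tay N _ _) 1728
    (S : SL(2, ℤ)) 2 (by norm_num)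
    (fun γ => by
      rw [hm_tay N _ _ 1728 hτ γ, if_neg hτ0, if_pos jFun_I])
    (hsame_tay N _ S LmapTaylor.S_smul_I)
    (fun q => OrbitsPtGlue.card_orbit_S_dvd N q)
    (fun q g _ => OrbitsPtGlue.two_dvd_card_orbit_S_mul N q _ (fun hfix =>
      LmapTaylor.two_dvd_log_v_Lmap_tay _ (OrbitsPtGlue.conj_S_mem N q hfix) g))

/-- The point `j = 0`. -/
theorem card_zero :
    Nat.card {v : Place Kb ↥(modularFunctionFieldBar N) //
        jgen N - algebraMap Kb _ 0 ∈ v.toValuationSubring.nonunits}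
      = Nat.card (orbitRel.Quotient (Subgroup.zpowers (S * T : SL(2, ℤ)))
          (SL(2, ℤ) ⧸ Gamma0 N)) := by
  have hτ : jFun rho = OrbitDefs.ι 0 := by
    rw [jFun_rho, map_zero]
  exact card_zeros_eq_card_orbits N (tay rho) (fun γ => slashP_mdiff N γ)
    OrbitDefs.ι (Degree.isFF N) (Degree.finrank_eq_card N) (hsep_tay N _ _) (hLx_tay N _ _) 0
    (S * T : SL(2, ℤ)) 3 (by norm_num)
    (fun γ => by
      rw [hm_tay N _ _ 0 hτ γ, if_pos jFun_rho])
    (hsame_tay N _ (S * T) ST_smul_rho)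
    (fun q => OrbitsPtGlue.card_orbit_ST_dvd N q)
    (fun q g _ => OrbitsPtGlue.three_dvd_card_orbit_ST_mul N q _ (fun hfix =>
      LmapTaylor.three_dvd_log_v_Lmap_tay _ (OrbitsPtGlue.conj_ST_mem N q hfix) g))

end Fermat.Agent.S24.OrbitsPtAlt
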