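import Mathlib

set_option autoImplicit false

namespace Fermat.Agent.S24.SignOrbits

open Equiv Equiv.Perm MulAction

variable {α : Type*}

theorem mem_orbit_zpowers_iff (σ : Perm α) (x y : α) :
    x ∈ orbit (Subgroup.zpowers σ) y ↔ σ.SameCycle y x := by
  constructor
  · rintro ⟨⟨g, hg⟩, rfl⟩
    obtain ⟨k, rfl⟩ := Subgroup.mem_zpowers_iff.mp hg
    exact ⟨k, rfl⟩
  · rintro ⟨k, rfl⟩
    exact ⟨⟨σ ^ k, Subgroup.zpow_mem_zpowers σ k⟩, rfl⟩

variable [Fintype α] [DecidableEq α]

/-- The classifying map of the `⟨σ⟩`-orbits: a non-fixed point goes to its cycle, a fixed point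
to itself. -/
noncomputable def toSum (σ : Perm α) (x : α) :
    {c // c ∈ σ.cycleFactorsFinset} ⊕ {x // σ x = x} :=
  if h : σ x = x then Sum.inr ⟨x, h⟩
  else Sum.inl ⟨σ.cycleOf x, cycleOf_mem_cycleFactorsFinset_iff.mpr (mem_support.mpr h)⟩

theorem toSum_surjective (σ : Perm α) : Function.Surjective (toSum σ) := by
  rintro (⟨c, hc⟩ | ⟨x, hx⟩)
  · have hcyc : c.IsCycle := (mem_cycleFactorsFinset_iff.mp hc).1
    obtain ⟨a, ha⟩ := hcyc.nonempty_support
    have haσ : a ∈ σ.support := mem_cycleFactorsFinset_support_le hc ha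
    refine ⟨a, ?_⟩
    have h1 : ¬ σ a = a := mem_support.mp haσ
    unfold toSum
    rw [dif_neg h1]
    congr 1
    exact Subtype.ext (cycle_is_cycleOf ha hc).symm
  · refine ⟨x, ?_⟩
    unfold toSum
    rw [dif_pos hx]

theorem toSum_eq_iff (σ : Perm α) (x y : α) : toSum σ x = toSum σ y ↔ σ.SameCycle x y := by
  constructor
  · intro h
    unfold toSum at h
    by_cases hx : σ x = x
    · by_cases hy : σ y = y
      · rw [dif_pos hx, dif_pos hy] at h
        have : x = y := by simpa using h
        subst this
        exact SameCycle.refl σ x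
      · rw [dif_pos hx, dif_neg hy] at h
        exact absurd h (by simp)
    · by_cases hy : σ y = y
      · rw [dif_neg hx, dif_pos hy] at h
        exact absurd h (by simp)
      · rw [dif_neg hx, dif_neg hy] at h
        have hc : σ.cycleOf x = σ.cycleOf y := by simpa using h
        by_contra hns
        have h1 : σ.cycleOf x y = y := by
          rw [cycleOf_apply, if_neg hns]
        have h2 : σ.cycleOf y y = σ y := cycleOf_apply_self σ y
        rw [hc, h2] at h1
        exact hy h1
  · intro h
    unfold toSum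
    by_cases hx : σ x = x
    · have hxy : x = y := by
        obtain ⟨k, rfl⟩ := h
        exact ((zpow_apply_eq_self_of_apply_eq_self hx k)).symm
      subst hxy
      rfl
    · have hy : ¬ σ y = y := by
        intro hy
        apply hx
        obtain ⟨k, hk⟩ := h.symm
        rw [← hk, zpow_apply_eq_self_of_apply_eq_self hy k]
        exact hy
      rw [dif_neg hx, dif_neg hy]
      congr 1
      exact Subtype.ext h.cycleOf_eq

/-- The number of orbits of `⟨σ⟩` is the number of nontrivial cycles plus the number of fixed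
points. -/
theorem card_orbits_eq (σ : Perm α) :
    Nat.card (orbitRel.Quotient (Subgroup.zpowers σ) α)
      = σ.cycleFactorsFinset.card + Fintype.card {x // σ x = x} := by
  have hker : orbitRel (Subgroup.zpowers σ) α = Setoid.ker (toSum σ) := by
    ext x y
    rw [orbitRel_apply, mem_orbit_zpowers_iff, Setoid.ker_def, toSum_eq_iff]
    exact ⟨fun h => h.symm, fun h => h.symm⟩
  have e : orbitRel.Quotient (Subgroup.zpowers σ) α
      ≃ ({c // c ∈ σ.cycleFactorsFinset} ⊕ {x // σ x = x}) := by
    unfold orbitRel.Quotient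
    rw [hker]
    exact Setoid.quotientKerEquivOfSurjective _ (toSum_surjective σ)
  rw [Nat.card_congr e, Nat.card_eq_fintype_card, Fintype.card_sum, Fintype.card_coe]

theorem card_fixed_eq (σ : Perm α) :
    Fintype.card {x // σ x = x} + σ.support.card = Fintype.card α := by
  have h1 : Fintype.card {x // σ x = x} = (Finset.univ.filter fun x => σ x = x).card :=
    Fintype.card_subtype _
  have h2 : σ.support = Finset.univ.filter fun x => ¬ σ x = x := by
    ext x; simp [mem_support]
  rw [h1, h2]
  exact Finset.card_filter_add_card_filter_not _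

/-- **Sign and orbit count**: `sign σ = (-1)^(|α| + #orbits of ⟨σ⟩ on α)`. -/
theorem sign_eq_neg_one_pow (σ : Perm α) :
    (Equiv.Perm.sign σ : ℤ)
      = (-1) ^ (Fintype.card α
          + Nat.card (orbitRel.Quotient (Subgroup.zpowers σ) α)) := by
  rw [card_orbits_eq, sign_of_cycleType]
  have h1 : σ.cycleType.sum = σ.support.card := sum_cycleType σ
  have h2 : Multiset.card σ.cycleType = σ.cycleFactorsFinset.card := by
    rw [cycleType_def]; simp
  have h3 := card_fixed_eq σ
  rw [h1, h2, ← h3]
  push_cast
  have : Fintype.card {x // σ x = x} + σ.support.card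
      + (σ.cycleFactorsFinset.card + Fintype.card {x // σ x = x})
      = (σ.support.card + σ.cycleFactorsFinset.card) + 2 * Fintype.card {x // σ x = x} := by ring
  rw [this, pow_add _ (σ.support.card + σ.cycleFactorsFinset.card), pow_mul]
  simp [pow_add]

omit [Fintype α] [DecidableEq α] in
theorem mem_orbit_zpowers_toPerm_iff {G : Type*} [Group G] [MulAction G α] (t : G) (x y : α) :
    x ∈ orbit (Subgroup.zpowers (MulAction.toPerm t : Perm α)) y
      ↔ x ∈ orbit (Subgroup.zpowers t) y := by
  constructor
  · rintro ⟨⟨g, hg⟩, rfl⟩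
    obtain ⟨k, rfl⟩ := Subgroup.mem_zpowers_iff.mp hg
    refine ⟨⟨t ^ k, Subgroup.zpow_mem_zpowers t k⟩, ?_⟩
    have h := map_zpow (MulAction.toPermHom G α) t k
    change t ^ k • y = ((MulAction.toPerm t : Perm α) ^ k) y
    change MulAction.toPerm (t ^ k) = (MulAction.toPerm t : Perm α) ^ k at h
    rw [← h]
    rfl
  · rintro ⟨⟨g, hg⟩, rfl⟩
    obtain ⟨k, rfl⟩ := Subgroup.mem_zpowers_iff.mp hg
    refine ⟨⟨(MulAction.toPerm t : Perm α) ^ k, Subgroup.zpow_mem_zpowers _ k⟩, ?_⟩
    have h := map_zpow (MulAction.toPermHom G α) t k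
    change ((MulAction.toPerm t : Perm α) ^ k) y = t ^ k • y
    change MulAction.toPerm (t ^ k) = (MulAction.toPerm t : Perm α) ^ k at h
    rw [← h]
    rfl

/-- Version for a group element acting: `sign (toPerm t) = (-1)^(|α| + #orbits of ⟨t⟩ on α)`. -/
theorem sign_toPerm_eq_neg_one_pow {G : Type*} [Group G] [MulAction G α] (t : G) :
    (Equiv.Perm.sign (MulAction.toPerm t : Perm α) : ℤ)
      = (-1) ^ (Fintype.card α
          + Nat.card (orbitRel.Quotient (Subgroup.zpowers t) α)) := by
  rw [sign_eq_neg_one_pow]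
  have hs : orbitRel (Subgroup.zpowers (MulAction.toPerm t : Perm α)) α
      = orbitRel (Subgroup.zpowers t) α := by
    ext x y
    rw [orbitRel_apply, orbitRel_apply, mem_orbit_zpowers_toPerm_iff]
  unfold orbitRel.Quotient
  rw [hs]

/-- Parity form: `|α| + #orbits of ⟨t⟩` is even iff `toPerm t` is an even permutation. -/
theorem even_card_add_card_orbits_iff {G : Type*} [Group G] [MulAction G α] (t : G) :
    Even (Fintype.card α + Nat.card (orbitRel.Quotient (Subgroup.zpowers t) α))
      ↔ Equiv.Perm.sign (MulAction.toPerm t : Perm α) = 1 := by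
  have h := sign_toPerm_eq_neg_one_pow (α := α) t
  constructor
  · intro he
    rw [he.neg_one_pow] at h
    exact Units.ext h
  · intro hs
    rw [hs] at h
    by_contra hne
    rw [Nat.not_even_iff_odd] at hne
    rw [hne.neg_one_pow] at h
    norm_num at h

/-- **Parity of the Riemann–Hurwitz count** for a triple `s, t, s * t`:
`|α| + #orbits ⟨s⟩ + #orbits ⟨t⟩ + #orbits ⟨s * t⟩` is even. -/
theorem even_card_add_card_orbits_triple {G : Type*} [Group G] [MulAction G α] (s t : G) :
    Even (Fintype.card α + Nat.card (orbitRel.Quotient (Subgroup.zpowers s) α)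
      + Nat.card (orbitRel.Quotient (Subgroup.zpowers t) α)
      + Nat.card (orbitRel.Quotient (Subgroup.zpowers (s * t)) α)) := by
  have hs := sign_toPerm_eq_neg_one_pow (α := α) s
  have ht := sign_toPerm_eq_neg_one_pow (α := α) t
  have hst := sign_toPerm_eq_neg_one_pow (α := α) (s * t)
  have hmul : (MulAction.toPerm (s * t) : Perm α) = MulAction.toPerm s * MulAction.toPerm t :=
    map_mul (MulAction.toPermHom G α) s t
  rw [hmul, map_mul, Units.val_mul, hs, ht] at hst
  set n := Fintype.card α
  set a := Nat.card (orbitRel.Quotient (Subgroup.zpowers s) α)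
  set b := Nat.card (orbitRel.Quotient (Subgroup.zpowers t) α)
  set c := Nat.card (orbitRel.Quotient (Subgroup.zpowers (s * t)) α)
  have h1 : ((-1 : ℤ)) ^ (n + a + b + c + 2 * n) = 1 := by
    have : n + a + b + c + 2 * n = (n + a) + (n + b) + (n + c) := by ring
    rw [this, pow_add, pow_add, hst, ← pow_add, ← two_mul, pow_mul]
    simp
  have h2 : Even (n + a + b + c + 2 * n) := (neg_one_pow_eq_one_iff_even (by norm_num)).mp h1
  have h3 : Even (2 * n) := even_two_mul n
  exact (Nat.even_add.mp h2).mpr h3

end Fermat.Agent.S24.SignOrbits
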