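/-
S24 [Ar] (helper21): the genus formula of `X₀(N)` is a natural number.

* `even_card_add_orbits` : for a group action on a finite set and `s t : G`,
  `card X + #⟨s⟩-orbits + #⟨t⟩-orbits + #⟨s t⟩-orbits` is even
  (sign is multiplicative; `SignOrbits.sign_toPerm_eq_neg_one_pow` of helper24).
* `orbit_identity` : `ψ(N) + 2 = a + b + c + 2 g` with `a, b, c` the numbers of orbits of
  `⟨S⟩, ⟨S T⟩, ⟨T⟩` on `SL(2,ℤ) ⧸ Γ₀(N)`.
* `exists_nat_genus` : `∃ g : ℕ, (g : ℚ) = ModularCurve.genusFormula N`.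
-/
import Mathlib
import Fermat.Agent.S21.ParabolicDim
import Fermat.Agent.S20.CountFinal
import Fermat.Agent.S24.SignOrbits

set_option autoImplicit false

open CongruenceSubgroup Matrix.SpecialLinearGroup ModularGroup MulAction
open scoped MatrixGroups

namespace Fermat.Agent.S24.GenusNat

section Parity

variable {G α : Type*} [Group G] [Fintype α] [DecidableEq α] [MulAction G α]

/-- **Parity**: for `s t : G` acting on a finite set `α`,
`#α + #(α/⟨s⟩) + #(α/⟨t⟩) + #(α/⟨s t⟩)` is even. -/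
theorem even_card_add_orbits (s t : G) :
    Even (Fintype.card α
      + Nat.card (orbitRel.Quotient (Subgroup.zpowers s) α)
      + Nat.card (orbitRel.Quotient (Subgroup.zpowers t) α)
      + Nat.card (orbitRel.Quotient (Subgroup.zpowers (s * t)) α)) := by
  have hs := Fermat.Agent.S24.SignOrbits.sign_toPerm_eq_neg_one_pow (α := α) s
  have ht := Fermat.Agent.S24.SignOrbits.sign_toPerm_eq_neg_one_pow (α := α) t
  have hst := Fermat.Agent.S24.SignOrbits.sign_toPerm_eq_neg_one_pow (α := α) (s * t)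
  have hmul : (MulAction.toPerm (s * t) : Equiv.Perm α)
      = MulAction.toPerm s * MulAction.toPerm t := by
    ext x
    simp [mul_smul]
  rw [hmul, map_mul] at hst
  push_cast at hst
  rw [hs, ht] at hst
  set n := Fintype.card α
  set a := Nat.card (orbitRel.Quotient (Subgroup.zpowers s) α)
  set b := Nat.card (orbitRel.Quotient (Subgroup.zpowers t) α)
  set c := Nat.card (orbitRel.Quotient (Subgroup.zpowers (s * t)) α)
  -- (-1)^(n+a) * (-1)^(n+b) = (-1)^(n+c)
  have h1 : ((-1 : ℤ)) ^ (n + a + (n + b) + (n + c)) = 1 := by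
    rw [pow_add, pow_add (-1 : ℤ) (n + a) (n + b), hst, ← pow_add, ← two_mul, pow_mul]
    simp
  have h2 : Even (n + a + (n + b) + (n + c)) := by
    rcases Nat.even_or_odd (n + a + (n + b) + (n + c)) with h | h
    · exact h
    · rw [h.neg_one_pow] at h1
      norm_num at h1
  have h3 : n + a + (n + b) + (n + c) = (n + a + b + c) + 2 * n := by ring
  rw [h3] at h2
  exact (Nat.even_add.mp h2).mpr (even_two_mul n)

end Parity

section Genus

variable (N : ℕ) [NeZero N]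

/-- The genus formula is nonnegative (via `dim Hom_par(Γ₀(N), ℂ) ≤ 2 g`). -/
theorem genusFormula_nonneg : 0 ≤ ModularCurve.genusFormula N := by
  have h := (Fermat.Agent.S21.ParabolicDim.finrank_parabolicHoms_le N).2
  have h0 : (0 : ℚ) ≤
      (Module.finrank ℂ (ModularCurve.Period.parabolicHoms ℂ (Gamma0 N) ℂ) : ℚ) :=
    Nat.cast_nonneg _
  linarith

/-- The genus formula in terms of the orbit counts. -/
theorem genusFormula_eq_orbits :
    2 * ModularCurve.genusFormula N =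
      (Nat.card (SL(2, ℤ) ⧸ Gamma0 N) : ℚ) + 2
      - (Nat.card (orbitRel.Quotient (Subgroup.zpowers (S : SL(2, ℤ)))
          (SL(2, ℤ) ⧸ Gamma0 N)) : ℚ)
      - (Nat.card (orbitRel.Quotient (Subgroup.zpowers (S * T : SL(2, ℤ)))
          (SL(2, ℤ) ⧸ Gamma0 N)) : ℚ)
      - (Nat.card (orbitRel.Quotient (Subgroup.zpowers (T : SL(2, ℤ)))
          (SL(2, ℤ) ⧸ Gamma0 N)) : ℚ) := by
  have h1 := Fermat.Agent.S20.CountFinal.card_Q N
  have h2 := Fermat.Agent.S20.CountFinal.two_mul_card_orbits_S N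
  have h3 := Fermat.Agent.S20.CountFinal.three_mul_card_orbits_ST N
  have h4 := Fermat.Agent.S20.CountFinal.card_orbits_T N
  have h2' : (2 : ℚ) * (Nat.card (orbitRel.Quotient (Subgroup.zpowers (S : SL(2, ℤ)))
      (SL(2, ℤ) ⧸ Gamma0 N)) : ℚ)
      = (ModularCurve.dedekindPsi N : ℚ) + (ModularCurve.nuTwo N : ℚ) := by
    exact_mod_cast h2
  have h3' : (3 : ℚ) * (Nat.card (orbitRel.Quotient (Subgroup.zpowers (S * T : SL(2, ℤ)))
      (SL(2, ℤ) ⧸ Gamma0 N)) : ℚ)
      = (ModularCurve.dedekindPsi N : ℚ) + 2 * (ModularCurve.nuThree N : ℚ) := by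
    exact_mod_cast h3
  rw [h1, h4]
  unfold ModularCurve.genusFormula
  linarith

/-- **Integrality of the genus formula**, orbit form:
`ψ(N) + 2 = a + b + c + 2 g` with `a, b, c` the numbers of orbits of `⟨S⟩`, `⟨S T⟩`, `⟨T⟩`
on `SL(2,ℤ) ⧸ Γ₀(N)` and `(g : ℚ) = genusFormula N`. -/
theorem exists_nat_genus_orbits :
    ∃ g : ℕ, (g : ℚ) = ModularCurve.genusFormula N ∧
      Nat.card (SL(2, ℤ) ⧸ Gamma0 N) + 2 =
        Nat.card (orbitRel.Quotient (Subgroup.zpowers (S : SL(2, ℤ))) (SL(2, ℤ) ⧸ Gamma0 N))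
        + Nat.card (orbitRel.Quotient (Subgroup.zpowers (S * T : SL(2, ℤ)))
            (SL(2, ℤ) ⧸ Gamma0 N))
        + Nat.card (orbitRel.Quotient (Subgroup.zpowers (T : SL(2, ℤ))) (SL(2, ℤ) ⧸ Gamma0 N))
        + 2 * g := by
  classical
  haveI : Finite (SL(2, ℤ) ⧸ Gamma0 N) := by
    apply Nat.finite_of_card_ne_zero
    rw [Fermat.Agent.S20.CountFinal.card_Q N]
    unfold ModularCurve.dedekindPsi
    apply ne_of_gt
    apply Finset.sum_pos'
    · intro d _; exact Nat.zero_le _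
    · refine ⟨1, ?_, ?_⟩
      · simp [NeZero.ne N]
      · simpa using Nat.pos_of_ne_zero (NeZero.ne N)
  haveI : Fintype (SL(2, ℤ) ⧸ Gamma0 N) := Fintype.ofFinite _
  have hpar := even_card_add_orbits (α := SL(2, ℤ) ⧸ Gamma0 N) (S : SL(2, ℤ)) (T : SL(2, ℤ))
  have hgen := genusFormula_eq_orbits N
  have hnn := genusFormula_nonneg N
  rw [← Nat.card_eq_fintype_card] at hpar
  set n := Nat.card (SL(2, ℤ) ⧸ Gamma0 N)
  set a := Nat.card (orbitRel.Quotient (Subgroup.zpowers (S : SL(2, ℤ))) (SL(2, ℤ) ⧸ Gamma0 N))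
  set b := Nat.card (orbitRel.Quotient (Subgroup.zpowers (S * T : SL(2, ℤ)))
    (SL(2, ℤ) ⧸ Gamma0 N))
  set c := Nat.card (orbitRel.Quotient (Subgroup.zpowers (T : SL(2, ℤ))) (SL(2, ℤ) ⧸ Gamma0 N))
  -- a + b + c ≤ n + 2
  have hle : a + b + c ≤ n + 2 := by
    have : ((a + b + c : ℕ) : ℚ) ≤ ((n + 2 : ℕ) : ℚ) := by
      push_cast
      linarith
    exact_mod_cast this
  -- n + 2 - (a+b+c) is even
  have hpar' : Even (n + a + c + b) := hpar
  obtain ⟨k, hk⟩ := hpar'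
  have hev : ∃ g : ℕ, n + 2 = a + b + c + 2 * g := by
    refine ⟨(n + 2 - (a + b + c)) / 2, ?_⟩
    have h2 : 2 ∣ n + 2 - (a + b + c) := by
      refine ⟨n + 1 - k, ?_⟩
      omega
    have := Nat.mul_div_cancel' h2
    omega
  obtain ⟨g, hg⟩ := hev
  refine ⟨g, ?_, ?_⟩
  · have hgq : ((n + 2 : ℕ) : ℚ) = ((a + b + c + 2 * g : ℕ) : ℚ) := by rw [hg]
    push_cast at hgq
    linarith
  · rw [hg]

/-- The same in the Riemann–Hurwitz shape (over `ℤ`):
`(n - a) + (n - b) - n - c = 2 g - 2`. -/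
theorem exists_nat_genus_hurwitz :
    ∃ g : ℕ, (g : ℚ) = ModularCurve.genusFormula N ∧
      ((Nat.card (SL(2, ℤ) ⧸ Gamma0 N) : ℤ)
          - (Nat.card (orbitRel.Quotient (Subgroup.zpowers (S : SL(2, ℤ)))
              (SL(2, ℤ) ⧸ Gamma0 N)) : ℤ))
        + ((Nat.card (SL(2, ℤ) ⧸ Gamma0 N) : ℤ)
          - (Nat.card (orbitRel.Quotient (Subgroup.zpowers (S * T : SL(2, ℤ)))
              (SL(2, ℤ) ⧸ Gamma0 N)) : ℤ))
        - (Nat.card (SL(2, ℤ) ⧸ Gamma0 N) : ℤ)
        - (Nat.card (orbitRel.Quotient (Subgroup.zpowers (T : SL(2, ℤ)))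
              (SL(2, ℤ) ⧸ Gamma0 N)) : ℤ)
        = 2 * (g : ℤ) - 2 := by
  obtain ⟨g, hg, h⟩ := exists_nat_genus_orbits N
  refine ⟨g, hg, ?_⟩
  have h' := congrArg (Nat.cast : ℕ → ℤ) h
  push_cast at h'
  linarith

/-- **Integrality of the genus formula**. -/
theorem exists_nat_genus : ∃ g : ℕ, (g : ℚ) = ModularCurve.genusFormula N := by
  obtain ⟨g, hg, _⟩ := exists_nat_genus_orbits N
  exact ⟨g, hg⟩

end Genus

end Fermat.Agent.S24.GenusNat
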