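import Mathlib
import Fermat.Agent.S24.LaurentCusp
import Fermat.Agent.S24.RepHom
import Fermat.Agent.S24.RepAll
import Fermat.Agent.S24.LmapSep
import Fermat.Agent.S24.OrbitDefs
import Fermat.Agent.S24.PlaceCount
import Fermat.Agent.S24.LemmaA
import Fermat.Agent.S24.Hurwitz
import Fermat.Agent.S24.DegreeAlg
import Fermat.Agent.S24.Degree

/-!
# S24 (PROJECT P), slice [O3]: the places over the cusps

The poles of `j` on `X₀(N)` correspond bijectively to the orbits of `T` on
`SL(2, ℤ) ⧸ Γ₀(N)`: instantiation of the abstract place count at the expansion functional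
"`q_N`-expansion at `i∞`".
-/

set_option autoImplicit false
set_option linter.unusedSectionVars false

noncomputable section

namespace Fermat.Agent.S24.OrbitsCusp

open UpperHalfPlane hiding I
open CongruenceSubgroup ModularForm WithZero AlgebraicCurve
open Fermat.Agent.S20 Fermat.Agent.S24.RepHom Fermat.Agent.S24.LaurentCusp
  Fermat.Agent.S24.OrbitDefs

open scoped MatrixGroups ModularForm Manifold

variable (N : ℕ) [NeZero N]

/-! ### The cusp expansion functional -/

/-- The `q_N`-expansion at `i∞` as an expansion functional on the class `IsCuspHol N`. -/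
def cuspHom : HolHom (IsCuspHol N) (LaurentSeries ℂ) where
  T f := cuspExp N f
  P_mul _ _ hf hg := hf.mul hg
  map_add _ _ hf hg := cuspExp_add hf hg
  map_mul _ _ hf hg := cuspExp_mul hf hg
  map_const c := by
    rw [cuspExp_const, algebraMap_eq_ofPS_C, HahnSeries.ofPowerSeries_C]
  inj f hf h := (cuspExp_eq_zero_iff hf).mp h

theorem cuspHom_T (f : ℍ → ℂ) : (cuspHom N).T f = cuspExp N f := rfl

/-- All slashes of forms for `Γ₀(N)` are in the class `IsCuspHol N`. -/
theorem slashP_cusp (γ : SL(2, ℤ)) : SlashP N (IsCuspHol N) γ := by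
  rintro k a ⟨A, rfl⟩
  exact isCuspHol_slash A γ

theorem isCuspHol_sub_closed :
    ∀ f g : ℍ → ℂ, IsCuspHol N f → IsCuspHol N g → IsCuspHol N (f - g) :=
  fun _ _ hf hg => hf.sub hg

/-- The homomorphism "expansion of `f ∘ γ` at `i∞`" on the represented series. -/
def Λrep (γ : SL(2, ℤ)) : repField N →+* LaurentSeries ℂ :=
  Lmap (cuspHom N) γ (slashP_cusp N γ)

theorem Λrep_mul_left {δ : SL(2, ℤ)} (hδ : δ ∈ Gamma0 N) (γ : SL(2, ℤ)) :
    Λrep N (δ * γ) = Λrep N γ :=
  Lmap_mul_left hδ (slashP_cusp N γ)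

theorem Λrep_eq_div (γ : SL(2, ℤ)) (g : repField N) {k : ℤ} {a b : ℍ → ℂ}
    (h : IsRepOf N (g : LaurentSeries ℂ) k a b) :
    Λrep N γ g = cuspExp N (a ∣[k] γ) / cuspExp N (b ∣[k] γ) :=
  Lmap_eq_div (slashP_cusp N γ) g h

/-- Valuation of `Λrep`: translation by `T ^ n` on the right does not change it. -/
theorem v_Λrep_mul_T_zpow (γ : SL(2, ℤ)) (n : ℤ) (g : repField N) :
    v (Λrep N (γ * ModularGroup.T ^ n) g) = v (Λrep N γ g) := by
  obtain ⟨k, a, b, h⟩ := g.2
  rw [Λrep_eq_div N _ g h, Λrep_eq_div N _ g h, map_div₀, map_div₀,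
    SlashAction.slash_mul, SlashAction.slash_mul]
  have ha := slashP_cusp N γ k a h.ha
  have hb := slashP_cusp N γ k b h.hb
  show (Valued.v _ : ℤᵐ⁰) / Valued.v _ = Valued.v _ / Valued.v _
  rw [valuation_cuspExp_slash_T_zpow ha, valuation_cuspExp_slash_T_zpow hb]

/-! ### Widths: the orbits of `T` on `SL(2, ℤ) ⧸ Γ₀(N)` -/

/-- The width of the cusp attached to the coset `q`: the size of its `T`-orbit. -/
def width (q : SL(2, ℤ) ⧸ Gamma0 N) : ℕ :=
  Function.minimalPeriod ((ModularGroup.T : SL(2, ℤ)) • · : SL(2, ℤ) ⧸ Gamma0 N → _) q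

theorem T_pow_smul (q : SL(2, ℤ) ⧸ Gamma0 N) : (ModularGroup.T ^ N : SL(2, ℤ)) • q = q := by
  rw [smul_eq_iff]
  have h := conj_T_pow_mem N (Quotient.out q)⁻¹
  rw [inv_inv, zpow_natCast] at h
  exact h

theorem isPeriodicPt (q : SL(2, ℤ) ⧸ Gamma0 N) :
    Function.IsPeriodicPt ((ModularGroup.T : SL(2, ℤ)) • · : SL(2, ℤ) ⧸ Gamma0 N → _) N q := by
  show ((ModularGroup.T : SL(2, ℤ)) • · : SL(2, ℤ) ⧸ Gamma0 N → _)^[N] q = q
  rw [smul_iterate_apply]
  exact T_pow_smul N q

theorem width_dvd (q : SL(2, ℤ) ⧸ Gamma0 N) : width N q ∣ N :=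
  (isPeriodicPt N q).minimalPeriod_dvd

theorem width_pos (q : SL(2, ℤ) ⧸ Gamma0 N) : 0 < width N q :=
  (isPeriodicPt N q).minimalPeriod_pos (Nat.pos_of_ne_zero (NeZero.ne N))

theorem card_orbit_zpowers {G X : Type*} [Group G] [MulAction G X] (d : G) (x : X) :
    Nat.card (MulAction.orbit (Subgroup.zpowers d) x) = Function.minimalPeriod (d • · : X → X) x :=
  (Nat.card_congr (MulAction.orbitZPowersEquiv d x)).trans (Nat.card_zmod _)

theorem card_orbit (q : SL(2, ℤ) ⧸ Gamma0 N) :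
    Nat.card (MulAction.orbit (Subgroup.zpowers (ModularGroup.T : SL(2, ℤ))) q) = width N q :=
  card_orbit_zpowers _ q

theorem conj_T_width_mem (q : SL(2, ℤ) ⧸ Gamma0 N) :
    (Quotient.out q)⁻¹ * ModularGroup.T ^ (width N q : ℤ) * ((Quotient.out q)⁻¹)⁻¹ ∈ Gamma0 N := by
  have h : (ModularGroup.T ^ width N q : SL(2, ℤ)) • q = q := by
    have := Function.isPeriodicPt_minimalPeriod
      ((ModularGroup.T : SL(2, ℤ)) • · : SL(2, ℤ) ⧸ Gamma0 N → _) q
    have h2 : ((ModularGroup.T : SL(2, ℤ)) • · : SL(2, ℤ) ⧸ Gamma0 N → _)^[width N q] q = q := this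
    rwa [smul_iterate_apply] at h2
  rw [smul_eq_iff] at h
  rw [inv_inv, zpow_natCast]
  exact h

/-! ### The family of embeddings of the prelude function field -/

/-- Expansion of `f ∘ γ` at `i∞`, on the prelude field. -/
def Λ (γ : SL(2, ℤ)) : ModularCurve.modularFunctionFieldBar N →+* LaurentSeries ℂ :=
  (Λrep N γ).comp (RepAll.toRepField N ι)

theorem Λ_apply (γ : SL(2, ℤ)) (f : ModularCurve.modularFunctionFieldBar N) :
    Λ N γ f = Λrep N γ (RepAll.toRepField N ι f) := rfl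

theorem Λ_mul_left : ∀ δ ∈ Gamma0 N, ∀ γ : SL(2, ℤ), Λ N (δ * γ) = Λ N γ := by
  intro δ hδ γ
  unfold Λ
  rw [Λrep_mul_left N hδ γ]

/-- The family indexed by `Q = SL(2, ℤ) ⧸ Γ₀(N)`. -/
def L (q : SL(2, ℤ) ⧸ Gamma0 N) : ModularCurve.modularFunctionFieldBar N →+* LaurentSeries ℂ :=
  Lq (Gamma0 N) (Λ N) q

theorem L_eq (q : SL(2, ℤ) ⧸ Gamma0 N) : L N q = Λ N (Quotient.out q)⁻¹ := rfl

/-- **`hsame`**: the pull-backs of the valuation ring along `L (T • q)` and `L q` agree. -/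
theorem comap_L_T_smul (q : SL(2, ℤ) ⧸ Gamma0 N) :
    v.valuationSubring.comap (L N ((ModularGroup.T : SL(2, ℤ)) • q)) =
      v.valuationSubring.comap (L N q) := by
  have h1 : L N ((ModularGroup.T : SL(2, ℤ)) • q) =
      Λ N ((Quotient.out q)⁻¹ * (ModularGroup.T : SL(2, ℤ)) ^ (-1 : ℤ)) := by
    rw [zpow_neg_one]
    exact Lq_smul (Λ_mul_left N) _ q
  ext f
  rw [ValuationSubring.mem_comap, ValuationSubring.mem_comap, Valuation.mem_valuationSubring_iff,
    Valuation.mem_valuationSubring_iff, h1, L_eq, Λ_apply, Λ_apply, v_Λrep_mul_T_zpow]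

/-- **`hs`**: `N` divides `width * log (v (L q f))`. -/
theorem dvd_width_mul_log (q : SL(2, ℤ) ⧸ Gamma0 N) (f : ModularCurve.modularFunctionFieldBar N)
    (hf : f ≠ 0) : (N : ℤ) ∣ (width N q : ℤ) * log (v (L N q f)) := by
  have hne : L N q f ≠ 0 := (map_ne_zero _).mpr hf
  obtain ⟨k, a, b, h⟩ := (RepAll.toRepField N ι f).2
  obtain ⟨A, rfl⟩ := h.ha
  obtain ⟨B, rfl⟩ := h.hb
  have e : L N q f = cuspExp N (⇑A ∣[k] (Quotient.out q)⁻¹) / cuspExp N (⇑B ∣[k] (Quotient.out q)⁻¹) := by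
    rw [L_eq, Λ_apply]
    exact Λrep_eq_div N _ _ h
  rw [e] at hne ⊢
  have hA : cuspExp N (⇑A ∣[k] (Quotient.out q)⁻¹) ≠ 0 := fun h0 => hne (by rw [h0, zero_div])
  have hB : cuspExp N (⇑B ∣[k] (Quotient.out q)⁻¹) ≠ 0 := fun h0 => hne (by rw [h0, div_zero])
  exact dvd_width_mul_log_valuation A B _ (width_dvd N q) (width_pos N q) (conj_T_width_mem N q)
    hA hB

/-! ### The values of the embeddings on constants, on `j`, and on `j_N` -/

local notation "Kb" => AlgebraicClosure ℚ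

theorem coeffMap_coeffEmb (z : LaurentSeries ℚ) :
    ModularCurve.coeffMap ι (ModularCurve.coeffEmb Kb z) = ModularCurve.coeffEmb ℂ z := by
  rw [ModularCurve.coeffEmb, ModularCurve.coeffMap_coeffMap]
  exact ModularCurve.coeffMap_congr (RingHom.ext_rat _ _) z

theorem toRepField_algebraMap (c : Kb) :
    RepAll.toRepField N ι (algebraMap Kb (ModularCurve.modularFunctionFieldBar N) c) =
      ⟨HahnSeries.C (ι c), const_mem_repField (ι c)⟩ := by
  apply Subtype.ext
  rw [RepAll.coe_toRepField]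
  show ModularCurve.coeffMap ι (algebraMap Kb (LaurentSeries Kb) c) = HahnSeries.C (ι c)
  rw [ModularCurve.algebraMap_laurentSeries_eq_single, ModularCurve.coeffMap_single]
  rfl

/-- **`hconst`/`hK`**: on constants every `L q` is the structure map. -/
theorem L_algebraMap (q : SL(2, ℤ) ⧸ Gamma0 N) (c : Kb) :
    L N q (algebraMap Kb (ModularCurve.modularFunctionFieldBar N) c) =
      algebraMap ℂ (LaurentSeries ℂ) (ι c) := by
  rw [L_eq, Λ_apply, toRepField_algebraMap]
  exact Lmap_const (slashP_cusp N _) (ι c) _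

theorem v_L_algebraMap_le (q : SL(2, ℤ) ⧸ Gamma0 N) (c : Kb) :
    v (L N q (algebraMap Kb (ModularCurve.modularFunctionFieldBar N) c)) ≤ 1 := by
  rw [L_algebraMap, algebraMap_eq_ofPS_C]
  exact v_ofPS_le_one _

/-- **`hLx`**: the value on `j` is the level one quotient, independent of `q`. -/
theorem L_jgen (q : SL(2, ℤ) ⧸ Gamma0 N) :
    L N q (DegreeAlg.jgen N) =
      cuspExp N (fun τ : ℍ => E₄ τ ^ 3) / cuspExp N ModularForm.discriminant := by
  rw [L_eq, Λ_apply]
  have h : IsRepOf N ((RepAll.toRepField N ι (DegreeAlg.jgen N) : repField N) : LaurentSeries ℂ) 12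
      (fun τ : ℍ => E₄ τ ^ 3) (ModularForm.discriminant : ℍ → ℂ) := by
    rw [RepAll.coe_toRepField, DegreeAlg.coe_jgen, coeffMap_coeffEmb]
    exact RepAll.isRepOf_j N
  exact Lmap_levelOne (slashP_cusp N _) _ h RepAll.isMF_E4cube RepAll.isMF_discriminant

/-- **`hm`**: `1/j` has valuation `exp (-N)` under every `L q`. -/
theorem v_L_jgen_inv (q : SL(2, ℤ) ⧸ Gamma0 N) :
    v (L N q (DegreeAlg.jgen N)⁻¹) = exp (-(N : ℤ)) := by
  rw [map_inv₀, L_jgen, inv_div]
  have h4 : IsCuspHol N (⇑E₄) := (isCuspHol_one_of_class E₄).of_one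
  have e : (fun τ : ℍ => E₄ τ ^ 3) = (⇑E₄ : ℍ → ℂ) ^ 3 := rfl
  rw [e, cuspExp_pow h4]
  exact valuation_discriminant_div_E₄_cube

theorem toRepField_jdivF_N :
    RepAll.toRepField N ι (DegreeAlg.jdivF N ⟨N, dvd_rfl⟩) = LmapSep.jNrep N := by
  apply Subtype.ext
  rw [RepAll.coe_toRepField, LmapSep.coe_jNrep]
  show ModularCurve.coeffMap ι (DegreeAlg.jdiv Kb N ⟨N, dvd_rfl⟩) = LmapSep.jdSeries N
  rw [DegreeAlg.jdiv_def Kb N N dvd_rfl, coeffMap_coeffEmb]
  rfl

/-- **`hinj`**: the embeddings `L q` are pairwise distinct. -/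
theorem L_injective : Function.Injective (L N) := by
  intro q q' h
  have h1 := congrArg (fun φ => φ (DegreeAlg.jdivF N ⟨N, dvd_rfl⟩)) h
  simp only [L_eq, Λ_apply, toRepField_jdivF_N] at h1
  exact LmapSep.quot_eq_of_Lmap_out_inv_eq (cuspHom N) (isCuspHol_sub_closed N) q q'
    (slashP_cusp N _) (slashP_cusp N _) h1

/-! ### The count of the places over the cusps -/

theorem mem_nonunits_of_v_eq_exp {y : LaurentSeries ℂ} {m : ℕ} (hm0 : 0 < m)
    (hy : v y = exp (-(m : ℤ))) : y ∈ (v.valuationSubring).nonunits := by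
  rw [ValuationSubring.mem_nonunits_iff_or]
  right
  rw [Valuation.mem_valuationSubring_iff, map_inv₀, hy, ← WithZero.exp_neg, neg_neg, not_le,
    ← WithZero.exp_zero, WithZero.exp_lt_exp]
  exact_mod_cast hm0

/-- **(O-∞), in the `x⁻¹` form.** -/
theorem card_inv_zeros [Fintype (SL(2, ℤ) ⧸ Gamma0 N)]
    (hx : FF.IsFF Kb (DegreeAlg.jgen N))
    (hcard : Fintype.card (SL(2, ℤ) ⧸ Gamma0 N) =
      Module.finrank (IntermediateField.adjoin Kb {DegreeAlg.jgen N})
        (ModularCurve.modularFunctionFieldBar N)) :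
    Nat.card {w : Place Kb (ModularCurve.modularFunctionFieldBar N) //
        (DegreeAlg.jgen N)⁻¹ ∈ w.toValuationSubring.nonunits} =
      Nat.card (MulAction.orbitRel.Quotient (Subgroup.zpowers (ModularGroup.T : SL(2, ℤ)))
        (SL(2, ℤ) ⧸ Gamma0 N)) := by
  have hN0 : 0 < N := Nat.pos_of_ne_zero (NeZero.ne N)
  have := Hurwitz.finite_inv_zeros hx
  refine PlaceCount.card_places_eq_card_orbits v (ModularGroup.T : SL(2, ℤ)) (L N)
    (DegreeAlg.jgen N)⁻¹ ?_ ?_ N hN0 (v_L_jgen_inv N) (comap_L_T_smul N) ?_ ?_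
  · rw [Hurwitz.finsum_ord_inv hx, hcard]
  · intro w hw
    exact LemmaA.exists_place_eq_comap_inv v.valuationSubring (L N) hx hcard (L_injective N)
      (fun q q' c => by rw [L_algebraMap, L_algebraMap])
      (fun q q' => by rw [L_jgen, L_jgen])
      (fun q c => (Valuation.mem_valuationSubring_iff _ _).mpr (v_L_algebraMap_le N q c))
      (fun q => mem_nonunits_of_v_eq_exp hN0 (v_L_jgen_inv N q)) w hw
  · intro q
    rw [card_orbit_zpowers]
    exact width_dvd N q
  · intro q f hf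
    rw [card_orbit_zpowers]
    exact dvd_width_mul_log N q f hf

/-- **(O-∞)**: the poles of `j` on `X₀(N)` are in bijection with the orbits of `T` on
`SL(2, ℤ) ⧸ Γ₀(N)`. -/
theorem card_poles [Fintype (SL(2, ℤ) ⧸ Gamma0 N)]
    (hx : FF.IsFF Kb (DegreeAlg.jgen N))
    (hcard : Fintype.card (SL(2, ℤ) ⧸ Gamma0 N) =
      Module.finrank (IntermediateField.adjoin Kb {DegreeAlg.jgen N})
        (ModularCurve.modularFunctionFieldBar N)) :
    Nat.card {w : Place Kb (ModularCurve.modularFunctionFieldBar N) //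
        DegreeAlg.jgen N ∉ w.toValuationSubring} =
      Nat.card (MulAction.orbitRel.Quotient (Subgroup.zpowers (ModularGroup.T : SL(2, ℤ)))
        (SL(2, ℤ) ⧸ Gamma0 N)) := by
  rw [← card_inv_zeros N hx hcard]
  exact Nat.card_congr (Equiv.subtypeEquivRight fun w => (Hurwitz.inv_mem_nonunits_iff hx w).symm)

/-- **(O-∞)** in the shape of the hypothesis `hinf` of `Final.result_of`. -/
theorem card_poles_of_finrank
    (hx : FF.IsFF Kb (DegreeAlg.jgen N))
    (hdeg : Module.finrank (IntermediateField.adjoin Kb {DegreeAlg.jgen N})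
        (ModularCurve.modularFunctionFieldBar N) = Nat.card (SL(2, ℤ) ⧸ Gamma0 N)) :
    Nat.card {w : Place Kb (ModularCurve.modularFunctionFieldBar N) //
        DegreeAlg.jgen N ∉ w.toValuationSubring} =
      Nat.card (MulAction.orbitRel.Quotient (Subgroup.zpowers (ModularGroup.T : SL(2, ℤ)))
        (SL(2, ℤ) ⧸ Gamma0 N)) := by
  have : Finite (SL(2, ℤ) ⧸ Gamma0 N) := Subgroup.finite_quotient_of_finiteIndex
  let _ : Fintype (SL(2, ℤ) ⧸ Gamma0 N) := Fintype.ofFinite _
  exact card_poles N hx (by rw [hdeg, Nat.card_eq_fintype_card])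

/-- **(O-∞), hypothesis-free.** -/
theorem card_poles_eq_card_orbits_T :
    Nat.card {w : Place Kb (ModularCurve.modularFunctionFieldBar N) //
        DegreeAlg.jgen N ∉ w.toValuationSubring} =
      Nat.card (MulAction.orbitRel.Quotient (Subgroup.zpowers (ModularGroup.T : SL(2, ℤ)))
        (SL(2, ℤ) ⧸ Gamma0 N)) :=
  card_poles_of_finrank N (Degree.isFF N) (Degree.finrank_eq_card N)

end Fermat.Agent.S24.OrbitsCusp
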