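import Fermat.Agent.S24.Taylor
import Fermat.Agent.LevelOne.JBasic

/-!
# S24 slice [T], part 2: the invariance lemma

A meromorphic germ `u` at `z₀` invariant under a local biholomorphism `g` fixing `z₀` with
multiplier `λ = g'(z₀)` has order `n` with `λ ^ n = 1`.  Consequently a quotient `a/b` of
holomorphic functions on `ℍ` which is invariant under `S` (resp. `S*T`) has even order at `i`
(resp. order divisible by `3` at `ρ`).
-/

set_option autoImplicit false

noncomputable section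

open UpperHalfPlane Filter Topology PowerSeries
open scoped Manifold MatrixGroups Nat

namespace Fermat.Agent.S24.TaylorInv

open Fermat.Agent.S24.Taylor

/-- **Invariance lemma.** -/
theorem zpow_order_eq_one_of_invariant {u g : ℂ → ℂ} {z₀ : ℂ} (hg : AnalyticAt ℂ g z₀)
    (hgz : g z₀ = z₀) (hl : deriv g z₀ ≠ 0) (hu : MeromorphicAt u z₀)
    (hinv : ∀ᶠ z in 𝓝[≠] z₀, u (g z) = u z) {n : ℤ} (hn : meromorphicOrderAt u z₀ = n) :
    deriv g z₀ ^ n = 1 := by
  obtain ⟨v, hv, hv0, huv⟩ := (meromorphicOrderAt_eq_int_iff hu).1 hn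
  -- `g z - z₀ = (z - z₀) * w z`
  have hg1 : AnalyticAt ℂ (fun z ↦ g z - z₀) z₀ := hg.sub analyticAt_const
  have hord : analyticOrderAt (fun z ↦ g z - z₀) z₀ = 1 := by
    apply hg1.analyticOrderAt_eq_one_of_zero_deriv_ne_zero
    · simp [hgz]
    · rw [deriv_sub_const]; exact hl
  obtain ⟨w, hw, hw0, hgw⟩ := (hg1.analyticOrderAt_eq_natCast (n := 1)).1 (by simpa using hord)
  simp only [pow_one, smul_eq_mul] at hgw
  have hwl : w z₀ = deriv g z₀ := by
    have h1 : deriv (fun z ↦ g z - z₀) z₀ = deriv (fun z ↦ (z - z₀) * w z) z₀ :=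
      Filter.EventuallyEq.deriv_eq hgw
    rw [deriv_sub_const] at h1
    have h2 : HasDerivAt (fun z ↦ (z - z₀) * w z) (1 * w z₀ + (z₀ - z₀) * deriv w z₀) z₀ :=
      ((hasDerivAt_id z₀).sub_const z₀).mul hw.differentiableAt.hasDerivAt
    rw [h2.deriv] at h1
    simp only [one_mul, sub_self, zero_mul, add_zero] at h1
    exact h1.symm
  -- `g` maps the punctured neighbourhood into itself
  have hwne : ∀ᶠ z in 𝓝 z₀, w z ≠ 0 := hw.continuousAt.eventually_ne hw0
  have hgne : ∀ᶠ z in 𝓝[≠] z₀, g z ≠ z₀ := by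
    filter_upwards [hgw.filter_mono nhdsWithin_le_nhds, hwne.filter_mono nhdsWithin_le_nhds,
      self_mem_nhdsWithin] with z h1 h2 h3
    have h3' : z - z₀ ≠ 0 := sub_ne_zero.2 h3
    intro h
    have : g z - z₀ = 0 := sub_eq_zero.2 h
    rw [h1] at this
    exact (mul_ne_zero h3' h2) this
  have hgt : Tendsto g (𝓝[≠] z₀) (𝓝[≠] z₀) := by
    rw [tendsto_nhdsWithin_iff]
    refine ⟨?_, hgne⟩
    have := hg.continuousAt.tendsto
    rw [hgz] at this
    exact this.mono_left nhdsWithin_le_nhds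
  have huvg : ∀ᶠ z in 𝓝[≠] z₀, u (g z) = (g z - z₀) ^ n • v (g z) := hgt.eventually huv
  -- the key identity on the punctured neighbourhood
  have hkey : ∀ᶠ z in 𝓝[≠] z₀, w z ^ n * v (g z) = v z := by
    filter_upwards [huvg, huv, hinv, hgw.filter_mono nhdsWithin_le_nhds,
      self_mem_nhdsWithin] with z h1 h2 h3 h4 h5
    have h5' : z - z₀ ≠ 0 := sub_ne_zero.2 h5
    rw [h3, h2, h4, mul_zpow] at h1
    simp only [smul_eq_mul] at h1
    have h6 : (z - z₀) ^ n ≠ 0 := zpow_ne_zero n h5'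
    apply mul_left_cancel₀ h6
    rw [h1]
    ring
  -- limits
  have hwt : Tendsto (fun z ↦ w z ^ n) (𝓝[≠] z₀) (𝓝 (w z₀ ^ n)) :=
    ((continuousAt_zpow₀ (w z₀) n (Or.inl hw0)).tendsto.comp hw.continuousAt.tendsto).mono_left
      nhdsWithin_le_nhds
  have hvg : Tendsto (fun z ↦ v (g z)) (𝓝[≠] z₀) (𝓝 (v z₀)) := by
    have h1 : Tendsto g (𝓝[≠] z₀) (𝓝 z₀) := hgt.mono_right nhdsWithin_le_nhds
    exact hv.continuousAt.tendsto.comp h1
  have hvt : Tendsto v (𝓝[≠] z₀) (𝓝 (v z₀)) := hv.continuousAt.tendsto.mono_left nhdsWithin_le_nhds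
  have huniq := tendsto_nhds_unique ((hwt.mul hvg).congr' hkey) hvt
  rw [hwl] at huniq
  have : (deriv g z₀ ^ n - 1) * v z₀ = 0 := by linear_combination huniq
  rcases mul_eq_zero.1 this with h | h
  · exact sub_eq_zero.1 h
  · exact absurd h hv0

/-- A local biholomorphism fixing `z₀` maps punctured neighbourhoods into punctured
neighbourhoods. -/
theorem tendsto_punctured {g : ℂ → ℂ} {z₀ : ℂ} (hg : AnalyticAt ℂ g z₀)
    (hgz : g z₀ = z₀) (hl : deriv g z₀ ≠ 0) : Tendsto g (𝓝[≠] z₀) (𝓝[≠] z₀) := by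
  have hg1 : AnalyticAt ℂ (fun z ↦ g z - z₀) z₀ := hg.sub analyticAt_const
  have hord : analyticOrderAt (fun z ↦ g z - z₀) z₀ = 1 := by
    apply hg1.analyticOrderAt_eq_one_of_zero_deriv_ne_zero
    · simp [hgz]
    · rw [deriv_sub_const]; exact hl
  obtain ⟨w, hw, hw0, hgw⟩ := (hg1.analyticOrderAt_eq_natCast (n := 1)).1 (by simpa using hord)
  simp only [pow_one, smul_eq_mul] at hgw
  have hwne : ∀ᶠ z in 𝓝 z₀, w z ≠ 0 := hw.continuousAt.eventually_ne hw0
  have hgne : ∀ᶠ z in 𝓝[≠] z₀, g z ≠ z₀ := by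
    filter_upwards [hgw.filter_mono nhdsWithin_le_nhds, hwne.filter_mono nhdsWithin_le_nhds,
      self_mem_nhdsWithin] with z h1 h2 h3
    have h3' : z - z₀ ≠ 0 := sub_ne_zero.2 h3
    intro h
    have : g z - z₀ = 0 := sub_eq_zero.2 h
    rw [h1] at this
    exact (mul_ne_zero h3' h2) this
  rw [tendsto_nhdsWithin_iff]
  refine ⟨?_, hgne⟩
  have := hg.continuousAt.tendsto
  rw [hgz] at this
  exact this.mono_left nhdsWithin_le_nhds

/-- The Möbius transformation `σ` as a function on `ℂ`. -/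
def mob (σ : SL(2, ℤ)) : ℂ → ℂ := fun z ↦ ↑((σ : GL (Fin 2) ℝ) • ofComplex z)

theorem det_coe_pos (σ : SL(2, ℤ)) : 0 < ((σ : GL (Fin 2) ℝ).val).det := by
  have hdet : (σ : GL (Fin 2) ℝ).val.det = 1 := by
    rw [← Matrix.GeneralLinearGroup.val_det_apply]; simp
  rw [hdet]; exact one_pos

theorem analyticAt_mob (σ : SL(2, ℤ)) (τ : ℍ) : AnalyticAt ℂ (mob σ) (τ : ℂ) :=
  analyticAt_smul (det_coe_pos σ) τ

theorem deriv_mob (σ : SL(2, ℤ)) (τ : ℍ) :
    deriv (mob σ) (τ : ℂ) = 1 / denom (σ : GL (Fin 2) ℝ) τ ^ 2 := by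
  have hdet : (σ : GL (Fin 2) ℝ).val.det = 1 := by
    rw [← Matrix.GeneralLinearGroup.val_det_apply]; simp
  have := deriv_smul (det_coe_pos σ) τ
  rw [hdet] at this
  show deriv (fun z ↦ ((↑((σ : GL (Fin 2) ℝ) • ofComplex z) : ℍ) : ℂ)) (τ : ℂ) = _
  rw [this]
  simp

theorem mob_coe (σ : SL(2, ℤ)) (z : ℍ) : mob σ (z : ℂ) = ((σ • z : ℍ) : ℂ) := by
  simp [mob, ofComplex_apply]

theorem ofComplex_mob (σ : SL(2, ℤ)) (z : ℍ) : ofComplex (mob σ (z : ℂ)) = σ • z := by
  rw [mob_coe, ofComplex_apply]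

/-- **(Inv)** for quotients of holomorphic functions on `ℍ`: if `a/b` is invariant under
`σ ∈ SL(2,ℤ)` fixing `τ`, then `(denom σ τ)^(2 (ord_τ a - ord_τ b)) = 1`. -/
theorem denom_zpow_eq_one_of_invariant {a b : ℍ → ℂ} (ha : MDiff a) (hb : MDiff b)
    (ha0 : a ≠ 0) (hb0 : b ≠ 0) (σ : SL(2, ℤ)) (τ : ℍ) (hfix : σ • τ = τ)
    (hinv : ∀ z : ℍ, a (σ • z) * b z = a z * b (σ • z)) :
    (denom (σ : GL (Fin 2) ℝ) τ) ^
      (2 * (((taylorAt τ a).order.toNat : ℤ) - ((taylorAt τ b).order.toNat : ℤ))) = 1 := by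
  set A : ℂ → ℂ := a ∘ ofComplex with hA
  set B : ℂ → ℂ := b ∘ ofComplex with hB
  have hAan : AnalyticAt ℂ A τ := analyticAt_comp_ofComplex ha τ
  have hBan : AnalyticAt ℂ B τ := analyticAt_comp_ofComplex hb τ
  have hAtop : analyticOrderAt A (τ : ℂ) ≠ ⊤ := by
    rw [← order_taylorAt τ ha]; exact order_taylorAt_ne_top τ ha ha0
  have hBtop : analyticOrderAt B (τ : ℂ) ≠ ⊤ := by
    rw [← order_taylorAt τ hb]; exact order_taylorAt_ne_top τ hb hb0
  -- order of the quotient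
  have hordA : meromorphicOrderAt A (τ : ℂ) = ((taylorAt τ a).order.toNat : ℤ) := by
    rw [hAan.meromorphicOrderAt_eq, order_taylorAt τ ha]
    obtain ⟨m, hm⟩ := ENat.ne_top_iff_exists.1 hAtop
    rw [← hm]; simp
  have hordB : meromorphicOrderAt B (τ : ℂ) = ((taylorAt τ b).order.toNat : ℤ) := by
    rw [hBan.meromorphicOrderAt_eq, order_taylorAt τ hb]
    obtain ⟨m, hm⟩ := ENat.ne_top_iff_exists.1 hBtop
    rw [← hm]; simp
  have hord : meromorphicOrderAt (A / B) (τ : ℂ) =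
      ((((taylorAt τ a).order.toNat : ℤ) - ((taylorAt τ b).order.toNat : ℤ) : ℤ) : WithTop ℤ) := by
    rw [meromorphicOrderAt_div hAan.meromorphicAt hBan.meromorphicAt, hordA, hordB]
    rfl
  -- the Möbius map
  have hg := analyticAt_mob σ τ
  have hgz : mob σ (τ : ℂ) = (τ : ℂ) := by rw [mob_coe, hfix]
  have hl : deriv (mob σ) (τ : ℂ) ≠ 0 := by
    rw [deriv_mob]
    exact one_div_ne_zero (pow_ne_zero 2 (denom_ne_zero _ _))
  -- invariance on a punctured neighbourhood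
  have hBne : ∀ᶠ z in 𝓝[≠] (τ : ℂ), B z ≠ 0 := by
    rcases hBan.eventually_eq_zero_or_eventually_ne_zero with h | h
    · exact absurd (analyticOrderAt_eq_top.2 h) hBtop
    · exact h
  have hBgne : ∀ᶠ z in 𝓝[≠] (τ : ℂ), B (mob σ z) ≠ 0 :=
    (tendsto_punctured hg hgz hl).eventually hBne
  have hinv' : ∀ᶠ z in 𝓝[≠] (τ : ℂ), (A / B) (mob σ z) = (A / B) z := by
    filter_upwards [hBne, hBgne, mem_nhdsWithin_of_mem_nhds
      (isOpen_upperHalfPlaneSet.mem_nhds τ.im_pos)] with z h1 h2 h3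
    have hz : 0 < z.im := h3
    have e1 : (⟨z, hz⟩ : ℍ) = ofComplex z := (ofComplex_apply_of_im_pos hz).symm
    have e2 : ofComplex (mob σ z) = σ • ofComplex z := by
      have := ofComplex_mob σ ⟨z, hz⟩
      rw [← e1]
      exact this
    simp only [Pi.div_apply, hA, hB, Function.comp_apply] at h1 h2 ⊢
    rw [e2] at h2 ⊢
    rw [div_eq_div_iff h2 h1]
    exact hinv (ofComplex z)
  have hmain := zpow_order_eq_one_of_invariant hg hgz hl
    (hAan.meromorphicAt.div hBan.meromorphicAt) hinv' hord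
  rw [deriv_mob, one_div, inv_zpow, inv_eq_one, ← zpow_natCast, ← zpow_mul] at hmain
  exact_mod_cast hmain

theorem dvd_of_zpow_eq_one {x : ℂ} (hx : x ≠ 0) {m : ℕ} (hm : 0 < m) (hxm : x ^ m = 1)
    (hprim : ∀ r : ℕ, 0 < r → r < m → x ^ r ≠ 1) {n : ℤ} (h : x ^ n = 1) : (m : ℤ) ∣ n := by
  have hm' : (m : ℤ) ≠ 0 := by exact_mod_cast hm.ne'
  have h1 : n = (m : ℤ) * (n / m) + n % m := (Int.mul_ediv_add_emod n m).symm
  have h2 : 0 ≤ n % (m : ℤ) := Int.emod_nonneg n hm'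
  have h3 : n % (m : ℤ) < m := Int.emod_lt_of_pos n (by exact_mod_cast hm)
  have h4 : x ^ n = x ^ (n % (m : ℤ)) := by
    conv_lhs => rw [h1]
    rw [zpow_add₀ hx, zpow_mul, zpow_natCast, hxm, one_zpow, one_mul]
  rw [h4] at h
  obtain ⟨r, hr⟩ := Int.eq_ofNat_of_zero_le h2
  rw [hr, zpow_natCast] at h
  by_cases hr0 : r = 0
  · apply Int.dvd_of_emod_eq_zero
    rw [hr, hr0]; rfl
  · exfalso
    apply hprim r (Nat.pos_of_ne_zero hr0) _ h
    rw [hr] at h3
    exact_mod_cast h3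

open Fermat.Agent.LevelOne.JBasic in
/-- A quotient `a/b` of holomorphic functions invariant under `S` has even order at `i`. -/
theorem two_dvd_of_S_invariant {a b : ℍ → ℂ} (ha : MDiff a) (hb : MDiff b)
    (ha0 : a ≠ 0) (hb0 : b ≠ 0)
    (hinv : ∀ z : ℍ, a (ModularGroup.S • z) * b z = a z * b (ModularGroup.S • z)) :
    (2 : ℤ) ∣ ((taylorAt UpperHalfPlane.I a).order.toNat : ℤ) -
      ((taylorAt UpperHalfPlane.I b).order.toNat : ℤ) := by
  have hfix : ModularGroup.S • UpperHalfPlane.I = UpperHalfPlane.I := by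
    rw [modular_S_smul]
    ext
    simp [Complex.inv_I]
  have h := denom_zpow_eq_one_of_invariant ha hb ha0 hb0 ModularGroup.S UpperHalfPlane.I hfix hinv
  have hd : denom ((ModularGroup.S : SL(2, ℤ)) : GL (Fin 2) ℝ) UpperHalfPlane.I = Complex.I := by
    simp [denom, ModularGroup.S]
  rw [hd, zpow_mul] at h
  have hI2 : (Complex.I : ℂ) ^ (2 : ℤ) = -1 := by
    have : (Complex.I : ℂ) ^ (2 : ℤ) = Complex.I ^ 2 := by norm_cast
    rw [this, Complex.I_sq]
  rw [hI2] at h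
  have := dvd_of_zpow_eq_one (x := (-1 : ℂ)) (by norm_num) (m := 2) (by norm_num) (by norm_num)
    (by
      intro r hr0 hr2
      have : r = 1 := by omega
      subst this
      norm_num) h
  exact_mod_cast this

open Fermat.Agent.LevelOne.JBasic in
/-- A quotient `a/b` of holomorphic functions invariant under `S*T` has order divisible by `3`
at `ρ`. -/
theorem three_dvd_of_ST_invariant {a b : ℍ → ℂ} (ha : MDiff a) (hb : MDiff b)
    (ha0 : a ≠ 0) (hb0 : b ≠ 0)
    (hinv : ∀ z : ℍ, a ((ModularGroup.S * ModularGroup.T) • z) * b z =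
      a z * b ((ModularGroup.S * ModularGroup.T) • z)) :
    (3 : ℤ) ∣ ((taylorAt rho a).order.toNat : ℤ) - ((taylorAt rho b).order.toNat : ℤ) := by
  have h := denom_zpow_eq_one_of_invariant ha hb ha0 hb0 (ModularGroup.S * ModularGroup.T) rho
    ST_smul_rho hinv
  rw [denom_ST_rho, zpow_mul] at h
  have hr := rho_sq_add
  have h2 : ((rho : ℂ) + 1) ^ (2 : ℤ) = (rho : ℂ) := by
    have : ((rho : ℂ) + 1) ^ (2 : ℤ) = ((rho : ℂ) + 1) ^ 2 := by norm_cast
    rw [this]
    linear_combination hr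
  rw [h2] at h
  have hne : (rho : ℂ) ≠ 0 := UpperHalfPlane.ne_zero rho
  have h3 : (rho : ℂ) ^ 3 = 1 := by linear_combination ((rho : ℂ) - 1) * hr
  have him : (rho : ℂ).im = Real.sqrt 3 / 2 := rfl
  have hs3 : (0 : ℝ) < Real.sqrt 3 := Real.sqrt_pos.2 (by norm_num)
  have := dvd_of_zpow_eq_one (x := (rho : ℂ)) hne (m := 3) (by norm_num) h3
    (by
      intro r hr0 hr3
      have hr12 : r = 1 ∨ r = 2 := by omega
      rcases hr12 with rfl | rfl
      · rw [pow_one]
        intro h1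
        have := congrArg Complex.im h1
        rw [him] at this
        simp at this
      · intro h1
        have h4 : (rho : ℂ) = -2 := by linear_combination hr - h1
        have := congrArg Complex.im h4
        rw [him] at this
        simp at this) h
  exact_mod_cast this

end Fermat.Agent.S24.TaylorInv
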