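import Mathlib
import Fermat.Agent.S24.RepHom
import Fermat.Agent.S24.Taylor
import Fermat.Agent.S24.TaylorInv

/-!
# S24 (PROJECT P), slice [Lp]: the point homomorphisms

For `τ ∈ ℍ` and `γ ∈ SL(2, ℤ)`, `Lpt N τ γ : repField N →+* ℂ((t))` sends (the `q`-expansion of)
a modular function `f = a / b` for `Γ₀(N)` to the Laurent expansion of `f ∘ γ` at `τ`.  We compute
its valuation (it only depends on the point `γ • τ`), prove the divisibility of the valuations at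
the elliptic points `i` and `ρ`, compute the valuation of `j - j(τ)`, and package the family
indexed by `SL(2, ℤ) ⧸ Γ₀(N)`.
-/

set_option autoImplicit false

noncomputable section

namespace Fermat.Agent.S24.LaurentPt

open UpperHalfPlane CongruenceSubgroup Fermat.Agent.S20 Fermat.Agent.S24.RepHom
  Fermat.Agent.S24.Taylor Fermat.Agent.S24.TaylorInv WithZero Filter Topology

open scoped ModularForm Manifold MatrixGroups

/-- The Taylor expansion at `τ`, as an expansion functional with values in `ℂ((t))`. -/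
def taylorHolHom (τ : ℍ) : HolHom (fun f : ℍ → ℂ => MDiff f) (LaurentSeries ℂ) where
  T f := ofPS (taylorAt τ f)
  P_mul _ _ hf hg := hf.mul hg
  map_add f g hf hg := by rw [taylorAt_add τ hf hg, map_add]
  map_mul f g hf hg := by rw [taylorAt_mul τ hf hg, map_mul]
  map_const c := by
    rw [taylorAt_const, HahnSeries.ofPowerSeries_C, LaurentSeries.algebraMap_apply]
  inj f hf h := by
    have : taylorAt τ f = 0 := ofPS_injective (by rw [h, map_zero])
    exact (taylorAt_eq_zero_iff τ hf).mp this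

variable {N : ℕ} [NeZero N]

/-- **The point homomorphisms**: `Lpt N τ γ g` is the Laurent expansion at `τ` (in `t = z - τ`) of
`(a / b) ∘ γ`, where `a / b` is any representation of `g` as a quotient of forms for `Γ₀(N)`. -/
def Lpt (N : ℕ) [NeZero N] (τ : ℍ) (γ : SL(2, ℤ)) : repField N →+* LaurentSeries ℂ :=
  Lmap (taylorHolHom τ) γ (slashP_mdiff N γ)

theorem Lpt_spec (τ : ℍ) (γ : SL(2, ℤ)) (g : repField N) {k : ℤ} {a b : ℍ → ℂ}
    (h : IsRepOf N (g : LaurentSeries ℂ) k a b) :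
    Lpt N τ γ g * ofPS (taylorAt τ (b ∣[k] γ)) = ofPS (taylorAt τ (a ∣[k] γ)) :=
  Lmap_spec (T := taylorHolHom τ) (slashP_mdiff N γ) g h

/-- The valuation of a non-zero power series is `exp (- order)`. -/
theorem valuation_ofPS {p : PowerSeries ℂ} (hp : p ≠ 0) :
    Valued.v (ofPS p) = exp (-(p.order.toNat : ℤ)) := by
  have hfin : p.order ≠ ⊤ := by
    intro h
    exact hp (PowerSeries.order_eq_top.mp h)
  set n := p.order.toNat with hn
  have hord : p.order = (n : ℕ∞) := (ENat.natCast_toNat hfin).symm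
  have hv0 : Valued.v (ofPS p) ≠ 0 := by
    rw [ne_eq, Valuation.zero_iff]
    intro h
    exact hp (HahnSeries.ofPowerSeries_injective (by rw [h, map_zero]))
  have h1 : Valued.v (ofPS p) ≤ exp (-(n : ℤ)) := by
    rw [LaurentSeries.intValuation_le_iff_coeff_lt_eq_zero]
    intro m hm
    exact PowerSeries.coeff_of_lt_order m (by rw [hord]; exact_mod_cast hm)
  have h2 : ¬ Valued.v (ofPS p) ≤ exp (-((n + 1 : ℕ) : ℤ)) := by
    rw [LaurentSeries.intValuation_le_iff_coeff_lt_eq_zero]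
    intro h
    have := h n (Nat.lt_succ_self n)
    exact PowerSeries.coeff_order hp (by rw [← hn] at *; exact this)
  rw [← exp_log hv0] at h1 h2 ⊢
  rw [exp_le_exp] at h1 h2
  congr 1
  push_cast at h2
  omega

/-- The order at `τ` of a holomorphic function on `ℍ`, as an integer (`0` for the zero
function). -/
def ordAt (τ : ℍ) (f : ℍ → ℂ) : ℤ := ((taylorAt τ f).order.toNat : ℤ)

theorem ordAt_def (τ : ℍ) (f : ℍ → ℂ) : ordAt τ f = ((taylorAt τ f).order.toNat : ℤ) := rfl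

theorem ordAt_nonneg (τ : ℍ) (f : ℍ → ℂ) : 0 ≤ ordAt τ f := Int.natCast_nonneg _

theorem ordAt_eq_analyticOrderAt (τ : ℍ) {f : ℍ → ℂ} (hf : MDiff f) :
    ordAt τ f = ((analyticOrderAt (f ∘ ofComplex) (τ : ℂ)).toNat : ℤ) := by
  rw [ordAt, order_taylorAt τ hf]

omit [NeZero N] in
theorem slash_mdiff' {k : ℤ} {a : ℍ → ℂ} (γ : SL(2, ℤ)) (h : IsMF (G0 N) k a) :
    MDiff (a ∣[k] γ) := slashP_mdiff N γ k a h

/-- The numerator of a representation of a non-zero element is non-zero. -/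
theorem num_ne_zero {g : repField N} (hg : g ≠ 0) {k : ℤ} {a b : ℍ → ℂ}
    (h : IsRepOf N (g : LaurentSeries ℂ) k a b) (τ : ℍ) (γ : SL(2, ℤ)) :
    taylorAt τ (a ∣[k] γ) ≠ 0 := by
  intro h0
  have h1 := Lpt_spec τ γ g h
  rw [h0, map_zero] at h1
  rcases mul_eq_zero.mp h1 with h2 | h2
  · exact hg ((map_eq_zero (Lpt N τ γ)).mp h2)
  · exact den_ne_zero (T := taylorHolHom τ) (slashP_mdiff N γ) h h2

theorem den_taylor_ne_zero {g : repField N} {k : ℤ} {a b : ℍ → ℂ}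
    (h : IsRepOf N (g : LaurentSeries ℂ) k a b) (τ : ℍ) (γ : SL(2, ℤ)) :
    taylorAt τ (b ∣[k] γ) ≠ 0 := by
  intro h0
  have := den_ne_zero (T := taylorHolHom τ) (slashP_mdiff N γ) h
  apply this
  show ofPS (taylorAt τ (b ∣[k] γ)) = 0
  rw [h0, map_zero]

/-- **Valuation of the point homomorphisms**, in terms of the orders of the translates. -/
theorem valuation_Lpt (τ : ℍ) (γ : SL(2, ℤ)) {g : repField N} (hg : g ≠ 0) {k : ℤ} {a b : ℍ → ℂ}
    (h : IsRepOf N (g : LaurentSeries ℂ) k a b) :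
    Valued.v (Lpt N τ γ g) = exp (-(ordAt τ (a ∣[k] γ) - ordAt τ (b ∣[k] γ))) := by
  have h1 := congrArg (Valued.v (R := LaurentSeries ℂ)) (Lpt_spec τ γ g h)
  rw [map_mul, valuation_ofPS (num_ne_zero hg h τ γ), valuation_ofPS (den_taylor_ne_zero h τ γ)]
    at h1
  have h2 : exp (-(ordAt τ (a ∣[k] γ) - ordAt τ (b ∣[k] γ)))
      = exp (-ordAt τ (a ∣[k] γ)) * exp (ordAt τ (b ∣[k] γ)) := by
    rw [← exp_add]; congr 1; ring
  rw [h2, ordAt, ordAt, ← h1, mul_assoc, ← exp_add, neg_add_cancel, exp_zero, mul_one]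

theorem log_valuation_Lpt (τ : ℍ) (γ : SL(2, ℤ)) {g : repField N} (hg : g ≠ 0) {k : ℤ}
    {a b : ℍ → ℂ} (h : IsRepOf N (g : LaurentSeries ℂ) k a b) :
    log (Valued.v (Lpt N τ γ g)) = -(ordAt τ (a ∣[k] γ) - ordAt τ (b ∣[k] γ)) := by
  rw [valuation_Lpt τ γ hg h, log_exp]

/-- The order of a translate `u ∣[k] δ` at `τ` is the order of `u` at `δ • τ`. -/
theorem analyticOrderAt_slash {u : ℍ → ℂ} (hu : MDiff u) (k : ℤ) (δ : SL(2, ℤ)) (τ : ℍ) :
    analyticOrderAt ((u ∣[k] δ) ∘ ofComplex) (τ : ℂ)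
      = analyticOrderAt (u ∘ ofComplex) ((δ • τ : ℍ) : ℂ) := by
  -- local description of the translate
  have hev : ((u ∣[k] δ) ∘ ofComplex) =ᶠ[𝓝 (τ : ℂ)]
      ((u ∘ ofComplex) ∘ mob δ) * fun z : ℂ => denom (δ : GL (Fin 2) ℝ) z ^ (-k) := by
    filter_upwards [isOpen_upperHalfPlaneSet.mem_nhds τ.im_pos] with z hz
    have hz' : 0 < z.im := hz
    have e1 : ofComplex z = ⟨z, hz'⟩ := ofComplex_apply_of_im_pos hz'
    have e2 : ofComplex (mob δ z) = δ • ofComplex z := by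
      have := ofComplex_mob δ ⟨z, hz'⟩
      rw [e1]
      exact this
    simp only [Function.comp_apply, Pi.mul_apply]
    rw [ModularForm.SL_slash_apply, e2, e1]
  rw [analyticOrderAt_congr hev]
  have hmob := analyticAt_mob δ τ
  have hmob' : deriv (mob δ) (τ : ℂ) ≠ 0 := by
    rw [deriv_mob]
    exact one_div_ne_zero (pow_ne_zero 2 (denom_ne_zero _ _))
  have hu' : AnalyticAt ℂ (u ∘ ofComplex) (mob δ (τ : ℂ)) := by
    rw [mob_coe]
    exact analyticAt_comp_ofComplex hu _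
  have h1 : AnalyticAt ℂ ((u ∘ ofComplex) ∘ mob δ) (τ : ℂ) := hu'.comp hmob
  have hden : AnalyticAt ℂ (fun z : ℂ => denom (δ : GL (Fin 2) ℝ) z) (τ : ℂ) := by
    unfold denom
    fun_prop
  have h2 : AnalyticAt ℂ (fun z : ℂ => denom (δ : GL (Fin 2) ℝ) z ^ (-k)) (τ : ℂ) :=
    hden.zpow (denom_ne_zero _ τ)
  have h2' : (fun z : ℂ => denom (δ : GL (Fin 2) ℝ) z ^ (-k)) (τ : ℂ) ≠ 0 :=
    zpow_ne_zero _ (denom_ne_zero _ τ)
  rw [analyticOrderAt_mul h1 h2, h2.analyticOrderAt_eq_zero.mpr h2', add_zero,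
    analyticOrderAt_comp_of_deriv_ne_zero hmob hmob', mob_coe]

/-- The order of a translate `u ∣[k] δ` at `τ` is the order of `u` at `δ • τ` (Taylor form). -/
theorem order_taylorAt_slash {u : ℍ → ℂ} (hu : MDiff u) (k : ℤ) (δ : SL(2, ℤ)) (τ : ℍ) :
    (taylorAt τ (u ∣[k] δ)).order = (taylorAt (δ • τ) u).order := by
  rw [order_taylorAt τ (mdiff_slash δ hu), order_taylorAt (δ • τ) hu, analyticOrderAt_slash hu]


theorem ordAt_slash {u : ℍ → ℂ} (hu : MDiff u) (k : ℤ) (δ : SL(2, ℤ)) (τ : ℍ) :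
    ordAt τ (u ∣[k] δ) = ordAt (δ • τ) u := by
  rw [ordAt, ordAt, order_taylorAt_slash hu]

/-- **Valuation of the point homomorphisms**, in terms of the orders at the point `γ • τ`. -/
theorem valuation_Lpt_smul (τ : ℍ) (γ : SL(2, ℤ)) {g : repField N} (hg : g ≠ 0) {k : ℤ}
    {a b : ℍ → ℂ} (h : IsRepOf N (g : LaurentSeries ℂ) k a b) :
    Valued.v (Lpt N τ γ g) = exp (-(ordAt (γ • τ) a - ordAt (γ • τ) b)) := by
  rw [valuation_Lpt τ γ hg h, ordAt_slash (mdiff_of_isMF h.ha), ordAt_slash (mdiff_of_isMF h.hb)]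

/-- The valuation of `Lpt N τ γ g` only depends on the point `γ • τ`. -/
theorem valuation_Lpt_congr {τ τ' : ℍ} {γ γ' : SL(2, ℤ)} (hpt : γ • τ = γ' • τ')
    (g : repField N) : Valued.v (Lpt N τ γ g) = Valued.v (Lpt N τ' γ' g) := by
  by_cases hg : g = 0
  · simp [hg]
  · obtain ⟨k, a, b, h⟩ := g.2
    rw [valuation_Lpt_smul τ γ hg h, valuation_Lpt_smul τ' γ' hg h, hpt]

/-- The valuation ring pulled back along `Lpt N τ γ` only depends on the point `γ • τ`. -/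
theorem comap_Lpt_congr {τ τ' : ℍ} {γ γ' : SL(2, ℤ)} (hpt : γ • τ = γ' • τ') :
    (Valued.v (R := LaurentSeries ℂ)).valuationSubring.comap (Lpt N τ γ)
      = (Valued.v (R := LaurentSeries ℂ)).valuationSubring.comap (Lpt N τ' γ') := by
  ext g
  simp only [ValuationSubring.mem_comap, Valuation.mem_valuationSubring_iff]
  rw [valuation_Lpt_congr hpt g]

/-- Replacing `γ` by `γ * δ` with `δ` in the stabiliser of `τ` does not change the pulled back
valuation ring. -/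
theorem comap_Lpt_mul_stabilizer (τ : ℍ) (γ : SL(2, ℤ)) {δ : SL(2, ℤ)} (hδ : δ • τ = τ) :
    (Valued.v (R := LaurentSeries ℂ)).valuationSubring.comap (Lpt N τ (γ * δ))
      = (Valued.v (R := LaurentSeries ℂ)).valuationSubring.comap (Lpt N τ γ) :=
  comap_Lpt_congr (by rw [mul_smul, hδ])

/-! ### Injectivity in the coset -/

/-- Two point homomorphisms agree at `g` iff the translates of the representing quotient agree. -/
theorem Lpt_eq_iff (τ : ℍ) (γ γ' : SL(2, ℤ)) (g : repField N) {k : ℤ} {a b : ℍ → ℂ}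
    (h : IsRepOf N (g : LaurentSeries ℂ) k a b) :
    Lpt N τ γ g = Lpt N τ γ' g ↔ (a ∣[k] γ) * (b ∣[k] γ') = (a ∣[k] γ') * (b ∣[k] γ) := by
  have hA := slash_mdiff' (N := N) γ h.ha
  have hB := slash_mdiff' (N := N) γ h.hb
  have hA' := slash_mdiff' (N := N) γ' h.ha
  have hB' := slash_mdiff' (N := N) γ' h.hb
  have e1 : Lpt N τ γ g = ofPS (taylorAt τ (a ∣[k] γ)) / ofPS (taylorAt τ (b ∣[k] γ)) :=
    Lmap_eq_div (T := taylorHolHom τ) (slashP_mdiff N γ) g h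
  have e2 : Lpt N τ γ' g = ofPS (taylorAt τ (a ∣[k] γ')) / ofPS (taylorAt τ (b ∣[k] γ')) :=
    Lmap_eq_div (T := taylorHolHom τ) (slashP_mdiff N γ') g h
  have d1 : ofPS (taylorAt τ (b ∣[k] γ)) ≠ 0 :=
    den_ne_zero (T := taylorHolHom τ) (slashP_mdiff N γ) h
  have d2 : ofPS (taylorAt τ (b ∣[k] γ')) ≠ 0 :=
    den_ne_zero (T := taylorHolHom τ) (slashP_mdiff N γ') h
  rw [e1, e2, div_eq_div_iff d1 d2, ← map_mul, ← map_mul, ← taylorAt_mul τ hA hB',
    ← taylorAt_mul τ hA' hB]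
  constructor
  · intro h1
    exact taylorAt_injective τ (hA.mul hB') (hA'.mul hB) (ofPS_injective h1)
  · intro h1
    rw [h1]

/-! ### Level one elements -/

/-- On quotients of level one forms the point homomorphisms do not depend on `γ`. -/
theorem Lpt_levelOne (τ : ℍ) (γ : SL(2, ℤ)) (g : repField N) {k : ℤ} {a b : ℍ → ℂ}
    (h : IsRepOf N (g : LaurentSeries ℂ) k a b) (ha : IsMF 𝒮ℒ k a) (hb : IsMF 𝒮ℒ k b) :
    Lpt N τ γ g = ofPS (taylorAt τ a) / ofPS (taylorAt τ b) :=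
  Lmap_levelOne (T := taylorHolHom τ) (slashP_mdiff N γ) g h ha hb

theorem valuation_Lpt_levelOne (τ : ℍ) (γ : SL(2, ℤ)) {g : repField N} (hg : g ≠ 0) {k : ℤ}
    {a b : ℍ → ℂ} (h : IsRepOf N (g : LaurentSeries ℂ) k a b) (ha : IsMF 𝒮ℒ k a)
    (hb : IsMF 𝒮ℒ k b) :
    Valued.v (Lpt N τ γ g) = exp (-(ordAt τ a - ordAt τ b)) := by
  rw [valuation_Lpt τ γ hg h, slash_eq_of_isMF_levelOne ha, slash_eq_of_isMF_levelOne hb]

/-- The order of a function which does not vanish at `τ`. -/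
theorem ordAt_eq_zero_of_ne_zero (τ : ℍ) {f : ℍ → ℂ} (hτ : f τ ≠ 0) : ordAt τ f = 0 := by
  rw [ordAt]
  have : (taylorAt τ f).order = 0 := by
    rw [PowerSeries.order_zero_of_unit]
    rw [PowerSeries.isUnit_iff_constantCoeff, constantCoeff_taylorAt]
    exact isUnit_iff_ne_zero.mpr hτ
  rw [this]
  rfl

open Fermat.Agent.LevelOne.JBasic in
/-- The order of `E₄³ - c Δ` at `τ` is the order of `j - c`. -/
theorem ordAt_fc (c : ℂ) (τ : ℍ) :
    ordAt τ (fc c) = ((analyticOrderAt (jSub c) (τ : ℂ)).toNat : ℤ) := by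
  rw [ordAt_eq_analyticOrderAt τ (ModularFormClass.holo (fc c))]
  have hΔ : AnalyticAt ℂ (ModularForm.discriminant ∘ ofComplex) (τ : ℂ) :=
    Fermat.Agent.S24.Taylor.analyticAt_comp_ofComplex CuspForm.discriminant.holo' τ
  have hne : (ModularForm.discriminant ∘ ofComplex) (τ : ℂ) ≠ 0 := by
    rw [comp_ofComplex_coe]; exact ModularForm.discriminant_ne_zero τ
  have e : (⇑(fc c) ∘ ofComplex) = jSub c * (ModularForm.discriminant ∘ ofComplex) := by
    funext w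
    simp only [Function.comp_apply, Pi.mul_apply, jSub, fc_apply, jFun]
    have := ModularForm.discriminant_ne_zero (ofComplex w)
    field_simp
  rw [e, analyticOrderAt_mul (analyticAt_jSub c τ) hΔ, hΔ.analyticOrderAt_eq_zero.mpr hne, add_zero]

open Fermat.Agent.LevelOne.JBasic in
/-- The order of `E₄³ - j(τ) Δ` at `τ`: `3`, `2` or `1`. -/
theorem ordAt_fc_self (τ : ℍ) :
    ordAt τ (fc (jFun τ)) = if jFun τ = 0 then 3 else if jFun τ = 1728 then 2 else 1 := by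
  rw [ordAt_fc, analyticOrderAt_jSub]
  split_ifs <;> rfl

theorem ordAt_discriminant (τ : ℍ) : ordAt τ ModularForm.discriminant = 0 :=
  ordAt_eq_zero_of_ne_zero τ (ModularForm.discriminant_ne_zero τ)

open Fermat.Agent.LevelOne.JBasic in
/-- **`hm` for `y = j - j(τ)`**: if `g ∈ repField N` is represented by `(E₄³ - j(τ) Δ, Δ)`, its
image under every point homomorphism at `τ` has valuation `exp (-m)`, `m = 3, 2, 1`. -/
theorem valuation_Lpt_jSub (τ : ℍ) (γ : SL(2, ℤ)) {g : repField N}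
    (h : IsRepOf N (g : LaurentSeries ℂ) 12 (fc (jFun τ)) ModularForm.discriminant) :
    Valued.v (Lpt N τ γ g)
      = exp (-((if jFun τ = 0 then 3 else if jFun τ = 1728 then 2 else 1 : ℕ) : ℤ)) := by
  have hg : g ≠ 0 := by
    intro h0
    have h1 := h.eq
    rw [h0] at h1
    simp only [ZeroMemClass.coe_zero, zero_mul] at h1
    have h2 : Fermat.Agent.S23.QRing.qx (fc (jFun τ)) = 0 := ofPS_injective (by rw [h1, map_zero])
    have h3 := tendsto_fc (jFun τ)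
    rw [(Fermat.Agent.S23.QRing.qx_eq_zero_iff (isQ_of_isMF h.ha)).mp h2] at h3
    have h4 : Tendsto (0 : ℍ → ℂ) atImInfty (𝓝 0) := tendsto_const_nhds
    exact one_ne_zero (tendsto_nhds_unique h3 h4)
  rw [valuation_Lpt_levelOne τ γ hg h ⟨fc (jFun τ), rfl⟩
    ⟨Fermat.Agent.LevelOne.Ramanujan.ΔMF, rfl⟩, ordAt_fc_self,
    ordAt_discriminant, sub_zero]
  split_ifs <;> rfl

/-! ### Elliptic points: divisibility of the valuations -/

/-- If `γ σ γ⁻¹ ∈ Γ₀(N)`, the translates by `γ` are invariant under the slash action of `σ`. -/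
theorem slash_slash_of_conj_mem {γ σ : SL(2, ℤ)} (hσ : γ * σ * γ⁻¹ ∈ Gamma0 N) {k : ℤ}
    {c : ℍ → ℂ} (hc : IsMF (G0 N) k c) : (c ∣[k] γ) ∣[k] σ = c ∣[k] γ := by
  rw [← SlashAction.slash_mul]
  have : γ * σ = (γ * σ * γ⁻¹) * γ := by group
  rw [this, slash_mul_left_of_mem hσ hc]

/-- The cross relation needed for `TaylorInv`. -/
theorem cross_of_conj_mem {γ σ : SL(2, ℤ)} (hσ : γ * σ * γ⁻¹ ∈ Gamma0 N) {k : ℤ}
    {a b : ℍ → ℂ} (ha : IsMF (G0 N) k a) (hb : IsMF (G0 N) k b) (z : ℍ) :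
    (a ∣[k] γ) (σ • z) * (b ∣[k] γ) z = (a ∣[k] γ) z * (b ∣[k] γ) (σ • z) := by
  have h1 := congrFun (slash_slash_of_conj_mem hσ ha) z
  have h2 := congrFun (slash_slash_of_conj_mem hσ hb) z
  rw [ModularForm.SL_slash_apply] at h1 h2
  rw [← h1, ← h2]
  ring

theorem slash_fun_ne_zero {g : repField N} (hg : g ≠ 0) {k : ℤ} {a b : ℍ → ℂ}
    (h : IsRepOf N (g : LaurentSeries ℂ) k a b) (γ : SL(2, ℤ)) : a ∣[k] γ ≠ 0 := by
  intro h0
  apply num_ne_zero hg h UpperHalfPlane.I γ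
  rw [h0, taylorAt_zero]

/-- **(Inv) for the point homomorphisms**: if `σ` fixes `τ` and `γ σ γ⁻¹ ∈ Γ₀(N)`, then
`(denom σ τ) ^ (2 * log v(Lpt N τ γ g)) = 1`. -/
theorem denom_zpow_log_valuation_Lpt {τ : ℍ} {γ σ : SL(2, ℤ)} (hfix : σ • τ = τ)
    (hσ : γ * σ * γ⁻¹ ∈ Gamma0 N) {g : repField N} (hg : g ≠ 0) :
    (denom (σ : GL (Fin 2) ℝ) τ) ^ (2 * log (Valued.v (Lpt N τ γ g))) = 1 := by
  obtain ⟨k, a, b, h⟩ := g.2
  have hA := slash_mdiff' (N := N) γ h.ha
  have hB := slash_mdiff' (N := N) γ h.hb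
  have := denom_zpow_eq_one_of_invariant hA hB (slash_fun_ne_zero hg h γ)
    (slash_ne_zero γ h.hb0) σ τ hfix (cross_of_conj_mem hσ h.ha h.hb)
  rw [log_valuation_Lpt τ γ hg h, mul_neg, zpow_neg, ordAt, ordAt, this, inv_one]

open Fermat.Agent.LevelOne.JBasic in
/-- **`hs` at `i`**: if `γ S γ⁻¹ ∈ Γ₀(N)`, all valuations of `Lpt N i γ` are even. -/
theorem two_dvd_log_valuation_Lpt {γ : SL(2, ℤ)}
    (hσ : γ * ModularGroup.S * γ⁻¹ ∈ Gamma0 N) {g : repField N} (hg : g ≠ 0) :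
    (2 : ℤ) ∣ log (Valued.v (Lpt N UpperHalfPlane.I γ g)) := by
  obtain ⟨k, a, b, h⟩ := g.2
  have hA := slash_mdiff' (N := N) γ h.ha
  have hB := slash_mdiff' (N := N) γ h.hb
  have := two_dvd_of_S_invariant hA hB (slash_fun_ne_zero hg h γ)
    (slash_ne_zero γ h.hb0) (cross_of_conj_mem hσ h.ha h.hb)
  rw [log_valuation_Lpt UpperHalfPlane.I γ hg h, dvd_neg]
  exact this

open Fermat.Agent.LevelOne.JBasic in
/-- **`hs` at `ρ`**: if `γ (S T) γ⁻¹ ∈ Γ₀(N)`, all valuations of `Lpt N ρ γ` are divisible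
by `3`. -/
theorem three_dvd_log_valuation_Lpt {γ : SL(2, ℤ)}
    (hσ : γ * (ModularGroup.S * ModularGroup.T) * γ⁻¹ ∈ Gamma0 N) {g : repField N} (hg : g ≠ 0) :
    (3 : ℤ) ∣ log (Valued.v (Lpt N rho γ g)) := by
  obtain ⟨k, a, b, h⟩ := g.2
  have hA := slash_mdiff' (N := N) γ h.ha
  have hB := slash_mdiff' (N := N) γ h.hb
  have := three_dvd_of_ST_invariant hA hB (slash_fun_ne_zero hg h γ)
    (slash_ne_zero γ h.hb0) (cross_of_conj_mem hσ h.ha h.hb)
  rw [log_valuation_Lpt rho γ hg h, dvd_neg]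
  exact this

/-! ### Constants, and the coset-indexed family -/

theorem Lpt_const (τ : ℍ) (γ : SL(2, ℤ)) (c : ℂ) (hc : HahnSeries.C c ∈ repField N) :
    Lpt N τ γ ⟨HahnSeries.C c, hc⟩ = HahnSeries.C c := by
  have := Lmap_const (T := taylorHolHom τ) (slashP_mdiff N γ) c hc
  rw [LaurentSeries.algebraMap_apply] at this
  exact this

theorem valuation_Lpt_const_le_one (τ : ℍ) (γ : SL(2, ℤ)) (c : ℂ)
    (hc : HahnSeries.C c ∈ repField N) : Valued.v (Lpt N τ γ ⟨HahnSeries.C c, hc⟩) ≤ 1 := by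
  rw [Lpt_const, ← HahnSeries.ofPowerSeries_C]
  by_cases h0 : PowerSeries.C c = (0 : PowerSeries ℂ)
  · rw [h0, map_zero, map_zero]
    exact zero_le
  · rw [show HahnSeries.ofPowerSeries ℤ ℂ (PowerSeries.C c) = ofPS (PowerSeries.C c) from rfl,
      valuation_ofPS h0, ← exp_zero, exp_le_exp]
    simp

/-- `Lpt N τ γ` only depends on the coset `Γ₀(N) γ`. -/
theorem Lpt_mul_left (τ : ℍ) (γ : SL(2, ℤ)) {δ : SL(2, ℤ)} (hδ : δ ∈ Gamma0 N) :
    Lpt N τ (δ * γ) = Lpt N τ γ :=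
  Lmap_mul_left (T := taylorHolHom τ) hδ (slashP_mdiff N γ)

/-- The family of point homomorphisms at `τ`, indexed by `q = g Γ₀(N) ∈ SL(2, ℤ) ⧸ Γ₀(N)`:
`LptQ N τ (g Γ₀(N)) = Lpt N τ g⁻¹`. -/
def LptQ (N : ℕ) [NeZero N] (τ : ℍ) (q : SL(2, ℤ) ⧸ Gamma0 N) :
    repField N →+* LaurentSeries ℂ :=
  Lpt N τ (Quotient.out q)⁻¹

theorem LptQ_mk (τ : ℍ) (g : SL(2, ℤ)) :
    LptQ N τ (QuotientGroup.mk g : SL(2, ℤ) ⧸ Gamma0 N) = Lpt N τ g⁻¹ := by
  obtain ⟨δ, hδ⟩ := QuotientGroup.mk_out_eq_mul (Gamma0 N) g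
  unfold LptQ
  rw [hδ, mul_inv_rev]
  exact Lpt_mul_left τ g⁻¹ (inv_mem δ.2)

theorem LptQ_smul_mk (τ : ℍ) (d g : SL(2, ℤ)) :
    LptQ N τ (d • (QuotientGroup.mk g : SL(2, ℤ) ⧸ Gamma0 N)) = Lpt N τ (g⁻¹ * d⁻¹) := by
  rw [MulAction.Quotient.smul_mk, LptQ_mk, smul_eq_mul, mul_inv_rev]

/-- **`hsame`**: if `d` fixes `τ`, the places attached to `q` and `d • q` agree. -/
theorem comap_LptQ_smul (τ : ℍ) {d : SL(2, ℤ)} (hd : d • τ = τ) (q : SL(2, ℤ) ⧸ Gamma0 N) :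
    (Valued.v (R := LaurentSeries ℂ)).valuationSubring.comap (LptQ N τ (d • q))
      = (Valued.v (R := LaurentSeries ℂ)).valuationSubring.comap (LptQ N τ q) := by
  induction q using QuotientGroup.induction_on with
  | H g =>
    rw [LptQ_smul_mk, LptQ_mk]
    apply comap_Lpt_mul_stabilizer
    rw [← hd, ← mul_smul, inv_mul_cancel, one_smul, hd]

omit [NeZero N] in
/-- `d` fixes the coset `g Γ₀(N)` iff `g⁻¹ d g ∈ Γ₀(N)`. -/
theorem smul_mk_eq_iff (d g : SL(2, ℤ)) :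
    d • (QuotientGroup.mk g : SL(2, ℤ) ⧸ Gamma0 N) = QuotientGroup.mk g
      ↔ g⁻¹ * d * g⁻¹⁻¹ ∈ Gamma0 N := by
  rw [MulAction.Quotient.smul_mk, smul_eq_mul, eq_comm, QuotientGroup.eq, inv_inv, mul_assoc]

open Fermat.Agent.LevelOne.JBasic in
/-- **`hs` at `i`** for the coset-indexed family. -/
theorem two_dvd_log_valuation_LptQ {q : SL(2, ℤ) ⧸ Gamma0 N} (hq : ModularGroup.S • q = q)
    {g : repField N} (hg : g ≠ 0) :
    (2 : ℤ) ∣ log (Valued.v (LptQ N UpperHalfPlane.I q g)) := by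
  induction q using QuotientGroup.induction_on with
  | H γ =>
    rw [LptQ_mk]
    exact two_dvd_log_valuation_Lpt ((smul_mk_eq_iff _ _).mp hq) hg

open Fermat.Agent.LevelOne.JBasic in
/-- **`hs` at `ρ`** for the coset-indexed family. -/
theorem three_dvd_log_valuation_LptQ {q : SL(2, ℤ) ⧸ Gamma0 N}
    (hq : (ModularGroup.S * ModularGroup.T) • q = q) {g : repField N} (hg : g ≠ 0) :
    (3 : ℤ) ∣ log (Valued.v (LptQ N rho q g)) := by
  induction q using QuotientGroup.induction_on with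
  | H γ =>
    rw [LptQ_mk]
    exact three_dvd_log_valuation_Lpt ((smul_mk_eq_iff _ _).mp hq) hg

open Fermat.Agent.LevelOne.JBasic in
/-- **`hm`** for the coset-indexed family. -/
theorem valuation_LptQ_jSub (τ : ℍ) (q : SL(2, ℤ) ⧸ Gamma0 N) {g : repField N}
    (h : IsRepOf N (g : LaurentSeries ℂ) 12 (fc (jFun τ)) ModularForm.discriminant) :
    Valued.v (LptQ N τ q g)
      = exp (-((if jFun τ = 0 then 3 else if jFun τ = 1728 then 2 else 1 : ℕ) : ℤ)) :=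
  valuation_Lpt_jSub τ _ h

/-- **`hinj`**: the family `q ↦ LptQ N τ q` is injective as soon as some element of `repField N`
has pairwise distinct translates. -/
theorem LptQ_injective_of (τ : ℍ) (g : repField N) {k : ℤ} {a b : ℍ → ℂ}
    (h : IsRepOf N (g : LaurentSeries ℂ) k a b)
    (hsep : ∀ γ γ' : SL(2, ℤ), (a ∣[k] γ⁻¹) * (b ∣[k] γ'⁻¹) = (a ∣[k] γ'⁻¹) * (b ∣[k] γ⁻¹) →
      (QuotientGroup.mk γ : SL(2, ℤ) ⧸ Gamma0 N) = QuotientGroup.mk γ') :
    Function.Injective (LptQ N τ) := by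
  intro q q' hqq
  induction q using QuotientGroup.induction_on with
  | H γ =>
    induction q' using QuotientGroup.induction_on with
    | H γ' =>
      rw [LptQ_mk, LptQ_mk] at hqq
      exact hsep γ γ' ((Lpt_eq_iff τ γ⁻¹ γ'⁻¹ g h).mp (by rw [hqq]))

end Fermat.Agent.S24.LaurentPt
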