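import Mathlib
import Fermat.Agent.S24.OrbitCount
import Fermat.Agent.S24.LaurentPt
import Fermat.Agent.S24.RepAll
import Fermat.Agent.S24.LmapSep
import Fermat.Agent.S24.LmapJ
import Fermat.Agent.S24.LmapTaylor
import Fermat.Agent.S24.OrbitDefs
import Fermat.Agent.S24.DegreeAlg
import Fermat.Agent.S24.Degree
import Fermat.Agent.S20.CountOrbitSize

/-!
# S24 (PROJECT P), slice [O2]: the places over the points of `ℍ`

`F = modularFunctionFieldBar N`, `K = AlgebraicClosure ℚ`, `x = jgen N`, `Q = SL(2,ℤ) ⧸ Γ₀(N)`.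
For `a : K`, the number of places of `F` over `j = a` is `#Q` for `a ≠ 0, 1728`, the number of
orbits of `S` on `Q` for `a = 1728`, and the number of orbits of `S T` on `Q` for `a = 0`.

The embeddings are `L τ q := LptQ N τ q ∘ toRepField N ι` (Laurent expansion at `τ` of `f ∘ γ⁻¹`,
`q = γ Γ₀(N)`), with `j(τ) = ι a`.
-/

set_option autoImplicit false

noncomputable section

namespace Fermat.Agent.S24.OrbitsPt

open UpperHalfPlane CongruenceSubgroup WithZero AlgebraicCurve IntermediateField MulAction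
  ModularGroup
open Fermat.Agent.S24.RepHom Fermat.Agent.S24.LaurentPt Fermat.Agent.S24.RepAll
  Fermat.Agent.S24.OrbitDefs Fermat.Agent.S24.DegreeAlg Fermat.Agent.LevelOne.JBasic
  Fermat.Agent.S24.FF
open scoped MatrixGroups ModularForm

local notation "Kb" => AlgebraicClosure ℚ

variable (N : ℕ) [NeZero N]

/-! ### The map `F → repField N` on constants, on `j` and on `j_N` -/

theorem toRepField_algebraMap (c : Kb) :
    toRepField N ι (algebraMap Kb (ModularCurve.modularFunctionFieldBar N) c)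
      = LmapJ.crep N (ι c) := by
  apply Subtype.ext
  show ModularCurve.coeffMap ι (algebraMap Kb (LaurentSeries Kb) c) = HahnSeries.C (ι c)
  rw [ModularCurve.algebraMap_laurentSeries_eq_single, ModularCurve.coeffMap_single]
  rfl

theorem coeffMap_coeffEmb (z : LaurentSeries ℚ) :
    ModularCurve.coeffMap ι (ModularCurve.coeffEmb Kb z) = ModularCurve.coeffEmb ℂ z := by
  rw [ModularCurve.coeffEmb, ModularCurve.coeffMap_coeffMap]
  exact ModularCurve.coeffMap_congr (RingHom.ext_rat _ _) z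

theorem toRepField_jgen : toRepField N ι (jgen N) = LmapJ.jrep N := by
  apply Subtype.ext
  show ModularCurve.coeffMap ι ((jgen N : ModularCurve.modularFunctionFieldBar N) :
    LaurentSeries Kb) = LmapJ.jC
  rw [coe_jgen, coeffMap_coeffEmb]
  rfl

theorem toRepField_jdivF_N :
    toRepField N ι (jdivF N ⟨N, dvd_rfl⟩) = LmapSep.jNrep N := by
  apply Subtype.ext
  show ModularCurve.coeffMap ι (jdiv Kb N ⟨N, dvd_rfl⟩) = LmapSep.jdSeries N
  rw [jdiv_def, coeffMap_coeffEmb]
  rfl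

theorem toRepField_injective : Function.Injective (toRepField N ι) :=
  (toRepField N ι).injective

/-! ### The family of embeddings -/

/-- The embeddings `F → ℂ((t))`: Laurent expansion at `τ` of `f ∘ γ⁻¹`, `q = γ Γ₀(N)`. -/
def L (τ : ℍ) (q : SL(2, ℤ) ⧸ Gamma0 N) :
    ModularCurve.modularFunctionFieldBar N →+* LaurentSeries ℂ :=
  (LptQ N τ q).comp (toRepField N ι)

theorem L_apply (τ : ℍ) (q : SL(2, ℤ) ⧸ Gamma0 N) (f : ModularCurve.modularFunctionFieldBar N) :
    L N τ q f = LptQ N τ q (toRepField N ι f) := rfl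

theorem L_injective (τ : ℍ) : Function.Injective (L N τ) := by
  intro q q' h
  have h1 := congrArg (fun φ => φ (jdivF N ⟨N, dvd_rfl⟩)) h
  simp only [L_apply, toRepField_jdivF_N] at h1
  exact LmapSep.quot_eq_of_Lmap_out_inv_eq_mdiff (taylorHolHom τ) q q' h1

theorem L_algebraMap (τ : ℍ) (q : SL(2, ℤ) ⧸ Gamma0 N) (c : Kb) :
    L N τ q (algebraMap Kb _ c) = HahnSeries.C (ι c) := by
  rw [L_apply, toRepField_algebraMap]
  exact Lpt_const τ _ (ι c) _

theorem L_jgen (τ : ℍ) (q : SL(2, ℤ) ⧸ Gamma0 N) :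
    L N τ q (jgen N) = ofPS (Taylor.taylorAt τ (⇑LevelRaise.E4cube))
      / ofPS (Taylor.taylorAt τ (⇑LevelRaise.DeltaMF)) := by
  rw [L_apply, toRepField_jgen]
  exact Lpt_levelOne τ _ (LmapJ.jrep N) (LmapJ.isRepOf_jC N) ⟨LevelRaise.E4cube, rfl⟩
    ⟨LevelRaise.DeltaMF, rfl⟩

theorem v_L_algebraMap_le (τ : ℍ) (q : SL(2, ℤ) ⧸ Gamma0 N) (c : Kb) :
    v (L N τ q (algebraMap Kb _ c)) ≤ 1 := by
  rw [L_apply, toRepField_algebraMap]
  exact valuation_Lpt_const_le_one τ _ (ι c) _

theorem v_L_jgen_sub (τ : ℍ) (q : SL(2, ℤ) ⧸ Gamma0 N) (a : Kb) (ha : jFun τ = ι a) :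
    v (L N τ q (jgen N - algebraMap Kb _ a))
      = exp (-((if jFun τ = 0 then 3 else if jFun τ = 1728 then 2 else 1 : ℕ) : ℤ)) := by
  rw [L_apply, map_sub, toRepField_jgen, toRepField_algebraMap, ← ha]
  exact LmapJ.valued_Lmap_jrep_sub (N := N) (taylorHolHom τ) (fun _ _ => rfl)
    (Quotient.out q)⁻¹ (slashP_mdiff N _)

theorem comap_L_smul (τ : ℍ) {d : SL(2, ℤ)} (hd : d • τ = τ) (q : SL(2, ℤ) ⧸ Gamma0 N) :
    v.valuationSubring.comap (L N τ (d • q)) = v.valuationSubring.comap (L N τ q) := by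
  ext f
  have h := comap_LptQ_smul (N := N) τ hd q
  have h1 : toRepField N ι f ∈ v.valuationSubring.comap (LptQ N τ (d • q)) ↔
      toRepField N ι f ∈ v.valuationSubring.comap (LptQ N τ q) := by rw [h]
  exact h1

/-! ### The abstract count at a point `τ` with stabiliser generated by `d` -/

instance : Finite (SL(2, ℤ) ⧸ Gamma0 N) := Subgroup.finite_quotient_of_finiteIndex

/-- The general statement: `τ` with `j(τ) = ι a`, fixed by `d`, ramification index `m`. -/
theorem card_zeros_of (hx : IsFF Kb (jgen N))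
    (hdeg : Module.finrank Kb⟮jgen N⟯ ↥(ModularCurve.modularFunctionFieldBar N)
      = Nat.card (SL(2, ℤ) ⧸ Gamma0 N))
    (a : Kb) (τ : ℍ) (ha : jFun τ = ι a) (d : SL(2, ℤ)) (hd : d • τ = τ) (m : ℕ)
    (hm : (if jFun τ = 0 then 3 else if jFun τ = 1728 then 2 else 1 : ℕ) = m)
    (hdvd : ∀ q : SL(2, ℤ) ⧸ Gamma0 N, Nat.card (orbit (Subgroup.zpowers d) q) ∣ m)
    (hs : ∀ (q : SL(2, ℤ) ⧸ Gamma0 N) (g : repField N), g ≠ 0 →
      (m : ℤ) ∣ (Nat.card (orbit (Subgroup.zpowers d) q) : ℤ) * log (v (LptQ N τ q g))) :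
    Nat.card {w : Place Kb ↥(ModularCurve.modularFunctionFieldBar N) //
        jgen N - algebraMap Kb _ a ∈ w.toValuationSubring.nonunits}
      = Nat.card (orbitRel.Quotient (Subgroup.zpowers d) (SL(2, ℤ) ⧸ Gamma0 N)) := by
  classical
  let _ : Fintype (SL(2, ℤ) ⧸ Gamma0 N) := Fintype.ofFinite _
  have hm0 : 0 < m := by
    rw [← hm]; split_ifs <;> norm_num
  refine OrbitCount.card_zeros_eq_card_orbits hx a v d (L N τ) ?_ (L_injective N τ) ?_ ?_
    (fun q c => v_L_algebraMap_le N τ q c) m hm0 ?_ (comap_L_smul N τ hd) hdvd ?_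
  · rw [hdeg, Nat.card_eq_fintype_card]
  · intro q q' c
    rw [L_algebraMap, L_algebraMap]
  · intro q q'
    rw [L_jgen, L_jgen]
  · intro q
    rw [v_L_jgen_sub N τ q a ha, hm]
  · intro q f hf
    exact hs q (toRepField N ι f) (fun h0 => hf (toRepField_injective N (by rw [h0, map_zero])))

/-! ### The three cases -/

theorem ι_ne_zero {a : Kb} (ha : a ≠ 0) : ι a ≠ 0 := fun h =>
  ha (ι_injective (by rw [h, map_zero]))

theorem ι_ne_1728 {a : Kb} (ha : a ≠ 1728) : ι a ≠ 1728 := fun h =>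
  ha (ι_injective (by rw [h, map_ofNat]))

omit [NeZero N] in
theorem card_orbit_one (q : SL(2, ℤ) ⧸ Gamma0 N) :
    Nat.card (orbit (Subgroup.zpowers (1 : SL(2, ℤ))) q) = 1 := by
  have h := Fermat.Agent.S20.Count.card_orbit_zpowers_dvd (1 : SL(2, ℤ)) q 1 (by simp)
  exact Nat.dvd_one.mp h

omit [NeZero N] in
theorem card_orbitRel_one :
    Nat.card (orbitRel.Quotient (Subgroup.zpowers (1 : SL(2, ℤ))) (SL(2, ℤ) ⧸ Gamma0 N))
      = Nat.card (SL(2, ℤ) ⧸ Gamma0 N) := by
  refine Nat.card_congr (Equiv.ofBijective (fun q => Quotient.mk'' q) ⟨?_, ?_⟩).symm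
  · intro q q' h
    have h1 : orbitRel (Subgroup.zpowers (1 : SL(2, ℤ))) _ q q' := Quotient.exact' h
    rw [orbitRel_apply] at h1
    obtain ⟨⟨g, hg⟩, rfl⟩ := h1
    rw [Subgroup.zpowers_one_eq_bot, Subgroup.mem_bot] at hg
    subst hg
    exact (one_smul _ _)
  · intro x
    induction x using Quotient.inductionOn' with
    | h q => exact ⟨q, rfl⟩

/-- **(O-gen)**: over `a ≠ 0, 1728` there are exactly `#Q` places. -/
theorem card_zeros_generic (hx : IsFF Kb (jgen N))
    (hdeg : Module.finrank Kb⟮jgen N⟯ ↥(ModularCurve.modularFunctionFieldBar N)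
      = Nat.card (SL(2, ℤ) ⧸ Gamma0 N))
    (a : Kb) (h1728 : a ≠ 1728) (h0 : a ≠ 0) :
    Nat.card {w : Place Kb ↥(ModularCurve.modularFunctionFieldBar N) //
        jgen N - algebraMap Kb _ a ∈ w.toValuationSubring.nonunits}
      = Nat.card (SL(2, ℤ) ⧸ Gamma0 N) := by
  obtain ⟨τ, hτ⟩ := jFun_surjective (ι a)
  rw [← card_orbitRel_one N]
  refine card_zeros_of N hx hdeg a τ hτ 1 (one_smul _ _) 1 ?_ ?_ ?_
  · rw [hτ, if_neg (ι_ne_zero h0), if_neg (ι_ne_1728 h1728)]
  · intro q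
    rw [card_orbit_one]
  · intro q g _
    exact one_dvd _

/-- **(O-1728)**: the places over `1728` are the orbits of `S` on `Q`. -/
theorem card_zeros_1728 (hx : IsFF Kb (jgen N))
    (hdeg : Module.finrank Kb⟮jgen N⟯ ↥(ModularCurve.modularFunctionFieldBar N)
      = Nat.card (SL(2, ℤ) ⧸ Gamma0 N)) :
    Nat.card {w : Place Kb ↥(ModularCurve.modularFunctionFieldBar N) //
        jgen N - algebraMap Kb _ 1728 ∈ w.toValuationSubring.nonunits}
      = Nat.card (orbitRel.Quotient (Subgroup.zpowers (S : SL(2, ℤ)))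
          (SL(2, ℤ) ⧸ Gamma0 N)) := by
  classical
  have hI : jFun UpperHalfPlane.I = ι 1728 := by rw [jFun_I, map_ofNat]
  refine card_zeros_of N hx hdeg 1728 UpperHalfPlane.I hI S LmapTaylor.S_smul_I 2 ?_ ?_ ?_
  · rw [jFun_I]; norm_num
  · intro q
    exact Fermat.Agent.S20.Count.card_orbit_zpowers_dvd S q 2
      (Fermat.Agent.S20.Count.S_sq_smul N q)
  · intro q g hg
    rw [Fermat.Agent.S20.Count.card_orbit_S N q]
    split_ifs with hq
    · rw [Nat.cast_one, one_mul]
      exact_mod_cast two_dvd_log_valuation_LptQ hq hg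
    · exact dvd_mul_right _ _

/-- **(O-0)**: the places over `0` are the orbits of `S T` on `Q`. -/
theorem card_zeros_zero (hx : IsFF Kb (jgen N))
    (hdeg : Module.finrank Kb⟮jgen N⟯ ↥(ModularCurve.modularFunctionFieldBar N)
      = Nat.card (SL(2, ℤ) ⧸ Gamma0 N)) :
    Nat.card {w : Place Kb ↥(ModularCurve.modularFunctionFieldBar N) //
        jgen N - algebraMap Kb _ 0 ∈ w.toValuationSubring.nonunits}
      = Nat.card (orbitRel.Quotient (Subgroup.zpowers (S * T : SL(2, ℤ)))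
          (SL(2, ℤ) ⧸ Gamma0 N)) := by
  classical
  have hr : jFun rho = ι 0 := by rw [jFun_rho, map_zero]
  refine card_zeros_of N hx hdeg 0 rho hr (S * T) ST_smul_rho 3 ?_ ?_ ?_
  · rw [jFun_rho]; norm_num
  · intro q
    exact Fermat.Agent.S20.Count.card_orbit_zpowers_dvd (S * T) q 3
      (Fermat.Agent.S20.Count.ST_cube_smul N q)
  · intro q g hg
    rw [Fermat.Agent.S20.Count.card_orbit_ST N q]
    split_ifs with hq
    · rw [Nat.cast_one, one_mul]
      exact_mod_cast three_dvd_log_valuation_LptQ hq hg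
    · exact dvd_mul_right _ _

/-! ### Hypothesis-free forms (degree from `Degree.lean`), in the shape of `Final.result_of` -/

/-- **(O-gen)**, hypothesis-free. -/
theorem hgen (a : Kb) (h1728 : a ≠ 1728) (h0 : a ≠ 0) :
    Nat.card {w : Place Kb ↥(ModularCurve.modularFunctionFieldBar N) //
        jgen N - algebraMap Kb _ a ∈ w.toValuationSubring.nonunits}
      = Nat.card (SL(2, ℤ) ⧸ Gamma0 N) :=
  card_zeros_generic N (Degree.isFF N) (Degree.finrank_eq_card N) a h1728 h0

/-- **(O-1728)**, hypothesis-free. -/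
theorem h1728 :
    Nat.card {w : Place Kb ↥(ModularCurve.modularFunctionFieldBar N) //
        jgen N - algebraMap Kb _ 1728 ∈ w.toValuationSubring.nonunits}
      = Nat.card (orbitRel.Quotient (Subgroup.zpowers (S : SL(2, ℤ)))
          (SL(2, ℤ) ⧸ Gamma0 N)) :=
  card_zeros_1728 N (Degree.isFF N) (Degree.finrank_eq_card N)

/-- **(O-0)**, hypothesis-free. -/
theorem h0 :
    Nat.card {w : Place Kb ↥(ModularCurve.modularFunctionFieldBar N) //
        jgen N - algebraMap Kb _ 0 ∈ w.toValuationSubring.nonunits}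
      = Nat.card (orbitRel.Quotient (Subgroup.zpowers (S * T : SL(2, ℤ)))
          (SL(2, ℤ) ⧸ Gamma0 N)) :=
  card_zeros_zero N (Degree.isFF N) (Degree.finrank_eq_card N)

end Fermat.Agent.S24.OrbitsPt
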