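import Mathlib
import Fermat.Agent.S24.RepAll
import Fermat.Agent.S24.DegreeAlg
import Fermat.Agent.S24.LmapJ
import Fermat.Agent.S24.LmapSep

/-!
# S24 (PROJECT P): the dictionary between the prelude function field and `repField N`

`F = modularFunctionFieldBar N ⊆ ℚ̄((q))` is the field of the frozen statement;
`repField N ⊆ ℂ((q))` is the field of series represented by quotients of forms for `Γ₀(N)`, on
which the homomorphisms `Lmap T γ` live.  `RepAll.toRepField N ι : F →+* repField N` is the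
coefficientwise base change along `ι : ℚ̄ →+* ℂ`.  This file identifies the images of the
distinguished elements:

* `toRepField_jgen`      : `j ↦ LmapJ.jrep N`;
* `toRepField_algebraMap`: constants `c ↦ LmapJ.crep N (ι c)`;
* `toRepField_jdivF`     : `j(q^d) ↦ LmapSep.jdRep N d hd`, in particular `j_N ↦ LmapSep.jNrep N`;
* `toRepField_jgen_sub`, `toRepField_jgen_inv`;
* `Lfam T γ hP = (Lmap T γ hP).comp (toRepField N ι) : F →+* Ω`, with its values on `j`, on the
  constants, on `j - c`, on `j⁻¹`, on `j_N`, the independence of the coset representative, and the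
  separation statement in the form of `hinj`.
-/

set_option autoImplicit false

noncomputable section

open UpperHalfPlane hiding I
open ModularForm CongruenceSubgroup ModularCurve
open scoped MatrixGroups ModularForm Manifold

namespace Fermat.Agent.S24.Bridge

open Fermat.Agent.S24.RepHom Fermat.Agent.S24.RepAll Fermat.Agent.S24.DegreeAlg

local notation "Kb" => AlgebraicClosure ℚ

/-! ### Base change of coefficients -/

theorem coeffMap_coeffEmb_eq {K L : Type*} [Field K] [Field L] [Algebra ℚ K] [Algebra ℚ L]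
    (φ : K →+* L) (x : LaurentSeries ℚ) : coeffMap φ (coeffEmb K x) = coeffEmb L x := by
  rw [coeffEmb, coeffMap_coeffMap]
  exact coeffMap_congr (RingHom.ext_rat _ _) x

theorem coeffMap_algebraMap_eq_C {K : Type*} [Field K] (φ : K →+* ℂ) (a : K) :
    coeffMap φ (algebraMap K (LaurentSeries K) a) = HahnSeries.C (φ a) := by
  rw [algebraMap_laurentSeries_eq_single, coeffMap_single]
  rfl

variable (N : ℕ) [NeZero N] (ι : Kb →+* ℂ)

/-! ### The dictionary -/

/-- (a) `j ↦ jrep`. -/
theorem toRepField_jgen : toRepField N ι (jgen N) = LmapJ.jrep N := by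
  apply Subtype.ext
  rw [coe_toRepField, coe_jgen]
  exact coeffMap_coeffEmb_eq ι jq

/-- (b) constants `c ↦ crep (ι c)`. -/
theorem toRepField_algebraMap (c : Kb) :
    toRepField N ι (algebraMap Kb (modularFunctionFieldBar N) c) = LmapJ.crep N (ι c) := by
  apply Subtype.ext
  rw [coe_toRepField]
  exact coeffMap_algebraMap_eq_C ι c

/-- (c) `j(q^d) ↦ jdRep`. -/
theorem toRepField_jdivF (d : ℕ) [NeZero d] (hd : d ∣ N) :
    toRepField N ι (jdivF N ⟨d, hd⟩) = LmapSep.jdRep N d hd := by
  apply Subtype.ext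
  rw [coe_toRepField]
  exact coeffMap_coeffEmb_eq ι _

/-- (c) `j_N ↦ jNrep`. -/
theorem toRepField_jdivF_self :
    toRepField N ι (jdivF N ⟨N, dvd_rfl⟩) = LmapSep.jNrep N :=
  toRepField_jdivF N ι N dvd_rfl

/-- (d) `j - c ↦ jrep - crep (ι c)`. -/
theorem toRepField_jgen_sub (c : Kb) :
    toRepField N ι (jgen N - algebraMap Kb (modularFunctionFieldBar N) c)
      = LmapJ.jrep N - LmapJ.crep N (ι c) := by
  rw [map_sub, toRepField_jgen, toRepField_algebraMap]

/-- (d) `j⁻¹ ↦ jrep⁻¹`. -/
theorem toRepField_jgen_inv : toRepField N ι (jgen N)⁻¹ = (LmapJ.jrep N)⁻¹ := by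
  rw [map_inv₀, toRepField_jgen]

theorem toRepField_injective : Function.Injective (toRepField N ι) :=
  (toRepField N ι).injective

/-! ### The family of homomorphisms on the prelude field -/

section Lfam

variable {N}
variable {P : (ℍ → ℂ) → Prop} {Ω : Type*} [Field Ω] [Algebra ℂ Ω] (T : HolHom P Ω)
  (γ : SL(2, ℤ))

/-- The homomorphism `F → Ω` attached to an expansion functional and `γ`. -/
def Lfam (hP : SlashP N P γ) : modularFunctionFieldBar N →+* Ω :=
  (Lmap T γ hP).comp (toRepField N ι)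

variable {T γ}

theorem Lfam_apply (hP : SlashP N P γ) (f : modularFunctionFieldBar N) :
    Lfam ι T γ hP f = Lmap T γ hP (toRepField N ι f) := rfl

theorem Lfam_jgen (hP : SlashP N P γ) : Lfam ι T γ hP (jgen N) = Lmap T γ hP (LmapJ.jrep N) := by
  rw [Lfam_apply, toRepField_jgen]

theorem Lfam_algebraMap (hP : SlashP N P γ) (c : Kb) :
    Lfam ι T γ hP (algebraMap Kb (modularFunctionFieldBar N) c) = algebraMap ℂ Ω (ι c) := by
  rw [Lfam_apply, toRepField_algebraMap, LmapJ.crep, Lmap_const]

theorem Lfam_jgen_sub (hP : SlashP N P γ) (c : Kb) :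
    Lfam ι T γ hP (jgen N - algebraMap Kb (modularFunctionFieldBar N) c)
      = Lmap T γ hP (LmapJ.jrep N - LmapJ.crep N (ι c)) := by
  rw [Lfam_apply, toRepField_jgen_sub]

theorem Lfam_jgen_inv (hP : SlashP N P γ) :
    Lfam ι T γ hP (jgen N)⁻¹ = (Lmap T γ hP (LmapJ.jrep N))⁻¹ := by
  rw [map_inv₀, Lfam_jgen]

theorem Lfam_jdivF_self (hP : SlashP N P γ) :
    Lfam ι T γ hP (jdivF N ⟨N, dvd_rfl⟩) = Lmap T γ hP (LmapSep.jNrep N) := by
  rw [Lfam_apply, toRepField_jdivF_self]

/-- `hconst`: the value on a constant does not depend on `γ`. -/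
theorem Lfam_algebraMap_eq {γ' : SL(2, ℤ)} (hP : SlashP N P γ) (hP' : SlashP N P γ') (c : Kb) :
    Lfam ι T γ hP (algebraMap Kb (modularFunctionFieldBar N) c)
      = Lfam ι T γ' hP' (algebraMap Kb (modularFunctionFieldBar N) c) := by
  rw [Lfam_algebraMap, Lfam_algebraMap]

/-- `hLx`: the value on `j` does not depend on `γ`. -/
theorem Lfam_jgen_eq {γ' : SL(2, ℤ)} (hP : SlashP N P γ) (hP' : SlashP N P γ') :
    Lfam ι T γ hP (jgen N) = Lfam ι T γ' hP' (jgen N) := by
  rw [Lfam_jgen, Lfam_jgen, Lmap_levelOne hP _ (LmapJ.isRepOf_jC N),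
    Lmap_levelOne hP' _ (LmapJ.isRepOf_jC N)]
  all_goals first | exact isMF_E4cube | exact isMF_discriminant

/-- `Lfam T γ` only depends on the coset `Γ₀(N) γ`. -/
theorem Lfam_mul_left {δ : SL(2, ℤ)} (hδ : δ ∈ Gamma0 N) (hP : SlashP N P γ) :
    Lfam (N := N) ι T (δ * γ) (slashP_mul_left hδ hP) = Lfam ι T γ hP := by
  unfold Lfam
  rw [Lmap_mul_left hδ hP]

end Lfam

end Fermat.Agent.S24.Bridge
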