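import Mathlib
import Fermat.Statements.S24
import Fermat.Agent.S24.Hurwitz
import Fermat.Agent.S24.GenusNat
import Fermat.Agent.S24.DegreeAlg

/-!
# S24 (PROJECT P): the final assembly, modulo the degree and the four orbit counts

`result_of`: the genus of `ℚ̄(X₀(N))` equals `genusFormula N`, given

* `hx` : `j` is a separating variable (`IsFF`), and `hdeg : [F : ℚ̄(j)] = #(SL(2,ℤ) ⧸ Γ₀(N))`;
* `hgen`, `h1728`, `h0`, `hinf` : the numbers of places over `a ≠ 0, 1728`, over `1728`, over `0`
  and over `∞` are the numbers of orbits of `1`, `S`, `S T`, `T` on `SL(2,ℤ) ⧸ Γ₀(N)`.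
-/

set_option autoImplicit false

open AlgebraicCurve IntermediateField CongruenceSubgroup ModularGroup MulAction
open scoped MatrixGroups

namespace Fermat.Agent.S24.Final

open Fermat.Agent.S24.FF Fermat.Agent.S24.DegreeAlg

local notation "Kb" => AlgebraicClosure ℚ

variable (N : ℕ) [NeZero N]

theorem result_of
    [AlgebraicCurve.HasCanonicalDivisor (K := Kb) (F := ↥(ModularCurve.modularFunctionFieldBar N))]
    (hx : IsFF Kb (jgen N))
    (hdeg : Module.finrank Kb⟮jgen N⟯ ↥(ModularCurve.modularFunctionFieldBar N)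
      = Nat.card (SL(2, ℤ) ⧸ Gamma0 N))
    (hgen : ∀ a : Kb, a ≠ 1728 → a ≠ 0 →
      Nat.card {v : Place Kb ↥(ModularCurve.modularFunctionFieldBar N) //
        jgen N - algebraMap Kb _ a ∈ v.toValuationSubring.nonunits}
        = Nat.card (SL(2, ℤ) ⧸ Gamma0 N))
    (h1728 : Nat.card {v : Place Kb ↥(ModularCurve.modularFunctionFieldBar N) //
        jgen N - algebraMap Kb _ 1728 ∈ v.toValuationSubring.nonunits}
        = Nat.card (orbitRel.Quotient (Subgroup.zpowers (S : SL(2, ℤ))) (SL(2, ℤ) ⧸ Gamma0 N)))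
    (h0 : Nat.card {v : Place Kb ↥(ModularCurve.modularFunctionFieldBar N) //
        jgen N - algebraMap Kb _ 0 ∈ v.toValuationSubring.nonunits}
        = Nat.card (orbitRel.Quotient (Subgroup.zpowers (S * T : SL(2, ℤ))) (SL(2, ℤ) ⧸ Gamma0 N)))
    (hinf : Nat.card {v : Place Kb ↥(ModularCurve.modularFunctionFieldBar N) //
        jgen N ∉ v.toValuationSubring}
        = Nat.card (orbitRel.Quotient (Subgroup.zpowers (T : SL(2, ℤ))) (SL(2, ℤ) ⧸ Gamma0 N))) :
    (AlgebraicCurve.genus Kb ↥(ModularCurve.modularFunctionFieldBar N) : ℚ)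
      = ModularCurve.genusFormula N := by
  classical
  obtain ⟨g, hgq, hg⟩ := Fermat.Agent.S24.GenusNat.exists_nat_genus_hurwitz N
  have h17280 : (1728 : Kb) ≠ 0 := by norm_num
  rw [← hgq]
  have key := Fermat.Agent.S24.Hurwitz.genus_eq (K := Kb)
    (F := ↥(ModularCurve.modularFunctionFieldBar N)) hx ({1728, 0} : Finset Kb)
    (fun a ha => by
      rw [Finset.mem_insert, Finset.mem_singleton, not_or] at ha
      rw [hgen a ha.1 ha.2, hdeg]) g
    (by
      rw [Finset.sum_pair h17280, h1728, h0, hinf, hdeg]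
      exact hg)
  exact_mod_cast key

end Fermat.Agent.S24.Final
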