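import Mathlib
import Fermat.Agent.S24.Fibre

/-!
# S24, Lemma A (second line): every place over `a` comes from one of the `n` embeddings

`F/K` a function field, `x : F` transcendental with `[F : K(x)] = n`.  Given `n` pairwise distinct
ring homomorphisms `L q : F →+* Ω` agreeing on `K(x)` and a valuation subring `O` of `Ω` such that
`L q (x - a) ∈ 𝔪_O` and `L q` maps `K ∖ {0}` to units of `O`, every place `v` of `F/K` with
`x - a ∈ 𝔪_v` is the pull-back `O.comap (L q)` for some `q`.
-/

set_option autoImplicit false

namespace Fermat.Agent.S24.AllPlacesAlt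

open AlgebraicCurve IsDedekindDomain WithZero IntermediateField Polynomial
  Fermat.Agent.S24.PlacePrime Fermat.Agent.S24.FF Fermat.Agent.S24.Ord Fermat.Agent.S24.Fibre
open scoped IntermediateField.algebraAdjoinAdjoin

universe u w

/-! ### Part 1: the norm is the product over a full family of embeddings -/

section Embeddings

variable {k F Ω : Type*} [Field k] [Field F] [Algebra k F] [FiniteDimensional k F]
  [Algebra.IsSeparable k F] [Field Ω] {Q : Type*} [Fintype Q]

theorem map_norm_eq_prod (L : Q → F →+* Ω) (hcard : Fintype.card Q = Module.finrank k F)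
    (hinj : Function.Injective L)
    (hbase : ∀ q q' (y : k), L q (algebraMap k F y) = L q' (algebraMap k F y))
    (q₀ : Q) (b : F) :
    L q₀ (algebraMap k F (Algebra.norm k b)) = ∏ q, L q b := by
  classical
  let E := AlgebraicClosure Ω
  let ι : Ω →+* E := algebraMap Ω E
  let _ : Algebra k E := (ι.comp ((L q₀).comp (algebraMap k F))).toAlgebra
  let σ : Q → (F →ₐ[k] E) := fun q =>
    { toRingHom := ι.comp (L q)
      commutes' := fun y => by
        show ι (L q (algebraMap k F y)) = ι (L q₀ (algebraMap k F y))
        rw [hbase q q₀ y] }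
  have hσinj : Function.Injective σ := by
    intro q q' h
    apply hinj
    ext f
    have h1 := DFunLike.congr_fun h f
    exact (algebraMap Ω E).injective h1
  have hcardE : Fintype.card (F →ₐ[k] E) = Module.finrank k F := AlgHom.card k F E
  have hσbij : Function.Bijective σ := by
    rw [Fintype.bijective_iff_injective_and_card]
    exact ⟨hσinj, by rw [hcard, hcardE]⟩
  have h1 := Algebra.norm_eq_prod_embeddings k E b
  have h2 : ∏ τ : F →ₐ[k] E, τ b = ∏ q, σ q b :=
    (Fintype.prod_bijective σ hσbij _ _ (fun _ => rfl)).symm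
  have h3 : ∏ q, σ q b = ι (∏ q, L q b) := by
    rw [map_prod]; rfl
  have h4 : algebraMap k E (Algebra.norm k b)
      = ι (L q₀ (algebraMap k F (Algebra.norm k b))) := rfl
  apply (algebraMap Ω E).injective
  rw [← h4, h1, h2, h3]

end Embeddings

/-! ### Part 2: generic valuation lemmas -/

section Generic

variable {K : Type w} {F : Type u} [Field K] [Field F] [Algebra K F]
  {Γ : Type*} [LinearOrderedCommGroupWithZero Γ]

/-- Valuation rings are integrally closed, in valuation form. -/
theorem valuation_le_one_of_isIntegral {R : Type*} [CommRing R] [Algebra R F] (w : Valuation F Γ)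
    (hR : ∀ r : R, w (algebraMap R F r) ≤ 1) {f : F} (hf : IsIntegral R f) : w f ≤ 1 := by
  by_contra hlt
  rw [not_le] at hlt
  obtain ⟨p, hmonic, h0⟩ := hf
  set n := p.natDegree with hn
  rw [← aeval_def, hmonic.as_sum, map_add, map_pow, aeval_X, map_sum] at h0
  have h1 : f ^ n = -∑ i ∈ Finset.range n, aeval f (C (p.coeff i) * X ^ i) :=
    eq_neg_of_add_eq_zero_left h0
  have hfn : w (f ^ n) ≠ 0 := by
    rw [map_pow]
    exact pow_ne_zero _ (ne_of_gt (lt_trans zero_lt_one hlt))
  have h2 : w (∑ i ∈ Finset.range n, aeval f (C (p.coeff i) * X ^ i)) < w (f ^ n) := by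
    refine Valuation.map_sum_lt _ hfn fun i hi => ?_
    rw [Finset.mem_range] at hi
    rw [map_mul, aeval_C, map_pow, aeval_X, map_mul, map_pow, map_pow]
    calc w (algebraMap R F (p.coeff i)) * w f ^ i
        ≤ 1 * w f ^ i := by
          gcongr
          exact hR _
      _ = w f ^ i := one_mul _
      _ < w f ^ n := pow_lt_pow_right₀ hlt hi
  rw [h1, Valuation.map_neg] at h2
  exact lt_irrefl _ h2

/-- the polynomial ring `K[x]` lies in the valuation ring as soon as `x` and `K` do -/
theorem valuation_adjoin_le_one (w : Valuation F Γ) (hK : ∀ c : K, w (algebraMap K F c) ≤ 1)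
    {x : F} (hx : w x ≤ 1) (r : Algebra.adjoin K {x}) : w (r : F) ≤ 1 := by
  obtain ⟨r, hr⟩ := r
  induction hr using Algebra.adjoin_induction with
  | mem y hy =>
    rw [Set.mem_singleton_iff] at hy
    subst hy
    exact hx
  | algebraMap c => exact hK c
  | add y z _ _ hy hz => exact Valuation.map_add_le _ hy hz
  | mul y z _ _ hy hz =>
    rw [map_mul]
    exact mul_le_one' hy hz

/-- An element of `K[x]` which is small for a valuation trivial on `K` and with `w (x - a) < 1`
is a multiple of `x - a` in `K[x]`. -/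
theorem exists_eq_mul_of_lt_one (w : Valuation F Γ)
    (hK : ∀ c : K, c ≠ 0 → w (algebraMap K F c) = 1) {x : F} (a : K)
    (hxa : w (x - algebraMap K F a) < 1) (r : Algebra.adjoin K {x}) (hr : w (r : F) < 1) :
    ∃ r' : Algebra.adjoin K {x}, (r : F) = (x - algebraMap K F a) * (r' : F) := by
  obtain ⟨r, hrmem⟩ := r
  have hrmem' := hrmem
  rw [Algebra.adjoin_singleton_eq_range_aeval] at hrmem'
  obtain ⟨p, hp⟩ := hrmem'
  have hp' : aeval x p = r := hp
  have hdecomp := Polynomial.modByMonic_add_div p (X - C a)
  rw [Polynomial.modByMonic_X_sub_C_eq_C_eval] at hdecomp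
  have hK' : ∀ c : K, w (algebraMap K F c) ≤ 1 := by
    intro c
    rcases eq_or_ne c 0 with rfl | hc
    · simp
    · exact le_of_eq (hK c hc)
  have hx1 : w x ≤ 1 := by
    have : x = (x - algebraMap K F a) + algebraMap K F a := by ring
    rw [this]
    exact Valuation.map_add_le _ (le_of_lt hxa) (hK' a)
  set s : F := aeval x (p /ₘ (X - C a)) with hs
  have hsmem : s ∈ Algebra.adjoin K {x} := by
    rw [Algebra.adjoin_singleton_eq_range_aeval]
    exact ⟨_, rfl⟩
  have hs1 : w s ≤ 1 := valuation_adjoin_le_one w hK' hx1 ⟨s, hsmem⟩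
  have heq : r = algebraMap K F (p.eval a) + (x - algebraMap K F a) * s := by
    rw [← hp', ← hdecomp]
    simp [hs]
  have heval : p.eval a = 0 := by
    by_contra hne
    have h1 : w (algebraMap K F (p.eval a)) = 1 := hK _ hne
    have h2 : w ((x - algebraMap K F a) * s) < 1 := by
      rw [map_mul]
      calc w (x - algebraMap K F a) * w s ≤ w (x - algebraMap K F a) * 1 := by gcongr
        _ < 1 := by rw [mul_one]; exact hxa
    have h3 : w r = 1 := by
      rw [heq, Valuation.map_add_eq_of_lt_left _ (by rw [h1]; exact h2), h1]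
    rw [show w ((⟨r, hrmem⟩ : Algebra.adjoin K {x}) : F) = w r from rfl, h3] at hr
    exact lt_irrefl _ hr
  refine ⟨⟨s, hsmem⟩, ?_⟩
  show r = (x - algebraMap K F a) * s
  rw [heq, heval, map_zero, zero_add]

end Generic

/-! ### Part 3: Lemma A -/

section Main

variable {K : Type w} {F : Type u} [Field K] [Field F] [Algebra K F] [CharZero K]
  {Ω : Type*} [Field Ω] (O : ValuationSubring Ω) {Q : Type*} [Fintype Q] (L : Q → F →+* Ω)
  {x : F}

/-- **Lemma A.**  Every place over `a` is the pull-back of `O` along one of the embeddings. -/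
theorem exists_eq_comap (hx : IsFF K x) (a : K)
    (hcard : Fintype.card Q = Module.finrank K⟮x⟯ F)
    (hinj : Function.Injective L)
    (hbase : ∀ q q' (y : K⟮x⟯), L q (y : F) = L q' (y : F))
    (hK : ∀ q (c : K), c ≠ 0 → O.valuation (L q (algebraMap K F c)) = 1)
    (hxa : ∀ q, O.valuation (L q (x - algebraMap K F a)) < 1)
    (v : Place K F) (hv : v.adicValuation (x - algebraMap K F a) < 1) :
    ∃ q, v.toValuationSubring = O.comap (L q) := by
  classical
  have hfin := hx.finite
  have hpid := isPID hx.transcendental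
  have hded := isDedekind hx
  have hfrac := isFractionRing hx
  have hmodfin := moduleFinite hx
  -- the pulled-back valuations on `F`
  let wq : Q → Valuation F O.ValueGroup := fun q => O.valuation.comap (L q)
  have hwq : ∀ q f, wq q f = O.valuation (L q f) := fun _ _ => rfl
  have hwK1 : ∀ q (c : K), c ≠ 0 → wq q (algebraMap K F c) = 1 := fun q c hc => hK q c hc
  have hwK : ∀ q (c : K), wq q (algebraMap K F c) ≤ 1 := by
    intro q c
    rcases eq_or_ne c 0 with rfl | hc
    · simp
    · exact le_of_eq (hwK1 q c hc)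
  have hwxa : ∀ q, wq q (x - algebraMap K F a) < 1 := hxa
  have hwx : ∀ q, wq q x ≤ 1 := by
    intro q
    have : x = (x - algebraMap K F a) + algebraMap K F a := by ring
    rw [this]
    exact Valuation.map_add_le _ (le_of_lt (hwxa q)) (hwK q a)
  have hwA : ∀ q (r : polyRing K x), wq q (r : F) ≤ 1 := fun q r =>
    valuation_adjoin_le_one (wq q) (hwK q) (hwx q) r
  have hwB : ∀ q (b : intRing K x), wq q (b : F) ≤ 1 := fun q b =>
    valuation_le_one_of_isIntegral (wq q) (hwA q) b.2
  -- the place `v` comes from a prime `P` of `B`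
  have hvK : ∀ c : K, c ≠ 0 → v.adicValuation (algebraMap K F c) = 1 := fun c hc =>
    adicValuation_algebraMap v hc
  have hvx : v.adicValuation x ≤ 1 := by
    have : x = (x - algebraMap K F a) + algebraMap K F a := by ring
    rw [this]
    refine Valuation.map_add_le _ (le_of_lt hv) ?_
    exact (Ord.mem_iff v _).mp (v.algebraMap_mem' a)
  obtain ⟨P, hP⟩ := exists_prime hx v hvx
  have hPval : ∀ f : F, v.adicValuation f = P.valuation F f := by
    intro f
    rw [← hP]
    exact adicValuation_placeOfPrime P f
  -- the primes `P_q` of `B`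
  let Pq : Q → Ideal (intRing K x) := fun q =>
    { carrier := {b | wq q (b : F) < 1}
      add_mem' := fun {b c} hb hc => by
        show wq q ((b + c : intRing K x) : F) < 1
        rw [Subalgebra.coe_add]
        exact Valuation.map_add_lt _ hb hc
      zero_mem' := by
        show wq q ((0 : intRing K x) : F) < 1
        simp
      smul_mem' := fun c b hb => by
        show wq q ((c • b : intRing K x) : F) < 1
        rw [smul_eq_mul, Subalgebra.coe_mul, map_mul]
        calc wq q (c : F) * wq q (b : F) ≤ 1 * wq q (b : F) := by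
              gcongr
              exact hwB q c
          _ < 1 := by rw [one_mul]; exact hb }
  have hPq_mem : ∀ q (b : intRing K x), b ∈ Pq q ↔ wq q (b : F) < 1 := fun _ _ => Iff.rfl
  have hPq_prime : ∀ q, (Pq q).IsPrime := by
    intro q
    refine ⟨?_, ?_⟩
    · intro htop
      have h1 : (1 : intRing K x) ∈ Pq q := by rw [htop]; trivial
      rw [hPq_mem] at h1
      simp at h1
    · intro b c hbc
      rw [hPq_mem] at hbc
      rw [Subalgebra.coe_mul, map_mul] at hbc
      by_contra hcon
      rw [not_or, hPq_mem, hPq_mem, not_lt, not_lt] at hcon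
      have h1 : wq q (b : F) = 1 := le_antisymm (hwB q b) hcon.1
      have h2 : wq q (c : F) = 1 := le_antisymm (hwB q c) hcon.2
      rw [h1, h2, one_mul] at hbc
      exact lt_irrefl _ hbc
  -- `Q` is nonempty
  have hQne : Nonempty Q := by
    rw [← Fintype.card_pos_iff, hcard]
    exact Module.finrank_pos
  obtain ⟨q₀⟩ := hQne
  -- membership in `P` in terms of the valuation of `v`
  have hP_mem : ∀ b : intRing K x, b ∈ P.asIdeal ↔ v.adicValuation (b : F) < 1 := by
    intro b
    rw [hPval, ← P.valuation_lt_one_iff_mem (K := F)]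
    rfl
  -- KEY CLAIM: `P ≤ P_q` for some `q`
  have hkey : ∃ q, P.asIdeal ≤ Pq q := by
    by_contra hcon
    have hnot : ¬ ((P.asIdeal : Set (intRing K x)) ⊆
        ⋃ q ∈ ((Finset.univ : Finset Q) : Set Q), (Pq q : Set (intRing K x))) := by
      rw [Ideal.subset_union_prime q₀ q₀ (fun q _ _ _ => hPq_prime q)]
      rintro ⟨q, -, hq⟩
      exact hcon ⟨q, hq⟩
    rw [Set.not_subset] at hnot
    obtain ⟨b, hbP, hbq⟩ := hnot
    have hbq' : ∀ q, wq q (b : F) = 1 := by
      intro q
      refine le_antisymm (hwB q b) (not_lt.mp fun hlt => hbq ?_)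
      simp only [Finset.coe_univ, Set.mem_univ, Set.iUnion_true, Set.mem_iUnion]
      exact ⟨q, hlt⟩
    -- the norm of `b`
    set N : polyRing K x := Algebra.intNorm (polyRing K x) (intRing K x) b with hN
    have hN1 : algebraMap (polyRing K x) K⟮x⟯ N = Algebra.norm K⟮x⟯ (b : F) :=
      Algebra.algebraMap_intNorm (K := K⟮x⟯) (L := F) b
    have hN2 : b ∣ algebraMap (polyRing K x) (intRing K x) N :=
      Algebra.dvd_algebraMap_intNorm_self (polyRing K x) (intRing K x) b
    have hN3 : algebraMap (polyRing K x) (intRing K x) N ∈ P.asIdeal :=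
      Ideal.mem_of_dvd _ hN2 hbP
    have hN4 : v.adicValuation (N : F) < 1 := (hP_mem _).mp hN3
    -- `N = (x - a) * r'` in `K[x]`
    obtain ⟨r', hr'⟩ := exists_eq_mul_of_lt_one v.adicValuation hvK a hv N hN4
    have h5 : wq q₀ (N : F) < 1 := by
      rw [hr', map_mul]
      calc wq q₀ (x - algebraMap K F a) * wq q₀ (r' : F)
          ≤ wq q₀ (x - algebraMap K F a) * 1 := by
            gcongr
            exact hwA q₀ r'
        _ < 1 := by rw [mul_one]; exact hwxa q₀
    -- but `L q₀ N = ∏ L q b` is a unit
    have h6 : L q₀ (N : F) = ∏ q, L q (b : F) := by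
      have h := map_norm_eq_prod (k := K⟮x⟯) L hcard hinj (fun q q' y => hbase q q' y) q₀ (b : F)
      rw [← hN1] at h
      exact h
    have h7 : wq q₀ (N : F) = 1 := by
      rw [hwq, h6, map_prod]
      exact Finset.prod_eq_one fun q _ => hbq' q
    rw [h7] at h5
    exact lt_irrefl _ h5
  obtain ⟨q, hq⟩ := hkey
  refine ⟨q, ?_⟩
  -- `P = P_q` by maximality
  have hPmax : P.asIdeal.IsMaximal := P.isMaximal
  have heq : P.asIdeal = Pq q := hPmax.eq_of_le (hPq_prime q).ne_top hq
  rw [← hP]
  show (P.valuation F).valuationSubring = O.comap (L q)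
  have hkrull : Ring.KrullDimLE 1 ((P.valuation F).valuationSubring) := by
    rw [← P.valuationSubringAtPrime_eq_valuationSubring]
    infer_instance
  refine ValuationSubring.eq_of_le_of_ne_top _ ?_ ?_
  · intro f hf
    obtain ⟨n, d, hnd⟩ := P.exists_primeCompl_mul_eq_of_integer f hf
    have hdP : (d : intRing K x) ∉ Pq q := by
      rw [← heq]
      exact d.2
    have hd1 : wq q ((d : intRing K x) : F) = 1 :=
      le_antisymm (hwB q d) (not_lt.mp fun hlt => hdP hlt)
    have hn1 : wq q ((n : intRing K x) : F) ≤ 1 := hwB q n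
    have h8 : wq q f ≤ 1 := by
      have h9 := congrArg (wq q) hnd
      rw [map_mul] at h9
      have h10 : wq q (algebraMap (intRing K x) F (d : intRing K x)) = 1 := hd1
      rw [h10, mul_one] at h9
      rw [h9]
      exact hn1
    show f ∈ O.comap (L q)
    rw [ValuationSubring.mem_comap, ← O.valuation_le_one_iff]
    exact h8
  · intro htop
    have h1 : (x - algebraMap K F a)⁻¹ ∈ O.comap (L q) := by rw [htop]; trivial
    rw [ValuationSubring.mem_comap, ← O.valuation_le_one_iff, map_inv₀, map_inv₀] at h1
    have h2 := hxa q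
    have h3 : O.valuation (L q (x - algebraMap K F a)) ≠ 0 := by
      rw [Valuation.ne_zero_iff, map_ne_zero_iff _ (L q).injective, sub_ne_zero]
      exact hx.ne_algebraMap a
    have h4 : 1 < (O.valuation (L q (x - algebraMap K F a)))⁻¹ :=
      (one_lt_inv₀ (zero_lt_iff.mpr h3)).mpr h2
    exact absurd h1 (not_le.mpr h4)

omit [CharZero K] in
/-- the bridge between the two ways of saying "`y` vanishes at `v`" -/
theorem mem_nonunits_iff_adicValuation_lt_one (v : Place K F) (y : F) :
    y ∈ v.toValuationSubring.nonunits ↔ v.adicValuation y < 1 := by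
  rcases eq_or_ne y 0 with rfl | hy
  · simp
  · rw [ValuationSubring.mem_nonunits_iff_or, Ord.mem_iff, map_inv₀]
    have h0 : v.adicValuation y ≠ 0 := (Valuation.ne_zero_iff _).mpr hy
    constructor
    · rintro (h | h)
      · exact absurd h hy
      · rw [not_le, one_lt_inv₀ (zero_lt_iff.mpr h0)] at h
        exact h
    · intro h
      right
      rw [not_le, one_lt_inv₀ (zero_lt_iff.mpr h0)]
      exact h

/-- **Lemma A**, in the shape consumed by `PlaceCount.card_places_eq_card_orbits` (`hall`):
`O` is the valuation subring of a valuation `w` on `Ω`. -/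
theorem hall_of_embeddings {Γ : Type*} [LinearOrderedCommGroupWithZero Γ] (w : Valuation Ω Γ)
    (hx : IsFF K x) (a : K)
    (hcard : Fintype.card Q = Module.finrank K⟮x⟯ F)
    (hinj : Function.Injective L)
    (hbase : ∀ q q' (y : K⟮x⟯), L q (y : F) = L q' (y : F))
    (hK : ∀ q (c : K), c ≠ 0 → w (L q (algebraMap K F c)) = 1)
    (hxa : ∀ q, w (L q (x - algebraMap K F a)) < 1) :
    ∀ v : Place K F, (x - algebraMap K F a) ∈ v.toValuationSubring.nonunits →
      ∃ q, v.toValuationSubring = w.valuationSubring.comap (L q) := by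
  intro v hv
  have hequiv := Valuation.isEquiv_valuation_valuationSubring w
  refine exists_eq_comap w.valuationSubring L hx a hcard hinj hbase ?_ ?_ v
    ((mem_nonunits_iff_adicValuation_lt_one v _).mp hv)
  · intro q c hc
    exact (Valuation.isEquiv_iff_val_eq_one.mp hequiv).mp (hK q c hc)
  · intro q
    exact (Valuation.isEquiv_iff_val_lt_one.mp hequiv).mp (hxa q)

end Main

end Fermat.Agent.S24.AllPlacesAlt
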