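import Mathlib
import Fermat.Agent.S24.RepAll
import Fermat.Agent.S24.LmapJ
import Fermat.Agent.S24.LmapSep
import Fermat.Agent.S24.DegreeAlg
import Fermat.Agent.S24.OrbitDefs

/-!
# S24 (PROJECT P): the coset-indexed family of embeddings attached to an expansion functional

For an expansion functional `T : HolHom P (LaurentSeries ℂ)` whose class `P` contains all translates
of forms for `Γ₀(N)`, the family

`Lfam T hP q = (Lmap T (out q)⁻¹).comp (toRepField N ι) : F →+* ℂ((X))`, `q ∈ SL(2,ℤ) ⧸ Γ₀(N)`,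

of embeddings of `F = modularFunctionFieldBar N` satisfies the hypotheses `hinj`, `hconst`, `hLx`,
`hK` of `OrbitCount.card_zeros_eq_card_orbits` / `card_poles_eq_card_orbits`, for every `T`
(Taylor expansion at a point of `ℍ`, or `q_N`-expansion at the cusp).
-/

set_option autoImplicit false

noncomputable section

namespace Fermat.Agent.S24.FamilyGeneric

open UpperHalfPlane CongruenceSubgroup ModularForm WithZero
open Fermat.Agent.S20 Fermat.Agent.S24.RepHom Fermat.Agent.S24.LevelRaise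
open Fermat.Agent.S24.RepAll Fermat.Agent.S24.LmapJ Fermat.Agent.S24.LmapSep
open Fermat.Agent.S24.DegreeAlg Fermat.Agent.S24.OrbitDefs
open scoped ModularForm Manifold MatrixGroups

local notation "Kb" => AlgebraicClosure ℚ

variable (N : ℕ) [NeZero N]

/-! ### The dictionary `F ↔ repField N` on the three kinds of elements we need -/

theorem coeffMap_coeffEmb (ι' : Kb →+* ℂ) (z : LaurentSeries ℚ) :
    ModularCurve.coeffMap ι' (ModularCurve.coeffEmb Kb z) = ModularCurve.coeffEmb ℂ z := by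
  rw [ModularCurve.coeffEmb, ModularCurve.coeffMap_coeffMap]
  exact ModularCurve.coeffMap_congr (RingHom.ext_rat _ _) z

/-- (a) `j ↦ jrep`. -/
theorem toRepField_jgen (ι' : Kb →+* ℂ) : toRepField N ι' (jgen N) = jrep N := by
  apply Subtype.ext
  rw [coe_toRepField, coe_jgen, coeffMap_coeffEmb]
  rfl

/-- (b) constants `↦` constants. -/
theorem toRepField_algebraMap (ι' : Kb →+* ℂ) (c : Kb) :
    toRepField N ι' (algebraMap Kb ↥(ModularCurve.modularFunctionFieldBar N) c) = crep N (ι' c) := by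
  apply Subtype.ext
  rw [coe_toRepField]
  show ModularCurve.coeffMap ι' (algebraMap Kb (LaurentSeries Kb) c) = HahnSeries.C (ι' c)
  rw [ModularCurve.algebraMap_laurentSeries_eq_single, ModularCurve.coeffMap_single]
  rfl

/-- (c) `j_N ↦ jNrep`. -/
theorem toRepField_jdivF (ι' : Kb →+* ℂ) :
    toRepField N ι' (jdivF N ⟨N, dvd_rfl⟩) = jNrep N := by
  apply Subtype.ext
  rw [coe_toRepField]
  show ModularCurve.coeffMap ι' (jdiv Kb N ⟨N, dvd_rfl⟩) = jdSeries N
  rw [jdiv_def, coeffMap_coeffEmb]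
  rfl

/-! ### The family -/

section Family

variable {N}
variable {P : (ℍ → ℂ) → Prop} (T : HolHom P (LaurentSeries ℂ))
  (hP : ∀ γ : SL(2, ℤ), SlashP N P γ)

/-- The embedding of `F` attached to the expansion functional `T` and the coset `q`. -/
def Lfam (q : SL(2, ℤ) ⧸ Gamma0 N) :
    ↥(ModularCurve.modularFunctionFieldBar N) →+* LaurentSeries ℂ :=
  (Lmap T (Quotient.out q)⁻¹ (hP _)).comp (toRepField N ι)

theorem Lfam_apply (q : SL(2, ℤ) ⧸ Gamma0 N) (f : ↥(ModularCurve.modularFunctionFieldBar N)) :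
    Lfam T hP q f = Lmap T (Quotient.out q)⁻¹ (hP _) (toRepField N ι f) := rfl

/-- **`hinj`**: the family is injective (separation by `j_N`). -/
theorem Lfam_injective (hsub : ∀ f g : ℍ → ℂ, P f → P g → P (f - g)) :
    Function.Injective (Lfam T hP) := by
  intro q q' h
  have h1 := congrArg (fun φ : ↥(ModularCurve.modularFunctionFieldBar N) →+* LaurentSeries ℂ =>
    φ (jdivF N ⟨N, dvd_rfl⟩)) h
  simp only [Lfam_apply, toRepField_jdivF] at h1
  exact quot_eq_of_Lmap_out_inv_eq T hsub q q' (hP _) (hP _) h1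

/-- Value of the family on constants. -/
theorem Lfam_algebraMap_eq (q : SL(2, ℤ) ⧸ Gamma0 N) (c : Kb) :
    Lfam T hP q (algebraMap Kb ↥(ModularCurve.modularFunctionFieldBar N) c)
      = algebraMap ℂ (LaurentSeries ℂ) (ι c) := by
  rw [Lfam_apply, toRepField_algebraMap]
  exact Lmap_const (hP _) (ι c) (const_mem_repField (ι c))

/-- **`hconst`**. -/
theorem Lfam_algebraMap (q q' : SL(2, ℤ) ⧸ Gamma0 N) (c : Kb) :
    Lfam T hP q (algebraMap Kb ↥(ModularCurve.modularFunctionFieldBar N) c)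
      = Lfam T hP q' (algebraMap Kb ↥(ModularCurve.modularFunctionFieldBar N) c) := by
  rw [Lfam_algebraMap_eq, Lfam_algebraMap_eq]

/-- Value of the family on `j`. -/
theorem Lfam_jgen_eq (q : SL(2, ℤ) ⧸ Gamma0 N) :
    Lfam T hP q (jgen N) = T.T (⇑E4cube) / T.T (⇑DeltaMF) := by
  rw [Lfam_apply, toRepField_jgen]
  exact Lmap_levelOne (hP _) (jrep N) (isRepOf_jC N) (IsMF.coe E4cube) (IsMF.coe DeltaMF)

/-- **`hLx`**. -/
theorem Lfam_jgen (q q' : SL(2, ℤ) ⧸ Gamma0 N) :
    Lfam T hP q (jgen N) = Lfam T hP q' (jgen N) := by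
  rw [Lfam_jgen_eq, Lfam_jgen_eq]

/-- Value of the family on `j - a`. -/
theorem Lfam_jgen_sub_eq (q : SL(2, ℤ) ⧸ Gamma0 N) (a : Kb) :
    Lfam T hP q (jgen N - algebraMap Kb ↥(ModularCurve.modularFunctionFieldBar N) a)
      = Lmap T (Quotient.out q)⁻¹ (hP _) (jrep N - crep N (ι a)) := by
  rw [Lfam_apply, map_sub, toRepField_jgen, toRepField_algebraMap]

/-- Value of the family on `j⁻¹`. -/
theorem Lfam_jgen_inv_eq (q : SL(2, ℤ) ⧸ Gamma0 N) :
    Lfam T hP q (jgen N)⁻¹ = T.T (⇑DeltaMF) / T.T (⇑E4cube) := by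
  rw [map_inv₀, Lfam_jgen_eq, inv_div]

/-- **`hK`**: constants are integral. -/
theorem valued_Lfam_algebraMap_le_one (q : SL(2, ℤ) ⧸ Gamma0 N) (c : Kb) :
    Valued.v (Lfam T hP q (algebraMap Kb ↥(ModularCurve.modularFunctionFieldBar N) c)) ≤ 1 := by
  rw [Lfam_algebraMap_eq]
  by_cases hc : ι c = 0
  · rw [hc, map_zero, map_zero]
    exact zero_le_one
  · have : algebraMap ℂ (LaurentSeries ℂ) (ι c) = HahnSeries.C (ι c) := by
      rw [HahnSeries.algebraMap_apply', ← HahnSeries.ofPowerSeries_C]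
      rfl
    rw [this, valued_C hc]

/-- Behaviour under the action of `d ∈ SL(2, ℤ)` on cosets. -/
theorem Lfam_smul (d : SL(2, ℤ)) (q : SL(2, ℤ) ⧸ Gamma0 N)
    (f : ↥(ModularCurve.modularFunctionFieldBar N)) :
    Lfam T hP (d • q) f
      = Lmap T ((Quotient.out q)⁻¹ * d⁻¹) (hP _) (toRepField N ι f) := by
  have hΛ : ∀ δ ∈ Gamma0 N, ∀ γ : SL(2, ℤ),
      Lmap (N := N) T (δ * γ) (hP _) = Lmap T γ (hP _) := fun δ hδ γ => Lmap_mul_left hδ (hP γ)
  have := Lq_smul (H := Gamma0 N) (Λ := fun γ : SL(2, ℤ) => Lmap (N := N) T γ (hP γ)) hΛ d q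
  rw [Lfam_apply]
  exact congrArg (fun φ : repField N →+* LaurentSeries ℂ => φ (toRepField N ι f)) this

end Family

end Fermat.Agent.S24.FamilyGeneric
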