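import Mathlib
import Fermat.Agent.S24.Hurwitz

/-!
# S24, abstract Hurwitz, part 6: the genus from three branch values (convenience form)
-/

set_option autoImplicit false

namespace Fermat.Agent.S24.HurwitzThree

open AlgebraicCurve IntermediateField Fermat.Agent.S24.FF Fermat.Agent.S24.Hurwitz

universe u w

variable {K : Type w} {F : Type u} [Field K] [Field F] [Algebra K F]
  [IsAlgClosed K] [CharZero K] {x : F} [HasCanonicalDivisor (K := K) (F := F)]

/-- Riemann–Hurwitz with at most two finite branch values `a₀`, `a₁` (and `∞`), in `ℕ`-form: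
`r₀ + r₁ + r∞ + 2 g = μ + 2`. -/
theorem genus_eq_of_counts (hx : IsFF K x) (a₀ a₁ : K) (h01 : a₀ ≠ a₁) (μ r₀ r₁ rInf : ℕ)
    (hμ : Module.finrank K⟮x⟯ F = μ)
    (hgen : ∀ a : K, a ≠ a₀ → a ≠ a₁ →
      Nat.card {v : Place K F // x - algebraMap K F a ∈ v.toValuationSubring.nonunits} = μ)
    (h0 : Nat.card {v : Place K F // x - algebraMap K F a₀ ∈ v.toValuationSubring.nonunits} = r₀)
    (h1 : Nat.card {v : Place K F // x - algebraMap K F a₁ ∈ v.toValuationSubring.nonunits} = r₁)
    (hInf : Nat.card {v : Place K F // x ∉ v.toValuationSubring} = rInf)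
    (g : ℕ) (hg : r₀ + r₁ + rInf + 2 * g = μ + 2) :
    AlgebraicCurve.genus K F = g := by
  classical
  refine genus_eq hx {a₀, a₁} (fun a ha => ?_) g ?_
  · rw [Finset.mem_insert, Finset.mem_singleton, not_or] at ha
    rw [hgen a ha.1 ha.2, hμ]
  · rw [Finset.sum_pair h01, h0, h1, hInf, hμ]
    have : ((r₀ + r₁ + rInf + 2 * g : ℕ) : ℤ) = ((μ + 2 : ℕ) : ℤ) := by rw [hg]
    push_cast at this
    linarith

end Fermat.Agent.S24.HurwitzThree
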