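/-
Level-one local facts for the `j`-invariant (slice "LevelOne" of the S24 / S20 projects).

* `serreMF`            : the Serre derivative of a level-one modular form as a modular form.
* `ramanujan_E₄/E₆`    : Ramanujan's identities `D E₄ = (E₂E₄ - E₆)/3`, `D E₆ = (E₂E₆ - E₄²)/2`.
* `D_discriminant`     : `D Δ = E₂ Δ`.
* `jInv`               : `j = E₄³/Δ`, its invariance, holomorphy, `D j = -E₄²E₆/Δ`.
* `E₆_I`, `E₄_rho`     : `E₆(i) = 0`, `E₄(ρ) = 0`, with `S • i = i`, `(S*T) • ρ = ρ`.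
* simple zeros of `E₄`, `E₆`; `analyticOrderAt` of `j - j(z)` at `z` is `3`, `2` or `1`.
* `exists_jInv_eq`     : `j` is surjective.
-/
import Mathlib

set_option autoImplicit false

open UpperHalfPlane hiding I
open ModularForm EisensteinSeries Filter Complex MatrixGroups Derivative Function ModularGroup
open scoped Real Topology Manifold

namespace Fermat.Agent.S24.LevelOne

local notation "Δ" => ModularForm.discriminant

local notation "𝕢" => Periodic.qParam

theorem hasDerivAt_qParam_one (z : ℂ) : HasDerivAt (fun w : ℂ => 𝕢 1 w) (2 * π * I * 𝕢 1 z) z := by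
  unfold Periodic.qParam
  have h1 : HasDerivAt (fun w : ℂ => 2 * π * I * w / (1 : ℝ)) (2 * π * I) z := by
    simpa using ((hasDerivAt_id z).const_mul (2 * π * I)).div_const ((1 : ℝ) : ℂ)
  have := h1.cexp
  rw [mul_comm (cexp _)] at this
  exact this

/-- The normalized derivative of a holomorphic, `1`-periodic function bounded at `i∞`
tends to `0` at `i∞`. -/
theorem isZeroAtImInfty_D {f : ℍ → ℂ} (hper : Periodic (f ∘ ofComplex) 1) (hhol : MDiff f)
    (hbdd : IsBoundedAtImInfty f) : IsZeroAtImInfty (D f) := by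
  set g := cuspFunction 1 f with hg
  have hgan : AnalyticAt ℂ g 0 := analyticAt_cuspFunction_zero one_pos hper hhol hbdd
  have hg'cont : ContinuousAt (deriv g) 0 := hgan.deriv.continuousAt
  -- D f τ = q * g'(q)
  have key : ∀ τ : ℍ, D f τ = 𝕢 1 τ * deriv g (𝕢 1 τ) := by
    intro τ
    have hq : ‖𝕢 1 (τ : ℂ)‖ < 1 := Periodic.norm_qParam_lt_one one_pos τ.im_pos
    have hgd : HasDerivAt g (deriv g (𝕢 1 τ)) (𝕢 1 τ) :=
      (differentiableAt_cuspFunction one_pos hper hhol hbdd hq).hasDerivAt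
    have hqd := hasDerivAt_qParam_one (τ : ℂ)
    have hcomp : HasDerivAt (fun w : ℂ => g (𝕢 1 w)) (deriv g (𝕢 1 τ) * (2 * π * I * 𝕢 1 (τ : ℂ)))
        (τ : ℂ) := HasDerivAt.comp (τ : ℂ) hgd hqd
    have heq : (f ∘ ofComplex) =ᶠ[𝓝 (τ : ℂ)] fun w : ℂ => g (𝕢 1 w) := by
      filter_upwards [isOpen_upperHalfPlaneSet.mem_nhds τ.im_pos] with w hw
      have := eq_cuspFunction (f := f) (h := 1) ⟨w, hw⟩ one_ne_zero hper
      simp only [Function.comp_apply, ofComplex_apply_of_im_pos hw]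
      exact this.symm
    have hd : deriv (f ∘ ofComplex) (τ : ℂ) = deriv g (𝕢 1 τ) * (2 * π * I * 𝕢 1 (τ : ℂ)) :=
      (hcomp.congr_of_eventuallyEq heq).deriv
    simp only [normalizedDerivOfComplex, hd]
    have : (2 * (π : ℂ) * I) ≠ 0 := by simp [Real.pi_ne_zero]
    field_simp
  have hlim : Tendsto (fun q : ℂ => q * deriv g q) (𝓝 0) (𝓝 0) := by
    have h := (continuousAt_id (x := (0 : ℂ))).mul hg'cont
    have h2 : Tendsto (fun q : ℂ => id q * deriv g q) (𝓝 0) (𝓝 (id 0 * deriv g 0)) := h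
    simpa using h2
  have := hlim.comp (qParam_tendsto_atImInfty (h := 1) one_pos)
  refine this.congr' (Eventually.of_forall fun τ => ?_)
  simp [key τ]



theorem slash_SL_eq_self {k : ℤ} (f : ModularForm 𝒮ℒ k) (γ : SL(2, ℤ)) : (⇑f) ∣[k] γ = ⇑f := by
  have hγ : (γ : GL (Fin 2) ℝ) ∈ 𝒮ℒ := ⟨γ, rfl⟩
  simpa [ModularForm.SL_slash] using SlashInvariantFormClass.slash_action_eq f _ hγ

theorem periodic_of_levelOne {k : ℤ} (f : ModularForm 𝒮ℒ k) : Periodic (⇑f ∘ ofComplex) 1 := by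
  have := SlashInvariantFormClass.periodic_comp_ofComplex (h := 1) f one_mem_strictPeriods_SL
  simpa using this

theorem isBoundedAtImInfty_of_levelOne {k : ℤ} (f : ModularForm 𝒮ℒ k) : IsBoundedAtImInfty ⇑f := by
  have : Fact (IsCusp OnePoint.infty 𝒮ℒ) := ⟨(𝒮ℒ).isCusp_of_mem_strictPeriods one_pos one_mem_strictPeriods_SL⟩
  exact ModularFormClass.bdd_at_infty f

theorem isBoundedAtImInfty_serreDerivative {k : ℤ} (f : ModularForm 𝒮ℒ k) :
    IsBoundedAtImInfty (serreDerivative k f) := by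
  have h1 : IsBoundedAtImInfty (D f) :=
    (isZeroAtImInfty_D (periodic_of_levelOne f) f.holo' (isBoundedAtImInfty_of_levelOne f)).boundedAtFilter
  have h2 : IsBoundedAtImInfty (fun z => (k : ℂ) * 12⁻¹ * E2 z * f z) := by
    have hc : IsBoundedAtImInfty (fun _ : ℍ => (k : ℂ) * 12⁻¹) := Filter.const_boundedAtFilter _ _
    exact (hc.mul isBoundedAtImInfty_E2).mul (isBoundedAtImInfty_of_levelOne f)
  exact h1.sub h2

/-- The Serre derivative of a level-one modular form, as a modular form of weight `k + 2`. -/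
noncomputable def serreMF {k : ℤ} (f : ModularForm 𝒮ℒ k) : ModularForm 𝒮ℒ (k + 2) where
  toFun := serreDerivative k f
  slash_action_eq' A hA := by
    obtain ⟨A, rfl⟩ := hA
    exact serreDerivative_slash_invariant f.holo' (slash_SL_eq_self f A)
  holo' := serreDerivative_mdifferentiable k f.holo'
  bdd_at_cusps' hc := by
    rw [Subgroup.IsArithmetic.isCusp_iff_isCusp_SL2Z] at hc
    rw [OnePoint.isBoundedAt_iff_forall_SL2Z hc]
    intro γ _
    have h := serreDerivative_slash_invariant (k := k) (F := ⇑f) f.holo' (slash_SL_eq_self f γ)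
    rw [h]
    exact isBoundedAtImInfty_serreDerivative f

@[simp] theorem serreMF_apply {k : ℤ} (f : ModularForm 𝒮ℒ k) (z : ℍ) :
    serreMF f z = D f z - k * 12⁻¹ * E2 z * f z := rfl




theorem hasSum_cuspFunction_of_hasSum_punctured' {f : ℍ → ℂ} {c : ℕ → ℂ}
    (hf : ∀ (τ : ℍ), HasSum (fun m ↦ c m • 𝕢 1 τ ^ m) (f τ)) {q : ℂ} (hq : ‖q‖ < 1)
    (hq1 : q ≠ 0) : HasSum (fun m ↦ c m • q ^ m) (cuspFunction 1 f q) := by
  have hh : (0 : ℝ) < 1 := one_pos
  have h1 := Periodic.im_invQParam_pos_of_norm_lt_one hh hq hq1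
  let τ : ℍ := ⟨Periodic.invQParam 1 q, h1⟩
  have h2 := (Periodic.cuspFunction_eq_of_nonzero 1 (f ∘ ofComplex) hq1)
  have : cuspFunction 1 f q = f τ := by simpa [UpperHalfPlane.ofComplex_apply_of_im_pos h1]
    using! h2
  grind [hf τ, Periodic.qParam_right_inv]

theorem hasFPowerSeriesOnBall_update' {f : ℍ → ℂ} {c : ℕ → ℂ}
    (hf : ∀ τ : ℍ, HasSum (fun m : ℕ ↦ (c m) • 𝕢 1 τ ^ m) (f τ)) :
    HasFPowerSeriesOnBall (update (cuspFunction 1 f) 0 (c 0)) (.ofScalars ℂ c) 0 1 := by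
  constructor
  · refine le_of_forall_lt_imp_le_of_dense fun r hr ↦ ?_
    rcases eq_or_ne r 0 with rfl | hr'
    · simp
    · lift r to NNReal using hr.ne_top
      let : FiniteDimensional ℝ ℂ := basisOneI.finiteDimensional_of_finite
      apply FormalMultilinearSeries.le_radius_of_summable
      simpa [smul_eq_mul, norm_mul, mul_comm, mul_left_comm, mul_assoc] using
        (hasSum_cuspFunction_of_hasSum_punctured' hf (q := r) (by simpa using hr)
          (mod_cast hr')).summable.norm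
  · simp
  · intro y hy
    rw [← ENNReal.coe_one, Metric.eball_coe, NNReal.coe_one, mem_ball_zero_iff] at hy
    rcases eq_or_ne y 0 with rfl | hy'
    · simpa +contextual [zero_pow_eq] using hasSum_ite_eq 0 (c 0)
    · simpa [update_of_ne hy', mul_comm]
        using hasSum_cuspFunction_of_hasSum_punctured' hf hy hy'

theorem tendsto_of_hasSum_qExpansion {f : ℍ → ℂ} {c : ℕ → ℂ}
    (hf : ∀ τ : ℍ, HasSum (fun m ↦ c m • 𝕢 1 τ ^ m) (f τ)) : Tendsto f atImInfty (𝓝 (c 0)) := by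
  have hh : (0 : ℝ) < 1 := one_pos
  have hfeq : f = fun τ : ℍ ↦ update (cuspFunction 1 f) 0 (c 0) (𝕢 1 τ) := by
    funext τ
    rw [update_of_ne (Periodic.qParam_ne_zero _)]
    exact (hf τ).unique (hasSum_cuspFunction_of_hasSum_punctured' hf
      (Periodic.norm_qParam_lt_one hh τ.im_pos) (exp_ne_zero _))
  rw [hfeq]
  simpa [update_self, Function.comp_def] using
    (hasFPowerSeriesOnBall_update' hf).hasFPowerSeriesAt.continuousAt.tendsto.comp
      (qParam_tendsto_atImInfty hh)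

theorem tendsto_E2 : Tendsto E2 atImInfty (𝓝 1) := by
  have := tendsto_of_hasSum_qExpansion (f := E2)
    (c := fun m : ℕ => (if m = 0 then 1 else -24 * ArithmeticFunction.sigma 1 m : ℂ)) (fun τ ↦ by
    simpa only [Function.Periodic.qParam, ofReal_one, div_one] using hasSum_qExpansion_E2 (z := τ))
  simpa using this

theorem tendsto_levelOne {k : ℤ} (f : ModularForm 𝒮ℒ k) :
    Tendsto f atImInfty (𝓝 ((qExpansion 1 f).coeff 0)) := by
  have hgan : AnalyticAt ℂ (cuspFunction 1 f) 0 :=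
    ModularFormClass.analyticAt_cuspFunction_zero f one_pos one_mem_strictPeriods_SL
  have h0 : (qExpansion 1 f).coeff 0 = cuspFunction 1 f 0 := by
    simp [qExpansion_coeff]
  rw [h0]
  have h := hgan.continuousAt.tendsto.comp (qParam_tendsto_atImInfty (h := 1) one_pos)
  refine h.congr' (Eventually.of_forall fun τ => ?_)
  simpa using SlashInvariantFormClass.eq_cuspFunction (h := 1) f τ one_mem_strictPeriods_SL one_ne_zero

theorem tendsto_E₄ : Tendsto E₄ atImInfty (𝓝 1) := by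
  simpa [E_qExpansion_coeff_zero _ ⟨2, rfl⟩] using tendsto_levelOne E₄

theorem tendsto_E₆ : Tendsto E₆ atImInfty (𝓝 1) := by
  simpa [E_qExpansion_coeff_zero _ ⟨3, rfl⟩] using tendsto_levelOne E₆



theorem tendsto_D_levelOne {k : ℤ} (f : ModularForm 𝒮ℒ k) : Tendsto (D f) atImInfty (𝓝 0) :=
  isZeroAtImInfty_D (periodic_of_levelOne f) f.holo' (isBoundedAtImInfty_of_levelOne f)

/-- Ramanujan's identity for `E₄`. -/
theorem ramanujan_E₄ (z : ℍ) : D E₄ z = (E2 z * E₄ z - E₆ z) / 3 := by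
  let g : ModularForm 𝒮ℒ 6 := ModularForm.mcast (by norm_num) (serreMF E₄)
  obtain ⟨c, hc⟩ : ∃ c : ℂ, c • E₆ = g :=
    (finrank_eq_one_iff_of_nonzero' E₆ (E_ne_zero _ ⟨3, rfl⟩)).mp
      (Module.rank_eq_one_iff_finrank_eq_one.mp levelOne_weight_six_rank_one) _
  have hg : ∀ w : ℍ, g w = D E₄ w - 4 * 12⁻¹ * E2 w * E₄ w := fun w => by
    show serreMF E₄ w = _
    rw [serreMF_apply]; norm_num
  have hlim1 : Tendsto (fun w => g w) atImInfty (𝓝 (0 - 4 * 12⁻¹ * 1 * 1)) := by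
    simp_rw [hg]
    exact (tendsto_D_levelOne E₄).sub (((tendsto_const_nhds).mul tendsto_E2).mul tendsto_E₄)
  have hlim2 : Tendsto (fun w => g w) atImInfty (𝓝 (c * 1)) := by
    have : ∀ w : ℍ, g w = c * E₆ w := fun w => by rw [← hc]; rfl
    simp_rw [this]
    exact tendsto_const_nhds.mul tendsto_E₆
  have hceq : c * 1 = 0 - 4 * 12⁻¹ * 1 * 1 := tendsto_nhds_unique hlim2 hlim1
  have h1 : g z = c * E₆ z := by rw [← hc]; rfl
  rw [hg z] at h1
  have hc' : c = -(1/3) := by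
    rw [mul_one] at hceq; rw [hceq]; norm_num
  rw [hc'] at h1
  linear_combination h1

/-- Ramanujan's identity for `E₆`. -/
theorem ramanujan_E₆ (z : ℍ) : D E₆ z = (E2 z * E₆ z - E₄ z ^ 2) / 2 := by
  let g : ModularForm 𝒮ℒ 8 := ModularForm.mcast (by norm_num) (serreMF E₆)
  let E8 : ModularForm 𝒮ℒ 8 := ModularForm.mcast (by norm_num) (E₄.mul E₄)
  have hE8 : ∀ w : ℍ, E8 w = E₄ w * E₄ w := fun w => rfl
  have hrank : Module.rank ℂ (ModularForm 𝒮ℒ 8) = 1 := by
    have := dimension_level_one 8 ⟨4, rfl⟩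
    simpa [Nat.ModEq] using this
  have hE8ne : E8 ≠ 0 := by
    intro h
    have h2 := (tendsto_E₄.mul tendsto_E₄)
    have h3 : Tendsto (fun w : ℍ => E₄ w * E₄ w) atImInfty (𝓝 0) := by
      have : ∀ w : ℍ, E₄ w * E₄ w = 0 := fun w => by rw [← hE8 w, h]; rfl
      simp_rw [this]; exact tendsto_const_nhds
    have := tendsto_nhds_unique h2 h3
    norm_num at this
  obtain ⟨c, hc⟩ : ∃ c : ℂ, c • E8 = g :=
    (finrank_eq_one_iff_of_nonzero' E8 hE8ne).mp
      (Module.rank_eq_one_iff_finrank_eq_one.mp hrank) _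
  have hg : ∀ w : ℍ, g w = D E₆ w - 6 * 12⁻¹ * E2 w * E₆ w := fun w => by
    show serreMF E₆ w = _
    rw [serreMF_apply]; norm_num
  have hlim1 : Tendsto (fun w => g w) atImInfty (𝓝 (0 - 6 * 12⁻¹ * 1 * 1)) := by
    simp_rw [hg]
    exact (tendsto_D_levelOne E₆).sub (((tendsto_const_nhds).mul tendsto_E2).mul tendsto_E₆)
  have hlim2 : Tendsto (fun w => g w) atImInfty (𝓝 (c * (1 * 1))) := by
    have : ∀ w : ℍ, g w = c * (E₄ w * E₄ w) := fun w => by rw [← hc, ← hE8 w]; rfl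
    simp_rw [this]
    exact tendsto_const_nhds.mul (tendsto_E₄.mul tendsto_E₄)
  have hceq : c * (1 * 1) = 0 - 6 * 12⁻¹ * 1 * 1 := tendsto_nhds_unique hlim2 hlim1
  have h1 : g z = c * (E₄ z * E₄ z) := by rw [← hc, ← hE8 z]; rfl
  rw [hg z] at h1
  have hc' : c = -(1/2) := by
    rw [mul_one, mul_one] at hceq; rw [hceq]; norm_num
  rw [hc'] at h1
  linear_combination h1




theorem mdiff_discriminant : MDiff Δ := CuspForm.discriminant.holo'

theorem discriminant_fun_eq :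
    (Δ : ℍ → ℂ) = (1 / 1728 : ℂ) • ((⇑E₄ : ℍ → ℂ) ^ 3 - (⇑E₆ : ℍ → ℂ) ^ 2) := by
  funext z
  rw [discriminant_eq_E₄_cube_sub_E₆_sq z]
  simp only [Pi.smul_apply, Pi.sub_apply, Pi.pow_apply, smul_eq_mul]
  ring

/-- `D Δ = E₂ Δ`. -/
theorem D_discriminant (z : ℍ) : D Δ z = E2 z * Δ z := by
  have h4 : MDiff (⇑E₄ : ℍ → ℂ) := E₄.holo'
  have h6 : MDiff (⇑E₆ : ℍ → ℂ) := E₆.holo'
  have h43 : MDiff ((⇑E₄ : ℍ → ℂ) ^ 3) := h4.pow 3
  have h62 : MDiff ((⇑E₆ : ℍ → ℂ) ^ 2) := h6.pow 2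
  rw [discriminant_fun_eq, normalizedDerivOfComplex_smul _ _ (h43.sub h62),
    normalizedDerivOfComplex_sub _ _ h43 h62, normalizedDerivOfComplex_pow _ _ h4,
    normalizedDerivOfComplex_pow _ _ h6]
  simp only [Pi.smul_apply, Pi.sub_apply, Pi.mul_apply, Pi.pow_apply, smul_eq_mul,
    ramanujan_E₄ z, ramanujan_E₆ z, Pi.natCast_apply]
  push_cast
  ring




theorem levelOne_smul {k : ℤ} (f : ModularForm 𝒮ℒ k) (γ : SL(2, ℤ)) (z : ℍ) :
    f (γ • z) = denom γ z ^ k * f z := by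
  have hγ : (γ : GL (Fin 2) ℝ) ∈ 𝒮ℒ := ⟨γ, rfl⟩
  exact SlashInvariantForm.slash_action_eqn'' f hγ z

theorem discriminant_smul (γ : SL(2, ℤ)) (z : ℍ) : Δ (γ • z) = denom γ z ^ (12 : ℤ) * Δ z := by
  have hγ : (γ : GL (Fin 2) ℝ) ∈ 𝒮ℒ := ⟨γ, rfl⟩
  exact SlashInvariantForm.slash_action_eqn'' CuspForm.discriminant hγ z

/-- The modular `j`-invariant `E₄³/Δ = 1/q + 744 + ⋯`. -/
noncomputable def jInv (z : ℍ) : ℂ := E₄ z ^ 3 / Δ z

theorem jInv_mul_discriminant (z : ℍ) : jInv z * Δ z = E₄ z ^ 3 := by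
  unfold jInv; field_simp [discriminant_ne_zero z]

theorem jInv_sub_1728 (z : ℍ) : jInv z - 1728 = E₆ z ^ 2 / Δ z := by
  unfold jInv
  have h := discriminant_eq_E₄_cube_sub_E₆_sq z
  have hne := discriminant_ne_zero z
  field_simp
  rw [h]; ring

theorem jInv_smul (γ : SL(2, ℤ)) (z : ℍ) : jInv (γ • z) = jInv z := by
  unfold jInv
  rw [levelOne_smul E₄ γ z, discriminant_smul γ z]
  have hd : denom γ z ≠ 0 := denom_ne_zero γ z
  have hne := discriminant_ne_zero z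
  have : (denom γ z ^ (4 : ℤ)) ^ 3 = denom γ z ^ (12 : ℤ) := by
    rw [← zpow_natCast, ← zpow_mul]; norm_num
  rw [mul_pow, this]
  field_simp

theorem mdiff_jInv : MDiff jInv := by
  have h4 : MDiff (⇑E₄ : ℍ → ℂ) := E₄.holo'
  have h43 : MDiff ((⇑E₄ : ℍ → ℂ) ^ 3) := h4.pow 3
  rw [UpperHalfPlane.mdifferentiable_iff] at h43 ⊢
  have hΔ := mdiff_discriminant
  rw [UpperHalfPlane.mdifferentiable_iff] at hΔ
  refine (h43.div hΔ ?_).congr ?_
  · intro w hw
    exact discriminant_ne_zero _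
  · intro w hw
    simp [jInv]

theorem jInv_fun_mul : (jInv * (Δ : ℍ → ℂ)) = (⇑E₄ : ℍ → ℂ) ^ 3 := by
  funext z
  simpa using jInv_mul_discriminant z

/-- `D j = - E₄² E₆ / Δ`. -/
theorem D_jInv (z : ℍ) : D jInv z = - (E₄ z ^ 2 * E₆ z) / Δ z := by
  have h4 : MDiff (⇑E₄ : ℍ → ℂ) := E₄.holo'
  have h : D (jInv * (Δ : ℍ → ℂ)) z = D ((⇑E₄ : ℍ → ℂ) ^ 3) z := by rw [jInv_fun_mul]
  rw [normalizedDerivOfComplex_mul _ _ mdiff_jInv mdiff_discriminant,
    normalizedDerivOfComplex_pow _ _ h4] at h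
  simp only [Pi.add_apply, Pi.mul_apply, Pi.pow_apply, Pi.natCast_apply, D_discriminant z,
    ramanujan_E₄ z] at h
  have hne := discriminant_ne_zero z
  have hj := jInv_mul_discriminant z
  field_simp
  push_cast at h
  linear_combination h - E2 z * hj




theorem S_smul_I : S • UpperHalfPlane.I = UpperHalfPlane.I := by
  rw [UpperHalfPlane.ext_iff, modular_S_smul]
  simp [UpperHalfPlane.I]

theorem E₆_I : E₆ UpperHalfPlane.I = 0 := by
  have h := levelOne_smul E₆ S UpperHalfPlane.I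
  rw [S_smul_I, denom_S] at h
  have hI : ((UpperHalfPlane.I : ℍ) : ℂ) = Complex.I := rfl
  rw [hI] at h
  have h6 : (Complex.I : ℂ) ^ (6 : ℤ) = -1 := by
    rw [show (6 : ℤ) = ((6 : ℕ) : ℤ) by norm_num, zpow_natCast]
    calc Complex.I ^ 6 = (Complex.I ^ 2) ^ 3 := by ring
      _ = -1 := by rw [Complex.I_sq]; norm_num
  rw [h6] at h
  have : (2 : ℂ) * E₆ UpperHalfPlane.I = 0 := by linear_combination h
  simpa using this

/-- The point `ρ = e^{2πi/3} = -1/2 + (√3/2) i` of the upper half plane. -/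
noncomputable def rho : ℍ :=
  ⟨(-1 / 2 : ℝ) + (Real.sqrt 3 / 2 : ℝ) * Complex.I, by simp⟩

theorem coe_rho : ((rho : ℍ) : ℂ) = (-1 / 2 : ℝ) + (Real.sqrt 3 / 2 : ℝ) * Complex.I := rfl

theorem rho_sq_add : ((rho : ℍ) : ℂ) ^ 2 + (rho : ℂ) + 1 = 0 := by
  rw [coe_rho]
  have h3 : ((Real.sqrt 3 : ℝ) : ℂ) ^ 2 = 3 := by
    rw [← Complex.ofReal_pow, Real.sq_sqrt (by norm_num : (0:ℝ) ≤ 3)]; norm_num
  push_cast
  ring_nf
  rw [Complex.I_sq, h3]
  ring

theorem ST_smul_rho : (S * T) • rho = rho := by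
  rw [mul_smul, modular_T_smul, UpperHalfPlane.ext_iff, modular_S_smul]
  simp only [UpperHalfPlane.coe_vadd]
  have h := rho_sq_add
  have hne : ((1 : ℝ) : ℂ) + (rho : ℂ) ≠ 0 := by
    intro h0
    have : ((rho : ℍ) : ℂ).im = 0 := by
      have : (rho : ℂ) = -1 := by push_cast at h0; linear_combination h0
      rw [this]; simp
    have hpos := rho.im_pos
    rw [UpperHalfPlane.im] at hpos
    linarith
  show (-(((1 : ℝ) : ℂ) + (rho : ℂ)))⁻¹ = (rho : ℂ)
  rw [inv_eq_one_div, div_eq_iff (neg_ne_zero.mpr hne)]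
  push_cast
  linear_combination h

theorem denom_ST (z : ℍ) : denom ((S * T : SL(2, ℤ)) : GL (Fin 2) ℝ) z = (z : ℂ) + 1 := by
  rw [denom_apply]
  simp

theorem rho_sq_ne_one : ((rho : ℍ) : ℂ) ^ 2 ≠ 1 := by
  intro h1
  have h := rho_sq_add
  have h2 : (rho : ℂ) = -2 := by linear_combination h - h1
  have : ((rho : ℍ) : ℂ).im = 0 := by rw [h2]; simp
  have hpos := rho.im_pos
  rw [UpperHalfPlane.im] at hpos
  linarith

theorem E₄_rho : E₄ rho = 0 := by
  have h := levelOne_smul E₄ (S * T) rho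
  rw [ST_smul_rho, denom_ST] at h
  have hr := rho_sq_add
  have h4 : ((rho : ℂ) + 1) ^ (4 : ℤ) = (rho : ℂ) ^ 2 := by
    rw [show (4 : ℤ) = ((4 : ℕ) : ℤ) by norm_num, zpow_natCast]
    have h1 : ((rho : ℂ) + 1) ^ 2 = (rho : ℂ) := by linear_combination hr
    calc ((rho : ℂ) + 1) ^ 4 = (((rho : ℂ) + 1) ^ 2) ^ 2 := by ring
      _ = (rho : ℂ) ^ 2 := by rw [h1]
  rw [h4] at h
  have h5 : (1 - (rho : ℂ) ^ 2) * E₄ rho = 0 := by linear_combination h
  rcases mul_eq_zero.mp h5 with h6 | h6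
  · exact absurd (by linear_combination -h6 : (rho : ℂ) ^ 2 = 1) rho_sq_ne_one
  · exact h6




theorem E₆_ne_zero_of_E₄_eq_zero {z : ℍ} (h : E₄ z = 0) : E₆ z ≠ 0 := by
  intro h6
  have := discriminant_eq_E₄_cube_sub_E₆_sq z
  rw [h, h6] at this
  exact discriminant_ne_zero z (by rw [this]; norm_num)

theorem E₄_ne_zero_of_E₆_eq_zero {z : ℍ} (h : E₆ z = 0) : E₄ z ≠ 0 := fun h4 =>
  E₆_ne_zero_of_E₄_eq_zero h4 h

theorem D_E₄_ne_zero_of_E₄_eq_zero {z : ℍ} (h : E₄ z = 0) : D E₄ z ≠ 0 := by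
  rw [ramanujan_E₄ z, h]
  have := E₆_ne_zero_of_E₄_eq_zero h
  simp [this]

theorem D_E₆_ne_zero_of_E₆_eq_zero {z : ℍ} (h : E₆ z = 0) : D E₆ z ≠ 0 := by
  rw [ramanujan_E₆ z, h]
  have := E₄_ne_zero_of_E₆_eq_zero h
  simp [this]

theorem jInv_eq_zero_iff {z : ℍ} : jInv z = 0 ↔ E₄ z = 0 := by
  unfold jInv
  rw [div_eq_zero_iff]
  simp [discriminant_ne_zero z]

theorem jInv_eq_1728_iff {z : ℍ} : jInv z = 1728 ↔ E₆ z = 0 := by
  rw [← sub_eq_zero, jInv_sub_1728, div_eq_zero_iff]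
  simp [discriminant_ne_zero z]

theorem jInv_rho : jInv rho = 0 := jInv_eq_zero_iff.mpr E₄_rho

theorem jInv_I : jInv UpperHalfPlane.I = 1728 := jInv_eq_1728_iff.mpr E₆_I

theorem D_jInv_ne_zero {z : ℍ} (h0 : jInv z ≠ 0) (h1 : jInv z ≠ 1728) : D jInv z ≠ 0 := by
  rw [D_jInv]
  have h4 : E₄ z ≠ 0 := fun h => h0 (jInv_eq_zero_iff.mpr h)
  have h6 : E₆ z ≠ 0 := fun h => h1 (jInv_eq_1728_iff.mpr h)
  have := discriminant_ne_zero z
  simp [h4, h6, this]

/-! ### Analyticity and orders -/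

theorem mdiff_E₄ : MDiff (⇑E₄ : ℍ → ℂ) := E₄.holo'

theorem mdiff_E₆ : MDiff (⇑E₆ : ℍ → ℂ) := E₆.holo'

theorem analyticAt_comp_ofComplex {F : ℍ → ℂ} (hF : MDiff F) (z : ℍ) :
    AnalyticAt ℂ (F ∘ ofComplex) (z : ℂ) := by
  rw [UpperHalfPlane.mdifferentiable_iff] at hF
  exact hF.analyticAt (isOpen_upperHalfPlaneSet.mem_nhds z.im_pos)

theorem deriv_comp_ofComplex (F : ℍ → ℂ) (z : ℍ) :
    deriv (F ∘ ofComplex) (z : ℂ) = 2 * π * Complex.I * D F z := by
  simp only [normalizedDerivOfComplex]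
  have : (2 * (π : ℂ) * Complex.I) ≠ 0 := by simp [Real.pi_ne_zero]
  field_simp

theorem analyticOrderAt_E₄ {z : ℍ} (h : E₄ z = 0) :
    analyticOrderAt (⇑E₄ ∘ ofComplex) (z : ℂ) = 1 := by
  refine (analyticAt_comp_ofComplex mdiff_E₄ z).analyticOrderAt_eq_one_of_zero_deriv_ne_zero
    (by simpa using h) ?_
  rw [deriv_comp_ofComplex]
  have : (2 * (π : ℂ) * Complex.I) ≠ 0 := by simp [Real.pi_ne_zero]
  exact mul_ne_zero this (D_E₄_ne_zero_of_E₄_eq_zero h)

theorem analyticOrderAt_E₆ {z : ℍ} (h : E₆ z = 0) :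
    analyticOrderAt (⇑E₆ ∘ ofComplex) (z : ℂ) = 1 := by
  refine (analyticAt_comp_ofComplex mdiff_E₆ z).analyticOrderAt_eq_one_of_zero_deriv_ne_zero
    (by simpa using h) ?_
  rw [deriv_comp_ofComplex]
  have : (2 * (π : ℂ) * Complex.I) ≠ 0 := by simp [Real.pi_ne_zero]
  exact mul_ne_zero this (D_E₆_ne_zero_of_E₆_eq_zero h)

theorem analyticAt_inv_discriminant (z : ℍ) :
    AnalyticAt ℂ (fun w : ℂ => (Δ (ofComplex w))⁻¹) (z : ℂ) :=
  (analyticAt_comp_ofComplex mdiff_discriminant z).inv (by simpa using discriminant_ne_zero z)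

theorem analyticOrderAt_inv_discriminant (z : ℍ) :
    analyticOrderAt (fun w : ℂ => (Δ (ofComplex w))⁻¹) (z : ℂ) = 0 := by
  rw [analyticOrderAt_eq_zero]
  right
  simpa using discriminant_ne_zero z

/-- `j` vanishes to order exactly `3` at every zero of `E₄` (in particular at `ρ`). -/
theorem analyticOrderAt_jInv_of_E₄ {z : ℍ} (h : E₄ z = 0) :
    analyticOrderAt (fun w : ℂ => jInv (ofComplex w) - jInv z) (z : ℂ) = 3 := by
  have hj : jInv z = 0 := jInv_eq_zero_iff.mpr h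
  have heq : (fun w : ℂ => jInv (ofComplex w) - jInv z) =
      (⇑E₄ ∘ ofComplex) ^ 3 * (fun w : ℂ => (Δ (ofComplex w))⁻¹) := by
    funext w
    rw [hj, sub_zero]
    simp [jInv, div_eq_mul_inv]
  rw [heq, analyticOrderAt_mul ((analyticAt_comp_ofComplex mdiff_E₄ z).pow 3)
    (analyticAt_inv_discriminant z), analyticOrderAt_pow (analyticAt_comp_ofComplex mdiff_E₄ z),
    analyticOrderAt_E₄ h, analyticOrderAt_inv_discriminant]
  norm_num

/-- `j - 1728` vanishes to order exactly `2` at every zero of `E₆` (in particular at `i`). -/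
theorem analyticOrderAt_jInv_of_E₆ {z : ℍ} (h : E₆ z = 0) :
    analyticOrderAt (fun w : ℂ => jInv (ofComplex w) - jInv z) (z : ℂ) = 2 := by
  have hj : jInv z = 1728 := jInv_eq_1728_iff.mpr h
  have heq : (fun w : ℂ => jInv (ofComplex w) - jInv z) =
      (⇑E₆ ∘ ofComplex) ^ 2 * (fun w : ℂ => (Δ (ofComplex w))⁻¹) := by
    funext w
    rw [hj, jInv_sub_1728]
    simp [div_eq_mul_inv]
  rw [heq, analyticOrderAt_mul ((analyticAt_comp_ofComplex mdiff_E₆ z).pow 2)
    (analyticAt_inv_discriminant z), analyticOrderAt_pow (analyticAt_comp_ofComplex mdiff_E₆ z),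
    analyticOrderAt_E₆ h, analyticOrderAt_inv_discriminant]
  norm_num

theorem deriv_jInv_ne_zero {z : ℍ} (h0 : jInv z ≠ 0) (h1 : jInv z ≠ 1728) :
    deriv (jInv ∘ ofComplex) (z : ℂ) ≠ 0 := by
  rw [deriv_comp_ofComplex]
  have : (2 * (π : ℂ) * Complex.I) ≠ 0 := by simp [Real.pi_ne_zero]
  exact mul_ne_zero this (D_jInv_ne_zero h0 h1)

/-- Away from `j = 0, 1728` the function `j - j(z)` has a simple zero at `z`. -/
theorem analyticOrderAt_jInv_generic {z : ℍ} (h0 : jInv z ≠ 0) (h1 : jInv z ≠ 1728) :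
    analyticOrderAt (fun w : ℂ => jInv (ofComplex w) - jInv z) (z : ℂ) = 1 := by
  have h := (analyticAt_comp_ofComplex mdiff_jInv z).analyticOrderAt_sub_eq_one_of_deriv_ne_zero
    (deriv_jInv_ne_zero h0 h1)
  simpa using h




theorem tendsto_discriminant : Tendsto Δ atImInfty (𝓝 0) := discriminant_isZeroAtImInfty

/-- The weight `12` form `E₄³ - c Δ`. -/
noncomputable def jForm (c : ℂ) : ModularForm 𝒮ℒ 12 :=
  ModularForm.mcast (by decide) (E₄.pow 3) - c • (CuspForm.discriminant : ModularForm 𝒮ℒ 12)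

theorem jForm_apply (c : ℂ) (z : ℍ) : jForm c z = E₄ z ^ 3 - c * Δ z := by
  have h : (E₄.pow 3) z = E₄ z ^ 3 := by
    rw [ModularForm.coe_pow]; simp
  simp [jForm, h]

theorem jForm_eq_zero_iff (c : ℂ) (z : ℍ) : jForm c z = 0 ↔ jInv z = c := by
  rw [jForm_apply, jInv, div_eq_iff (discriminant_ne_zero z), sub_eq_zero]

theorem tendsto_jForm (c : ℂ) : Tendsto (jForm c) atImInfty (𝓝 1) := by
  have h : Tendsto (fun z : ℍ => E₄ z ^ 3 - c * Δ z) atImInfty (𝓝 (1 ^ 3 - c * 0)) :=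
    (tendsto_E₄.pow 3).sub (tendsto_const_nhds.mul tendsto_discriminant)
  simp only [one_pow, mul_zero, sub_zero] at h
  refine h.congr fun z => (jForm_apply c z).symm

/-- The `j`-invariant is surjective. -/
theorem exists_jInv_eq (c : ℂ) : ∃ z : ℍ, jInv z = c := by
  by_contra hne
  simp only [not_exists] at hne
  have hG : ∀ z : ℍ, jForm c z ≠ 0 := fun z h => hne z ((jForm_eq_zero_iff c z).mp h)
  -- the weight-zero form Δ / G
  let h : ModularForm 𝒮ℒ 0 :=
    { toFun := fun z => Δ z / jForm c z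
      slash_action_eq' := by
        intro A hA
        obtain ⟨A, rfl⟩ := hA
        have hγ : (A : GL (Fin 2) ℝ) ∈ 𝒮ℒ := ⟨A, rfl⟩
        change (⇑CuspForm.discriminant / ⇑(jForm c)) ∣[(12 : ℤ) - 12] A =
          ⇑CuspForm.discriminant / ⇑(jForm c)
        simp_rw [div_slash_SL2, SL_slash, SlashInvariantForm.slash_action_eqn _ _ hγ]
      holo' := by
        have h1 := mdiff_discriminant
        have h2 : MDiff (⇑(jForm c) : ℍ → ℂ) := (jForm c).holo'
        rw [UpperHalfPlane.mdifferentiable_iff] at h1 h2 ⊢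
        refine (h1.div h2 ?_).congr ?_
        · intro w hw
          exact hG _
        · intro w hw
          simp
      bdd_at_cusps' := by
        intro c' hc
        rw [Subgroup.IsArithmetic.isCusp_iff_isCusp_SL2Z] at hc
        rw [OnePoint.isBoundedAt_iff_forall_SL2Z hc]
        intro γ _
        have hγ : (γ : GL (Fin 2) ℝ) ∈ 𝒮ℒ := ⟨γ, rfl⟩
        have : ((fun z => Δ z / jForm c z) ∣[(0 : ℤ)] γ) = fun z => Δ z / jForm c z := by
          change (⇑CuspForm.discriminant / ⇑(jForm c)) ∣[(12 : ℤ) - 12] γ =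
            ⇑CuspForm.discriminant / ⇑(jForm c)
          simp_rw [div_slash_SL2, SL_slash, SlashInvariantForm.slash_action_eqn _ _ hγ]
        rw [this]
        have hlim : Tendsto (fun z : ℍ => Δ z / jForm c z) atImInfty (𝓝 (0 / 1)) :=
          tendsto_discriminant.div (tendsto_jForm c) one_ne_zero
        exact hlim.isBigO_one ℝ }
  obtain ⟨c', hc'⟩ := ModularFormClass.levelOne_weight_zero_const h
  have hval : ∀ z : ℍ, Δ z / jForm c z = c' := fun z => congrFun hc' z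
  have hlim : Tendsto (fun z : ℍ => Δ z / jForm c z) atImInfty (𝓝 (0 / 1)) :=
    tendsto_discriminant.div (tendsto_jForm c) one_ne_zero
  simp_rw [hval] at hlim
  have hc0 : c' = 0 / 1 := tendsto_nhds_unique tendsto_const_nhds hlim
  have := hval UpperHalfPlane.I
  rw [hc0, zero_div, div_eq_zero_iff] at this
  rcases this with h1 | h1
  · exact discriminant_ne_zero _ h1
  · exact hG _ h1

end Fermat.Agent.S24.LevelOne
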